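/-
GATE-N / S48 J1-PORT, node P1-DEGREE-GEN (helper96): the GENERIC twin of `GJ/J2/Dict/DegreeC`.

`FC` ANY field over `ℂ` with a `ℂ`-algebra map `real : FC →ₐ[ℂ] Mer` (realisation by meromorphic
functions on `ℍ`), `Γ ≤ SL₂(ℤ)` with finitely many cosets, `real` is `Γ`-invariant, `real jC = j`.
If `FC` is generated (as a field) by a subalgebra `S` whose elements are realised by HOLOMORPHIC
functions of moderate growth at all cusps, and the translates
`sigQ q = (· ∘ g_q⁻¹) ∘ real`, `q ∈ SL₂(ℤ)/Γ`, are pairwise distinct, then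

  `[FC : ℂ(jC)] = #(SL₂(ℤ)/Γ)`    (`finrank_eq_card`),

with the norm / trace formulas and "every embedding over `ℂ(j)` is a translate".
`sigQ_injective_of_separating` : distinctness from ONE element `θ` realised by a holomorphic `Θ`
whose stabiliser in `SL₂(ℤ)` is contained in `Γ`.

For the `X₁(M)` port: `FC := F1C ℂ M`, `Γ := ±Γ₁`-type group, `θ :=` Weber function.  The degree
over `ℚ̄` follows by `GJ/AuxLevel/DegBaseField.finrank_baseChange_eq`.
-/
import Fermat.Agent.GJ.J2.Dict.FieldGen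
import Fermat.Agent.S24_helper66.NormEmb

set_option autoImplicit false
set_option linter.unusedSectionVars false

noncomputable section

namespace Fermat.Agent.DS.P1.DegreeGen

open UpperHalfPlane IntermediateField Polynomial
open Fermat.Agent.S24_helper82 Fermat.Agent.S24_helper66 Fermat.Agent.GJ.Dict
open Fermat.Agent.GJ.Dict.FieldGen
open Fermat.Agent.S28 Fermat.Agent.S28.CuspExp
open scoped MatrixGroups Manifold

variable {FC : Type*} [Field FC] [Algebra ℂ FC] (real : FC →ₐ[ℂ] Mer)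
  (Γ : Subgroup SL(2, ℤ))

/-- the translate of the realisation attached to the coset `q = g Γ`: `f ↦ (real f) ∘ g⁻¹` -/
def sigQ (q : SL(2, ℤ) ⧸ Γ) : FC →ₐ[ℂ] Mer := (compMC (Quotient.out q)⁻¹).comp real

theorem sigQ_apply (q : SL(2, ℤ) ⧸ Γ) (f : FC) :
    sigQ real Γ q f = compM (Quotient.out q)⁻¹ (real f) := rfl

variable {real Γ}

/-- a holomorphic function realising an element of `FC` is `Γ`-invariant -/
theorem compSL_eq_of_real (hinvR : ∀ γ ∈ Γ, ∀ f : FC, compM γ (real f) = real f)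
    {a : FC} {H : Hol} (ha : real a = algebraMap Hol Mer H) {γ : SL(2, ℤ)} (hγ : γ ∈ Γ) :
    compSL γ H = H := by
  have h1 := hinvR γ hγ a
  rw [ha, compM_algebraMap] at h1
  exact IsFractionRing.injective Hol Mer h1

theorem sigQ_of_hol (q : SL(2, ℤ) ⧸ Γ) {a : FC} {H : Hol} (ha : real a = algebraMap Hol Mer H) :
    sigQ real Γ q a = algebraMap Hol Mer (compSL (Quotient.out q)⁻¹ H) := by
  rw [sigQ_apply, ha, compM_algebraMap]

/-- all translates agree at `j` -/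
theorem sigQ_jC {jC : FC} (hj : real jC = algebraMap Hol Mer jH) (q : SL(2, ℤ) ⧸ Γ) :
    sigQ real Γ q jC = algebraMap Hol Mer jH := by
  rw [sigQ_of_hol q hj, compSL_jH]

/-- a separating element distinguishes the cosets (elementwise form). -/
theorem coset_eq_of_sigQ_eq {θ : FC} {Θ : Hol} (hθ : real θ = algebraMap Hol Mer Θ)
    (hsep : ∀ g : SL(2, ℤ), compSL g Θ = Θ → g ∈ Γ) {q q' : SL(2, ℤ) ⧸ Γ}
    (h1 : sigQ real Γ q θ = sigQ real Γ q' θ) : q = q' := by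
  rw [sigQ_of_hol q hθ, sigQ_of_hol q' hθ] at h1
  have h2 : compSL (Quotient.out q)⁻¹ Θ = compSL (Quotient.out q')⁻¹ Θ :=
    IsFractionRing.injective Hol Mer h1
  have h3 : compSL ((Quotient.out q)⁻¹ * Quotient.out q') Θ = Θ := by
    rw [compSL_mul, h2, ← compSL_mul, inv_mul_cancel, compSL_one]
  have h4 := hsep _ h3
  rw [← QuotientGroup.out_eq' q, ← QuotientGroup.out_eq' q']
  exact QuotientGroup.eq.mpr h4

/-- **distinctness of the translates** from one separating element. -/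
theorem sigQ_injective_of_separating {θ : FC} {Θ : Hol} (hθ : real θ = algebraMap Hol Mer Θ)
    (hsep : ∀ g : SL(2, ℤ), compSL g Θ = Θ → g ∈ Γ) : Function.Injective (sigQ real Γ) := by
  intro q q' h
  exact coset_eq_of_sigQ_eq hθ hsep (by rw [h])

variable [Fintype (SL(2, ℤ) ⧸ Γ)]

/-- **the trace hypothesis**: the sum of the translates of an element realised by a holomorphic
function of moderate growth is a polynomial in `j`. -/
theorem exists_poly_sum_sigQ {N : ℕ} [NeZero N]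
    (hinvR : ∀ γ ∈ Γ, ∀ f : FC, compM γ (real f) = real f)
    {a : FC} {H : Hol} (ha : real a = algebraMap Hol Mer H) (hH : H ∈ MG N) :
    ∃ Q : ℂ[X], aeval (algebraMap Hol Mer jH) Q = ∑ q, sigQ real Γ q a := by
  have hinvH : ∀ γ ∈ Γ, ∀ z : ℍ, (H : ℍ → ℂ) (γ • z) = (H : ℍ → ℂ) z := by
    intro γ hγ z
    have := compSL_eq_of_real hinvR ha hγ
    have h2 := congrArg (fun f : Hol => (f : ℍ → ℂ) z) this
    simpa using h2
  have hN : (0 : ℝ) < (N : ℝ) := Nat.cast_pos.mpr (NeZero.pos N)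
  obtain ⟨Q, hQ⟩ := CosetSym.exists_poly_esymmFun_cosetFun (Γ := Γ) (J := jFun)
    hauptmodul_jFun.levelOnePoly (f := (H : ℍ → ℂ)) H.2 hinvH hN hH 1
  refine ⟨Q, ?_⟩
  have h3 : aeval (algebraMap Hol Mer jH) Q = algebraMap Hol Mer (aeval jH Q) :=
    Polynomial.aeval_algHom_apply (IsScalarTower.toAlgHom ℂ Hol Mer) jH Q
  rw [Finset.sum_congr rfl fun q _ => sigQ_of_hol q ha, ← map_sum, h3]
  congr 1
  apply Subtype.ext
  funext z
  rw [aeval_apply, jH_apply, ← hQ z]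
  have h2 : ((∑ q : SL(2, ℤ) ⧸ Γ, compSL (Quotient.out q : SL(2, ℤ))⁻¹ H : Hol) : ℍ → ℂ) z =
      ∑ q : SL(2, ℤ) ⧸ Γ, ((compSL (Quotient.out q : SL(2, ℤ))⁻¹ H : Hol) : ℍ → ℂ) z := by
    rw [← evalAt_apply, map_sum]
    rfl
  rw [h2, CosetSym.esymmFun, Finset.powersetCard_one, Finset.sum_map]
  refine Finset.sum_congr rfl fun q _ => ?_
  simp [CosetSym.cosetFun]

/-! ### the degree, the norm, and "all embeddings" -/

section Main

variable {N : ℕ} [NeZero N] {jC : FC} (hj : real jC = algebraMap Hol Mer jH)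
  (hinvR : ∀ γ ∈ Γ, ∀ f : FC, compM γ (real f) = real f)
  (hinj : Function.Injective (sigQ real Γ))
  (S : Subalgebra ℂ FC) (hS : IntermediateField.adjoin ℂ (S : Set FC) = ⊤)
  (hhol : ∀ a ∈ S, ∃ H : Hol, real a = algebraMap Hol Mer H ∧ H ∈ MG N)

/-- the base coset -/
abbrev q0 : SL(2, ℤ) ⧸ Γ := ((1 : SL(2, ℤ)) : SL(2, ℤ) ⧸ Γ)

instance : Nonempty (SL(2, ℤ) ⧸ Γ) := ⟨q0⟩

/-- a polynomial in `j` as an element of `ℂ(j)` -/
def polyJ (jC : FC) (P : ℂ[X]) : ℂ⟮jC⟯ := aeval (AdjoinSimple.gen ℂ jC) P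

theorem coe_polyJ (P : ℂ[X]) : ((polyJ jC P : ℂ⟮jC⟯) : FC) = aeval jC P := by
  have h := Polynomial.aeval_algHom_apply (ℂ⟮jC⟯).val (AdjoinSimple.gen ℂ jC) P
  rw [polyJ]
  exact h.symm

theorem map_polyJ {L : Type*} [Field L] [Algebra ℂ L] (φ : FC →ₐ[ℂ] L) (P : ℂ[X]) :
    φ ((polyJ jC P : ℂ⟮jC⟯) : FC) = aeval (φ jC) P := by
  rw [coe_polyJ, Polynomial.aeval_algHom_apply]

include hj in
theorem hjQ (q : SL(2, ℤ) ⧸ Γ) : sigQ real Γ q jC = sigQ real Γ q0 jC := by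
  rw [sigQ_jC hj, sigQ_jC hj]

include hj hinvR hhol in
theorem htr' : ∀ a ∈ S.toSubring, ∃ c : ℂ⟮jC⟯, ∑ q, sigQ real Γ q a = sigQ real Γ q0 c := by
  intro a ha
  obtain ⟨H, haH, hH⟩ := hhol a ha
  obtain ⟨Q, hQ⟩ := exists_poly_sum_sigQ hinvR haH hH
  exact ⟨polyJ jC Q, by rw [map_polyJ, sigQ_jC hj, hQ]⟩

include hS in
theorem hgen' : IntermediateField.adjoin ℂ ((S.toSubring : Subring FC) : Set FC) = ⊤ := hS

include hj hinvR hinj hS hhol

/-- `FC / ℂ(j)` is finite. -/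
theorem finiteDimensional : FiniteDimensional ℂ⟮jC⟯ FC :=
  finiteDimensional_adjoin_simple (i₀ := q0) (hjQ hj) hinj S.toSubring (hgen' S hS)
    (htr' hj hinvR S hhol)

/-- **`[FC : ℂ(j)] = [SL₂(ℤ) : Γ]`** (`Γ ∋ -1` in the applications). -/
theorem finrank_eq_card : Module.finrank ℂ⟮jC⟯ FC = Fintype.card (SL(2, ℤ) ⧸ Γ) :=
  finrank_adjoin_simple_eq_card (i₀ := q0) (hjQ hj) hinj S.toSubring (hgen' S hS)
    (htr' hj hinvR S hhol)

/-- **norm formula**: the realisation of the norm is the product of all translates -/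
theorem sigQ_norm (f : FC) (q₀ : SL(2, ℤ) ⧸ Γ) :
    sigQ real Γ q₀ ((Algebra.norm ℂ⟮jC⟯ f : ℂ⟮jC⟯) : FC) = ∏ q, sigQ real Γ q f := by
  rw [← emb_norm_eq_prod (i₀ := q0) (hjQ hj) hinj S.toSubring (hgen' S hS)
    (htr' hj hinvR S hhol) f]
  exact algHom_eq_on_adjoin_simple (sigQ real Γ q₀) (sigQ real Γ q0) jC (hjQ hj q₀) _

/-- **trace formula** -/
theorem sigQ_trace (f : FC) (q₀ : SL(2, ℤ) ⧸ Γ) :
    sigQ real Γ q₀ ((Algebra.trace ℂ⟮jC⟯ FC f : ℂ⟮jC⟯) : FC) = ∑ q, sigQ real Γ q f := by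
  rw [← emb_trace_eq_sum (i₀ := q0) (hjQ hj) hinj S.toSubring (hgen' S hS)
    (htr' hj hinvR S hhol) f]
  exact algHom_eq_on_adjoin_simple (sigQ real Γ q₀) (sigQ real Γ q0) jC (hjQ hj q₀) _

/-- every `ℂ`-embedding of `FC` into `Mer` which sends `j` to `j` is one of the translates -/
theorem exists_eq_sigQ (τ : FC →ₐ[ℂ] Mer) (hτ : τ jC = algebraMap Hol Mer jH) :
    ∃ q, τ = sigQ real Γ q :=
  algHom_mem_range_of_fixes (i₀ := q0) (hjQ hj) hinj S.toSubring (hgen' S hS)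
    (htr' hj hinvR S hhol) τ (by rw [hτ, sigQ_jC hj])

end Main

end Fermat.Agent.DS.P1.DegreeGen
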