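/-
GATE-N / S48 J1-PORT, node P1-BRANCH-ASM (helper96): from a COMPLEX realisation of the base change
of a field `F₀ ⊂ ℚ̄((q))` to the branch data of `F₀ / ℚ̄(j)`.

Glue of `DS/P1/DegreeGen` (degree = index over `ℂ`), `GJ/AuxLevel/DegBaseField`
(invariance of the degree under base change of the constants) and `DS/P1/OrbitGen` (orbit lemma).

INPUT (what the analytic part of P1 has to deliver for `F₀ := FK1 M`):
* `FC ⊂ ℂ((q))` with `FC = ℂ · coeffMap ι (F₀)`, `realC : FC →ₐ[ℂ] Mer`, `realC jC = j`,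
  `Γ`-invariant, `Γ ∋ -1` of finite index;
* a generating subalgebra `S` of `FC` realised by holomorphic functions of moderate growth;
* a separating element `θ₀ ∈ F₀` (realised by a holomorphic `Θ` with stabiliser `⊆ Γ`).
OUTPUT: `IsGen ℚ̄ jF₀`, `[F₀ : ℚ̄(j)] = #(SL₂(ℤ)/Γ)`, `JRam v jF₀` for all places `v`,
`PlaceBranch ℚ̄ jF₀ (X (X - 1728))` and the `t₂`, `t₃` versions
= the inputs `x₀`, `hbr` of `DS/P2/K18sF.k18sF_of_chart`.
-/
import Fermat.Agent.DS.P1.OrbitGen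
import Fermat.Agent.DS.P1.DegreeGen
import Fermat.Agent.GJ.AuxLevel.DegBaseField
import Fermat.Agent.S24.InteriorCounts

set_option autoImplicit false
set_option linter.unusedSectionVars false
set_option linter.style.haveILetI false

noncomputable section

namespace Fermat.Agent.DS.P1.BranchAsm

open UpperHalfPlane IntermediateField Polynomial ModularCurve AlgebraicCurve
open Fermat.Agent.S24 Fermat.Agent.S24_helper82 Fermat.Agent.S24_helper62
open Fermat.Agent.GJ.Dict.FieldGen Fermat.Agent.DS.P1.OrbitGen Fermat.Agent.DS.P1.DegreeGen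
open scoped MatrixGroups

/-- the `ℚ̄`-algebra structure on `ℂ` given by `iotaC` (local) -/
@[reducible] def algKbarC : Algebra Kbar ℂ := iotaC.toAlgebra

attribute [local instance] algKbarC

variable (F₀ : IntermediateField Kbar (LaurentSeries Kbar))
  (FC : IntermediateField ℂ (LaurentSeries ℂ))
  (hFC : FC = IntermediateField.adjoin ℂ
    (⇑(coeffMap (algebraMap Kbar ℂ)) '' (F₀ : Set (LaurentSeries Kbar))))

include hFC in
theorem coeffMap_mem (x : F₀) : coeffMap (algebraMap Kbar ℂ) (x : LaurentSeries Kbar) ∈ FC := by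
  rw [hFC]
  exact IntermediateField.subset_adjoin ℂ _ ⟨x, x.2, rfl⟩

/-- the base change embedding `F₀ → FC` -/
def emb : F₀ →+* FC :=
  ((coeffMap (algebraMap Kbar ℂ)).comp F₀.val.toRingHom).codRestrict FC.toSubfield.toSubring
    (fun x => coeffMap_mem F₀ FC hFC x)

theorem coe_emb (x : F₀) :
    ((emb F₀ FC hFC x : FC) : LaurentSeries ℂ) =
      coeffMap (algebraMap Kbar ℂ) (x : LaurentSeries Kbar) := rfl

theorem emb_algebraMap (a : Kbar) :
    emb F₀ FC hFC (algebraMap Kbar F₀ a) = algebraMap ℂ FC (iotaC a) := by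
  apply Subtype.ext
  rw [coe_emb]
  exact Fermat.Agent.GJ.AuxLevel.Deg.coeffMap_algebraMap_const (K₀ := Kbar) (K := ℂ) a

variable (realC : FC →ₐ[ℂ] Mer) (Γ : Subgroup SL(2, ℤ))
  (hinvR : ∀ γ ∈ Γ, ∀ f : FC, compM γ (realC f) = realC f)
  (jF₀ : F₀) (jC : FC)
  (hjj : (jC : LaurentSeries ℂ) = coeffMap (algebraMap Kbar ℂ) (jF₀ : LaurentSeries Kbar))
  (hj : realC jC = algebraMap Hol Mer jH)

include hjj in
theorem emb_j : emb F₀ FC hFC jF₀ = jC := Subtype.ext (by rw [coe_emb, hjj])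

/-- **the realisation of `F₀ / ℚ̄`** induced by the complex one. -/
def realization : Realization1 jF₀ Γ where
  ι := iotaC
  R := realC.toRingHom.comp (emb F₀ FC hFC)
  R_const a := by
    show realC (emb F₀ FC hFC (algebraMap Kbar F₀ a)) = _
    rw [emb_algebraMap, AlgHom.commutes]
  jH := jH
  jH_apply τ := Fermat.Agent.S24.InteriorCounts.jDil_one_eq_jInv τ
  R_j := by
    show realC (emb F₀ FC hFC jF₀) = _
    rw [emb_j F₀ FC hFC jF₀ jC hjj, hj]
  R_inv γ hγ f := hinvR γ hγ _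

theorem realization_conj (q : SL(2, ℤ) ⧸ Γ) (f : F₀) :
    (realization F₀ FC hFC realC Γ hinvR jF₀ jC hjj hj).conj q f =
      sigQ realC Γ q (emb F₀ FC hFC f) := rfl

variable [Fintype (SL(2, ℤ) ⧸ Γ)] {N : ℕ} [NeZero N]
  (S : Subalgebra ℂ FC) (hS : IntermediateField.adjoin ℂ (S : Set FC) = ⊤)
  (hhol : ∀ a ∈ S, ∃ H : Hol, realC a = algebraMap Hol Mer H ∧ H ∈ MG N)
  (θ₀ : F₀) (Θ : Hol) (hθ : realC (emb F₀ FC hFC θ₀) = algebraMap Hol Mer Θ)
  (hsep : ∀ g : SL(2, ℤ), compSL g Θ = Θ → g ∈ Γ)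

include hθ hsep in
theorem conj_injective :
    Function.Injective (realization F₀ FC hFC realC Γ hinvR jF₀ jC hjj hj).conj := by
  intro q q' h
  have h1 := DFunLike.congr_fun h θ₀
  rw [realization_conj, realization_conj] at h1
  exact coset_eq_of_sigQ_eq hθ hsep h1

include hinvR hjj hj hS hhol hθ hsep

/-- **finiteness and degree of `F₀ / ℚ̄(j)`**. -/
theorem finrank_eq_card :
    FiniteDimensional Kbar⟮jF₀⟯ F₀ ∧
      Module.finrank Kbar⟮jF₀⟯ F₀ = Fintype.card (SL(2, ℤ) ⧸ Γ) := by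
  have hinj := sigQ_injective_of_separating (real := realC) (Γ := Γ) hθ hsep
  haveI : FiniteDimensional ℂ⟮jC⟯ FC :=
    DegreeGen.finiteDimensional hj hinvR hinj S hS hhol
  have hdeg := DegreeGen.finrank_eq_card hj hinvR hinj S hS hhol
  obtain ⟨hfd, heq⟩ := Fermat.Agent.GJ.AuxLevel.Deg.finrank_baseChange_eq F₀ jF₀ FC hFC jC hjj
  exact ⟨hfd, heq.trans hdeg⟩

/-- `jF₀` is a generator of the function field `F₀ / ℚ̄`. -/
theorem isGen : IsGen Kbar jF₀ :=
  ⟨(realization F₀ FC hFC realC Γ hinvR jF₀ jC hjj hj).transcendental_jF,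
    (finrank_eq_card F₀ FC hFC realC Γ hinvR jF₀ jC hjj hj S hS hhol θ₀ Θ hθ hsep).1⟩

variable (hneg : (-1 : SL(2, ℤ)) ∈ Γ)
include hneg

/-- **the branch datum of `F₀ / ℚ̄(j)` away from the cusps.** -/
theorem jRam (v : Place Kbar F₀) : Fermat.Agent.GJ.Aux.Branch.JRam v jF₀ := by
  obtain ⟨hfd, hcard⟩ :=
    finrank_eq_card F₀ FC hFC realC Γ hinvR jF₀ jC hjj hj S hS hhol θ₀ Θ hθ hsep
  haveI := hfd
  exact (realization F₀ FC hFC realC Γ hinvR jF₀ jC hjj hj).jRam hneg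
    (conj_injective F₀ FC hFC realC Γ hinvR jF₀ jC hjj hj θ₀ Θ hθ hsep) hcard.symm v

/-- **`hbr` of `k18sF_of_chart` at `t = j`.** -/
theorem placeBranch_j :
    Fermat.Agent.GJ.J1.DiffAdapter.PlaceBranch Kbar jF₀ (X * (X - C (1728 : Kbar))) := by
  obtain ⟨hfd, hcard⟩ :=
    finrank_eq_card F₀ FC hFC realC Γ hinvR jF₀ jC hjj hj S hS hhol θ₀ Θ hθ hsep
  haveI := hfd
  exact (realization F₀ FC hFC realC Γ hinvR jF₀ jC hjj hj).placeBranch_j hneg
    (conj_injective F₀ FC hFC realC Γ hinvR jF₀ jC hjj hj θ₀ Θ hθ hsep) hcard.symm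

/-- **`hbr` at the Hauptmodul chart `t₂`** (`ℓ = 3`). -/
theorem placeBranch_t2 {t : F₀} (hrel : jF₀ * t ^ 2 = (t + 256) ^ 3) :
    Fermat.Agent.GJ.J1.DiffAdapter.PlaceBranch Kbar t (X * (X - C (-64 : Kbar))) := by
  obtain ⟨hfd, hcard⟩ :=
    finrank_eq_card F₀ FC hFC realC Γ hinvR jF₀ jC hjj hj S hS hhol θ₀ Θ hθ hsep
  haveI := hfd
  exact (realization F₀ FC hFC realC Γ hinvR jF₀ jC hjj hj).placeBranch_t2 hneg
    (conj_injective F₀ FC hFC realC Γ hinvR jF₀ jC hjj hj θ₀ Θ hθ hsep) hcard.symm hrel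

/-- **`hbr` at the Hauptmodul chart `t₃`** (`ℓ = 2`). -/
theorem placeBranch_t3 {t : F₀} (hrel : jF₀ * t ^ 3 = (t + 27) * (t + 243) ^ 3) :
    Fermat.Agent.GJ.J1.DiffAdapter.PlaceBranch Kbar t (X * (X - C (-27 : Kbar))) := by
  obtain ⟨hfd, hcard⟩ :=
    finrank_eq_card F₀ FC hFC realC Γ hinvR jF₀ jC hjj hj S hS hhol θ₀ Θ hθ hsep
  haveI := hfd
  exact (realization F₀ FC hFC realC Γ hinvR jF₀ jC hjj hj).placeBranch_t3 hneg
    (conj_injective F₀ FC hFC realC Γ hinvR jF₀ jC hjj hj θ₀ Θ hθ hsep) hcard.symm hrel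

end Fermat.Agent.DS.P1.BranchAsm
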