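import Fermat.Agent.GJ.J2.Dict.RealizeC

/-!
# GATE-N / S48 J1-PORT, node P1: GENERIC realisation of a field of `q`-expansions (helper30)

Twin of `S24_helper82/Realize.lean` (over `ℚ̄`) and `GJ/J2/Dict/RealizeC.lean` (over `ℂ`) with the
generators `j(d z)`, `d ∣ N`, of the function field of `X₀(N)` replaced by an ARBITRARY family
`G : σ → Hol` of holomorphic functions on the upper half plane having a cusp expansion at `i∞`
(`IsCE 1 (G i)`).

* `genSer G i = cuspExp 1 (G i)` : the `q`-expansions; `FG G = ℂ(genSer G i : i)` inside `ℂ((q))`;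
* `aeval_genSer_eq_zero_iff` : the `q`-expansions and the functions satisfy the same polynomial
  relations over `ℂ` (kernel comparison = injectivity of the `q`-expansion);
* `realG G hCE : FG G →ₐ[ℂ] Mer` with `realG (gen G i) = G i`; injective; `algHom_ext_FG`;
* `realOf` : the same on any `F` with `F = FG G` (to plug a field defined by its own `adjoin`);
* `compM_realG_of_inv` : invariance under every `γ` fixing all the generators;
* `SigG g = (f ↦ f ∘ g⁻¹) ∘ realG` with the coset lemmas for ANY subgroup `Γ` fixing the generators,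
  and `coset_eq_of_SigG_eq` (distinctness of the translates) when the generators separate `Γ`;
* the `ℚ̄`-form `FK M`, `realK`, `SigK`, … for a family of series `M i ∈ ℚ̄((q))` with
  `coeffMap iotaC (M i) = cuspExp 1 (G i)`.

For the `Γ₁(M)` port: `σ`, `G` = (`j`, `j(M z)`, Weber function(s)), `Γ = ±Γ₁(M)`.
-/

set_option autoImplicit false
set_option linter.unusedSectionVars false

noncomputable section

namespace Fermat.Agent.DS.P1.RealizeGen

open UpperHalfPlane ModularCurve Fermat.Agent.S24 Fermat.Agent.S28 Fermat.Agent.S28.CuspExp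
open Fermat.Agent.S24_helper62 Fermat.Agent.S24_helper82 Fermat.Agent.GJ.Dict
open scoped MatrixGroups Manifold

/-! ### Over `ℂ` -/

section OverC

variable {σ : Type*} (G : σ → Hol)

/-- the `q`-expansions of the generators -/
def genSer (i : σ) : LaurentSeries ℂ := cuspExp 1 ((G i : Hol) : ℍ → ℂ)

/-- the generators as meromorphic functions -/
def genMer (i : σ) : Mer := algebraMap Hol Mer (G i)

/-- the function `τ ↦ P(G i τ : i)` -/
def polyFnG (P : MvPolynomial σ ℂ) : ℍ → ℂ :=
  fun τ => MvPolynomial.eval (fun i => ((G i : Hol) : ℍ → ℂ) τ) P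

theorem coe_aeval_G (P : MvPolynomial σ ℂ) :
    ((MvPolynomial.aeval G P : Hol) : ℍ → ℂ) = polyFnG G P := by
  have h1 := MvPolynomial.comp_aeval_apply (f := G) Hol.val P
  have h2 : (Hol.val (MvPolynomial.aeval G P) : ℍ → ℂ) =
      MvPolynomial.aeval (fun i => ((G i : Hol) : ℍ → ℂ)) P := by
    rw [h1]
    rfl
  funext τ
  have h3 := congrFun h2 τ
  rw [EvalBridge.MeroExp.aeval_pi_apply] at h3
  exact h3

theorem aeval_genMer (P : MvPolynomial σ ℂ) :
    MvPolynomial.aeval (genMer G) P = algebraMap Hol Mer (MvPolynomial.aeval G P) := by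
  have h2 := MvPolynomial.comp_aeval_apply (f := G) (IsScalarTower.toAlgHom ℂ Hol Mer) P
  exact h2.symm

theorem aeval_genMer_eq_zero_iff_polyFnG (P : MvPolynomial σ ℂ) :
    MvPolynomial.aeval (genMer G) P = 0 ↔ polyFnG G P = 0 := by
  rw [aeval_genMer, ← coe_aeval_G, coe_eq_zero_iff]
  exact (map_eq_zero_iff _ (IsFractionRing.injective Hol Mer))

variable (hCE : ∀ i, IsCE 1 ((G i : Hol) : ℍ → ℂ))
include hCE

theorem isCE_polyFnG (P : MvPolynomial σ ℂ) : IsCE 1 (polyFnG G P) :=
  (meroExp_isCE one_pos).isMC_eval (fun i => ((G i : Hol) : ℍ → ℂ)) hCE P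

theorem cuspExp_polyFnG (P : MvPolynomial σ ℂ) :
    cuspExp 1 (polyFnG G P) = MvPolynomial.aeval (genSer G) P :=
  (meroExp_isCE one_pos).exp_eval (fun i => ((G i : Hol) : ℍ → ℂ)) hCE P

theorem aeval_genSer_eq_zero_iff_polyFnG (P : MvPolynomial σ ℂ) :
    MvPolynomial.aeval (genSer G) P = 0 ↔ polyFnG G P = 0 := by
  rw [← cuspExp_polyFnG G hCE]
  constructor
  · intro h
    exact (isCE_polyFnG G hCE P).eq_zero_of_cuspExp_eq_zero h
  · intro h
    rw [h]
    have : cuspExp 1 (0 : ℍ → ℂ) = HahnSeries.C (0 : ℂ) := cuspExp_const one_pos 0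
    rw [this, map_zero]

/-- **Kernel comparison**: the `q`-expansions and the functions satisfy the same polynomial
relations over `ℂ`. -/
theorem aeval_genSer_eq_zero_iff (P : MvPolynomial σ ℂ) :
    MvPolynomial.aeval (genSer G) P = 0 ↔ MvPolynomial.aeval (genMer G) P = 0 := by
  rw [aeval_genSer_eq_zero_iff_polyFnG G hCE, aeval_genMer_eq_zero_iff_polyFnG]

omit hCE in
/-- the field `ℂ(genSer G i : i)` of `q`-expansions -/
def FG : IntermediateField ℂ (LaurentSeries ℂ) :=
  IntermediateField.adjoin ℂ (Set.range (genSer G))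

omit hCE in
/-- the generators as elements of `FG G` -/
def gen (i : σ) : FG G := ⟨genSer G i, IntermediateField.subset_adjoin ℂ _ ⟨i, rfl⟩⟩

omit hCE in
@[simp] theorem coe_gen (i : σ) : ((gen G i : FG G) : LaurentSeries ℂ) = genSer G i := rfl

/-- **The realisation** `FG G → Mer`, `cuspExp 1 (G i) ↦ G i`. -/
def realG : FG G →ₐ[ℂ] Mer :=
  (exists_algHom_adjoin_field_two (genSer G) (genMer G) (aeval_genSer_eq_zero_iff G hCE)).choose

theorem realG_gen (i : σ) : realG G hCE (gen G i) = algebraMap Hol Mer (G i) :=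
  (exists_algHom_adjoin_field_two (genSer G) (genMer G)
    (aeval_genSer_eq_zero_iff G hCE)).choose_spec i

theorem realG_injective : Function.Injective (realG G hCE) := (realG G hCE).toRingHom.injective

omit hCE in
theorem algHom_ext_FG {L : Type*} [Field L] [Algebra ℂ L] ⦃φ ψ : FG G →ₐ[ℂ] L⦄
    (h : ∀ i, φ (gen G i) = ψ (gen G i)) : φ = ψ := by
  apply IntermediateField.algHom_ext_of_eq_adjoin ℂ (rfl : FG G = _)
  rintro x ⟨i, rfl⟩
  exact h i

/-- the realisation of a polynomial expression in the generators -/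
theorem realG_aeval (P : MvPolynomial σ ℂ) :
    realG G hCE (MvPolynomial.aeval (gen G) P) = algebraMap Hol Mer (MvPolynomial.aeval G P) := by
  rw [← aeval_genMer, MvPolynomial.comp_aeval_apply]
  have h : (fun i => realG G hCE (gen G i)) = genMer G := funext fun i => realG_gen G hCE i
  rw [h]

/-- **Invariance**: an element of `SL(2,ℤ)` fixing all the generators fixes the realisation. -/
theorem compM_realG_of_inv {γ : SL(2, ℤ)} (hγ : ∀ i, compSL γ (G i) = G i) (f : FG G) :
    compM γ (realG G hCE f) = realG G hCE f := by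
  have h : (compMC γ).comp (realG G hCE) = realG G hCE := by
    apply algHom_ext_FG
    intro i
    show compM γ (realG G hCE (gen G i)) = realG G hCE (gen G i)
    rw [realG_gen, compM_algebraMap, hγ i]
  exact DFunLike.congr_fun h f

/-- the translate of the realisation by `g ∈ SL(2, ℤ)`: `f ↦ (realG f) ∘ g⁻¹` -/
def SigG (g : SL(2, ℤ)) : FG G →ₐ[ℂ] Mer := (compMC g⁻¹).comp (realG G hCE)

theorem SigG_apply (g : SL(2, ℤ)) (f : FG G) : SigG G hCE g f = compM g⁻¹ (realG G hCE f) := rfl

theorem SigG_one (f : FG G) : SigG G hCE 1 f = realG G hCE f := by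
  rw [SigG_apply, inv_one, compM_one]

theorem SigG_gen (g : SL(2, ℤ)) (i : σ) :
    SigG G hCE g (gen G i) = algebraMap Hol Mer (compSL g⁻¹ (G i)) := by
  rw [SigG_apply, realG_gen, compM_algebraMap]

/-- the translates only depend on the coset modulo elements fixing the generators -/
theorem SigG_mul_of_inv (g : SL(2, ℤ)) {γ : SL(2, ℤ)} (hγ : ∀ i, compSL γ⁻¹ (G i) = G i)
    (f : FG G) : SigG G hCE (g * γ) f = SigG G hCE g f := by
  rw [SigG_apply, SigG_apply, mul_inv_rev, compM_mul, compM_realG_of_inv G hCE hγ]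

/-- left multiplication corresponds to precomposition -/
theorem SigG_mul_left (ε g : SL(2, ℤ)) (f : FG G) :
    SigG G hCE (ε * g) f = compM ε⁻¹ (SigG G hCE g f) := by
  rw [SigG_apply, SigG_apply, mul_inv_rev, compM_mul]

/-- the translates only depend on the coset `g Γ`, for any subgroup `Γ` fixing the generators -/
theorem SigG_eq_of_coset_eq (Γ : Subgroup SL(2, ℤ))
    (hinv : ∀ γ ∈ Γ, ∀ i, compSL γ (G i) = G i) {g g' : SL(2, ℤ)}
    (h : (g : SL(2, ℤ) ⧸ Γ) = (g' : SL(2, ℤ) ⧸ Γ)) (f : FG G) :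
    SigG G hCE g f = SigG G hCE g' f := by
  have h1 : g⁻¹ * g' ∈ Γ := QuotientGroup.eq.mp h
  have h2 : g' = g * (g⁻¹ * g') := by group
  rw [h2, SigG_mul_of_inv G hCE g (hinv _ (inv_mem h1))]

/-- **Distinctness** of the translates when the generators separate `Γ`. -/
theorem coset_eq_of_SigG_eq (Γ : Subgroup SL(2, ℤ))
    (hsep : ∀ δ : SL(2, ℤ), (∀ i, compSL δ (G i) = G i) → δ ∈ Γ) {g g' : SL(2, ℤ)}
    (h : SigG G hCE g = SigG G hCE g') : (g : SL(2, ℤ) ⧸ Γ) = (g' : SL(2, ℤ) ⧸ Γ) := by
  rw [QuotientGroup.eq]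
  apply hsep
  intro i
  have h1 := DFunLike.congr_fun h (gen G i)
  rw [SigG_gen, SigG_gen] at h1
  have h2 : compSL g⁻¹ (G i) = compSL g'⁻¹ (G i) := IsFractionRing.injective Hol Mer h1
  have h3 := congrArg (compSL g') h2
  rw [← compSL_mul, ← compSL_mul, inv_mul_cancel, compSL_one] at h3
  exact h3

/-- the realisation on any field equal to `FG G` -/
def realOf {F : IntermediateField ℂ (LaurentSeries ℂ)} (hF : F = FG G) : F →ₐ[ℂ] Mer :=
  (realG G hCE).comp (IntermediateField.equivOfEq hF).toAlgHom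

theorem realOf_apply {F : IntermediateField ℂ (LaurentSeries ℂ)} (hF : F = FG G) (x : F) :
    realOf G hCE hF x = realG G hCE ⟨(x : LaurentSeries ℂ), hF ▸ x.2⟩ := rfl

theorem realOf_of_coe_eq {F : IntermediateField ℂ (LaurentSeries ℂ)} (hF : F = FG G) (x : F)
    (i : σ) (hx : (x : LaurentSeries ℂ) = genSer G i) :
    realOf G hCE hF x = algebraMap Hol Mer (G i) := by
  rw [realOf_apply, ← realG_gen G hCE i]
  congr 1
  exact Subtype.ext hx

theorem realOf_injective {F : IntermediateField ℂ (LaurentSeries ℂ)} (hF : F = FG G) :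
    Function.Injective (realOf G hCE hF) := (realOf G hCE hF).toRingHom.injective

end OverC

/-! ### Over `ℚ̄` -/

section OverKbar

variable {σ : Type*} (G : σ → Hol) (M : σ → LaurentSeries Kbar)

omit G in
/-- the field `ℚ̄(M i : i)` of `q`-expansions -/
def FK : IntermediateField Kbar (LaurentSeries Kbar) :=
  IntermediateField.adjoin Kbar (Set.range M)

omit G in
/-- the generators as elements of `FK M` -/
def genK (i : σ) : FK M := ⟨M i, IntermediateField.subset_adjoin Kbar _ ⟨i, rfl⟩⟩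

omit G in
@[simp] theorem coe_genK (i : σ) : ((genK M i : FK M) : LaurentSeries Kbar) = M i := rfl

omit M in
theorem aeval_genMer_Kbar (P : MvPolynomial σ Kbar) :
    MvPolynomial.aeval (genMer G) P =
      algebraMap Hol Mer (MvPolynomial.aeval G (MvPolynomial.map iotaC P)) := by
  have h1 : MvPolynomial.aeval (genMer G) P =
      MvPolynomial.aeval (R := ℂ) (genMer G) (MvPolynomial.map iotaC P) := by
    rw [MvPolynomial.aeval_def, MvPolynomial.aeval_def, MvPolynomial.eval₂_map]
    rfl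
  rw [h1]
  exact aeval_genMer G _

variable (hCE : ∀ i, IsCE 1 ((G i : Hol) : ℍ → ℂ))
  (hM : ∀ i, coeffMap iotaC (M i) = cuspExp 1 ((G i : Hol) : ℍ → ℂ))
include hCE hM

theorem coeffMap_aeval_M (P : MvPolynomial σ Kbar) :
    coeffMap iotaC (MvPolynomial.aeval M P) =
      MvPolynomial.aeval (genSer G) (MvPolynomial.map iotaC P) := by
  rw [EvalBridge.coeffMap_aeval]
  have h : (fun i => coeffMap iotaC (M i)) = genSer G := funext fun i => hM i
  rw [h]

/-- **Kernel comparison over `ℚ̄`**. -/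
theorem aeval_M_eq_zero_iff (P : MvPolynomial σ Kbar) :
    MvPolynomial.aeval M P = 0 ↔ MvPolynomial.aeval (genMer G) P = 0 := by
  rw [← EvalBridge.coeffMap_eq_zero_iff iotaC iotaC_injective, coeffMap_aeval_M G M hCE hM,
    aeval_genSer_eq_zero_iff G hCE, aeval_genMer_Kbar, aeval_genMer]

/-- **The realisation over `ℚ̄`** `FK M → Mer`, `M i ↦ G i`. -/
def realK : FK M →ₐ[Kbar] Mer :=
  (exists_algHom_adjoin_field_two M (genMer G) (aeval_M_eq_zero_iff G M hCE hM)).choose

theorem realK_gen (i : σ) : realK G M hCE hM (genK M i) = algebraMap Hol Mer (G i) :=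
  (exists_algHom_adjoin_field_two M (genMer G) (aeval_M_eq_zero_iff G M hCE hM)).choose_spec i

theorem realK_injective : Function.Injective (realK G M hCE hM) :=
  (realK G M hCE hM).toRingHom.injective

omit G hCE hM in
theorem algHom_ext_FK {L : Type*} [Field L] [Algebra Kbar L] ⦃φ ψ : FK M →ₐ[Kbar] L⦄
    (h : ∀ i, φ (genK M i) = ψ (genK M i)) : φ = ψ := by
  apply IntermediateField.algHom_ext_of_eq_adjoin Kbar (rfl : FK M = _)
  rintro x ⟨i, rfl⟩
  exact h i

/-- **Invariance** over `ℚ̄`. -/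
theorem compM_realK_of_inv {γ : SL(2, ℤ)} (hγ : ∀ i, compSL γ (G i) = G i) (f : FK M) :
    compM γ (realK G M hCE hM f) = realK G M hCE hM f := by
  have h : (compMₐ γ).comp (realK G M hCE hM) = realK G M hCE hM := by
    apply algHom_ext_FK
    intro i
    show compM γ (realK G M hCE hM (genK M i)) = realK G M hCE hM (genK M i)
    rw [realK_gen, compM_algebraMap, hγ i]
  exact DFunLike.congr_fun h f

/-- the translates over `ℚ̄` -/
def SigK (g : SL(2, ℤ)) : FK M →ₐ[Kbar] Mer := (compMₐ g⁻¹).comp (realK G M hCE hM)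

theorem SigK_apply (g : SL(2, ℤ)) (f : FK M) :
    SigK G M hCE hM g f = compM g⁻¹ (realK G M hCE hM f) := rfl

theorem SigK_one (f : FK M) : SigK G M hCE hM 1 f = realK G M hCE hM f := by
  rw [SigK_apply, inv_one, compM_one]

theorem SigK_gen (g : SL(2, ℤ)) (i : σ) :
    SigK G M hCE hM g (genK M i) = algebraMap Hol Mer (compSL g⁻¹ (G i)) := by
  rw [SigK_apply, realK_gen, compM_algebraMap]

theorem SigK_mul_of_inv (g : SL(2, ℤ)) {γ : SL(2, ℤ)} (hγ : ∀ i, compSL γ⁻¹ (G i) = G i)
    (f : FK M) : SigK G M hCE hM (g * γ) f = SigK G M hCE hM g f := by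
  rw [SigK_apply, SigK_apply, mul_inv_rev, compM_mul, compM_realK_of_inv G M hCE hM hγ]

theorem SigK_mul_left (ε g : SL(2, ℤ)) (f : FK M) :
    SigK G M hCE hM (ε * g) f = compM ε⁻¹ (SigK G M hCE hM g f) := by
  rw [SigK_apply, SigK_apply, mul_inv_rev, compM_mul]

theorem SigK_eq_of_coset_eq (Γ : Subgroup SL(2, ℤ))
    (hinv : ∀ γ ∈ Γ, ∀ i, compSL γ (G i) = G i) {g g' : SL(2, ℤ)}
    (h : (g : SL(2, ℤ) ⧸ Γ) = (g' : SL(2, ℤ) ⧸ Γ)) (f : FK M) :
    SigK G M hCE hM g f = SigK G M hCE hM g' f := by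
  have h1 : g⁻¹ * g' ∈ Γ := QuotientGroup.eq.mp h
  have h2 : g' = g * (g⁻¹ * g') := by group
  rw [h2, SigK_mul_of_inv G M hCE hM g (hinv _ (inv_mem h1))]

/-- **Distinctness** of the translates over `ℚ̄` when the generators separate `Γ`. -/
theorem coset_eq_of_SigK_eq (Γ : Subgroup SL(2, ℤ))
    (hsep : ∀ δ : SL(2, ℤ), (∀ i, compSL δ (G i) = G i) → δ ∈ Γ) {g g' : SL(2, ℤ)}
    (h : SigK G M hCE hM g = SigK G M hCE hM g') :
    (g : SL(2, ℤ) ⧸ Γ) = (g' : SL(2, ℤ) ⧸ Γ) := by
  rw [QuotientGroup.eq]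
  apply hsep
  intro i
  have h1 := DFunLike.congr_fun h (genK M i)
  rw [SigK_gen, SigK_gen] at h1
  have h2 : compSL g⁻¹ (G i) = compSL g'⁻¹ (G i) := IsFractionRing.injective Hol Mer h1
  have h3 := congrArg (compSL g') h2
  rw [← compSL_mul, ← compSL_mul, inv_mul_cancel, compSL_one] at h3
  exact h3

/-- the realisation over `ℚ̄` on any field equal to `FK M` -/
def realKOf {F : IntermediateField Kbar (LaurentSeries Kbar)} (hF : F = FK M) : F →ₐ[Kbar] Mer :=
  (realK G M hCE hM).comp (IntermediateField.equivOfEq hF).toAlgHom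

theorem realKOf_apply {F : IntermediateField Kbar (LaurentSeries Kbar)} (hF : F = FK M) (x : F) :
    realKOf G M hCE hM hF x = realK G M hCE hM ⟨(x : LaurentSeries Kbar), hF ▸ x.2⟩ := rfl

theorem realKOf_of_coe_eq {F : IntermediateField Kbar (LaurentSeries Kbar)} (hF : F = FK M)
    (x : F) (i : σ) (hx : (x : LaurentSeries Kbar) = M i) :
    realKOf G M hCE hM hF x = algebraMap Hol Mer (G i) := by
  rw [realKOf_apply, ← realK_gen G M hCE hM i]
  congr 1
  exact Subtype.ext hx

theorem realKOf_injective {F : IntermediateField Kbar (LaurentSeries Kbar)} (hF : F = FK M) :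
    Function.Injective (realKOf G M hCE hM hF) := (realKOf G M hCE hM hF).toRingHom.injective

end OverKbar

end Fermat.Agent.DS.P1.RealizeGen
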