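import Mathlib
import Fermat.Agent.DS.P1.RealizeGen
import Fermat.Agent.GJ.J2.TwistedEisCusp
import Fermat.Agent.S28.AnalyticInputCE

/-!
# GATE-N / S48-P1-EXPBRIDGE: the expansion at `i∞` of the realisation is the series

For helper30's generic realisation (`DS/P1/RealizeGen.lean`) of a field of `q`-expansions:

* `merCE_realG (f : FG G) : MerCE 1 (realG G hCE f) f` — the meromorphic function `realG f` has the
  cusp expansion `f` itself in the parameter `𝕢₁ = exp (2πi τ)`;
* `merCE_realOf` — the same on any `F = FG G`;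
* `merCE_realK (f : FK M) : MerCE 1 (realK G M hCE hM f) (coeffMap iotaC f)` — over `ℚ̄`.

(`MerCE` = helper94's cusp-expansion calculus on `Mer`, `GJ/J2/TwistedEisCusp`.)
-/

set_option autoImplicit false
set_option linter.unusedSectionVars false

noncomputable section

namespace Fermat.Agent.DS.P1.ExpBridge

open UpperHalfPlane ModularCurve Fermat.Agent.S24 Fermat.Agent.S28 Fermat.Agent.S28.CuspExp
open Fermat.Agent.S24_helper62 Fermat.Agent.S24_helper82 Fermat.Agent.GJ.Dict
open Fermat.Agent.DS.P1.RealizeGen Fermat.Agent.GJ.TwEis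
open scoped MatrixGroups Manifold

/-! ### Over `ℂ` -/

section OverC

variable {σ : Type*} (G : σ → Hol) (hCE : ∀ i, IsCE 1 ((G i : Hol) : ℍ → ℂ))

include hCE in
/-- polynomials in the generators: the expansion is the polynomial in the series -/
theorem merCE_aeval (P : MvPolynomial σ ℂ) :
    MerCE 1 (algebraMap Hol Mer (MvPolynomial.aeval G P)) (MvPolynomial.aeval (genSer G) P) := by
  have hce : IsCE 1 ((MvPolynomial.aeval G P : Hol) : ℍ → ℂ) := by
    rw [coe_aeval_G]
    exact isCE_polyFnG G hCE P
  have h1 := MerCE.of_hol one_pos (MvPolynomial.aeval G P) (hce.isMeroCusp one_pos)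
  rw [hce.laurentExp_eq one_pos, coe_aeval_G, cuspExp_polyFnG G hCE] at h1
  exact h1

include hCE in
/-- quotients of polynomials in the generators (the case of a zero denominator included) -/
theorem merCE_div_aeval (r s : MvPolynomial σ ℂ) :
    MerCE 1 (algebraMap Hol Mer (MvPolynomial.aeval G r) / algebraMap Hol Mer (MvPolynomial.aeval G s))
      (MvPolynomial.aeval (genSer G) r / MvPolynomial.aeval (genSer G) s) := by
  by_cases hs : algebraMap Hol Mer (MvPolynomial.aeval G s) = 0
  · have hs' : MvPolynomial.aeval (genSer G) s = 0 :=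
      ((merCE_aeval G hCE s).eq_zero_iff one_pos).mpr hs
    rw [hs, hs', div_zero, div_zero]
    exact MerCE.zero one_pos
  · exact (merCE_aeval G hCE r).div one_pos (merCE_aeval G hCE s) hs

/-- every element of `FG G` is a quotient of polynomials in the generators -/
theorem exists_aeval_div (f : FG G) : ∃ r s : MvPolynomial σ ℂ,
    (f : LaurentSeries ℂ) = MvPolynomial.aeval (genSer G) r / MvPolynomial.aeval (genSer G) s ∧
      f = MvPolynomial.aeval (gen G) r / MvPolynomial.aeval (gen G) s := by
  have hf : (f : LaurentSeries ℂ) ∈ IntermediateField.adjoin ℂ (Set.range (genSer G)) := f.2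
  obtain ⟨r, s, hrs⟩ := (IntermediateField.mem_adjoin_range_iff ℂ (genSer G) _).mp hf
  refine ⟨r, s, hrs, Subtype.ext ?_⟩
  have hval : ∀ P : MvPolynomial σ ℂ,
      ((MvPolynomial.aeval (gen G) P : FG G) : LaurentSeries ℂ) =
        MvPolynomial.aeval (genSer G) P := by
    intro P
    have := MvPolynomial.comp_aeval_apply (f := gen G) (FG G).val P
    exact this
  rw [hrs]
  show _ = ((FG G).val (MvPolynomial.aeval (gen G) r / MvPolynomial.aeval (gen G) s))
  rw [map_div₀]
  show _ = ((MvPolynomial.aeval (gen G) r : FG G) : LaurentSeries ℂ) /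
    ((MvPolynomial.aeval (gen G) s : FG G) : LaurentSeries ℂ)
  rw [hval, hval]

/-- **(P1d)** the expansion at `i∞` of the realisation of `f` is `f` -/
theorem merCE_realG (f : FG G) : MerCE 1 (realG G hCE f) (f : LaurentSeries ℂ) := by
  obtain ⟨r, s, hser, hf⟩ := exists_aeval_div G f
  rw [hser, hf, map_div₀, realG_aeval, realG_aeval]
  exact merCE_div_aeval G hCE r s

/-- the same on any field `F = FG G` -/
theorem merCE_realOf {F : IntermediateField ℂ (LaurentSeries ℂ)} (hF : F = FG G) (x : F) :
    MerCE 1 (realOf G hCE hF x) (x : LaurentSeries ℂ) := by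
  rw [realOf_apply]
  exact merCE_realG G hCE ⟨(x : LaurentSeries ℂ), hF ▸ x.2⟩

/-- the order at `i∞` of the realisation (as the order of the series) is unique: two elements with
the same realisation have the same series (a restatement of injectivity, for convenience) -/
theorem coe_eq_of_realG_eq {f f' : FG G} (h : realG G hCE f = realG G hCE f') :
    (f : LaurentSeries ℂ) = f' :=
  congrArg Subtype.val (realG_injective G hCE h)

end OverC

/-! ### Over `ℚ̄` -/

section OverKbar

variable {σ : Type*} (G : σ → Hol) (M : σ → LaurentSeries Kbar)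
  (hCE : ∀ i, IsCE 1 ((G i : Hol) : ℍ → ℂ))
  (hM : ∀ i, coeffMap iotaC (M i) = cuspExp 1 ((G i : Hol) : ℍ → ℂ))

/-- every element of `FK M` is a quotient of polynomials in the generators -/
theorem exists_aeval_div_K (f : FK M) : ∃ r s : MvPolynomial σ Kbar,
    (f : LaurentSeries Kbar) = MvPolynomial.aeval M r / MvPolynomial.aeval M s ∧
      f = MvPolynomial.aeval (genK M) r / MvPolynomial.aeval (genK M) s := by
  have hf : (f : LaurentSeries Kbar) ∈ IntermediateField.adjoin Kbar (Set.range M) := f.2
  obtain ⟨r, s, hrs⟩ := (IntermediateField.mem_adjoin_range_iff Kbar M _).mp hf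
  refine ⟨r, s, hrs, Subtype.ext ?_⟩
  have hval : ∀ P : MvPolynomial σ Kbar,
      ((MvPolynomial.aeval (genK M) P : FK M) : LaurentSeries Kbar) =
        MvPolynomial.aeval M P := by
    intro P
    have := MvPolynomial.comp_aeval_apply (f := genK M) (FK M).val P
    exact this
  rw [hrs]
  show _ = ((FK M).val (MvPolynomial.aeval (genK M) r / MvPolynomial.aeval (genK M) s))
  rw [map_div₀]
  show _ = ((MvPolynomial.aeval (genK M) r : FK M) : LaurentSeries Kbar) /
    ((MvPolynomial.aeval (genK M) s : FK M) : LaurentSeries Kbar)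
  rw [hval, hval]

include hCE hM in
theorem realK_aeval (P : MvPolynomial σ Kbar) :
    realK G M hCE hM (MvPolynomial.aeval (genK M) P) =
      algebraMap Hol Mer (MvPolynomial.aeval G (MvPolynomial.map iotaC P)) := by
  rw [← aeval_genMer_Kbar, MvPolynomial.comp_aeval_apply]
  have h : (fun i => realK G M hCE hM (genK M i)) = genMer G :=
    funext fun i => realK_gen G M hCE hM i
  rw [h]

/-- **(P1d) over `ℚ̄`** the expansion at `i∞` of the realisation of `f` is `f` (with coefficients
mapped to `ℂ`) -/
theorem merCE_realK (f : FK M) :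
    MerCE 1 (realK G M hCE hM f) (coeffMap iotaC (f : LaurentSeries Kbar)) := by
  obtain ⟨r, s, hser, hf⟩ := exists_aeval_div_K M f
  rw [hser, hf, map_div₀, map_div₀, realK_aeval, realK_aeval, coeffMap_aeval_M G M hCE hM,
    coeffMap_aeval_M G M hCE hM]
  exact merCE_div_aeval G hCE _ _

/-- the same on any field `F = FK M` -/
theorem merCE_realKOf {F : IntermediateField Kbar (LaurentSeries Kbar)} (hF : F = FK M) (x : F) :
    MerCE 1 (realKOf G M hCE hM hF x) (coeffMap iotaC (x : LaurentSeries Kbar)) := by
  rw [realKOf_apply]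
  exact merCE_realK G M hCE hM ⟨(x : LaurentSeries Kbar), hF ▸ x.2⟩

end OverKbar

end Fermat.Agent.DS.P1.ExpBridge
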