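import Mathlib
import Fermat.Agent.GJ.J2.Dict.FieldGen
import Fermat.Agent.GJ.J2.Dict.Lagrange

/-!
# GATE-N / S48-P1-RELLAGRANGE: relative Lagrange interpolation and the field generation step

Let `Γ ≤ SL(2,ℤ)` be a subgroup and `Θ` a holomorphic function of moderate growth whose stabiliser
`Stab_Γ(Θ) = {g ∈ Γ | Θ ∘ g = Θ}` has finite index in `Γ`.  If `F` is holomorphic of moderate
growth and invariant under `Stab_Γ(Θ)`, then

`D * F = ∑ r, c r * Θ ^ r`

with `D ≠ 0` and all the `c r`, `D` holomorphic, of moderate growth and `Γ`-INVARIANT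
(Lagrange interpolation on the finite orbit `Γ ⧸ Stab_Γ(Θ)`, multiplied by the discriminant).

Consequence (`fieldGenHol_step`): if every `Γ`-invariant holomorphic function of moderate growth
is in the image of `real : K →+* Mer`, `Θ = real θ`, `Γ' ≤ Γ` has finite index and
`Stab_Γ(Θ) ⊆ ±Γ'`, then every `Γ'`-invariant holomorphic function of moderate growth is in the
image of `real`.  For `Γ = Γ₀(M)`, `Γ' = Γ₁(M)`, `Θ` the Weber function, this is the second
step of the field generation for `X₁(M)` (the first step, `SL(2,ℤ) ⊃ Γ₀(M)` with `Θ = j(M z)`,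
is `GJ/J2/Dict/FieldGen.exists_realizeC_eq_hol`).
-/

set_option autoImplicit false
set_option linter.unusedSectionVars false

noncomputable section

namespace Fermat.Agent.DS.P1.RelLagrange

open UpperHalfPlane Fermat.Agent.S24_helper82 Fermat.Agent.GJ.Dict.FieldGen
open Fermat.Agent.GJ.Dict.Lagrange
open scoped MatrixGroups

/-! ### `-1` acts trivially -/

theorem neg_smul_uhp (g : SL(2, ℤ)) (τ : ℍ) : (-g) • τ = g • τ := by
  exact ModularGroup.SL_neg_smul g τ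

theorem compSL_neg (g : SL(2, ℤ)) : compSL (-g) = compSL g := by
  ext f τ
  simp only [compSL_apply, neg_smul_uhp]

theorem compSL_inv_cancel (g : SL(2, ℤ)) (f : Hol) : compSL g (compSL g⁻¹ f) = f := by
  rw [← compSL_mul, inv_mul_cancel, compSL_one]

theorem compSL_cancel_inv (g : SL(2, ℤ)) (f : Hol) : compSL g⁻¹ (compSL g f) = f := by
  rw [← compSL_mul, mul_inv_cancel, compSL_one]

/-! ### The stabiliser of `Θ` in `Γ` -/

/-- the stabiliser of `Θ` for the action `g ↦ Θ ∘ g` of `SL(2,ℤ)` -/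
def stab (Θ : Hol) : Subgroup SL(2, ℤ) where
  carrier := {g | compSL g Θ = Θ}
  mul_mem' := by
    intro a b ha hb
    show compSL (a * b) Θ = Θ
    rw [compSL_mul, show compSL a Θ = Θ from ha]
    exact hb
  one_mem' := compSL_one Θ
  inv_mem' := by
    intro a ha
    show compSL a⁻¹ Θ = Θ
    have h : compSL a⁻¹ (compSL a Θ) = Θ := compSL_cancel_inv a Θ
    rwa [show compSL a Θ = Θ from ha] at h

theorem mem_stab_iff {Θ : Hol} {g : SL(2, ℤ)} : g ∈ stab Θ ↔ compSL g Θ = Θ := Iff.rfl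

variable (Γ : Subgroup SL(2, ℤ))

/-- the index set of the interpolation: the orbit `Γ ⧸ Stab_Γ(Θ)` -/
abbrev Orb (Θ : Hol) : Type := ↥Γ ⧸ (stab Θ).subgroupOf Γ

/-- the conjugate `f ∘ q⁻¹` attached to a coset `q = g · Stab_Γ(Θ)` -/
def conjR (Θ : Hol) (f : Hol) (q : Orb Γ Θ) : Hol :=
  compSL ((Quotient.out q : ↥Γ) : SL(2, ℤ))⁻¹ f

variable {Γ}

/-- `f ∘ g⁻¹` only depends on the coset of `g` when `f` is invariant under the stabiliser -/
theorem conjR_mk {Θ f : Hol} (hinv : ∀ g ∈ Γ, compSL g Θ = Θ → compSL g f = f) (g : ↥Γ) :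
    conjR Γ Θ f (QuotientGroup.mk g : Orb Γ Θ) = compSL (g : SL(2, ℤ))⁻¹ f := by
  unfold conjR
  set o : ↥Γ := Quotient.out (QuotientGroup.mk g : Orb Γ Θ) with ho
  have h1 : (QuotientGroup.mk o : Orb Γ Θ) = QuotientGroup.mk g := Quotient.out_eq' _
  have h2 : g⁻¹ * o ∈ (stab Θ).subgroupOf Γ := QuotientGroup.eq.mp h1.symm
  rw [Subgroup.mem_subgroupOf] at h2
  have h3 : compSL ((g⁻¹ * o : ↥Γ) : SL(2, ℤ)) Θ = Θ := h2
  have h4 : compSL ((g⁻¹ * o : ↥Γ) : SL(2, ℤ)) f = f := hinv _ (g⁻¹ * o).2 h3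
  have h5 : ((g⁻¹ * o : ↥Γ) : SL(2, ℤ)) = (g : SL(2, ℤ))⁻¹ * (o : SL(2, ℤ)) := by
    simp
  rw [h5, compSL_mul] at h4
  -- h4 : compSL o (compSL g⁻¹ f) = f
  have h6 := congrArg (compSL (o : SL(2, ℤ))⁻¹) h4
  rw [compSL_cancel_inv] at h6
  exact h6.symm

theorem conjR_one {Θ f : Hol} (hinv : ∀ g ∈ Γ, compSL g Θ = Θ → compSL g f = f) :
    conjR Γ Θ f (QuotientGroup.mk 1 : Orb Γ Θ) = f := by
  rw [conjR_mk hinv]
  simp [compSL_one]

theorem compSL_conjR {Θ f : Hol} (hinv : ∀ g ∈ Γ, compSL g Θ = Θ → compSL g f = f) (δ : ↥Γ)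
    (q : Orb Γ Θ) : compSL (δ : SL(2, ℤ)) (conjR Γ Θ f q) = conjR Γ Θ f (δ⁻¹ • q) := by
  induction q using QuotientGroup.induction_on with
  | H g =>
    have e : (δ⁻¹ • (QuotientGroup.mk g : Orb Γ Θ)) = QuotientGroup.mk (δ⁻¹ * g) := rfl
    rw [e, conjR_mk hinv, conjR_mk hinv, ← compSL_mul]
    congr 1
    simp [mul_inv_rev]

/-- the conjugates of `Θ` over the orbit are pairwise distinct -/
theorem conjR_self_injective (Θ : Hol) : Function.Injective (conjR Γ Θ Θ) := by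
  have hinv : ∀ g ∈ Γ, compSL g Θ = Θ → compSL g Θ = Θ := fun _ _ h => h
  intro q q' h
  induction q using QuotientGroup.induction_on with
  | H a =>
    induction q' using QuotientGroup.induction_on with
    | H b =>
      rw [conjR_mk hinv, conjR_mk hinv] at h
      -- compSL a⁻¹ Θ = compSL b⁻¹ Θ
      have h1 := congrArg (compSL (a : SL(2, ℤ))) h
      rw [compSL_inv_cancel, ← compSL_mul] at h1
      -- Θ = compSL (b⁻¹ * a) Θ
      apply QuotientGroup.eq.mpr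
      rw [Subgroup.mem_subgroupOf]
      show compSL ((a⁻¹ * b : ↥Γ) : SL(2, ℤ)) Θ = Θ
      have h2 : ((b : SL(2, ℤ))⁻¹ * (a : SL(2, ℤ))) ∈ stab Θ := h1.symm
      have h3 := (stab Θ).inv_mem h2
      rw [mul_inv_rev, inv_inv] at h3
      have h4 : ((a⁻¹ * b : ↥Γ) : SL(2, ℤ)) = (a : SL(2, ℤ))⁻¹ * (b : SL(2, ℤ)) := by simp
      rw [h4]
      exact h3

/-! ### The relative Lagrange relation -/

section Main

variable {N : ℕ} [NeZero N]

theorem conjR_mem_MG {Θ f : Hol} (hf : f ∈ MG N) (q : Orb Γ Θ) : conjR Γ Θ f q ∈ MG N :=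
  compSL_mem_MG N _ hf

/-- **Relative Lagrange interpolation.**  `Θ`, `F` holomorphic of moderate growth, `F` invariant
under the stabiliser of `Θ` in `Γ`, which has finite index in `Γ`.  Then
`D * F = ∑ c_r Θ^r` with `D ≠ 0` and `D`, `c_r` holomorphic, of moderate growth, `Γ`-invariant. -/
theorem exists_rel_relation {F Θ : Hol} [Finite (Orb Γ Θ)] (hF : F ∈ MG N) (hΘ : Θ ∈ MG N)
    (hFinv : ∀ g ∈ Γ, compSL g Θ = Θ → compSL g F = F) :
    ∃ (D : Hol) (c : ℕ → Hol) (n : ℕ), D ≠ 0 ∧ D ∈ MG N ∧ (∀ γ ∈ Γ, compSL γ D = D) ∧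
      (∀ r, c r ∈ MG N ∧ ∀ γ ∈ Γ, compSL γ (c r) = c r) ∧
      D * F = ∑ r ∈ Finset.range n, c r * Θ ^ r := by
  classical
  have : Fintype (Orb Γ Θ) := Fintype.ofFinite _
  have hΘinv : ∀ g ∈ Γ, compSL g Θ = Θ → compSL g Θ = Θ := fun _ _ h => h
  set fS : Orb Γ Θ → MG N := fun q => ⟨conjR Γ Θ F q, conjR_mem_MG hF q⟩ with hfS
  set θS : Orb Γ Θ → MG N := fun q => ⟨conjR Γ Θ Θ q, conjR_mem_MG hΘ q⟩ with hθS
  have hθinj : Function.Injective θS := fun q q' h =>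
    conjR_self_injective Θ (congrArg Subtype.val h)
  have hactf : ∀ δ : ↥Γ, (act N (δ : SL(2, ℤ))) ∘ fS =
      fS ∘ (MulAction.toPerm δ⁻¹ : Equiv.Perm (Orb Γ Θ)) := by
    intro δ
    funext q
    apply Subtype.ext
    exact compSL_conjR hFinv δ q
  have hactθ : ∀ δ : ↥Γ, (act N (δ : SL(2, ℤ))) ∘ θS =
      θS ∘ (MulAction.toPerm δ⁻¹ : Equiv.Perm (Orb Γ Θ)) := by
    intro δ
    funext q
    apply Subtype.ext
    exact compSL_conjR hΘinv δ q
  have hLinv : ∀ δ : ↥Γ, (lag fS θS).map (act N (δ : SL(2, ℤ))).toRingHom = lag fS θS := by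
    intro δ
    have h0 := map_lag (R := MG N) (R' := MG N) (act N (δ : SL(2, ℤ))).toRingHom fS θS
    have h1 : ((act N (δ : SL(2, ℤ))).toRingHom : MG N → MG N) ∘ fS =
        (act N (δ : SL(2, ℤ))) ∘ fS := rfl
    have h2 : ((act N (δ : SL(2, ℤ))).toRingHom : MG N → MG N) ∘ θS =
        (act N (δ : SL(2, ℤ))) ∘ θS := rfl
    rw [h1, h2, hactf, hactθ, lag_perm] at h0
    exact h0
  have hDinv : ∀ δ : ↥Γ, act N (δ : SL(2, ℤ)) (disc θS) = disc θS := by
    intro δ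
    have h0 := map_disc (R := MG N) (R' := MG N) (act N (δ : SL(2, ℤ))).toRingHom θS
    have h2 : ((act N (δ : SL(2, ℤ))).toRingHom : MG N → MG N) ∘ θS =
        (act N (δ : SL(2, ℤ))) ∘ θS := rfl
    rw [h2, hactθ, disc_perm] at h0
    exact h0
  have hD0 : disc θS ≠ 0 := disc_ne_zero hθinj
  refine ⟨((disc θS : MG N) : Hol), fun r => (((lag fS θS).coeff r : MG N) : Hol),
    (lag fS θS).natDegree + 1, ?_, (disc θS).2, ?_, ?_, ?_⟩
  · exact fun h => hD0 (Subtype.ext h)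
  · intro γ hγ
    exact congrArg Subtype.val (hDinv ⟨γ, hγ⟩)
  · intro r
    refine ⟨((lag fS θS).coeff r).2, fun γ hγ => ?_⟩
    have := congrArg (fun p => Polynomial.coeff p r) (hLinv ⟨γ, hγ⟩)
    simp only [Polynomial.coeff_map] at this
    exact congrArg Subtype.val this
  · have key := mul_disc_eq_sum fS θS (QuotientGroup.mk 1 : Orb Γ Θ)
    have key' := congrArg (Subtype.val : MG N → Hol) key
    have e1 : (fS (QuotientGroup.mk 1 : Orb Γ Θ) : Hol) = F := conjR_one hFinv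
    have e2 : (θS (QuotientGroup.mk 1 : Orb Γ Θ) : Hol) = Θ := conjR_one hΘinv
    rw [mul_comm]
    simp only [Subalgebra.coe_mul, AddSubmonoidClass.coe_finsetSum, Subalgebra.coe_pow, e1, e2]
      at key'
    exact key'

end Main

/-! ### The field generation step -/

section Step

variable {N : ℕ} [NeZero N]

/-- finiteness of the orbit from a finite-index subgroup contained in the stabiliser up to sign -/
theorem finite_orb_of_le (Γ Γ' : Subgroup SL(2, ℤ)) [Γ'.FiniteIndex] {Θ : Hol}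
    (hΘinv : ∀ γ ∈ Γ', compSL γ Θ = Θ) : Finite (Orb Γ Θ) := by
  have hle : Γ'.subgroupOf Γ ≤ (stab Θ).subgroupOf Γ := by
    intro g hg
    rw [Subgroup.mem_subgroupOf] at hg ⊢
    exact hΘinv _ hg
  have : (Γ'.subgroupOf Γ).FiniteIndex := inferInstance
  have : ((stab Θ).subgroupOf Γ).FiniteIndex := Subgroup.finiteIndex_of_le hle
  exact Subgroup.finite_quotient_of_finiteIndex

/-- **Field generation step.**  If the `Γ`-invariant holomorphic functions of moderate growth are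
in the image of `real`, `Θ = real θ` is `Γ'`-invariant of moderate growth, `Γ'` has finite index
and the stabiliser of `Θ` in `Γ` is contained in `±Γ'`, then the `Γ'`-invariant holomorphic
functions of moderate growth are in the image of `real`. -/
theorem fieldGenHol_step {K : Type*} [Field K] (real : K →+* Mer) (Γ Γ' : Subgroup SL(2, ℤ))
    [Γ'.FiniteIndex]
    (hΓ : ∀ H : Hol, (∀ γ ∈ Γ, compSL γ H = H) → ModerateGrowth N (H : ℍ → ℂ) →
      ∃ f : K, real f = algebraMap Hol Mer H)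
    (θ : K) (Θ : Hol) (hθ : real θ = algebraMap Hol Mer Θ)
    (hΘinv : ∀ γ ∈ Γ', compSL γ Θ = Θ) (hΘgr : ModerateGrowth N (Θ : ℍ → ℂ))
    (hstab : ∀ g ∈ Γ, compSL g Θ = Θ → g ∈ Γ' ∨ -g ∈ Γ') :
    ∀ H : Hol, (∀ γ ∈ Γ', compSL γ H = H) → ModerateGrowth N (H : ℍ → ℂ) →
      ∃ f : K, real f = algebraMap Hol Mer H := by
  intro H hHinv hHgr
  have : Finite (Orb Γ Θ) := finite_orb_of_le Γ Γ' hΘinv
  have hFinv : ∀ g ∈ Γ, compSL g Θ = Θ → compSL g H = H := by
    intro g hg hgΘ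
    rcases hstab g hg hgΘ with h | h
    · exact hHinv g h
    · rw [← compSL_neg]
      exact hHinv _ h
  obtain ⟨D, c, n, hD0, hDgr, hDinv, hc, hrel⟩ :=
    exists_rel_relation (Γ := Γ) (N := N) (F := H) (Θ := Θ) hHgr hΘgr hFinv
  obtain ⟨d, hd⟩ := hΓ D hDinv hDgr
  have hcK : ∀ r, ∃ f : K, real f = algebraMap Hol Mer (c r) := fun r =>
    hΓ (c r) (hc r).2 (hc r).1
  choose cK hcK using hcK
  refine ⟨(∑ r ∈ Finset.range n, cK r * θ ^ r) / d, ?_⟩
  have hD' : algebraMap Hol Mer D ≠ 0 := algebraMap_ne_zero hD0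
  rw [map_div₀, hd, div_eq_iff hD', map_sum]
  have h2 := congrArg (algebraMap Hol Mer) hrel
  rw [map_mul, map_sum] at h2
  rw [mul_comm, h2]
  refine Finset.sum_congr rfl fun r _ => ?_
  rw [map_mul, map_mul, map_pow, map_pow, hcK r, hθ]

/-- the same in quotient form: `F = H / Q` with `H`, `Q` invariant holomorphic of moderate
growth -/
theorem fieldGenMer_step {K : Type*} [Field K] (real : K →+* Mer) (Γ Γ' : Subgroup SL(2, ℤ))
    [Γ'.FiniteIndex]
    (hΓ : ∀ H : Hol, (∀ γ ∈ Γ, compSL γ H = H) → ModerateGrowth N (H : ℍ → ℂ) →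
      ∃ f : K, real f = algebraMap Hol Mer H)
    (θ : K) (Θ : Hol) (hθ : real θ = algebraMap Hol Mer Θ)
    (hΘinv : ∀ γ ∈ Γ', compSL γ Θ = Θ) (hΘgr : ModerateGrowth N (Θ : ℍ → ℂ))
    (hstab : ∀ g ∈ Γ, compSL g Θ = Θ → g ∈ Γ' ∨ -g ∈ Γ')
    (H Q : Hol) (hQ : Q ≠ 0)
    (hHinv : ∀ γ ∈ Γ', compSL γ H = H) (hHgr : ModerateGrowth N (H : ℍ → ℂ))
    (hQinv : ∀ γ ∈ Γ', compSL γ Q = Q) (hQgr : ModerateGrowth N (Q : ℍ → ℂ))
    (F : Mer) (hF : algebraMap Hol Mer Q * F = algebraMap Hol Mer H) :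
    ∃ f : K, real f = F := by
  obtain ⟨h, hh⟩ := fieldGenHol_step real Γ Γ' hΓ θ Θ hθ hΘinv hΘgr hstab H hHinv hHgr
  obtain ⟨q, hq⟩ := fieldGenHol_step real Γ Γ' hΓ θ Θ hθ hΘinv hΘgr hstab Q hQinv hQgr
  refine ⟨h / q, ?_⟩
  have hQ' : algebraMap Hol Mer Q ≠ 0 := algebraMap_ne_zero hQ
  rw [map_div₀, hh, hq, div_eq_iff hQ', mul_comm, hF]

end Step

end Fermat.Agent.DS.P1.RelLagrange
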