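import Mathlib
import Fermat.Agent.DS.P1.RelLagrange

/-!
# GATE-N / S48-P1-RELLAGRANGE (2): the `Γ₀(M) ⊃ ±Γ₁(M)` instance

`fieldGenHol_Gamma1`: every `Γ₁(M)`-invariant holomorphic function of moderate growth lies in the
image of `real : K →+* Mer` as soon as `real` extends `realizeC M` (the realisation of the
function field of `X₀(M)` over `ℂ`) and hits one `Γ₁(M)`-invariant holomorphic function `Θ` of
moderate growth whose stabiliser in `Γ₀(M)` is `±Γ₁(M)` (e.g. the Weber function).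
-/

set_option autoImplicit false
set_option linter.unusedSectionVars false

noncomputable section

namespace Fermat.Agent.DS.P1.RelLagrange

open UpperHalfPlane Fermat.Agent.S24_helper82 Fermat.Agent.GJ.Dict.FieldGen
open Fermat.Agent.GJ.Dict CongruenceSubgroup
open scoped MatrixGroups

/-- an element of `Γ₀(M)` with lower right entry `≡ 1` lies in `Γ₁(M)` -/
theorem mem_Gamma1_of_mem_Gamma0 {M : ℕ} {g : SL(2, ℤ)} (hg : g ∈ Gamma0 M)
    (hd : ((g 1 1 : ℤ) : ZMod M) = 1) : g ∈ Gamma1 M := by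
  rw [Gamma1_mem]
  have hc : ((g 1 0 : ℤ) : ZMod M) = 0 := Gamma0_mem.mp hg
  refine ⟨?_, hd, hc⟩
  have hdet : ((g.1.det : ℤ) : ZMod M) = 1 := by
    rw [g.2]; simp
  rw [Matrix.det_fin_two] at hdet
  push_cast at hdet
  have h1 : ((g.1 1 0 : ℤ) : ZMod M) = 0 := hc
  have h2 : ((g.1 1 1 : ℤ) : ZMod M) = 1 := hd
  rw [h1, h2, mul_zero, sub_zero, mul_one] at hdet
  exact hdet

/-- an element of `Γ₀(M)` with lower right entry `≡ ±1` lies in `±Γ₁(M)` -/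
theorem mem_pm_Gamma1_of_mem_Gamma0 {M : ℕ} {g : SL(2, ℤ)} (hg : g ∈ Gamma0 M)
    (hd : ((g 1 1 : ℤ) : ZMod M) = 1 ∨ ((g 1 1 : ℤ) : ZMod M) = -1) :
    g ∈ Gamma1 M ∨ -g ∈ Gamma1 M := by
  rcases hd with hd | hd
  · exact Or.inl (mem_Gamma1_of_mem_Gamma0 hg hd)
  · right
    have hg' : -g ∈ Gamma0 M := by
      rw [Gamma0_mem] at hg ⊢
      have : ((-g : SL(2, ℤ)) 1 0 : ℤ) = -(g 1 0) := by simp
      rw [this, Int.cast_neg, hg, neg_zero]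
    refine mem_Gamma1_of_mem_Gamma0 hg' ?_
    have : ((-g : SL(2, ℤ)) 1 1 : ℤ) = -(g 1 1) := by simp
    rw [this, Int.cast_neg, hd, neg_neg]

variable (M : ℕ) [NeZero M]

/-- **Field generation for `Γ₁(M)`** from the one for `Γ₀(M)` (on main) and one function `Θ`
with stabiliser `±Γ₁(M)` in `Γ₀(M)`. -/
theorem fieldGenHol_Gamma1 {K : Type*} [Field K] (real : K →+* Mer)
    (ι : FC M →+* K) (hι : ∀ f : FC M, real (ι f) = realizeC M f)
    (θ : K) (Θ : Hol) (hθ : real θ = algebraMap Hol Mer Θ)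
    (hΘinv : ∀ γ ∈ Gamma1 M, compSL γ Θ = Θ) (hΘgr : ModerateGrowth M (Θ : ℍ → ℂ))
    (hstab : ∀ g ∈ Gamma0 M, compSL g Θ = Θ → g ∈ Gamma1 M ∨ -g ∈ Gamma1 M) :
    ∀ H : Hol, (∀ γ ∈ Gamma1 M, compSL γ H = H) → ModerateGrowth M (H : ℍ → ℂ) →
      ∃ f : K, real f = algebraMap Hol Mer H := by
  refine fieldGenHol_step (N := M) real (Gamma0 M) (Gamma1 M) ?_ θ Θ hθ hΘinv hΘgr hstab
  intro H hinv hgr
  obtain ⟨f, hf⟩ := exists_realizeC_eq_hol M H hinv hgr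
  exact ⟨ι f, by rw [hι, hf]⟩

/-- the same with the stabiliser condition in "diamond" form: `Θ ∘ g = Θ`, `g ∈ Γ₀(M)` forces the
lower right entry of `g` to be `≡ ±1 mod M` -/
theorem fieldGenHol_Gamma1_of_diamond {K : Type*} [Field K] (real : K →+* Mer)
    (ι : FC M →+* K) (hι : ∀ f : FC M, real (ι f) = realizeC M f)
    (θ : K) (Θ : Hol) (hθ : real θ = algebraMap Hol Mer Θ)
    (hΘinv : ∀ γ ∈ Gamma1 M, compSL γ Θ = Θ) (hΘgr : ModerateGrowth M (Θ : ℍ → ℂ))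
    (hd : ∀ g ∈ Gamma0 M, compSL g Θ = Θ →
      ((g 1 1 : ℤ) : ZMod M) = 1 ∨ ((g 1 1 : ℤ) : ZMod M) = -1) :
    ∀ H : Hol, (∀ γ ∈ Gamma1 M, compSL γ H = H) → ModerateGrowth M (H : ℍ → ℂ) →
      ∃ f : K, real f = algebraMap Hol Mer H :=
  fieldGenHol_Gamma1 M real ι hι θ Θ hθ hΘinv hΘgr fun g hg h =>
    mem_pm_Gamma1_of_mem_Gamma0 hg (hd g hg h)

/-- quotient form -/
theorem fieldGenMer_Gamma1 {K : Type*} [Field K] (real : K →+* Mer)
    (ι : FC M →+* K) (hι : ∀ f : FC M, real (ι f) = realizeC M f)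
    (θ : K) (Θ : Hol) (hθ : real θ = algebraMap Hol Mer Θ)
    (hΘinv : ∀ γ ∈ Gamma1 M, compSL γ Θ = Θ) (hΘgr : ModerateGrowth M (Θ : ℍ → ℂ))
    (hstab : ∀ g ∈ Gamma0 M, compSL g Θ = Θ → g ∈ Gamma1 M ∨ -g ∈ Gamma1 M)
    (H Q : Hol) (hQ : Q ≠ 0)
    (hHinv : ∀ γ ∈ Gamma1 M, compSL γ H = H) (hHgr : ModerateGrowth M (H : ℍ → ℂ))
    (hQinv : ∀ γ ∈ Gamma1 M, compSL γ Q = Q) (hQgr : ModerateGrowth M (Q : ℍ → ℂ))
    (F : Mer) (hF : algebraMap Hol Mer Q * F = algebraMap Hol Mer H) :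
    ∃ f : K, real f = F := by
  refine fieldGenMer_step (N := M) real (Gamma0 M) (Gamma1 M) ?_ θ Θ hθ hΘinv hΘgr hstab
    H Q hQ hHinv hHgr hQinv hQgr F hF
  intro H hinv hgr
  obtain ⟨f, hf⟩ := exists_realizeC_eq_hol M H hinv hgr
  exact ⟨ι f, by rw [hι, hf]⟩

end Fermat.Agent.DS.P1.RelLagrange
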