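import Mathlib
import Fermat.Agent.DS.P1.ExpBridge
import Fermat.Agent.DS.P3.Sat1

/-!
# GATE-N / S48-P1-CUSPEXP-GEN: cusp expansions of all translates, generically  ((P1f))

Let `Γ ≤ SL(2,ℤ)` be of level `N` in the sense `g T^N g⁻¹ ∈ Γ` for all `g ∈ SL(2,ℤ)` (e.g.
`Γ(N) ≤ Γ`).  A `Γ`-invariant holomorphic function `W` of moderate growth (`W ∈ IMGG Γ N`) is
meromorphic at every cusp: every translate `W ∘ g` is `IsMeroCusp N`, hence
`MerCE N (compM g W) (laurentExp N (W ∘ g))`.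

Consequently, for helper30's realisation `realG G hCE` with generators in `IMGG Γ N`, EVERY
translate of EVERY element has a cusp expansion in `𝕢_N`:
`exists_merCE_compM_realG`, and `expHyp_realG` is the `exp` field of helper80's `CuspHyp`.
-/

set_option autoImplicit false
set_option linter.unusedSectionVars false

noncomputable section

namespace Fermat.Agent.DS.P1.CuspExpGen

open UpperHalfPlane ModularCurve Fermat.Agent.S24 Fermat.Agent.S28 Fermat.Agent.S28.CuspExp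
open Fermat.Agent.S24_helper62 Fermat.Agent.S24_helper82 Fermat.Agent.GJ.Dict
open Fermat.Agent.GJ.Dict.FieldGen Fermat.Agent.DS.P1.RealizeGen Fermat.Agent.GJ.TwEis
open Fermat.Agent.DS.P3.Sat1 Fermat.Agent.DS.P1.ExpBridge Fermat.Agent.S28.MeroCusp
open scoped MatrixGroups Manifold

variable {Γ : Subgroup SL(2, ℤ)} {N : ℕ} [NeZero N]

theorem natCast_pos_real : (0 : ℝ) < (N : ℝ) := Nat.cast_pos.mpr (NeZero.pos N)

/-- `N +ᵥ z = T^N • z` -/
theorem vadd_eq_T_zpow_smul (z : ℍ) : ((N : ℝ) +ᵥ z : ℍ) = ModularGroup.T ^ (N : ℤ) • z := by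
  apply UpperHalfPlane.ext
  rw [ModularGroup.coe_T_zpow_smul_eq, UpperHalfPlane.coe_vadd]
  push_cast
  ring

/-- **every translate of a `Γ`-invariant holomorphic function of moderate growth is meromorphic
at the cusp `∞`**, with respect to the period `N` -/
theorem isMeroCusp_compSL (hlevel : ∀ g : SL(2, ℤ), g * ModularGroup.T ^ (N : ℤ) * g⁻¹ ∈ Γ)
    {W : Hol} (hW : W ∈ IMGG Γ N) (g : SL(2, ℤ)) :
    IsMeroCusp (N : ℝ) ((compSL g W : Hol) : ℍ → ℂ) where
  mdiff := (compSL g W).2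
  periodic := by
    apply periodic_comp_ofComplex_of_vadd
    intro z
    show (W : ℍ → ℂ) (g • ((N : ℝ) +ᵥ z)) = (W : ℍ → ℂ) (g • z)
    rw [vadd_eq_T_zpow_smul]
    have h1 : g • (ModularGroup.T ^ (N : ℤ) • z) =
        (g * ModularGroup.T ^ (N : ℤ) * g⁻¹) • (g • z) := by
      rw [← mul_smul, ← mul_smul, inv_mul_cancel_right]
    rw [h1]
    exact congrFun (congrArg Subtype.val (hW.2 _ (hlevel g))) (g • z)
  bdd := hW.1 g

/-- the cusp expansion of a translate of a holomorphic element of `IMGG Γ N` -/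
theorem merCE_compM_hol (hlevel : ∀ g : SL(2, ℤ), g * ModularGroup.T ^ (N : ℤ) * g⁻¹ ∈ Γ)
    {W : Hol} (hW : W ∈ IMGG Γ N) (g : SL(2, ℤ)) :
    MerCE (N : ℝ) (compM g (algebraMap Hol Mer W))
      (laurentExp (N : ℝ) ((compSL g W : Hol) : ℍ → ℂ)) := by
  rw [compM_algebraMap]
  exact MerCE.of_hol natCast_pos_real _ (isMeroCusp_compSL hlevel hW g)

/-- quotients -/
theorem exists_merCE_compM_div (hlevel : ∀ g : SL(2, ℤ), g * ModularGroup.T ^ (N : ℤ) * g⁻¹ ∈ Γ)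
    {A B : Hol} (hA : A ∈ IMGG Γ N) (hB : B ∈ IMGG Γ N) (g : SL(2, ℤ)) :
    ∃ L, MerCE (N : ℝ) (compM g (algebraMap Hol Mer A / algebraMap Hol Mer B)) L := by
  rw [map_div₀]
  by_cases hB0 : compM g (algebraMap Hol Mer B) = 0
  · rw [hB0, div_zero]
    exact ⟨0, MerCE.zero natCast_pos_real⟩
  · exact ⟨_, (merCE_compM_hol hlevel hA g).div natCast_pos_real (merCE_compM_hol hlevel hB g) hB0⟩

/-! ### On the generic realisation -/

section RealG

variable {σ : Type*} (G : σ → Hol) (hCE : ∀ i, IsCE 1 ((G i : Hol) : ℍ → ℂ))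

/-- **(P1f)** every translate of every realised element has a cusp expansion in `𝕢_N` -/
theorem exists_merCE_compM_realG
    (hlevel : ∀ g : SL(2, ℤ), g * ModularGroup.T ^ (N : ℤ) * g⁻¹ ∈ Γ)
    (hG : ∀ i, G i ∈ IMGG Γ N) (g : SL(2, ℤ)) (f : FG G) :
    ∃ L, MerCE (N : ℝ) (compM g (realG G hCE f)) L := by
  obtain ⟨r, s, -, hf⟩ := exists_aeval_div G f
  rw [hf, map_div₀, realG_aeval, realG_aeval]
  exact exists_merCE_compM_div hlevel (aeval_mem_IMGG G hG r) (aeval_mem_IMGG G hG s) g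

/-- the `exp` field of helper80's `CuspHyp` for `realG G hCE` -/
theorem expHyp_realG (hlevel : ∀ g : SL(2, ℤ), g * ModularGroup.T ^ (N : ℤ) * g⁻¹ ∈ Γ)
    (hG : ∀ i, G i ∈ IMGG Γ N) :
    ∃ S : Set (FG G), IntermediateField.adjoin ℂ S = ⊤ ∧ ∀ g : SL(2, ℤ), ∀ s ∈ S,
      ∃ L, MerCE (N : ℝ) (compM g (realG G hCE s)) L :=
  ⟨Set.univ, IntermediateField.adjoin_univ ℂ (FG G), fun g s _ =>
    exists_merCE_compM_realG G hCE hlevel hG g s⟩

/-- the same on any field `F = FG G` -/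
theorem exists_merCE_compM_realOf {F : IntermediateField ℂ (LaurentSeries ℂ)} (hF : F = FG G)
    (hlevel : ∀ g : SL(2, ℤ), g * ModularGroup.T ^ (N : ℤ) * g⁻¹ ∈ Γ)
    (hG : ∀ i, G i ∈ IMGG Γ N) (g : SL(2, ℤ)) (x : F) :
    ∃ L, MerCE (N : ℝ) (compM g (realOf G hCE hF x)) L := by
  rw [realOf_apply]
  exact exists_merCE_compM_realG G hCE hlevel hG g _

end RealG

section RealK

variable {σ : Type*} (G : σ → Hol) (M : σ → LaurentSeries Kbar)
  (hCE : ∀ i, IsCE 1 ((G i : Hol) : ℍ → ℂ))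
  (hM : ∀ i, coeffMap iotaC (M i) = cuspExp 1 ((G i : Hol) : ℍ → ℂ))

/-- **(P1f) over `ℚ̄`** -/
theorem exists_merCE_compM_realK
    (hlevel : ∀ g : SL(2, ℤ), g * ModularGroup.T ^ (N : ℤ) * g⁻¹ ∈ Γ)
    (hG : ∀ i, G i ∈ IMGG Γ N) (g : SL(2, ℤ)) (f : FK M) :
    ∃ L, MerCE (N : ℝ) (compM g (realK G M hCE hM f)) L := by
  obtain ⟨r, s, -, hf⟩ := exists_aeval_div_K M f
  rw [hf, map_div₀, realK_aeval, realK_aeval]
  exact exists_merCE_compM_div hlevel (aeval_mem_IMGG G hG _) (aeval_mem_IMGG G hG _) g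

end RealK

end Fermat.Agent.DS.P1.CuspExpGen
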