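import Fermat.Agent.DS.P1.RealizeGen
import Fermat.Agent.GJ.J2.Dict.FieldGen
import Fermat.Agent.GJ.J2.Dict.DegreeC
import Fermat.Agent.GJ.AuxLevel.DegBaseField
import Fermat.Agent.S24.Gen

/-!
# GATE-N / S48 J1-PORT, node P1: GENERIC degree `[F : ℂ(j)] = [SL₂(ℤ) : Γ]` (helper30)

Twin of `GJ/J2/Dict/DegreeC.lean` on top of `DS/P1/RealizeGen.lean`: `G : σ → Hol` is a family of
holomorphic functions with cusp expansion at `i∞` and of moderate growth at all cusps, one of them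
is `j`; `Γ ≤ SL₂(ℤ)` has finitely many cosets, fixes all the `G i` and is separated by them.  Then

* `finrank_FG` : `[FG G : ℂ(j)] = #(SL₂(ℤ)/Γ)`, `finiteDimensional_FG`;
* `SigQ_norm`, `SigQ_trace` : norm and trace are the product / sum over the translates;
* `exists_eq_SigQ` : every `ℂ`-embedding of `FG G` into `Mer` sending `j` to `j` is a translate;
* DESCENT to `ℚ̄` (`GJ.AuxLevel.Deg.finrank_baseChange_eq` along `iotaC`): for series
  `M i ∈ ℚ̄((q))` with `coeffMap iotaC (M i) = cuspExp 1 (G i)`: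
  `finrank_FK : [FK M : ℚ̄(j)] = #(SL₂(ℤ)/Γ)`, `finiteDimensional_FK`, `isGen_FK : IsGen ℚ̄ j`.
-/

set_option autoImplicit false
set_option linter.unusedSectionVars false

noncomputable section

namespace Fermat.Agent.DS.P1.DegreeFG

open UpperHalfPlane ModularCurve IntermediateField Polynomial
open Fermat.Agent.S24 Fermat.Agent.S28 Fermat.Agent.S28.CuspExp
open Fermat.Agent.S24_helper62 Fermat.Agent.S24_helper82 Fermat.Agent.S24_helper66
open Fermat.Agent.GJ.Dict Fermat.Agent.GJ.Dict.FieldGen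
open Fermat.Agent.DS.P1.RealizeGen
open scoped MatrixGroups Manifold

/-! ### Over `ℂ` -/

section OverC

variable {σ : Type*} (G : σ → Hol)

/-- `FG G = ℂ(gen G i : i)` -/
theorem fieldGen : IntermediateField.adjoin ℂ (Set.range (gen G)) = ⊤ := by
  apply IntermediateField.map_injective (FG G).val
  rw [IntermediateField.adjoin_map]
  have h2 : (⊤ : IntermediateField ℂ (FG G)).map (FG G).val = FG G := by
    rw [← AlgHom.fieldRange_eq_map, IntermediateField.fieldRange_val]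
  rw [h2]
  have h1 : ((FG G).val '' Set.range (gen G) : Set (LaurentSeries ℂ)) = Set.range (genSer G) := by
    rw [← Set.range_comp]
    rfl
  rw [h1]
  rfl

/-- the `ℂ`-algebra generated by the generators -/
def RG : Subalgebra ℂ (FG G) := Algebra.adjoin ℂ (Set.range (gen G))

theorem adjoin_RG : IntermediateField.adjoin ℂ ((RG G).toSubring : Set (FG G)) = ⊤ := by
  rw [eq_top_iff, ← fieldGen G]
  exact IntermediateField.adjoin.mono _ _ _ Algebra.subset_adjoin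

theorem mem_RG_iff {a : FG G} :
    a ∈ RG G ↔ ∃ P : MvPolynomial σ ℂ, MvPolynomial.aeval (gen G) P = a := by
  rw [RG, Algebra.adjoin_range_eq_range_aeval]
  rfl

variable (N : ℕ) [NeZero N]

theorem aeval_mem_MG (hMG : ∀ i, G i ∈ MG N) (P : MvPolynomial σ ℂ) :
    MvPolynomial.aeval G P ∈ MG N := by
  have h := MvPolynomial.comp_aeval_apply (f := fun i => (⟨G i, hMG i⟩ : MG N)) (MG N).val P
  have h2 : MvPolynomial.aeval G P =
      (MG N).val (MvPolynomial.aeval (fun i => (⟨G i, hMG i⟩ : MG N)) P) := by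
    rw [h]
    rfl
  rw [h2]
  exact Subtype.property _

omit [NeZero N] in
theorem compSL_aeval {γ : SL(2, ℤ)} (hγ : ∀ i, compSL γ (G i) = G i) (P : MvPolynomial σ ℂ) :
    compSL γ (MvPolynomial.aeval G P) = MvPolynomial.aeval G P := by
  rw [MvPolynomial.comp_aeval_apply]
  have h : (fun i => compSL γ (G i)) = G := funext hγ
  rw [h]

variable (Γ : Subgroup SL(2, ℤ)) [Fintype (SL(2, ℤ) ⧸ Γ)]

/-- **the trace of an invariant holomorphic function of moderate growth is a polynomial in `j`** -/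
theorem exists_poly_sum_compSL {H : Hol} (hH : H ∈ MG N) (hinv : ∀ γ ∈ Γ, compSL γ H = H) :
    ∃ Q : ℂ[X], (∑ q : SL(2, ℤ) ⧸ Γ, compSL (Quotient.out q : SL(2, ℤ))⁻¹ H) = aeval jH Q := by
  obtain ⟨Q, hQ⟩ := CosetSym.exists_poly_esymmFun_cosetFun (Γ := Γ) (J := jFun)
    hauptmodul_jFun.levelOnePoly (f := (H : ℍ → ℂ)) H.2
    (fun γ hγ z => congrFun (congrArg Subtype.val (hinv γ hγ)) z)
    (natCast_pos' (N := N)) (fun g => hH g) 1
  refine ⟨Q, Subtype.ext (funext fun z => ?_)⟩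
  rw [aeval_apply, jH_apply, ← hQ z, CosetSym.esymmFun, Finset.powersetCard_one, Finset.sum_map]
  have h2 : ((∑ q : SL(2, ℤ) ⧸ Γ, compSL (Quotient.out q : SL(2, ℤ))⁻¹ H : Hol) : ℍ → ℂ) z =
      ∑ q : SL(2, ℤ) ⧸ Γ, ((compSL (Quotient.out q : SL(2, ℤ))⁻¹ H : Hol) : ℍ → ℂ) z := by
    rw [← evalAt_apply, map_sum]
    rfl
  rw [h2]
  refine Finset.sum_congr rfl fun q _ => ?_
  simp [CosetSym.cosetFun]

variable (hCE : ∀ i, IsCE 1 ((G i : Hol) : ℍ → ℂ)) (hMG : ∀ i, G i ∈ MG N)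
  (hinv : ∀ γ ∈ Γ, ∀ i, compSL γ (G i) = G i)
  (hsep : ∀ δ : SL(2, ℤ), (∀ i, compSL δ (G i) = G i) → δ ∈ Γ)
  (i₀ : σ) (hj : G i₀ = jH)

/-- the translates indexed by the cosets -/
def SigQ (q : SL(2, ℤ) ⧸ Γ) : FG G →ₐ[ℂ] Mer := SigG G hCE (Quotient.out q)

include hinv in
theorem SigQ_mk (g : SL(2, ℤ)) : SigQ G Γ hCE (g : SL(2, ℤ) ⧸ Γ) = SigG G hCE g :=
  AlgHom.ext fun f => SigG_eq_of_coset_eq G hCE Γ hinv (Quotient.out_eq' _) f

include hsep in
theorem SigQ_injective : Function.Injective (SigQ G Γ hCE) := by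
  intro q q' h
  have h1 := coset_eq_of_SigG_eq G hCE Γ hsep h
  have e1 : ((Quotient.out q : SL(2, ℤ)) : SL(2, ℤ) ⧸ Γ) = q := Quotient.out_eq' q
  have e2 : ((Quotient.out q' : SL(2, ℤ)) : SL(2, ℤ) ⧸ Γ) = q' := Quotient.out_eq' q'
  rw [← e1, ← e2]
  exact h1

include hj in
theorem SigQ_jgen (q : SL(2, ℤ) ⧸ Γ) :
    SigQ G Γ hCE q (gen G i₀) = algebraMap Hol Mer jH := by
  show SigG G hCE _ (gen G i₀) = _
  rw [SigG_gen, hj, compSL_jH]

/-- the base coset -/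
abbrev q0 : SL(2, ℤ) ⧸ Γ := ((1 : SL(2, ℤ)) : SL(2, ℤ) ⧸ Γ)

instance : Nonempty (SL(2, ℤ) ⧸ Γ) := ⟨q0 Γ⟩

/-- a polynomial in `j` as an element of `ℂ(j)` -/
def polyJ (P : ℂ[X]) : ℂ⟮gen G i₀⟯ := aeval (AdjoinSimple.gen ℂ (gen G i₀)) P

theorem coe_polyJ (P : ℂ[X]) :
    ((polyJ G i₀ P : ℂ⟮gen G i₀⟯) : FG G) = aeval (gen G i₀) P := by
  have h := Polynomial.aeval_algHom_apply (ℂ⟮gen G i₀⟯).val (AdjoinSimple.gen ℂ (gen G i₀)) P
  rw [polyJ]
  exact h.symm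

theorem map_polyJ {L : Type*} [Field L] [Algebra ℂ L] (φ : FG G →ₐ[ℂ] L) (P : ℂ[X]) :
    φ ((polyJ G i₀ P : ℂ⟮gen G i₀⟯) : FG G) = aeval (φ (gen G i₀)) P := by
  rw [coe_polyJ, Polynomial.aeval_algHom_apply]

include hj in
theorem hjQ (q : SL(2, ℤ) ⧸ Γ) :
    SigQ G Γ hCE q (gen G i₀) = SigQ G Γ hCE (q0 Γ) (gen G i₀) := by
  rw [SigQ_jgen G Γ hCE i₀ hj, SigQ_jgen G Γ hCE i₀ hj]

include hMG hinv hj in
/-- **htr**: the trace over the translates of an element of `ℂ[G i : i]` is a polynomial in `j` -/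
theorem htrQ : ∀ a ∈ (RG G).toSubring, ∃ c : ℂ⟮gen G i₀⟯,
    ∑ q, SigQ G Γ hCE q a = SigQ G Γ hCE (q0 Γ) c := by
  intro a ha
  obtain ⟨P, rfl⟩ := (mem_RG_iff G).mp ha
  obtain ⟨Q, hQ⟩ := exists_poly_sum_compSL N Γ (aeval_mem_MG G N hMG P)
    (fun γ hγ => compSL_aeval G (hinv γ hγ) P)
  refine ⟨polyJ G i₀ Q, ?_⟩
  have h1 : ∀ q : SL(2, ℤ) ⧸ Γ, SigQ G Γ hCE q (MvPolynomial.aeval (gen G) P) =
      algebraMap Hol Mer (compSL (Quotient.out q : SL(2, ℤ))⁻¹ (MvPolynomial.aeval G P)) := by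
    intro q
    show SigG G hCE q.out _ = _
    rw [SigG_apply, realG_aeval, compM_algebraMap]
  have h3 : aeval (algebraMap Hol Mer jH) Q = algebraMap Hol Mer (aeval jH Q) :=
    Polynomial.aeval_algHom_apply (IsScalarTower.toAlgHom ℂ Hol Mer) jH Q
  rw [map_polyJ, SigQ_jgen G Γ hCE i₀ hj, Finset.sum_congr rfl fun q _ => h1 q, ← map_sum, h3, hQ]

include hCE hMG hinv hsep hj

/-- `FG G` is finite over `ℂ(j)` -/
theorem finiteDimensional_FG : FiniteDimensional ℂ⟮gen G i₀⟯ (FG G) :=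
  finiteDimensional_adjoin_simple (i₀ := q0 Γ) (hjQ G Γ hCE i₀ hj)
    (SigQ_injective G Γ hCE hsep) (RG G).toSubring (adjoin_RG G)
    (htrQ G N Γ hCE hMG hinv i₀ hj)

/-- **the degree**: `[FG G : ℂ(j)] = [SL₂(ℤ) : Γ]` -/
theorem finrank_FG : Module.finrank ℂ⟮gen G i₀⟯ (FG G) = Fintype.card (SL(2, ℤ) ⧸ Γ) :=
  finrank_adjoin_simple_eq_card (i₀ := q0 Γ) (hjQ G Γ hCE i₀ hj)
    (SigQ_injective G Γ hCE hsep) (RG G).toSubring (adjoin_RG G)
    (htrQ G N Γ hCE hMG hinv i₀ hj)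

/-- **norm formula**: the translate of the norm is the product of all translates -/
theorem SigQ_norm (f : FG G) (q₀ : SL(2, ℤ) ⧸ Γ) :
    SigQ G Γ hCE q₀ ((Algebra.norm ℂ⟮gen G i₀⟯ f : ℂ⟮gen G i₀⟯) : FG G) =
      ∏ q, SigQ G Γ hCE q f := by
  rw [← emb_norm_eq_prod (i₀ := q0 Γ) (hjQ G Γ hCE i₀ hj) (SigQ_injective G Γ hCE hsep)
    (RG G).toSubring (adjoin_RG G) (htrQ G N Γ hCE hMG hinv i₀ hj) f]
  exact algHom_eq_on_adjoin_simple (SigQ G Γ hCE q₀) (SigQ G Γ hCE (q0 Γ)) (gen G i₀)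
    (hjQ G Γ hCE i₀ hj q₀) _

/-- **trace formula** -/
theorem SigQ_trace (f : FG G) (q₀ : SL(2, ℤ) ⧸ Γ) :
    SigQ G Γ hCE q₀ ((Algebra.trace ℂ⟮gen G i₀⟯ (FG G) f : ℂ⟮gen G i₀⟯) : FG G) =
      ∑ q, SigQ G Γ hCE q f := by
  rw [← emb_trace_eq_sum (i₀ := q0 Γ) (hjQ G Γ hCE i₀ hj) (SigQ_injective G Γ hCE hsep)
    (RG G).toSubring (adjoin_RG G) (htrQ G N Γ hCE hMG hinv i₀ hj) f]
  exact algHom_eq_on_adjoin_simple (SigQ G Γ hCE q₀) (SigQ G Γ hCE (q0 Γ)) (gen G i₀)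
    (hjQ G Γ hCE i₀ hj q₀) _

/-- every `ℂ`-embedding of `FG G` into `Mer` which sends `j` to `j` is a translate -/
theorem exists_eq_SigQ (τ : FG G →ₐ[ℂ] Mer) (hτ : τ (gen G i₀) = algebraMap Hol Mer jH) :
    ∃ q, τ = SigQ G Γ hCE q :=
  algHom_mem_range_of_fixes (i₀ := q0 Γ) (hjQ G Γ hCE i₀ hj) (SigQ_injective G Γ hCE hsep)
    (RG G).toSubring (adjoin_RG G) (htrQ G N Γ hCE hMG hinv i₀ hj) τ
    (by rw [hτ, SigQ_jgen G Γ hCE i₀ hj])

end OverC

/-! ### Descent to `ℚ̄` -/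

section OverKbar

/-- the `ℚ̄`-algebra structure on `ℂ` given by `iotaC` (local to this section) -/
@[reducible] def algKbarC : Algebra Kbar ℂ := iotaC.toAlgebra

attribute [local instance] algKbarC

theorem algebraMap_Kbar_C : (algebraMap Kbar ℂ : Kbar →+* ℂ) = iotaC := rfl

variable {σ : Type*} (G : σ → Hol) (M : σ → LaurentSeries Kbar)
  (hM : ∀ i, coeffMap iotaC (M i) = cuspExp 1 ((G i : Hol) : ℍ → ℂ))

include hM in
/-- base change of the constants maps `FK M` into `FG G` -/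
theorem coeffMap_mem_FG {x : LaurentSeries Kbar} (hx : x ∈ FK M) : coeffMap iotaC x ∈ FG G := by
  have key : (FK M).toSubfield ≤ (FG G).toSubfield.comap (coeffMap iotaC) := by
    unfold FK
    apply IntermediateField.adjoin_le_subfield
    · rintro _ ⟨c, rfl⟩
      rw [SetLike.mem_coe, Subfield.mem_comap, IntermediateField.mem_toSubfield,
        algebraMap_laurentSeries_eq_single, coeffMap_single,
        ← algebraMap_laurentSeries_eq_single]
      exact IntermediateField.algebraMap_mem _ _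
    · rintro _ ⟨i, rfl⟩
      rw [SetLike.mem_coe, Subfield.mem_comap, IntermediateField.mem_toSubfield, hM i]
      exact IntermediateField.subset_adjoin ℂ _ ⟨i, rfl⟩
  exact key hx

include hM in
/-- `FG G = ℂ · coeffMap (FK M)` -/
theorem FG_eq_adjoin_image :
    FG G = IntermediateField.adjoin ℂ
      (⇑(coeffMap (algebraMap Kbar ℂ)) '' (FK M : Set (LaurentSeries Kbar))) := by
  apply le_antisymm
  · unfold RealizeGen.FG
    rw [IntermediateField.adjoin_le_iff]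
    rintro _ ⟨i, rfl⟩
    refine IntermediateField.subset_adjoin ℂ _ ⟨M i, ?_, ?_⟩
    · exact IntermediateField.subset_adjoin Kbar _ ⟨i, rfl⟩
    · rw [algebraMap_Kbar_C]
      exact hM i
  · rw [IntermediateField.adjoin_le_iff]
    rintro _ ⟨x, hx, rfl⟩
    rw [algebraMap_Kbar_C]
    exact coeffMap_mem_FG G M hM hx

variable (N : ℕ) [NeZero N] (Γ : Subgroup SL(2, ℤ)) [Fintype (SL(2, ℤ) ⧸ Γ)]
  (hCE : ∀ i, IsCE 1 ((G i : Hol) : ℍ → ℂ)) (hMG : ∀ i, G i ∈ MG N)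
  (hinv : ∀ γ ∈ Γ, ∀ i, compSL γ (G i) = G i)
  (hsep : ∀ δ : SL(2, ℤ), (∀ i, compSL δ (G i) = G i) → δ ∈ Γ)
  (i₀ : σ) (hj : G i₀ = jH)

include hM hCE hMG hinv hsep hj

theorem finrank_FK_aux : FiniteDimensional Kbar⟮genK M i₀⟯ (FK M) ∧
    Module.finrank Kbar⟮genK M i₀⟯ (FK M) = Fintype.card (SL(2, ℤ) ⧸ Γ) := by
  have := finiteDimensional_FG G N Γ hCE hMG hinv hsep i₀ hj
  have h := Fermat.Agent.GJ.AuxLevel.Deg.finrank_baseChange_eq (K₀ := Kbar) (K := ℂ)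
    (FK M) (genK M i₀) (FG G) (FG_eq_adjoin_image G M hM) (gen G i₀)
    (by rw [coe_gen, coe_genK, algebraMap_Kbar_C]; exact (hM i₀).symm)
  exact ⟨h.1, h.2.trans (finrank_FG G N Γ hCE hMG hinv hsep i₀ hj)⟩

/-- `FK M` is finite over `ℚ̄(j)` -/
theorem finiteDimensional_FK : FiniteDimensional Kbar⟮genK M i₀⟯ (FK M) :=
  (finrank_FK_aux G M hM N Γ hCE hMG hinv hsep i₀ hj).1

/-- **the degree over `ℚ̄`**: `[FK M : ℚ̄(j)] = [SL₂(ℤ) : Γ]` -/
theorem finrank_FK : Module.finrank Kbar⟮genK M i₀⟯ (FK M) = Fintype.card (SL(2, ℤ) ⧸ Γ) :=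
  (finrank_FK_aux G M hM N Γ hCE hMG hinv hsep i₀ hj).2

omit hMG hinv hsep [NeZero N] [Fintype (SL(2, ℤ) ⧸ Γ)] in
/-- the series of the `j`-generator is `j(q)` -/
theorem M_eq_jqModC : M i₀ = jqModC Kbar := by
  apply EvalBridge.coeffMap_injective iotaC iotaC_injective
  rw [hM i₀, hj, coeffMap_jqModC]
  show cuspExp 1 (jDil 1 one_pos) = jqModC ℂ
  rw [cuspExp_jDil 1 one_pos, qExpand_one_apply]

omit hMG hinv hsep [NeZero N] [Fintype (SL(2, ℤ) ⧸ Γ)] in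
/-- `j` is transcendental over `ℚ̄` in `FK M` -/
theorem transcendental_genK : Transcendental Kbar (genK M i₀) := by
  have h : Transcendental Kbar ((FK M).val (genK M i₀)) := by
    show Transcendental Kbar ((genK M i₀ : FK M) : LaurentSeries Kbar)
    rw [coe_genK, M_eq_jqModC G M hM hCE i₀ hj]
    exact Fermat.Agent.S24.Degree.transcendental_jqModC' Kbar
  intro halg
  exact h (IsAlgebraic.algHom (FK M).val halg)

/-- **`j` is a generator of `FK M` over `ℚ̄`** -/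
theorem isGen_FK : IsGen Kbar (genK M i₀) :=
  ⟨transcendental_genK G M hM hCE i₀ hj,
    finiteDimensional_FK G M hM N Γ hCE hMG hinv hsep i₀ hj⟩

end OverKbar

end Fermat.Agent.DS.P1.DegreeFG
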