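import Mathlib
import Fermat.Agent.DS.P1.RelLagrangeGamma1
import Fermat.Agent.DS.P1.RealizeGen
import Fermat.Agent.DS.P3.Sat1

/-!
# GATE-N / S48-P1-FIELDGEN-ASM: field generation and saturation for `Γ₁(M)` on a generic
realisation `RealizeGen.realG G hCE`

Let `G : σ → Hol` be a family of holomorphic functions with cusp expansions (helper30's
`RealizeGen`), containing the generators `j(d z)`, `d ∣ M`, of the function field of `X₀(M)` and
one `Γ₁(M)`-invariant function `Θ = G iΘ` of moderate growth whose stabiliser in `Γ₀(M)` is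
`±Γ₁(M)` (the Weber function).  Then

* `fieldGenHyp_Gamma1_realG` : every `Γ₁(M)`-invariant holomorphic function of moderate growth is
  in the image of `realG G hCE` (`= FieldGenHol (Gamma1 M) M (realG G hCE)`);
* `sat_Gamma1_realG` : if moreover all the `G i` are `Γ₁(M)`-invariant of moderate growth, the
  image of `realG G hCE` is saturated for invariant `p`-th roots (`SatC`);
* the same for `realOf G hCE hF` on any field `F = FG G` (e.g. `F1C ℂ M`).
-/

set_option autoImplicit false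
set_option linter.unusedSectionVars false

noncomputable section

namespace Fermat.Agent.DS.P1.FieldGenAsm

open UpperHalfPlane ModularCurve Fermat.Agent.S24 Fermat.Agent.S28 Fermat.Agent.S28.CuspExp
open Fermat.Agent.S24_helper62 Fermat.Agent.S24_helper82 Fermat.Agent.GJ.Dict
open Fermat.Agent.GJ.Dict.FieldGen Fermat.Agent.DS.P1.RealizeGen Fermat.Agent.DS.P1.RelLagrange
open Fermat.Agent.DS.P3.Sat1 CongruenceSubgroup
open scoped MatrixGroups Manifold

variable (M : ℕ) [NeZero M] {σ : Type*} (G : σ → Hol)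
  (hCE : ∀ i, IsCE 1 ((G i : Hol) : ℍ → ℂ))
  (e : DivIdx M → σ) (he : ∀ d, G (e d) = genHol M d)

include he in
theorem genSer_e (d : DivIdx M) : genSer G (e d) = jFam ℂ M d := by
  rw [jFam_eq_cuspExp, genSer, he d, coe_genHol]

include he in
/-- the function field of `X₀(M)` over `ℂ` is contained in `FG G` -/
theorem FCfield_le_FG : FCfield M ≤ FG G := by
  rw [FC_eq_adjoin, FG, IntermediateField.adjoin_le_iff]
  rintro _ ⟨d, rfl⟩
  rw [← genSer_e M G e he d]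
  exact IntermediateField.subset_adjoin ℂ _ ⟨e d, rfl⟩

/-- the inclusion `FC M → FG G` -/
def incl : FC M →ₐ[ℂ] FG G := IntermediateField.inclusion (FCfield_le_FG M G e he)

theorem coe_incl (f : FC M) : ((incl M G e he f : FG G) : LaurentSeries ℂ) = f :=
  IntermediateField.coe_inclusion _ f

/-- `realG` extends `realizeC M` -/
theorem realG_incl (f : FC M) : realG G hCE (incl M G e he f) = realizeC M f := by
  have h : (realG G hCE).comp (incl M G e he) = realizeC M := by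
    apply algHom_ext_FC
    intro d _ hd
    show realG G hCE (incl M G e he (jdC M d hd)) = realizeC M (jdC M d hd)
    have h1 : incl M G e he (jdC M d hd) = gen G (e ⟨d, hd⟩) := by
      apply Subtype.ext
      rw [coe_incl, coe_gen, genSer_e M G e he]
      rfl
    rw [h1, realG_gen, he, realizeC_jdC]
    rfl
  exact DFunLike.congr_fun h f

include he in
/-- **Field generation for `Γ₁(M)`** on the generic realisation. -/
theorem fieldGenHyp_Gamma1_realG (iΘ : σ)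
    (hΘinv : ∀ γ ∈ Gamma1 M, compSL γ (G iΘ) = G iΘ)
    (hΘgr : ModerateGrowth M ((G iΘ : Hol) : ℍ → ℂ))
    (hstab : ∀ g ∈ Gamma0 M, compSL g (G iΘ) = G iΘ → g ∈ Gamma1 M ∨ -g ∈ Gamma1 M) :
    FieldGenHyp (Gamma1 M) M ((realG G hCE : FG G →ₐ[ℂ] Mer) : FG G →+* Mer) :=
  fieldGenHol_Gamma1 M ((realG G hCE : FG G →ₐ[ℂ] Mer) : FG G →+* Mer)
    ((incl M G e he : FC M →ₐ[ℂ] FG G) : FC M →+* FG G) (fun f => realG_incl M G hCE e he f)
    (gen G iΘ) (G iΘ) (realG_gen G hCE iΘ) hΘinv hΘgr hstab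

include he in
/-- the same with the stabiliser condition in diamond form -/
theorem fieldGenHyp_Gamma1_realG_of_diamond (iΘ : σ)
    (hΘinv : ∀ γ ∈ Gamma1 M, compSL γ (G iΘ) = G iΘ)
    (hΘgr : ModerateGrowth M ((G iΘ : Hol) : ℍ → ℂ))
    (hd : ∀ g ∈ Gamma0 M, compSL g (G iΘ) = G iΘ →
      ((g 1 1 : ℤ) : ZMod M) = 1 ∨ ((g 1 1 : ℤ) : ZMod M) = -1) :
    FieldGenHyp (Gamma1 M) M ((realG G hCE : FG G →ₐ[ℂ] Mer) : FG G →+* Mer) :=
  fieldGenHyp_Gamma1_realG M G hCE e he iΘ hΘinv hΘgr fun g hg h =>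
    mem_pm_Gamma1_of_mem_Gamma0 hg (hd g hg h)

include he in
/-- **Saturation (`SatC`) for `Γ₁(M)`** on the generic realisation, in the `hsat` shape of
`DS/P3/KumCoreG`. -/
theorem sat_Gamma1_realG (iΘ : σ) (hG : ∀ i, G i ∈ IMGG (Gamma1 M) M)
    (hstab : ∀ g ∈ Gamma0 M, compSL g (G iΘ) = G iΘ → g ∈ Gamma1 M ∨ -g ∈ Gamma1 M)
    {p : ℕ} (hp : 0 < p) :
    ∀ m : Mer, (∀ γ : Gamma1 M, compM (γ : SL(2, ℤ)) m = m) →
      m ^ p ∈ Set.range ((realG G hCE : FG G →ₐ[ℂ] Mer) : FG G →+* Mer) →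
      m ∈ Set.range ((realG G hCE : FG G →ₐ[ℂ] Mer) : FG G →+* Mer) :=
  sat_realG G hCE hG
    (fieldGenHyp_Gamma1_realG M G hCE e he iΘ (hG iΘ).2 (hG iΘ).1 hstab) hp

/-- `Γ₁(M)`-invariance of the realisation when all the generators are invariant -/
theorem compM_realG_Gamma1 (hG : ∀ i, G i ∈ IMGG (Gamma1 M) M) {γ : SL(2, ℤ)}
    (hγ : γ ∈ Gamma1 M) (f : FG G) : compM γ (realG G hCE f) = realG G hCE f :=
  compM_realG_of_inv G hCE (fun i => (hG i).2 γ hγ) f

/-! ### Transport to a field `F = FG G` -/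

section Transport

variable {F : IntermediateField ℂ (LaurentSeries ℂ)} (hF : F = FG G)

theorem fieldGenHyp_realOf {Γ : Subgroup SL(2, ℤ)} {N : ℕ}
    (h : FieldGenHyp Γ N ((realG G hCE : FG G →ₐ[ℂ] Mer) : FG G →+* Mer)) :
    FieldGenHyp Γ N ((realOf G hCE hF : F →ₐ[ℂ] Mer) : F →+* Mer) := by
  intro H hinv hgr
  obtain ⟨f, hf⟩ := h H hinv hgr
  refine ⟨(IntermediateField.equivOfEq hF).symm f, ?_⟩
  show realG G hCE ((IntermediateField.equivOfEq hF) ((IntermediateField.equivOfEq hF).symm f)) = _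
  rw [AlgEquiv.apply_symm_apply]
  exact hf

theorem quotHyp_realOf {Γ : Subgroup SL(2, ℤ)} {N : ℕ} [NeZero N]
    (h : QuotHyp Γ N ((realG G hCE : FG G →ₐ[ℂ] Mer) : FG G →+* Mer)) :
    QuotHyp Γ N ((realOf G hCE hF : F →ₐ[ℂ] Mer) : F →+* Mer) :=
  fun f => h ((IntermediateField.equivOfEq hF) f)

include he in
/-- field generation for `Γ₁(M)` on `F = FG G` -/
theorem fieldGenHyp_Gamma1_realOf (iΘ : σ)
    (hΘinv : ∀ γ ∈ Gamma1 M, compSL γ (G iΘ) = G iΘ)
    (hΘgr : ModerateGrowth M ((G iΘ : Hol) : ℍ → ℂ))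
    (hstab : ∀ g ∈ Gamma0 M, compSL g (G iΘ) = G iΘ → g ∈ Gamma1 M ∨ -g ∈ Gamma1 M) :
    FieldGenHyp (Gamma1 M) M ((realOf G hCE hF : F →ₐ[ℂ] Mer) : F →+* Mer) :=
  fieldGenHyp_realOf G hCE hF (fieldGenHyp_Gamma1_realG M G hCE e he iΘ hΘinv hΘgr hstab)

include he in
/-- saturation for `Γ₁(M)` on `F = FG G` -/
theorem sat_Gamma1_realOf (iΘ : σ) (hG : ∀ i, G i ∈ IMGG (Gamma1 M) M)
    (hstab : ∀ g ∈ Gamma0 M, compSL g (G iΘ) = G iΘ → g ∈ Gamma1 M ∨ -g ∈ Gamma1 M)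
    {p : ℕ} (hp : 0 < p) :
    ∀ m : Mer, (∀ γ : Gamma1 M, compM (γ : SL(2, ℤ)) m = m) →
      m ^ p ∈ Set.range ((realOf G hCE hF : F →ₐ[ℂ] Mer) : F →+* Mer) →
      m ∈ Set.range ((realOf G hCE hF : F →ₐ[ℂ] Mer) : F →+* Mer) :=
  sat_of_fieldGen
    (fieldGenHyp_Gamma1_realOf M G hCE e he hF iΘ (hG iΘ).2 (hG iΘ).1 hstab)
    (quotHyp_realOf G hCE hF (hquot_realG G hCE hG)) hp

end Transport

end Fermat.Agent.DS.P1.FieldGenAsm
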