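import Mathlib
import Fermat.Agent.GJ.J2.Dict.FieldGen

/-!
# GATE-N / S48-P1-FIELDGEN-G: field generation for an arbitrary finite-index subgroup

`Γ`-generic twin of `GJ/J2/Dict/FieldGen` (which is written for `Γ₀(N)`).

For a finite-index subgroup `Γ ≤ SL(2,ℤ)`, a `Γ`-invariant holomorphic function `Θ` of moderate
growth whose stabiliser in `SL(2,ℤ)` is exactly `±Γ` (`Separating Γ Θ`), every `Γ`-invariant
holomorphic function `H` of moderate growth satisfies
`R(j) * H = ∑ P_r(j) * Θ ^ r` with `R(j) ≠ 0`  (Lagrange interpolation on the cosets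
`SL(2,ℤ) / ±Γ`, multiplied by the discriminant).  Consequently `H` is in the image of every
`ℂ`-algebra map `real : K →ₐ[ℂ] Mer` from a field `K` whose image contains `j` and `Θ`.

The passage to `±Γ` is necessary: for `Γ = Γ₁(M)`, `M ≥ 3`, one has `-1 ∉ Γ`, so `g Γ ≠ (-g) Γ`
although the conjugates of `Θ` attached to the two cosets coincide.
-/

set_option autoImplicit false
set_option linter.unusedSectionVars false

noncomputable section

namespace Fermat.Agent.DS.P1.FieldGenG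

open UpperHalfPlane Fermat.Agent.S24_helper82 Fermat.Agent.GJ.Dict Fermat.Agent.GJ.Dict.FieldGen
open Fermat.Agent.GJ.Dict.Lagrange
open Polynomial
open scoped MatrixGroups Manifold

/-! ### `±Γ` -/

theorem compSL_neg (g : SL(2, ℤ)) (f : Hol) : compSL (-g) f = compSL g f := by
  apply Subtype.ext
  funext z
  show (f : ℍ → ℂ) ((-g) • z) = (f : ℍ → ℂ) (g • z)
  rw [ModularGroup.SL_neg_smul]

/-- the subgroup `±Γ = {g | g ∈ Γ ∨ -g ∈ Γ}` of `SL(2,ℤ)` -/
def pm (Γ : Subgroup SL(2, ℤ)) : Subgroup SL(2, ℤ) where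
  carrier := {g | g ∈ Γ ∨ -g ∈ Γ}
  mul_mem' := by
    rintro a b (ha | ha) (hb | hb)
    · exact Or.inl (Γ.mul_mem ha hb)
    · right
      have : -(a * b) = a * -b := by simp
      rw [this]
      exact Γ.mul_mem ha hb
    · right
      have : -(a * b) = -a * b := by simp
      rw [this]
      exact Γ.mul_mem ha hb
    · left
      have : a * b = -a * -b := by simp
      rw [this]
      exact Γ.mul_mem ha hb
  one_mem' := Or.inl Γ.one_mem
  inv_mem' := by
    rintro a (ha | ha)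
    · exact Or.inl (Γ.inv_mem ha)
    · right
      have : -a⁻¹ = (-a)⁻¹ := by
        rw [eq_inv_iff_mul_eq_one]
        simp
      rw [this]
      exact Γ.inv_mem ha

theorem mem_pm {Γ : Subgroup SL(2, ℤ)} {g : SL(2, ℤ)} : g ∈ pm Γ ↔ g ∈ Γ ∨ -g ∈ Γ := Iff.rfl

theorem le_pm (Γ : Subgroup SL(2, ℤ)) : Γ ≤ pm Γ := fun _ hg => Or.inl hg

instance pm_finiteIndex (Γ : Subgroup SL(2, ℤ)) [Γ.FiniteIndex] : (pm Γ).FiniteIndex :=
  Subgroup.finiteIndex_of_le (le_pm Γ)

theorem pm_eq_of_neg_one_mem {Γ : Subgroup SL(2, ℤ)} (h : (-1 : SL(2, ℤ)) ∈ Γ) : pm Γ = Γ := by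
  refine le_antisymm ?_ (le_pm Γ)
  rintro g (hg | hg)
  · exact hg
  · have : g = -1 * -g := by simp
    rw [this]
    exact Γ.mul_mem h hg

theorem invariant_pm {Γ : Subgroup SL(2, ℤ)} {f : Hol} (hinv : ∀ γ ∈ Γ, compSL γ f = f) :
    ∀ γ ∈ pm Γ, compSL γ f = f := by
  rintro γ (hγ | hγ)
  · exact hinv γ hγ
  · rw [← compSL_neg]
    exact hinv _ hγ

/-- `Θ` is *separating* for `Γ` if its stabiliser in `SL(2,ℤ)` is contained in `±Γ`. -/
def Separating (Γ : Subgroup SL(2, ℤ)) (Θ : Hol) : Prop :=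
  ∀ g : SL(2, ℤ), compSL g Θ = Θ → g ∈ pm Γ

/-! ### conjugates attached to cosets of an arbitrary subgroup -/

section Conj

variable (Γ : Subgroup SL(2, ℤ))

/-- the conjugate `f ∘ q⁻¹` of a function attached to a coset `q = g Γ` -/
def conjG (f : Hol) (q : SL(2, ℤ) ⧸ Γ) : Hol := compSL (Quotient.out q)⁻¹ f

variable {Γ}

theorem conjG_mk {f : Hol} (hinv : ∀ γ ∈ Γ, compSL γ f = f) (g : SL(2, ℤ)) :
    conjG Γ f (g : SL(2, ℤ) ⧸ Γ) = compSL g⁻¹ f := by
  unfold conjG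
  obtain ⟨γ, hγ⟩ : ∃ γ : Γ, Quotient.out (g : SL(2, ℤ) ⧸ Γ) = g * γ := by
    have h : ((Quotient.out (g : SL(2, ℤ) ⧸ Γ) : SL(2, ℤ)) : SL(2, ℤ) ⧸ Γ) = g :=
      Quotient.out_eq' _
    rw [QuotientGroup.eq] at h
    exact ⟨⟨_, Γ.inv_mem h⟩, by simp⟩
  rw [hγ, mul_inv_rev, compSL_mul, hinv _ (Γ.inv_mem γ.2)]

theorem conjG_one {f : Hol} (hinv : ∀ γ ∈ Γ, compSL γ f = f) :
    conjG Γ f ((1 : SL(2, ℤ)) : SL(2, ℤ) ⧸ Γ) = f := by
  rw [conjG_mk hinv, inv_one, compSL_one]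

theorem compSL_conjG {f : Hol} (hinv : ∀ γ ∈ Γ, compSL γ f = f) (δ : SL(2, ℤ))
    (q : SL(2, ℤ) ⧸ Γ) : compSL δ (conjG Γ f q) = conjG Γ f (δ⁻¹ • q) := by
  induction q using QuotientGroup.induction_on with
  | H g =>
    rw [MulAction.Quotient.smul_mk, conjG_mk hinv, conjG_mk hinv, smul_eq_mul, ← compSL_mul,
      mul_inv_rev, inv_inv]

theorem conjG_mem_MG (N : ℕ) [NeZero N] {f : Hol} (hf : f ∈ MG N) (q : SL(2, ℤ) ⧸ Γ) :
    conjG Γ f q ∈ MG N :=
  compSL_mem_MG N _ hf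

/-- a separating function has pairwise distinct conjugates on `SL(2,ℤ) / ±Γ` -/
theorem conjG_injective_of_separating {Θ : Hol} (hΘinv : ∀ γ ∈ Γ, compSL γ Θ = Θ)
    (hsep : Separating Γ Θ) : Function.Injective (conjG (pm Γ) Θ) := by
  intro q q' h
  induction q using QuotientGroup.induction_on with
  | H g =>
  induction q' using QuotientGroup.induction_on with
  | H g' =>
    rw [conjG_mk (invariant_pm hΘinv), conjG_mk (invariant_pm hΘinv)] at h
    have h2 := congrArg (compSL g') h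
    rw [← compSL_mul, ← compSL_mul, inv_mul_cancel, compSL_one] at h2
    rw [QuotientGroup.eq]
    exact hsep _ h2

end Conj

/-! ### Lagrange interpolation on the cosets -/

section Main

variable (Γ : Subgroup SL(2, ℤ)) [Γ.FiniteIndex] (N : ℕ) [NeZero N]

/-- **Lagrange interpolation on the cosets of `±Γ`.**  If `F` and `Θ` are `Γ`-invariant
holomorphic functions of moderate growth and `Θ` is separating for `Γ`, then
`R(j) * F = ∑ P_r(j) * Θ ^ r` with `R(j) ≠ 0`. -/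
theorem exists_poly_relation_of_separatingG {F Θ : Hol} (hF : F ∈ MG N) (hΘ : Θ ∈ MG N)
    (hFinv : ∀ γ ∈ Γ, compSL γ F = F) (hΘinv : ∀ γ ∈ Γ, compSL γ Θ = Θ)
    (hsep : Separating Γ Θ) :
    ∃ (R : ℂ[X]) (P : ℕ → ℂ[X]) (n : ℕ), aeval jH R ≠ 0 ∧
      aeval jH R * F = ∑ r ∈ Finset.range n, aeval jH (P r) * Θ ^ r := by
  classical
  let _ : Fintype (SL(2, ℤ) ⧸ pm Γ) := Subgroup.fintypeQuotientOfFiniteIndex
  have hFinv' := invariant_pm hFinv
  have hΘinv' := invariant_pm hΘinv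
  set fS : SL(2, ℤ) ⧸ pm Γ → MG N := fun q => ⟨conjG (pm Γ) F q, conjG_mem_MG N hF q⟩ with hfS
  set θS : SL(2, ℤ) ⧸ pm Γ → MG N := fun q => ⟨conjG (pm Γ) Θ q, conjG_mem_MG N hΘ q⟩ with hθS
  have hθinj : Function.Injective θS := fun q q' h =>
    conjG_injective_of_separating hΘinv hsep (congrArg Subtype.val h)
  have hactf : ∀ δ : SL(2, ℤ),
      (act N δ) ∘ fS = fS ∘ (MulAction.toPerm δ⁻¹ : Equiv.Perm (SL(2, ℤ) ⧸ pm Γ)) := by
    intro δ
    funext q
    apply Subtype.ext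
    exact compSL_conjG hFinv' δ q
  have hactθ : ∀ δ : SL(2, ℤ),
      (act N δ) ∘ θS = θS ∘ (MulAction.toPerm δ⁻¹ : Equiv.Perm (SL(2, ℤ) ⧸ pm Γ)) := by
    intro δ
    funext q
    apply Subtype.ext
    exact compSL_conjG hΘinv' δ q
  have hLinv : ∀ δ : SL(2, ℤ), (lag fS θS).map (act N δ).toRingHom = lag fS θS := by
    intro δ
    have h0 := map_lag (R := MG N) (R' := MG N) (act N δ).toRingHom fS θS
    have h1 : ((act N δ).toRingHom : MG N → MG N) ∘ fS = (act N δ) ∘ fS := rfl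
    have h2 : ((act N δ).toRingHom : MG N → MG N) ∘ θS = (act N δ) ∘ θS := rfl
    rw [h1, h2, hactf, hactθ, lag_perm] at h0
    exact h0
  have hDinv : ∀ δ : SL(2, ℤ), act N δ (disc θS) = disc θS := by
    intro δ
    have h0 := map_disc (R := MG N) (R' := MG N) (act N δ).toRingHom θS
    have h2 : ((act N δ).toRingHom : MG N → MG N) ∘ θS = (act N δ) ∘ θS := rfl
    rw [h2, hactθ, disc_perm] at h0
    exact h0
  have hcoeff : ∀ r : ℕ, ∃ P : ℂ[X], (((lag fS θS).coeff r : MG N) : Hol) = aeval jH P := by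
    intro r
    refine exists_poly_of_invariant N _ ((lag fS θS).coeff r).2 fun δ => ?_
    have := congrArg (fun p => Polynomial.coeff p r) (hLinv δ)
    simp only [Polynomial.coeff_map] at this
    exact congrArg Subtype.val this
  obtain ⟨R, hR⟩ : ∃ R : ℂ[X], ((disc θS : MG N) : Hol) = aeval jH R :=
    exists_poly_of_invariant N _ (disc θS).2 fun δ => congrArg Subtype.val (hDinv δ)
  choose P hP using hcoeff
  have hD0 : disc θS ≠ 0 := disc_ne_zero hθinj
  refine ⟨R, P, (lag fS θS).natDegree + 1, ?_, ?_⟩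
  · rw [← hR]
    exact fun h => hD0 (Subtype.ext h)
  · have key := mul_disc_eq_sum fS θS ((1 : SL(2, ℤ)) : SL(2, ℤ) ⧸ pm Γ)
    have key' := congrArg (Subtype.val : MG N → Hol) key
    have e1 : (fS ((1 : SL(2, ℤ)) : SL(2, ℤ) ⧸ pm Γ) : Hol) = F := conjG_one hFinv'
    have e2 : (θS ((1 : SL(2, ℤ)) : SL(2, ℤ) ⧸ pm Γ) : Hol) = Θ := conjG_one hΘinv'
    rw [← hR, mul_comm]
    simp only [Subalgebra.coe_mul, AddSubmonoidClass.coe_finsetSum, Subalgebra.coe_pow, e1, e2]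
      at key'
    rw [key']
    exact Finset.sum_congr rfl fun r _ => by rw [hP r]

end Main

/-! ### the realisation form -/

section Real

variable (Γ : Subgroup SL(2, ℤ)) [Γ.FiniteIndex] (N : ℕ) [NeZero N]
variable {K : Type*} [Field K] [Algebra ℂ K] (real : K →ₐ[ℂ] Mer)

theorem real_aeval {jK : K} (hj : real jK = algebraMap Hol Mer jH) (Q : ℂ[X]) :
    real (aeval jK Q) = algebraMap Hol Mer (aeval jH Q) := by
  rw [← Polynomial.aeval_algHom_apply, hj]
  exact Polynomial.aeval_algHom_apply (IsScalarTower.toAlgHom ℂ Hol Mer) jH Q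

/-- **Field generation**: if the image of `real : K →ₐ[ℂ] Mer` contains `j` and a separating
`Γ`-invariant function `Θ` of moderate growth, it contains every `Γ`-invariant holomorphic
function of moderate growth. -/
theorem fieldGenHol_of_separating (jK θK : K) (Θ : Hol)
    (hj : real jK = algebraMap Hol Mer jH) (hθ : real θK = algebraMap Hol Mer Θ)
    (hΘ : Θ ∈ MG N) (hΘinv : ∀ γ ∈ Γ, compSL γ Θ = Θ) (hsep : Separating Γ Θ)
    (H : Hol) (hinv : ∀ γ ∈ Γ, compSL γ H = H) (hgr : ModerateGrowth N (H : ℍ → ℂ)) :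
    ∃ f : K, real f = algebraMap Hol Mer H := by
  obtain ⟨R, P, n, hR, hrel⟩ :=
    exists_poly_relation_of_separatingG Γ N (F := H) hgr hΘ hinv hΘinv hsep
  refine ⟨(∑ r ∈ Finset.range n, aeval jK (P r) * θK ^ r) / aeval jK R, ?_⟩
  have hR' : algebraMap Hol Mer (aeval jH R) ≠ 0 := algebraMap_ne_zero hR
  rw [map_div₀, real_aeval real hj, div_eq_iff hR', map_sum]
  have h2 := congrArg (algebraMap Hol Mer) hrel
  rw [map_mul, map_sum] at h2
  rw [mul_comm, h2]
  refine Finset.sum_congr rfl fun r _ => ?_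
  rw [map_mul, map_mul, map_pow, map_pow, real_aeval real hj, hθ]

/-- quotient form: `F = H / Q` with `H`, `Q` invariant holomorphic of moderate growth. -/
theorem exists_real_eq_div (jK θK : K) (Θ : Hol)
    (hj : real jK = algebraMap Hol Mer jH) (hθ : real θK = algebraMap Hol Mer Θ)
    (hΘ : Θ ∈ MG N) (hΘinv : ∀ γ ∈ Γ, compSL γ Θ = Θ) (hsep : Separating Γ Θ)
    (H Q : Hol) (hQ : Q ≠ 0)
    (hHinv : ∀ γ ∈ Γ, compSL γ H = H) (hHgr : ModerateGrowth N (H : ℍ → ℂ))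
    (hQinv : ∀ γ ∈ Γ, compSL γ Q = Q) (hQgr : ModerateGrowth N (Q : ℍ → ℂ))
    (F : Mer) (hF : algebraMap Hol Mer Q * F = algebraMap Hol Mer H) :
    ∃ f : K, real f = F := by
  obtain ⟨h, hh⟩ := fieldGenHol_of_separating Γ N real jK θK Θ hj hθ hΘ hΘinv hsep H hHinv hHgr
  obtain ⟨q, hq⟩ := fieldGenHol_of_separating Γ N real jK θK Θ hj hθ hΘ hΘinv hsep Q hQinv hQgr
  refine ⟨h / q, ?_⟩
  have hQ' : algebraMap Hol Mer Q ≠ 0 := algebraMap_ne_zero hQ
  rw [map_div₀, hh, hq, div_eq_iff hQ', mul_comm, hF]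

end Real

/-! ### several generators -/

section Family

variable (Γ : Subgroup SL(2, ℤ)) [Γ.FiniteIndex] (N : ℕ) [NeZero N]
variable {ι : Type*} [Fintype ι]

/-- a finite family is *jointly separating* for `Γ` if the common stabiliser is contained
in `±Γ`. -/
def JointlySeparating (Γ : Subgroup SL(2, ℤ)) {ι : Type*} (Θ : ι → Hol) : Prop :=
  ∀ g : SL(2, ℤ), (∀ i, compSL g (Θ i) = Θ i) → g ∈ pm Γ

theorem separating_of_conjG_injective {Γ : Subgroup SL(2, ℤ)} {Θ : Hol}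
    (hΘinv : ∀ γ ∈ Γ, compSL γ Θ = Θ)
    (hinj : Function.Injective (conjG (pm Γ) Θ)) : Separating Γ Θ := by
  intro g hg
  have h1 : conjG (pm Γ) Θ ((g⁻¹ : SL(2, ℤ)) : SL(2, ℤ) ⧸ pm Γ) =
      conjG (pm Γ) Θ ((1 : SL(2, ℤ)) : SL(2, ℤ) ⧸ pm Γ) := by
    rw [conjG_mk (invariant_pm hΘinv), conjG_one (invariant_pm hΘinv), inv_inv, hg]
  have h2 := hinj h1
  rw [QuotientGroup.eq, inv_inv, mul_one] at h2
  exact h2

theorem conjG_sum_smul {Γ' : Subgroup SL(2, ℤ)} (c : ι → ℂ) (Θ : ι → Hol)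
    (q : SL(2, ℤ) ⧸ Γ') :
    conjG Γ' (∑ i, c i • Θ i) q = ∑ i, c i • conjG Γ' (Θ i) q := by
  unfold conjG
  rw [map_sum]
  exact Finset.sum_congr rfl fun i _ => by rw [map_smul]

/-- **A generic linear combination of a jointly separating family is separating.** -/
theorem exists_separating_combination (Θ : ι → Hol)
    (hΘinv : ∀ i, ∀ γ ∈ Γ, compSL γ (Θ i) = Θ i) (hsep : JointlySeparating Γ Θ) :
    ∃ c : ι → ℂ, Separating Γ (∑ i, c i • Θ i) := by
  classical
  let Q := SL(2, ℤ) ⧸ pm Γ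
  have : Finite Q := Subgroup.finite_quotient_of_finiteIndex
  -- the linear maps `c ↦ ∑ c_i (Θ_i^q - Θ_i^{q'})`
  let L : {p : Q × Q // p.1 ≠ p.2} → ((ι → ℂ) →ₗ[ℂ] Hol) := fun p =>
    ∑ i, (LinearMap.proj i : (ι → ℂ) →ₗ[ℂ] ℂ).smulRight
      (conjG (pm Γ) (Θ i) p.1.1 - conjG (pm Γ) (Θ i) p.1.2)
  have hL : ∀ p c, L p c = ∑ i, c i • (conjG (pm Γ) (Θ i) p.1.1 - conjG (pm Γ) (Θ i) p.1.2) := by
    intro p c
    simp only [L, LinearMap.sum_apply, LinearMap.smulRight_apply, LinearMap.proj_apply]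
  -- no kernel is everything
  have hne : ∀ p, LinearMap.ker (L p) ≠ ⊤ := by
    rintro ⟨⟨q, q'⟩, hqq'⟩ htop
    apply hqq'
    induction q using QuotientGroup.induction_on with
    | H g =>
    induction q' using QuotientGroup.induction_on with
    | H g' =>
      rw [QuotientGroup.eq]
      apply hsep
      intro i
      have hmem : Pi.single i (1 : ℂ) ∈ LinearMap.ker (L ⟨(↑g, ↑g'), hqq'⟩) := by
        rw [htop]; trivial
      rw [LinearMap.mem_ker, hL] at hmem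
      rw [Finset.sum_eq_single i] at hmem
      · simp only [Pi.single_eq_same, one_smul, sub_eq_zero] at hmem
        rw [conjG_mk (invariant_pm (hΘinv i)), conjG_mk (invariant_pm (hΘinv i))] at hmem
        have h2 := congrArg (compSL g') hmem
        rw [← compSL_mul, ← compSL_mul, inv_mul_cancel, compSL_one] at h2
        exact h2
      · intro j _ hj
        rw [Pi.single_eq_of_ne hj, zero_smul]
      · intro h
        exact absurd (Finset.mem_univ i) h
  have hcov : ⋃ p, ((LinearMap.ker (L p) : Subspace ℂ (ι → ℂ)) : Set (ι → ℂ)) ≠ Set.univ := by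
    intro h
    obtain ⟨p, hp⟩ := Subspace.exists_eq_top_of_iUnion_eq_univ h
    exact hne p hp
  obtain ⟨c, hc⟩ : ∃ c : ι → ℂ, ∀ p, c ∉ LinearMap.ker (L p) := by
    by_contra hcon
    push Not at hcon
    apply hcov
    rw [Set.eq_univ_iff_forall]
    intro c
    obtain ⟨p, hp⟩ := hcon c
    exact Set.mem_iUnion.mpr ⟨p, hp⟩
  refine ⟨c, ?_⟩
  have hinv : ∀ γ ∈ Γ, compSL γ (∑ i, c i • Θ i) = ∑ i, c i • Θ i := by
    intro γ hγ
    rw [map_sum]
    exact Finset.sum_congr rfl fun i _ => by rw [map_smul, hΘinv i γ hγ]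
  apply separating_of_conjG_injective hinv
  intro q q' h
  by_contra hqq'
  apply hc ⟨(q, q'), hqq'⟩
  rw [LinearMap.mem_ker, hL]
  rw [conjG_sum_smul, conjG_sum_smul] at h
  simp only [smul_sub, Finset.sum_sub_distrib]
  exact sub_eq_zero.mpr h

variable {K : Type*} [Field K] [Algebra ℂ K] (real : K →ₐ[ℂ] Mer)

/-- **Field generation, several generators**: if the image of `real : K →ₐ[ℂ] Mer` contains `j`
and a jointly separating finite family of `Γ`-invariant functions of moderate growth, it contains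
every `Γ`-invariant holomorphic function of moderate growth. -/
theorem fieldGenHol_of_jointlySeparating (jK : K) (θK : ι → K) (Θ : ι → Hol)
    (hj : real jK = algebraMap Hol Mer jH) (hθ : ∀ i, real (θK i) = algebraMap Hol Mer (Θ i))
    (hΘ : ∀ i, Θ i ∈ MG N) (hΘinv : ∀ i, ∀ γ ∈ Γ, compSL γ (Θ i) = Θ i)
    (hsep : JointlySeparating Γ Θ)
    (H : Hol) (hinv : ∀ γ ∈ Γ, compSL γ H = H) (hgr : ModerateGrowth N (H : ℍ → ℂ)) :
    ∃ f : K, real f = algebraMap Hol Mer H := by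
  obtain ⟨c, hc⟩ := exists_separating_combination Γ Θ hΘinv hsep
  refine fieldGenHol_of_separating Γ N real jK (∑ i, c i • θK i) (∑ i, c i • Θ i) hj ?_ ?_ ?_ hc
    H hinv hgr
  · rw [map_sum, map_sum]
    exact Finset.sum_congr rfl fun i _ => by
      rw [map_smul, hθ i, Algebra.smul_def, Algebra.smul_def, map_mul,
        ← IsScalarTower.algebraMap_apply]
  · exact Subalgebra.sum_mem _ fun i _ => Subalgebra.smul_mem _ (hΘ i) _
  · intro γ hγ
    rw [map_sum]
    exact Finset.sum_congr rfl fun i _ => by rw [map_smul, hΘinv i γ hγ]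

/-- quotient form with several generators -/
theorem exists_real_eq_div_of_jointlySeparating (jK : K) (θK : ι → K) (Θ : ι → Hol)
    (hj : real jK = algebraMap Hol Mer jH) (hθ : ∀ i, real (θK i) = algebraMap Hol Mer (Θ i))
    (hΘ : ∀ i, Θ i ∈ MG N) (hΘinv : ∀ i, ∀ γ ∈ Γ, compSL γ (Θ i) = Θ i)
    (hsep : JointlySeparating Γ Θ)
    (H Q : Hol) (hQ : Q ≠ 0)
    (hHinv : ∀ γ ∈ Γ, compSL γ H = H) (hHgr : ModerateGrowth N (H : ℍ → ℂ))
    (hQinv : ∀ γ ∈ Γ, compSL γ Q = Q) (hQgr : ModerateGrowth N (Q : ℍ → ℂ))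
    (F : Mer) (hF : algebraMap Hol Mer Q * F = algebraMap Hol Mer H) :
    ∃ f : K, real f = F := by
  obtain ⟨h, hh⟩ :=
    fieldGenHol_of_jointlySeparating Γ N real jK θK Θ hj hθ hΘ hΘinv hsep H hHinv hHgr
  obtain ⟨q, hq⟩ :=
    fieldGenHol_of_jointlySeparating Γ N real jK θK Θ hj hθ hΘ hΘinv hsep Q hQinv hQgr
  refine ⟨h / q, ?_⟩
  have hQ' : algebraMap Hol Mer Q ≠ 0 := algebraMap_ne_zero hQ
  rw [map_div₀, hh, hq, div_eq_iff hQ', mul_comm, hF]

end Family

end Fermat.Agent.DS.P1.FieldGenG
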