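import Mathlib
import Fermat.Agent.DS.P1.FieldGenG

/-!
# GATE-N / S48-P1-FIELDGEN-G (2): the case `Γ ≤ Γ₀(M)`, in particular `Γ₁(M)`

For a finite-index subgroup `Γ ≤ Γ₀(M)` the pair `(j(M z), Θ)` is jointly separating as soon as
`Θ` separates `±Γ` *inside* `Γ₀(M)`: the stabiliser of `j(M z)` in `SL(2,ℤ)` is `Γ₀(M)` (on main,
`S24_helper66.CosetSep`).  So the field generation theorem for `Γ₁(M)` only needs, from the analytic
Weber function `Θ` of the port, its behaviour under `Γ₀(M)` (the diamond action):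
`Θ ∘ g = Θ` for `g ∈ Γ₀(M)` forces `g ∈ ±Γ₁(M)`.
-/

set_option autoImplicit false
set_option linter.unusedSectionVars false

noncomputable section

namespace Fermat.Agent.DS.P1.FieldGenG

open UpperHalfPlane Fermat.Agent.S24_helper82 Fermat.Agent.GJ.Dict Fermat.Agent.GJ.Dict.FieldGen
open CongruenceSubgroup Polynomial
open scoped MatrixGroups Manifold

section Pair

variable (M : ℕ) [NeZero M]

/-- the stabiliser of `j(M z)` in `SL(2,ℤ)` is contained in `Γ₀(M)` (`Hol` form) -/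
theorem mem_Gamma0_of_compSL_jDilHol {g : SL(2, ℤ)}
    (h : compSL g (jDilHol M (NeZero.pos M)) = jDilHol M (NeZero.pos M)) : g ∈ Gamma0 M :=
  Fermat.Agent.S24_helper66.CosetSep.mem_Gamma0_of_jDil_smul_eq (NeZero.pos M) g fun τ =>
    congrFun (congrArg Subtype.val h) τ

/-- the pair `(j(M z), Θ)` -/
def pairFam (Θ : Hol) : Fin 2 → Hol := ![jDilHol M (NeZero.pos M), Θ]

theorem jointlySeparating_pairFam (Γ : Subgroup SL(2, ℤ)) (Θ : Hol)
    (hsep : ∀ g ∈ Gamma0 M, compSL g Θ = Θ → g ∈ pm Γ) :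
    JointlySeparating Γ (pairFam M Θ) := by
  intro g hg
  have h0 : compSL g (jDilHol M (NeZero.pos M)) = jDilHol M (NeZero.pos M) := hg 0
  have h1 : compSL g Θ = Θ := hg 1
  exact hsep g (mem_Gamma0_of_compSL_jDilHol M h0) h1

variable (Γ : Subgroup SL(2, ℤ)) [Γ.FiniteIndex]
variable {K : Type*} [Field K] [Algebra ℂ K] (real : K →ₐ[ℂ] Mer)

/-- **Field generation for `Γ ≤ Γ₀(M)`** from `j`, `j(M z)` and one function `Θ` separating `±Γ`
inside `Γ₀(M)`. -/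
theorem fieldGenHol_of_le_Gamma0 (hΓ : Γ ≤ Gamma0 M) (jK jMK θK : K) (Θ : Hol)
    (hj : real jK = algebraMap Hol Mer jH)
    (hjM : real jMK = algebraMap Hol Mer (jDilHol M (NeZero.pos M)))
    (hθ : real θK = algebraMap Hol Mer Θ)
    (hΘ : Θ ∈ MG M) (hΘinv : ∀ γ ∈ Γ, compSL γ Θ = Θ)
    (hsep : ∀ g ∈ Gamma0 M, compSL g Θ = Θ → g ∈ pm Γ)
    (H : Hol) (hinv : ∀ γ ∈ Γ, compSL γ H = H) (hgr : ModerateGrowth M (H : ℍ → ℂ)) :
    ∃ f : K, real f = algebraMap Hol Mer H := by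
  refine fieldGenHol_of_jointlySeparating Γ M real jK ![jMK, θK] (pairFam M Θ) hj ?_ ?_ ?_
    (jointlySeparating_pairFam M Γ Θ hsep) H hinv hgr
  · intro i
    fin_cases i
    · exact hjM
    · exact hθ
  · intro i
    fin_cases i
    · exact jDilHol_mem_MG M (NeZero.pos M) dvd_rfl
    · exact hΘ
  · intro i
    fin_cases i
    · exact fun γ hγ => compSL_jDilHol M (NeZero.pos M) dvd_rfl (hΓ hγ)
    · exact hΘinv

/-- **Field generation for `Γ₁(M)`**: the image of `real` contains every `Γ₁(M)`-invariant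
holomorphic function of moderate growth as soon as it contains `j`, `j(M z)` and a
`Γ₁(M)`-invariant `Θ` of moderate growth with `Θ ∘ g = Θ, g ∈ Γ₀(M) ⟹ g ∈ ±Γ₁(M)`. -/
theorem fieldGenHol_Gamma1 (jK jMK θK : K) (Θ : Hol)
    (hj : real jK = algebraMap Hol Mer jH)
    (hjM : real jMK = algebraMap Hol Mer (jDilHol M (NeZero.pos M)))
    (hθ : real θK = algebraMap Hol Mer Θ)
    (hΘ : Θ ∈ MG M) (hΘinv : ∀ γ ∈ Gamma1 M, compSL γ Θ = Θ)
    (hsep : ∀ g ∈ Gamma0 M, compSL g Θ = Θ → g ∈ pm (Gamma1 M))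
    (H : Hol) (hinv : ∀ γ ∈ Gamma1 M, compSL γ H = H) (hgr : ModerateGrowth M (H : ℍ → ℂ)) :
    ∃ f : K, real f = algebraMap Hol Mer H :=
  fieldGenHol_of_le_Gamma0 M (Gamma1 M) real (Gamma1_in_Gamma0 M) jK jMK θK Θ hj hjM hθ hΘ hΘinv hsep
    H hinv hgr

/-- membership in `±Γ₁(M)` for elements of `Γ₀(M)`: the lower right entry is `±1` mod `M` -/
theorem mem_pm_Gamma1_iff {g : SL(2, ℤ)} (hg : g ∈ Gamma0 M) :
    g ∈ pm (Gamma1 M) ↔ ((g 1 1 : ℤ) : ZMod M) = 1 ∨ ((g 1 1 : ℤ) : ZMod M) = -1 := by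
  have hc : ((g 1 0 : ℤ) : ZMod M) = 0 := Gamma0_mem.mp hg
  have hdet : ((g 0 0 : ℤ) : ZMod M) * ((g 1 1 : ℤ) : ZMod M) = 1 := by
    have h := Matrix.SpecialLinearGroup.det_coe g
    rw [Matrix.det_fin_two] at h
    have h2 := congrArg (fun x : ℤ => (x : ZMod M)) h
    simp only [Int.cast_sub, Int.cast_mul, Int.cast_one, hc, mul_zero, sub_zero] at h2
    exact h2
  rw [mem_pm, Gamma1_mem, Gamma1_mem]
  simp only [Matrix.SpecialLinearGroup.coe_neg, Matrix.neg_apply, Int.cast_neg, neg_eq_zero]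
  constructor
  · rintro (⟨-, h, -⟩ | ⟨-, h, -⟩)
    · exact Or.inl h
    · exact Or.inr (neg_eq_iff_eq_neg.mp h)
  · rintro (h | h)
    · left
      refine ⟨?_, h, hc⟩
      rw [h, mul_one] at hdet
      exact hdet
    · right
      refine ⟨?_, by rw [h, neg_neg], hc⟩
      rw [h, mul_neg, mul_one] at hdet
      exact hdet

end Pair

end Fermat.Agent.DS.P1.FieldGenG
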