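import Fermat.Agent.DS.P0.Weber
import Fermat.Agent.DS.P1.DegreeFG
import Fermat.Agent.DS.P1.OrbitGen
import Fermat.Agent.DS.P1.FieldGenAsm
import Fermat.Agent.DS.P1.FieldGenG1
import Fermat.Agent.S24.InteriorCounts

/-!
# GATE-N / S48 J1-PORT, node P1: the realisation of `F1C K M` (function field of `X₁(M)`) from
analytic Weber data (helper30)

INSTANCE of `DS/P1/RealizeGen` + `DS/P1/DegreeFG` + `DS/P1/OrbitGen` (helper96) +
`DS/P1/FieldGenAsm` (helper16) at the field `F1C K M = K(j(q^d) : d ∣ M, 12 w_M^{(a)} : a ≠ 0)` of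
`DS/P0/Weber.lean` (helper45), in HYPOTHESIS FORM on the analytic side:

`WeberData M` = holomorphic functions `W a` (`a ∈ ℤ/M`, `a ≠ 0`) on the upper half plane with
`q`-expansion `weber12C ℂ M a` at `i∞`, of moderate growth at all cusps, `Γ₁(M)`-invariant, and ONE
index `a₁` whose function has stabiliser `±Γ₁(M)` inside `Γ₀(M)`
(= helper71's `12 * weberFun M a`: (E3) of board 3472).

From `D : WeberData M`:
* `real1C D : F1C ℂ M →ₐ[ℂ] Mer`, `real1 D : F1C ℚ̄ M →ₐ[ℚ̄] Mer` with the values on the generators,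
  injective, invariant under `±Γ₁(M)`;
* `fieldGenHyp1 D` : field generation (`FieldGenHyp (Gamma1 M) M (real1C D)`), `sat1 D`;
* `finrank_F1C_C`, `finrank_F1 D : [F1C ℚ̄ M : ℚ̄(j)] = [SL₂(ℤ) : ±Γ₁(M)]`, `isGen_j1 D`;
* `realization1 D : OrbitGen.Realization1 (j1K M) (pm (Gamma1 M))`, `jRam_F1 D`,
  **`placeBranch_j1 D : PlaceBranch ℚ̄ (j1K M) (X (X - 1728))`** (= `x₀`, `hbr` of `k18sF_of_chart`).
-/

set_option autoImplicit false
set_option linter.unusedSectionVars false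

noncomputable section

namespace Fermat.Agent.DS.P1.RealizeF1

open UpperHalfPlane ModularCurve IntermediateField Polynomial CongruenceSubgroup AlgebraicCurve
open Fermat.Agent.S24 Fermat.Agent.S28 Fermat.Agent.S28.CuspExp
open Fermat.Agent.S24_helper62 Fermat.Agent.S24_helper82
open Fermat.Agent.GJ.Dict Fermat.Agent.GJ.Dict.FieldGen
open Fermat.Agent.DS.P0 Fermat.Agent.DS.P1.RealizeGen Fermat.Agent.DS.P1.FieldGenG
open Fermat.Agent.DS.P3.Sat1
open scoped MatrixGroups Manifold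

variable (M : ℕ) [NeZero M]

/-- the index set of the Weber generators -/
abbrev WIdx : Type := {a : ZMod M // a ≠ 0}

/-- the index set of all generators of `F1C K M` -/
abbrev GenIdx : Type := DivIdx M ⊕ WIdx M

/-- **Analytic Weber data** (the deliverable of the analytic part of P1). -/
structure WeberData where
  /-- the holomorphic function `12 · w_M^{(a)}` -/
  W : WIdx M → Hol
  isCE : ∀ a, IsCE 1 ((W a : Hol) : ℍ → ℂ)
  exp : ∀ a, cuspExp 1 ((W a : Hol) : ℍ → ℂ) = weber12C ℂ M a.1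
  mg : ∀ a, W a ∈ MG M
  inv : ∀ γ ∈ Gamma1 M, ∀ a, compSL γ (W a) = W a
  /-- a separating index -/
  a₁ : WIdx M
  stab : ∀ g ∈ Gamma0 M, compSL g (W a₁) = W a₁ → g ∈ Gamma1 M ∨ -g ∈ Gamma1 M

/-! ### The generator families -/

/-- the generator series over a field `K` -/
def serFam (K : Type*) [Field K] : GenIdx M → LaurentSeries K :=
  Sum.elim (jFam K M) (fun a => weber12C K M a.1)

theorem range_serFam (K : Type*) [Field K] :
    Set.range (serFam M K) = divisorExpansionsC K M ∪ weberExpansionsC K M := by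
  rw [serFam, Set.Sum.elim_range, range_jFam]
  congr 1
  ext x
  constructor
  · rintro ⟨a, rfl⟩
    exact ⟨a.1, a.2, rfl⟩
  · rintro ⟨a, ha, rfl⟩
    exact ⟨⟨a, ha⟩, rfl⟩

theorem F1C_eq_adjoin (K : Type*) [Field K] :
    F1C K M = IntermediateField.adjoin K (Set.range (serFam M K)) := by
  rw [range_serFam]
  rfl

variable {M}
variable (D : WeberData M)

/-- the holomorphic generators -/
def genFam : GenIdx M → Hol := Sum.elim (genHol M) D.W

theorem isCE_genFam (i : GenIdx M) : IsCE 1 ((genFam D i : Hol) : ℍ → ℂ) := by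
  rcases i with d | a
  · exact isCE_genFn M d
  · exact D.isCE a

theorem genSer_genFam : genSer (genFam D) = serFam M ℂ := by
  funext i
  rcases i with d | a
  · exact (jFam_eq_cuspExp M d).symm
  · exact D.exp a

theorem coeffMap_serFam (i : GenIdx M) :
    coeffMap iotaC (serFam M Kbar i) = cuspExp 1 ((genFam D i : Hol) : ℍ → ℂ) := by
  rcases i with d | a
  · exact coeffMap_jFam M d
  · show coeffMap iotaC (weber12C Kbar M a.1) = _
    rw [coeffMap_weber12C]
    exact (D.exp a).symm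

theorem F1C_eq_FG : F1C ℂ M = FG (genFam D) := by
  rw [F1C_eq_adjoin, RealizeGen.FG, genSer_genFam]

theorem F1C_eq_FK : F1C Kbar M = FK (serFam M Kbar) := F1C_eq_adjoin M Kbar

theorem genFam_mem_MG (i : GenIdx M) : genFam D i ∈ MG M := by
  rcases i with d | a
  · exact jDilHol_mem_MG M (DivIdx.pos M d) d.2
  · exact D.mg a

theorem genFam_inv_Gamma1 : ∀ γ ∈ Gamma1 M, ∀ i, compSL γ (genFam D i) = genFam D i := by
  intro γ hγ i
  rcases i with d | a
  · exact compSL_jDilHol M _ d.2 (Gamma1_in_Gamma0 M hγ)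
  · exact D.inv γ hγ a

theorem genFam_inv : ∀ γ ∈ pm (Gamma1 M), ∀ i, compSL γ (genFam D i) = genFam D i :=
  fun γ hγ i => invariant_pm (fun γ' hγ' => genFam_inv_Gamma1 D γ' hγ' i) γ hγ

theorem genFam_sep :
    ∀ δ : SL(2, ℤ), (∀ i, compSL δ (genFam D i) = genFam D i) → δ ∈ pm (Gamma1 M) := by
  intro δ h
  have h0 : δ ∈ Gamma0 M :=
    Fermat.Agent.DS.P1.FieldGenG.mem_Gamma0_of_compSL_jDilHol M (h (Sum.inl ⟨M, dvd_rfl⟩))
  exact mem_pm.mpr (D.stab δ h0 (h (Sum.inr D.a₁)))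

theorem genFam_mem_IMGG (i : GenIdx M) : genFam D i ∈ IMGG (Gamma1 M) M :=
  ⟨genFam_mem_MG D i, fun γ hγ => genFam_inv_Gamma1 D γ hγ i⟩

/-- the index of `j` -/
abbrev i₀ : GenIdx M := Sum.inl ⟨1, one_dvd M⟩

theorem genFam_i₀ : genFam D (i₀ (M := M)) = jH := rfl

/-! ### The realisations -/

/-- **the realisation of `ℂ(X₁(M))`** -/
def real1C : F1C ℂ M →ₐ[ℂ] Mer := realOf (genFam D) (isCE_genFam D) (F1C_eq_FG D)

/-- **the realisation of `ℚ̄(X₁(M))`** -/
def real1 : F1C Kbar M →ₐ[Kbar] Mer :=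
  realKOf (genFam D) (serFam M Kbar) (isCE_genFam D) (coeffMap_serFam D) F1C_eq_FK

theorem real1C_injective : Function.Injective (real1C D) := (real1C D).toRingHom.injective

theorem real1_injective : Function.Injective (real1 D) := (real1 D).toRingHom.injective

variable (M) in
/-- the generator `j(q^d)` of `F1C K M` -/
def jd1 (K : Type*) [Field K] (d : ℕ) [NeZero d] (hd : d ∣ M) : F1C K M :=
  ⟨qExpand K d (jqModC K), jqModCd_mem_F1C K M hd⟩

variable (M) in
/-- the generator `12 w_M^{(a)}` of `F1C K M` -/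
def w1 (K : Type*) [Field K] (a : ZMod M) (ha : a ≠ 0) : F1C K M :=
  ⟨weber12C K M a, weber12C_mem_F1C K M ha⟩

variable (M) in
/-- the element `j` of `F1C ℚ̄ M` -/
abbrev j1K : F1C Kbar M := jd1 M Kbar 1 (one_dvd M)

variable (M) in
/-- the element `j` of `F1C ℂ M` -/
abbrev j1C : F1C ℂ M := jd1 M ℂ 1 (one_dvd M)

theorem real1C_jd (d : ℕ) [NeZero d] (hd : d ∣ M) :
    real1C D (jd1 M ℂ d hd) =
      algebraMap Hol Mer (jDilHol d (Nat.pos_of_ne_zero (NeZero.ne d))) := by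
  have h := realOf_of_coe_eq (genFam D) (isCE_genFam D) (F1C_eq_FG D) (jd1 M ℂ d hd)
    (Sum.inl ⟨d, hd⟩) (by rw [genSer_genFam]; rfl)
  exact h

theorem real1C_w (a : ZMod M) (ha : a ≠ 0) :
    real1C D (w1 M ℂ a ha) = algebraMap Hol Mer (D.W ⟨a, ha⟩) := by
  have h := realOf_of_coe_eq (genFam D) (isCE_genFam D) (F1C_eq_FG D) (w1 M ℂ a ha)
    (Sum.inr ⟨a, ha⟩) (by rw [genSer_genFam]; rfl)
  exact h

theorem real1_jd (d : ℕ) [NeZero d] (hd : d ∣ M) :
    real1 D (jd1 M Kbar d hd) =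
      algebraMap Hol Mer (jDilHol d (Nat.pos_of_ne_zero (NeZero.ne d))) := by
  have h := realKOf_of_coe_eq (genFam D) (serFam M Kbar) (isCE_genFam D) (coeffMap_serFam D)
    F1C_eq_FK (jd1 M Kbar d hd) (Sum.inl ⟨d, hd⟩) rfl
  exact h

theorem real1_w (a : ZMod M) (ha : a ≠ 0) :
    real1 D (w1 M Kbar a ha) = algebraMap Hol Mer (D.W ⟨a, ha⟩) := by
  have h := realKOf_of_coe_eq (genFam D) (serFam M Kbar) (isCE_genFam D) (coeffMap_serFam D)
    F1C_eq_FK (w1 M Kbar a ha) (Sum.inr ⟨a, ha⟩) rfl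
  exact h

theorem real1C_j : real1C D (j1C M) = algebraMap Hol Mer jH := real1C_jd D 1 (one_dvd M)

theorem real1_j : real1 D (j1K M) = algebraMap Hol Mer jH := real1_jd D 1 (one_dvd M)

/-- **invariance of the realisation under `±Γ₁(M)`** (over `ℂ`) -/
theorem compM_real1C {γ : SL(2, ℤ)} (hγ : γ ∈ pm (Gamma1 M)) (f : F1C ℂ M) :
    compM γ (real1C D f) = real1C D f :=
  compM_realG_of_inv (genFam D) (isCE_genFam D) (genFam_inv D γ hγ) _

/-- **invariance of the realisation under `±Γ₁(M)`** (over `ℚ̄`) -/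
theorem compM_real1 {γ : SL(2, ℤ)} (hγ : γ ∈ pm (Gamma1 M)) (f : F1C Kbar M) :
    compM γ (real1 D f) = real1 D f :=
  compM_realK_of_inv (genFam D) (serFam M Kbar) (isCE_genFam D) (coeffMap_serFam D)
    (genFam_inv D γ hγ) _

/-! ### Field generation and saturation (helper16 `FieldGenAsm`) -/

/-- **(P1b)** every `Γ₁(M)`-invariant holomorphic function of moderate growth is realised -/
theorem fieldGenHyp1 :
    FieldGenHyp (Gamma1 M) M ((real1C D : F1C ℂ M →ₐ[ℂ] Mer) : F1C ℂ M →+* Mer) :=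
  Fermat.Agent.DS.P1.FieldGenAsm.fieldGenHyp_Gamma1_realOf M (genFam D) (isCE_genFam D)
    Sum.inl (fun _ => rfl) (F1C_eq_FG D) (Sum.inr D.a₁)
    (fun γ hγ => D.inv γ hγ D.a₁) (D.mg D.a₁) D.stab

/-- **saturation** (`hsat` of `KumCoreG`) -/
theorem sat1 {p : ℕ} (hp : 0 < p) :
    ∀ m : Mer, (∀ γ : Gamma1 M, compM (γ : SL(2, ℤ)) m = m) →
      m ^ p ∈ Set.range ((real1C D : F1C ℂ M →ₐ[ℂ] Mer) : F1C ℂ M →+* Mer) →
      m ∈ Set.range ((real1C D : F1C ℂ M →ₐ[ℂ] Mer) : F1C ℂ M →+* Mer) :=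
  Fermat.Agent.DS.P1.FieldGenAsm.sat_Gamma1_realOf M (genFam D) (isCE_genFam D)
    Sum.inl (fun _ => rfl) (F1C_eq_FG D) (Sum.inr D.a₁) (genFam_mem_IMGG D) D.stab hp

/-! ### Degree, generator, branch data -/

/-- the cosets of `±Γ₁(M)` form a finite type -/
instance instFintypeQuot : Fintype (SL(2, ℤ) ⧸ pm (Gamma1 M)) := Fintype.ofFinite _

theorem neg_one_mem_pm : (-1 : SL(2, ℤ)) ∈ pm (Gamma1 M) :=
  mem_pm.mpr (Or.inr (by rw [neg_neg]; exact (Gamma1 M).one_mem))

/-- transport of the degree statement along an equality of fields of series -/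
theorem finrank_of_eq {K : Type*} [Field K] {F F' : IntermediateField K (LaurentSeries K)}
    (hF : F = F') (x : F) (x' : F') (hx : (x : LaurentSeries K) = x') {n : ℕ}
    (h : FiniteDimensional K⟮x'⟯ F' ∧ Module.finrank K⟮x'⟯ F' = n) :
    FiniteDimensional K⟮x⟯ F ∧ Module.finrank K⟮x⟯ F = n := by
  subst hF
  have : x = x' := Subtype.ext hx
  subst this
  exact h

include D in
/-- **the degree over `ℂ`**: `[F1C ℂ M : ℂ(j)] = [SL₂(ℤ) : ±Γ₁(M)]` -/
theorem finrank_F1C_C : FiniteDimensional ℂ⟮j1C M⟯ (F1C ℂ M) ∧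
    Module.finrank ℂ⟮j1C M⟯ (F1C ℂ M) = Fintype.card (SL(2, ℤ) ⧸ pm (Gamma1 M)) :=
  finrank_of_eq (F1C_eq_FG D) (j1C M) (gen (genFam D) i₀)
    (by rw [coe_gen, genSer_genFam]; rfl)
    ⟨Fermat.Agent.DS.P1.DegreeFG.finiteDimensional_FG (genFam D) M (pm (Gamma1 M))
        (isCE_genFam D) (genFam_mem_MG D) (genFam_inv D) (genFam_sep D) i₀ (genFam_i₀ D),
      Fermat.Agent.DS.P1.DegreeFG.finrank_FG (genFam D) M (pm (Gamma1 M))
        (isCE_genFam D) (genFam_mem_MG D) (genFam_inv D) (genFam_sep D) i₀ (genFam_i₀ D)⟩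

include D in
/-- **the degree over `ℚ̄`**: `[F1C ℚ̄ M : ℚ̄(j)] = [SL₂(ℤ) : ±Γ₁(M)]` -/
theorem finrank_F1 : FiniteDimensional Kbar⟮j1K M⟯ (F1C Kbar M) ∧
    Module.finrank Kbar⟮j1K M⟯ (F1C Kbar M) = Fintype.card (SL(2, ℤ) ⧸ pm (Gamma1 M)) :=
  finrank_of_eq F1C_eq_FK (j1K M) (genK (serFam M Kbar) i₀) rfl
    ⟨Fermat.Agent.DS.P1.DegreeFG.finiteDimensional_FK (genFam D) (serFam M Kbar)
        (coeffMap_serFam D) M (pm (Gamma1 M)) (isCE_genFam D) (genFam_mem_MG D) (genFam_inv D)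
        (genFam_sep D) i₀ (genFam_i₀ D),
      Fermat.Agent.DS.P1.DegreeFG.finrank_FK (genFam D) (serFam M Kbar)
        (coeffMap_serFam D) M (pm (Gamma1 M)) (isCE_genFam D) (genFam_mem_MG D) (genFam_inv D)
        (genFam_sep D) i₀ (genFam_i₀ D)⟩

/-- **the realisation of `F1C ℚ̄ M` in helper96's `Realization1` form** -/
def realization1 : Fermat.Agent.DS.P1.OrbitGen.Realization1 (j1K M) (pm (Gamma1 M)) where
  ι := iotaC
  R := (real1 D : F1C Kbar M →+* Mer)
  R_const a := by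
    rw [RingHom.coe_coe, AlgHom.commutes]
    rfl
  jH := jH
  jH_apply τ := Fermat.Agent.S24.InteriorCounts.jDil_one_eq_jInv τ
  R_j := real1_j D
  R_inv _ hγ f := compM_real1 D hγ f

theorem realization1_conj_apply (q : SL(2, ℤ) ⧸ pm (Gamma1 M)) (f : F1C Kbar M) :
    (realization1 D).conj q f =
      SigK (genFam D) (serFam M Kbar) (isCE_genFam D) (coeffMap_serFam D) (Quotient.out q)
        ((IntermediateField.equivOfEq F1C_eq_FK) f) := rfl

/-- the conjugate embeddings are pairwise distinct -/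
theorem realization1_conj_injective : Function.Injective (realization1 D).conj := by
  intro q q' h
  have h1 : SigK (genFam D) (serFam M Kbar) (isCE_genFam D) (coeffMap_serFam D) (Quotient.out q) =
      SigK (genFam D) (serFam M Kbar) (isCE_genFam D) (coeffMap_serFam D) (Quotient.out q') := by
    apply AlgHom.ext
    intro f
    have h2 := DFunLike.congr_fun h ((IntermediateField.equivOfEq F1C_eq_FK).symm f)
    rw [realization1_conj_apply, realization1_conj_apply, AlgEquiv.apply_symm_apply] at h2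
    exact h2
  have h3 := coset_eq_of_SigK_eq (genFam D) (serFam M Kbar) (isCE_genFam D) (coeffMap_serFam D)
    (pm (Gamma1 M)) (genFam_sep D) h1
  have e1 : ((Quotient.out q : SL(2, ℤ)) : SL(2, ℤ) ⧸ pm (Gamma1 M)) = q := Quotient.out_eq' q
  have e2 : ((Quotient.out q' : SL(2, ℤ)) : SL(2, ℤ) ⧸ pm (Gamma1 M)) = q' := Quotient.out_eq' q'
  rw [← e1, ← e2]
  exact h3

include D

/-- **`j` is a generator of `F1C ℚ̄ M`** (`x₀` of `k18sF_of_chart`) -/
theorem isGen_j1 : IsGen Kbar (j1K M) :=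
  ⟨(realization1 D).transcendental_jF, (finrank_F1 D).1⟩

/-- **the branch datum of `F1C ℚ̄ M / ℚ̄(j)`** away from the cusps -/
theorem jRam_F1 (v : Place Kbar (F1C Kbar M)) : Fermat.Agent.GJ.Aux.Branch.JRam v (j1K M) := by
  have := (finrank_F1 D).1
  exact (realization1 D).jRam neg_one_mem_pm (realization1_conj_injective D)
    (finrank_F1 D).2.symm v

/-- **`hbr` of `k18sF_of_chart` at `t = j`** for `F1C ℚ̄ M` -/
theorem placeBranch_j1 :
    Fermat.Agent.GJ.J1.DiffAdapter.PlaceBranch Kbar (j1K M) (X * (X - C (1728 : Kbar))) := by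
  have := (finrank_F1 D).1
  exact (realization1 D).placeBranch_j neg_one_mem_pm (realization1_conj_injective D)
    (finrank_F1 D).2.symm

/-- `hbr` at the Hauptmodul chart `t₂` -/
theorem placeBranch_t2_F1 {t : F1C Kbar M} (hrel : j1K M * t ^ 2 = (t + 256) ^ 3) :
    Fermat.Agent.GJ.J1.DiffAdapter.PlaceBranch Kbar t (X * (X - C (-64 : Kbar))) := by
  have := (finrank_F1 D).1
  exact (realization1 D).placeBranch_t2 neg_one_mem_pm (realization1_conj_injective D)
    (finrank_F1 D).2.symm hrel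

/-- `hbr` at the Hauptmodul chart `t₃` -/
theorem placeBranch_t3_F1 {t : F1C Kbar M} (hrel : j1K M * t ^ 3 = (t + 27) * (t + 243) ^ 3) :
    Fermat.Agent.GJ.J1.DiffAdapter.PlaceBranch Kbar t (X * (X - C (-27 : Kbar))) := by
  have := (finrank_F1 D).1
  exact (realization1 D).placeBranch_t3 neg_one_mem_pm (realization1_conj_injective D)
    (finrank_F1 D).2.symm hrel

end Fermat.Agent.DS.P1.RealizeF1
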