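/-
S48 / Γ₁(M)-port, node P1-DIA, instance (helper45): **the diamond automorphisms of `ℚ̄(X₁(M))`.**

`D : WeberData M` (helper30 `RealizeF1`, = helper71's analytic Weber functions) together with the
`Γ₀(M)`-law `(12 w_a) ∘ g = 12 w_{a g₀₀}` (`Gamma0Law D`; helper71 `compSL_weberHol_of_mem_Gamma0`).
For every unit `u` of `ℤ/M`:

* `diaK D hlaw u : F1C ℚ̄ M ≃ₐ[ℚ̄] F1C ℚ̄ M`  — the MODULI diamond `(E, P) ↦ (E, uP)`
  (PORT RULING 1 (A3): `dia_u = ⟨u⟩_std⁻¹`), with
  `coe_diaK_w : dia_u (12 w^{(a)}) = 12 w^{(a u)}`, `coe_diaK_jd : dia_u (j(q^d)) = j(q^d)`,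
  `real1_diaK : real1 (dia_u x) = (real1 x) ∘ g` for `g ∈ Γ₀(M)`, `g₀₀ ≡ u`,
  `diaK_unique`, `diaK_one`, `diaK_mul`, `diaK_inclFull` (identity on `ℚ̄(X₀(M))`);
* `diaK_gal : dia_u (σ x) = σ (dia_u x)` for the coefficientwise action of `σ ∈ G_ℚ`;
* `dia D hlaw u` : the same on `↥(laurentBaseChange ℚ̄ (F1 M))` (the `FL F₀` of P4/P5 at
  `F₀ := F1 M`), `coe_dia`, **`dia_comm`** (= `DiaComm` of `DS/P5/KumType1` = `DiaGal` of
  `DS/P4/ESGen`, unfolded).
-/
import Fermat.Agent.DS.P1.DiaGen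
import Fermat.Agent.DS.P1.RealizeF1
import Fermat.Agent.DS.Hecke.Diamond

set_option autoImplicit false
set_option linter.unusedSectionVars false
set_option maxHeartbeats 200000

noncomputable section

namespace Fermat.Agent.DS.P1.DiaF1

open UpperHalfPlane ModularCurve IntermediateField CongruenceSubgroup
open Fermat.Agent.S24 Fermat.Agent.S28 Fermat.Agent.S28.CuspExp
open Fermat.Agent.S24_helper62 Fermat.Agent.S24_helper82
open Fermat.Agent.GJ.Dict
open Fermat.Agent.DS.P0 Fermat.Agent.DS.P1.RealizeGen Fermat.Agent.DS.P1.RealizeF1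
open Fermat.Agent.DS.P1.DiaGen
open scoped MatrixGroups Manifold

variable {M : ℕ} [NeZero M]

/-! ### The permutation of the generator indices -/

/-- multiplication by a unit on the nonzero residues -/
def mulW (u : (ZMod M)ˣ) : Equiv.Perm (WIdx M) where
  toFun a := ⟨a.1 * u, fun h => a.2 (by
    have := congrArg (· * ((u⁻¹ : (ZMod M)ˣ) : ZMod M)) h
    simpa [mul_assoc] using this)⟩
  invFun a := ⟨a.1 * ((u⁻¹ : (ZMod M)ˣ) : ZMod M), fun h => a.2 (by
    have := congrArg (· * (u : ZMod M)) h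
    simpa [mul_assoc] using this)⟩
  left_inv a := Subtype.ext (by simp [mul_assoc])
  right_inv a := Subtype.ext (by simp [mul_assoc])

@[simp] theorem coe_mulW (u : (ZMod M)ˣ) (a : WIdx M) : ((mulW u a : WIdx M) : ZMod M) = a.1 * u :=
  rfl

/-- the permutation of the generators of `F1C K M` attached to a unit -/
def permIdx (u : (ZMod M)ˣ) : Equiv.Perm (RealizeF1.GenIdx M) :=
  Equiv.sumCongr (Equiv.refl _) (mulW u)

theorem permIdx_inl (u : (ZMod M)ˣ) (d : DivIdx M) : permIdx u (Sum.inl d) = Sum.inl d := rfl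

theorem permIdx_inr (u : (ZMod M)ˣ) (a : WIdx M) :
    permIdx u (Sum.inr a) = Sum.inr (mulW u a) := rfl

/-! ### The `Γ₀(M)`-law -/

variable (D : WeberData M)

/-- **the `Γ₀(M)`-law** of the Weber functions: `(12 w_a) ∘ g = 12 w_{a g₀₀}` -/
def Gamma0Law : Prop :=
  ∀ g ∈ Gamma0 M, ∀ (a : WIdx M) (h : a.1 * ((g 0 0 : ℤ) : ZMod M) ≠ 0),
    compSL g (D.W a) = D.W ⟨a.1 * ((g 0 0 : ℤ) : ZMod M), h⟩

variable {D}

/-- an element of `Γ₀(M)` with upper left entry `≡ u` permutes the generators by `permIdx u` -/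
theorem compSL_genFam (hlaw : Gamma0Law D) {g : SL(2, ℤ)} (hg : g ∈ Gamma0 M) {u : (ZMod M)ˣ}
    (hu : ((g 0 0 : ℤ) : ZMod M) = u) (i : RealizeF1.GenIdx M) :
    compSL g (genFam D i) = genFam D (permIdx u i) := by
  rcases i with d | a
  · exact compSL_jDilHol M _ d.2 hg
  · show compSL g (D.W a) = D.W (mulW u a)
    have h : a.1 * ((g 0 0 : ℤ) : ZMod M) ≠ 0 := by rw [hu]; exact (mulW u a).2
    rw [hlaw g hg a h]
    congr 1
    exact Subtype.ext (by
      show a.1 * ((g 0 0 : ℤ) : ZMod M) = a.1 * (u : ZMod M)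
      rw [hu])

/-- a representative in `Γ₀(M)` with upper left entry `≡ u` -/
theorem exists_mem_Gamma0_a (u : (ZMod M)ˣ) :
    ∃ g : SL(2, ℤ), g ∈ Gamma0 M ∧ ((g 0 0 : ℤ) : ZMod M) = u := by
  obtain ⟨g, hg, hd⟩ := Fermat.Agent.DS.Hecke.exists_mem_Gamma0_d (N := M) u⁻¹
  refine ⟨g, hg, ?_⟩
  have h := Fermat.Agent.DS.Hecke.a_mul_d hg
  rw [hd] at h
  have := congrArg (· * (u : ZMod M)) h
  simpa [mul_assoc] using this

/-- the chosen representative -/
def rep (u : (ZMod M)ˣ) : SL(2, ℤ) := (exists_mem_Gamma0_a u).choose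

theorem rep_mem (u : (ZMod M)ˣ) : rep u ∈ Gamma0 M := (exists_mem_Gamma0_a u).choose_spec.1

theorem rep_a (u : (ZMod M)ˣ) : (((rep u) 0 0 : ℤ) : ZMod M) = u :=
  (exists_mem_Gamma0_a u).choose_spec.2

/-! ### The diamond automorphisms of `F1C ℚ̄ M` -/

variable (D)

/-- the diamond on `FK (serFam M ℚ̄)` -/
def diaFK (hlaw : Gamma0Law D) (u : (ZMod M)ˣ) :
    FK (serFam M Kbar) ≃ₐ[Kbar] FK (serFam M Kbar) :=
  permEquiv (genFam D) (serFam M Kbar) (isCE_genFam D) (coeffMap_serFam D) (permIdx u)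
    (compSL_genFam hlaw (rep_mem u) (rep_a u))

/-- **the moduli diamond `⟨u⟩ : (E, P) ↦ (E, uP)` on `ℚ̄(X₁(M))`** -/
def diaK (hlaw : Gamma0Law D) (u : (ZMod M)ˣ) : F1C Kbar M ≃ₐ[Kbar] F1C Kbar M :=
  ((IntermediateField.equivOfEq (F1C_eq_FK (M := M))).trans (diaFK D hlaw u)).trans
    (IntermediateField.equivOfEq (F1C_eq_FK (M := M))).symm

variable {D}

omit [NeZero M] in
/-- the coercion of `equivOfEq` is the identity on the underlying series -/
theorem coe_equivOfEq {K : Type*} [Field K] {S T : IntermediateField K (LaurentSeries K)}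
    (h : S = T) (x : S) :
    ((IntermediateField.equivOfEq h x : T) : LaurentSeries K) = (x : LaurentSeries K) := rfl

theorem coe_diaK (hlaw : Gamma0Law D) (u : (ZMod M)ˣ) (x : F1C Kbar M) :
    ((diaK D hlaw u x : F1C Kbar M) : LaurentSeries Kbar) =
      ((diaFK D hlaw u (IntermediateField.equivOfEq (F1C_eq_FK (M := M)) x) :
        FK (serFam M Kbar)) : LaurentSeries Kbar) := by
  unfold diaK
  rw [AlgEquiv.trans_apply, AlgEquiv.trans_apply, IntermediateField.equivOfEq_symm,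
    coe_equivOfEq]

theorem equivOfEq_w1 (a : ZMod M) (ha : a ≠ 0) :
    IntermediateField.equivOfEq (F1C_eq_FK (M := M)) (w1 M Kbar a ha) =
      genK (serFam M Kbar) (Sum.inr ⟨a, ha⟩) :=
  Subtype.ext (coe_equivOfEq _ _)

theorem equivOfEq_jd1 (d : ℕ) [NeZero d] (hd : d ∣ M) :
    IntermediateField.equivOfEq (F1C_eq_FK (M := M)) (jd1 M Kbar d hd) =
      genK (serFam M Kbar) (Sum.inl ⟨d, hd⟩) :=
  Subtype.ext (coe_equivOfEq _ _)

/-- `⟨u⟩ (12 w^{(a)}) = 12 w^{(a u)}` -/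
theorem coe_diaK_w (hlaw : Gamma0Law D) (u : (ZMod M)ˣ) (a : ZMod M) (ha : a ≠ 0) :
    ((diaK D hlaw u (w1 M Kbar a ha) : F1C Kbar M) : LaurentSeries Kbar) =
      weber12C Kbar M (a * u) := by
  rw [coe_diaK, equivOfEq_w1, diaFK, permEquiv_genK, coe_genK]
  rfl

/-- `⟨u⟩ (j(q^d)) = j(q^d)` -/
theorem coe_diaK_jd (hlaw : Gamma0Law D) (u : (ZMod M)ˣ) (d : ℕ) [NeZero d] (hd : d ∣ M) :
    ((diaK D hlaw u (jd1 M Kbar d hd) : F1C Kbar M) : LaurentSeries Kbar) =
      qExpand Kbar d (jqModC Kbar) := by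
  rw [coe_diaK, equivOfEq_jd1, diaFK, permEquiv_genK, coe_genK]
  rfl

/-- `equivOfEq ∘ ⟨u⟩ = ⟨u⟩_{FK} ∘ equivOfEq` -/
theorem equivOfEq_diaK (hlaw : Gamma0Law D) (u : (ZMod M)ˣ) (x : F1C Kbar M) :
    IntermediateField.equivOfEq (F1C_eq_FK (M := M)) (diaK D hlaw u x) =
      diaFK D hlaw u (IntermediateField.equivOfEq (F1C_eq_FK (M := M)) x) :=
  Subtype.ext (by rw [coe_equivOfEq, coe_diaK])

/-- the diamond on `FK` does not depend on the representative `g ∈ Γ₀(M)`, `g₀₀ ≡ u` -/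
theorem diaFK_apply_eq_permHom (hlaw : Gamma0Law D) {g : SL(2, ℤ)} (hg : g ∈ Gamma0 M)
    {u : (ZMod M)ˣ} (hu : ((g 0 0 : ℤ) : ZMod M) = u) (y : FK (serFam M Kbar)) :
    diaFK D hlaw u y =
      permHom (genFam D) (serFam M Kbar) (isCE_genFam D) (coeffMap_serFam D)
        (compSL_genFam hlaw hg hu) y := by
  have h := permHom_unique (genFam D) (serFam M Kbar) (isCE_genFam D) (coeffMap_serFam D)
    (compSL_genFam hlaw hg hu) ((diaFK D hlaw u : FK (serFam M Kbar) ≃ₐ[Kbar] _) : _ →ₐ[Kbar] _)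
    (fun i => permEquiv_genK _ _ _ _ _ _ i)
  exact DFunLike.congr_fun h y

/-- **the diamond is `f ↦ f ∘ g`** on the realisation, for every `g ∈ Γ₀(M)` with `g₀₀ ≡ u` -/
theorem real1_diaK (hlaw : Gamma0Law D) {g : SL(2, ℤ)} (hg : g ∈ Gamma0 M) {u : (ZMod M)ˣ}
    (hu : ((g 0 0 : ℤ) : ZMod M) = u) (x : F1C Kbar M) :
    real1 D (diaK D hlaw u x) = compM g (real1 D x) := by
  show realK (genFam D) (serFam M Kbar) (isCE_genFam D) (coeffMap_serFam D)
      (IntermediateField.equivOfEq (F1C_eq_FK (M := M)) (diaK D hlaw u x)) =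
    compM g (realK (genFam D) (serFam M Kbar) (isCE_genFam D) (coeffMap_serFam D)
      (IntermediateField.equivOfEq (F1C_eq_FK (M := M)) x))
  rw [equivOfEq_diaK, diaFK_apply_eq_permHom hlaw hg hu, realK_permHom]

/-- `F1C ℚ̄ M`-algebra homomorphisms are determined by their values on the generators -/
theorem algHom_ext_F1C {L : Type*} [Field L] [Algebra Kbar L] ⦃φ ψ : F1C Kbar M →ₐ[Kbar] L⦄
    (hj : ∀ (d : ℕ) [NeZero d] (hd : d ∣ M), φ (jd1 M Kbar d hd) = ψ (jd1 M Kbar d hd))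
    (hw : ∀ (a : ZMod M) (ha : a ≠ 0), φ (w1 M Kbar a ha) = ψ (w1 M Kbar a ha)) : φ = ψ := by
  apply IntermediateField.algHom_ext_of_eq_adjoin Kbar (F1C_eq_FK (M := M))
  rintro x ⟨i, rfl⟩
  rcases i with d | a
  · exact hj d.1 d.2
  · exact hw a.1 a.2

/-- the diamond is characterised by its values on the generators -/
theorem diaK_unique (hlaw : Gamma0Law D) (u : (ZMod M)ˣ) (φ : F1C Kbar M →ₐ[Kbar] F1C Kbar M)
    (hj : ∀ (d : ℕ) [NeZero d] (hd : d ∣ M), φ (jd1 M Kbar d hd) = jd1 M Kbar d hd)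
    (hw : ∀ (a : ZMod M) (ha : a ≠ 0),
      ((φ (w1 M Kbar a ha) : F1C Kbar M) : LaurentSeries Kbar) = weber12C Kbar M (a * u)) :
    φ = (diaK D hlaw u : F1C Kbar M →ₐ[Kbar] F1C Kbar M) := by
  apply algHom_ext_F1C
  · intro d _ hd
    rw [hj d hd]
    exact Subtype.ext (coe_diaK_jd hlaw u d hd).symm
  · intro a ha
    exact Subtype.ext ((hw a ha).trans (coe_diaK_w hlaw u a ha).symm)

theorem diaK_one (hlaw : Gamma0Law D) : diaK D hlaw 1 = AlgEquiv.refl := by
  apply AlgEquiv.coe_toAlgHom_injective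
  refine (diaK_unique hlaw 1 (AlgHom.id Kbar _) (fun _ _ _ => rfl) (fun a ha => ?_)).symm
  show weber12C Kbar M a = weber12C Kbar M (a * ((1 : (ZMod M)ˣ) : ZMod M))
  rw [Units.val_one, mul_one]

theorem diaK_mul (hlaw : Gamma0Law D) (u v : (ZMod M)ˣ) (x : F1C Kbar M) :
    diaK D hlaw (u * v) x = diaK D hlaw v (diaK D hlaw u x) := by
  have h := diaK_unique hlaw (u * v)
    ((diaK D hlaw v : F1C Kbar M →ₐ[Kbar] F1C Kbar M).comp
      (diaK D hlaw u : F1C Kbar M →ₐ[Kbar] F1C Kbar M))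
    (fun d _ hd => ?_) (fun a ha => ?_)
  · exact (DFunLike.congr_fun h x).symm
  · have e1 : diaK D hlaw u (jd1 M Kbar d hd) = jd1 M Kbar d hd :=
      Subtype.ext (coe_diaK_jd hlaw u d hd)
    have e2 : diaK D hlaw v (jd1 M Kbar d hd) = jd1 M Kbar d hd :=
      Subtype.ext (coe_diaK_jd hlaw v d hd)
    show diaK D hlaw v (diaK D hlaw u (jd1 M Kbar d hd)) = _
    rw [e1, e2]
  · have hau : a * (u : ZMod M) ≠ 0 := (mulW u ⟨a, ha⟩).2
    have e1 : diaK D hlaw u (w1 M Kbar a ha) = w1 M Kbar (a * u) hau :=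
      Subtype.ext (coe_diaK_w hlaw u a ha)
    show ((diaK D hlaw v (diaK D hlaw u (w1 M Kbar a ha)) : F1C Kbar M) : LaurentSeries Kbar) = _
    rw [e1, coe_diaK_w, Units.val_mul, mul_assoc]

/-- the diamonds are the identity on `ℚ̄(X₀(M))` -/
theorem diaK_of_mem_fullC (hlaw : Gamma0Law D) (u : (ZMod M)ˣ) (x : F1C Kbar M)
    (hx : (x : LaurentSeries Kbar) ∈ modularFunctionFieldFullC Kbar M) :
    diaK D hlaw u x = x := by
  have key : ((diaK D hlaw u : F1C Kbar M →ₐ[Kbar] F1C Kbar M).comp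
      (IntermediateField.inclusion (fullC_le_F1C Kbar M))) =
      (IntermediateField.inclusion (fullC_le_F1C Kbar M)) := by
    apply IntermediateField.algHom_ext_of_eq_adjoin Kbar
      (rfl : modularFunctionFieldFullC Kbar M = _)
    rintro y ⟨d, hne, hd, rfl⟩
    have := hne
    have e : IntermediateField.inclusion (fullC_le_F1C Kbar M)
        ⟨qExpand Kbar d (jqModC Kbar),
          IntermediateField.subset_adjoin Kbar _ ⟨d, hne, hd, rfl⟩⟩ = jd1 M Kbar d hd :=
      Subtype.ext rfl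
    rw [AlgHom.comp_apply, e]
    exact Subtype.ext (coe_diaK_jd hlaw u d hd)
  have := DFunLike.congr_fun key ⟨(x : LaurentSeries Kbar), hx⟩
  have e2 : IntermediateField.inclusion (fullC_le_F1C Kbar M)
      ⟨(x : LaurentSeries Kbar), hx⟩ = x := Subtype.ext rfl
  rw [AlgHom.comp_apply, e2] at this
  exact this

/-! ### The diamonds are defined over `ℚ` -/

section Galois

omit [NeZero M] in
/-- the generators have rational coefficients -/
theorem coeffMap_serFam_self [NeZero M] (τ : Kbar →+* Kbar) (i : RealizeF1.GenIdx M) :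
    coeffMap τ (serFam M Kbar i) = serFam M Kbar i := by
  rcases i with d | a
  · show coeffMap τ (jFam Kbar M d) = jFam Kbar M d
    rw [jFam, coeffMap_qExpand, coeffMap_jqModC]
  · show coeffMap τ (weber12C Kbar M a.1) = weber12C Kbar M a.1
    rw [coeffMap_weber12C]

/-- the coefficientwise action of a ring endomorphism of `ℚ̄` on `F1C ℚ̄ M` -/
def galK (τ : Kbar →+* Kbar) : F1C Kbar M →+* F1C Kbar M where
  toFun x := ⟨coeffMap τ (x : LaurentSeries Kbar), coeffMap_mem_F1C Kbar M τ x.2⟩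
  map_one' := Subtype.ext (map_one _)
  map_mul' x y := Subtype.ext (map_mul _ _ _)
  map_zero' := Subtype.ext (map_zero _)
  map_add' x y := Subtype.ext (map_add _ _ _)

@[simp]
theorem coe_galK (τ : Kbar →+* Kbar) (x : F1C Kbar M) :
    ((galK τ x : F1C Kbar M) : LaurentSeries Kbar) = coeffMap τ (x : LaurentSeries Kbar) := rfl

/-- **the diamonds commute with the coefficientwise Galois action** -/
theorem diaK_galK (hlaw : Gamma0Law D) (u : (ZMod M)ˣ) (τ : Kbar →+* Kbar) (x : F1C Kbar M) :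
    diaK D hlaw u (galK τ x) = galK τ (diaK D hlaw u x) := by
  apply Subtype.ext
  rw [coe_diaK, coe_galK, coe_diaK]
  have e : IntermediateField.equivOfEq (F1C_eq_FK (M := M)) (galK τ x) =
      galFK (serFam M Kbar) τ (coeffMap_serFam_self τ)
        (IntermediateField.equivOfEq (F1C_eq_FK (M := M)) x) :=
    Subtype.ext (by rw [coe_equivOfEq, coe_galK, coe_galFK, coe_equivOfEq])
  rw [e, diaFK_apply_eq_permHom hlaw (rep_mem u) (rep_a u), permHom_galFK, coe_galFK,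
    ← diaFK_apply_eq_permHom hlaw (rep_mem u) (rep_a u)]

end Galois

/-! ### On `laurentBaseChange ℚ̄ (F1 M)` (the `FL F₀` of P4 / P5 at `F₀ := F1 M`) -/

section FL

variable (D)

/-- **the moduli diamond `⟨u⟩` on `FL (F1 M) = ↥(laurentBaseChange ℚ̄ (F1 M))`** -/
def dia (hlaw : Gamma0Law D) (u : (ZMod M)ˣ) :
    ↥(laurentBaseChange Kbar (F1 M)) ≃ₐ[Kbar] ↥(laurentBaseChange Kbar (F1 M)) :=
  ((IntermediateField.equivOfEq (laurentBaseChange_F1 Kbar M)).trans (diaK D hlaw u)).trans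
    (IntermediateField.equivOfEq (laurentBaseChange_F1 Kbar M)).symm

variable {D}

theorem coe_dia (hlaw : Gamma0Law D) (u : (ZMod M)ˣ) (x : ↥(laurentBaseChange Kbar (F1 M))) :
    ((dia D hlaw u x : ↥(laurentBaseChange Kbar (F1 M))) : LaurentSeries Kbar) =
      ((diaK D hlaw u (IntermediateField.equivOfEq (laurentBaseChange_F1 Kbar M) x) :
        F1C Kbar M) : LaurentSeries Kbar) := by
  unfold dia
  rw [AlgEquiv.trans_apply, AlgEquiv.trans_apply, IntermediateField.equivOfEq_symm,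
    coe_equivOfEq]

/-- the value on an element whose series is `12 w^{(a)}` -/
theorem coe_dia_of_coe_eq_w (hlaw : Gamma0Law D) (u : (ZMod M)ˣ)
    (x : ↥(laurentBaseChange Kbar (F1 M))) {a : ZMod M} (ha : a ≠ 0)
    (hx : (x : LaurentSeries Kbar) = weber12C Kbar M a) :
    ((dia D hlaw u x : ↥(laurentBaseChange Kbar (F1 M))) : LaurentSeries Kbar) =
      weber12C Kbar M (a * u) := by
  rw [coe_dia]
  have e : IntermediateField.equivOfEq (laurentBaseChange_F1 Kbar M) x = w1 M Kbar a ha :=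
    Subtype.ext (by rw [coe_equivOfEq, hx]; rfl)
  rw [e, coe_diaK_w]

/-- the diamonds fix the functions of `X₀(M)` -/
theorem dia_of_mem_fullC (hlaw : Gamma0Law D) (u : (ZMod M)ˣ)
    (x : ↥(laurentBaseChange Kbar (F1 M)))
    (hx : (x : LaurentSeries Kbar) ∈ modularFunctionFieldFullC Kbar M) :
    dia D hlaw u x = x := by
  apply Subtype.ext
  rw [coe_dia, diaK_of_mem_fullC hlaw u _ (by rw [coe_equivOfEq]; exact hx), coe_equivOfEq]

/-- **(DIA-GAL) = `DiaComm`**: the diamonds are defined over `ℚ` — they commute with the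
arithmetic Galois action `arithmeticRingAut (F1 M) σ` on `FL (F1 M)` -/
theorem dia_comm (hlaw : Gamma0Law D) (u : (ZMod M)ˣ)
    (σ : Kbar ≃ₐ[ℚ] Kbar) (x : ↥(laurentBaseChange Kbar (F1 M))) :
    dia D hlaw u (arithmeticRingAut (F1 M) σ x) =
      arithmeticRingAut (F1 M) σ (dia D hlaw u x) := by
  apply Subtype.ext
  rw [coe_dia, coe_arithmeticRingAut_apply, coe_dia]
  have e : IntermediateField.equivOfEq (laurentBaseChange_F1 Kbar M)
      (arithmeticRingAut (F1 M) σ x) =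
      galK (σ : Kbar →+* Kbar) (IntermediateField.equivOfEq (laurentBaseChange_F1 Kbar M) x) :=
    Subtype.ext (by
      rw [coe_equivOfEq, coe_arithmeticRingAut_apply, coe_galK, coe_equivOfEq])
  rw [e, diaK_galK, coe_galK]

theorem dia_one (hlaw : Gamma0Law D) (x : ↥(laurentBaseChange Kbar (F1 M))) :
    dia D hlaw 1 x = x := by
  apply Subtype.ext
  rw [coe_dia, diaK_one]
  rfl

theorem dia_mul (hlaw : Gamma0Law D) (u v : (ZMod M)ˣ) (x : ↥(laurentBaseChange Kbar (F1 M))) :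
    dia D hlaw (u * v) x = dia D hlaw v (dia D hlaw u x) := by
  apply Subtype.ext
  have e : IntermediateField.equivOfEq (laurentBaseChange_F1 Kbar M) (dia D hlaw u x) =
      diaK D hlaw u (IntermediateField.equivOfEq (laurentBaseChange_F1 Kbar M) x) :=
    Subtype.ext (by rw [coe_equivOfEq, coe_dia])
  rw [coe_dia, coe_dia, diaK_mul, e]

end FL

end Fermat.Agent.DS.P1.DiaF1
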