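import Mathlib
import Fermat.Agent.DS.P1.RealizeGen

/-!
# GATE-N / S48 J1-PORT, node P1 (DIA, generic part): automorphisms of a field of `q`-expansions
from elements of `SL(2,ℤ)` PERMUTING the generator functions (helper30; hedge for `DiaGen`)

Context of `DS/P1/RealizeGen.lean`: `G : σ → Hol` with cusp expansions, `M : σ → ℚ̄((q))` with
`coeffMap iotaC (M i) = cuspExp 1 (G i)`, `FK M = ℚ̄(M i : i)`, `realK : FK M →ₐ[ℚ̄] Mer`.

If `g ∈ SL(2,ℤ)` and `π : σ → σ` satisfy `compSL g (G i) = G (π i)` for all `i`, then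

* `permHom g π hg : FK M →ₐ[ℚ̄] FK M` with `permHom (genK M i) = genK M (π i)` and
  `realK (permHom x) = compM g (realK x)` (`permHom_genK`, `realK_permHom`); it is the unique
  `ℚ̄`-algebra endomorphism with these values (`eq_permHom`), depends only on `π` (`permHom_congr`)
  and is multiplicative (`permHom_permHom`, `permHom_id`);
* `permEquiv g π hg : FK M ≃ₐ[ℚ̄] FK M` for `π : Equiv.Perm σ`;
* `permHom_comm_coeffwise` : **`permHom` commutes with every coefficientwise Galois automorphism**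
  `A : FK M ≃+* FK M`, `(A x : ℚ̄((q))) = coeffMap τ x`, as soon as `τ` fixes the generator series
  (`coeffMap τ (M i) = M i`, e.g. rational coefficients) — the shape of `P5.KumType1.DiaComm`;
* the same on any `F = FK M` : `permEquivOf`, `coe_permEquivOf_of_coe_eq`, `realKOf_permEquivOf`,
  `permEquivOf_comm_coeffwise`, `permEquivOf_trans`, `permEquivOf_congr`.
-/

set_option autoImplicit false
set_option linter.unusedSectionVars false

noncomputable section

namespace Fermat.Agent.DS.P1.PermGen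

open UpperHalfPlane ModularCurve Fermat.Agent.S24 Fermat.Agent.S28 Fermat.Agent.S28.CuspExp
open Fermat.Agent.S24_helper62 Fermat.Agent.S24_helper82 Fermat.Agent.GJ.Dict
open Fermat.Agent.DS.P1.RealizeGen
open scoped MatrixGroups Manifold

section OverKbar

variable {σ : Type*} (G : σ → Hol) (M : σ → LaurentSeries Kbar)

omit M in
/-- the inverse element permutes by the inverse permutation -/
theorem compSL_inv_of_perm {g : SL(2, ℤ)} {π : Equiv.Perm σ}
    (hg : ∀ i, compSL g (G i) = G (π i)) (i : σ) : compSL g⁻¹ (G i) = G (π.symm i) := by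
  have h := hg (π.symm i)
  rw [Equiv.apply_symm_apply] at h
  rw [← h, ← compSL_mul, mul_inv_cancel, compSL_one]

omit M in
/-- products permute by the composite -/
theorem compSL_mul_of_perm {g₁ g₂ : SL(2, ℤ)} {π₁ π₂ : σ → σ}
    (hg₁ : ∀ i, compSL g₁ (G i) = G (π₁ i)) (hg₂ : ∀ i, compSL g₂ (G i) = G (π₂ i)) (i : σ) :
    compSL (g₂ * g₁) (G i) = G (π₁ (π₂ i)) := by
  rw [compSL_mul, hg₂, hg₁]

variable (hCE : ∀ i, IsCE 1 ((G i : Hol) : ℍ → ℂ))
  (hM : ∀ i, coeffMap iotaC (M i) = cuspExp 1 ((G i : Hol) : ℍ → ℂ))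
include hCE hM

theorem realK_aeval_perm (π : σ → σ) (P : MvPolynomial σ Kbar) :
    realK G M hCE hM (MvPolynomial.aeval (fun i => genK M (π i)) P) =
      MvPolynomial.aeval (fun i => genMer G (π i)) P := by
  rw [MvPolynomial.comp_aeval_apply]
  have h : (fun i => realK G M hCE hM (genK M (π i))) = fun i => genMer G (π i) :=
    funext fun i => realK_gen G M hCE hM (π i)
  rw [h]

/-- **kernel comparison** for the permuted generators -/
theorem aeval_M_eq_zero_iff_perm (g : SL(2, ℤ)) (π : σ → σ)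
    (hg : ∀ i, compSL g (G i) = G (π i)) (P : MvPolynomial σ Kbar) :
    MvPolynomial.aeval M P = 0 ↔ MvPolynomial.aeval (fun i => genK M (π i)) P = 0 := by
  rw [aeval_M_eq_zero_iff G M hCE hM,
    ← map_eq_zero_iff (realK G M hCE hM) (realK_injective G M hCE hM),
    realK_aeval_perm G M hCE hM]
  have h : (fun i => genMer G (π i)) = fun i => compMₐ g (genMer G i) := funext fun i => by
    show algebraMap Hol Mer (G (π i)) = compM g (algebraMap Hol Mer (G i))
    rw [compM_algebraMap, hg i]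
  rw [h, ← MvPolynomial.comp_aeval_apply]
  exact (map_eq_zero_iff (compMₐ g) (compMₐ g).toRingHom.injective).symm

/-- **the endomorphism of `FK M` induced by `g` permuting the generators by `π`** -/
def permHom (g : SL(2, ℤ)) (π : σ → σ) (hg : ∀ i, compSL g (G i) = G (π i)) :
    FK M →ₐ[Kbar] FK M :=
  (exists_algHom_adjoin_field_two M (fun i => genK M (π i))
    (aeval_M_eq_zero_iff_perm G M hCE hM g π hg)).choose

theorem permHom_genK (g : SL(2, ℤ)) (π : σ → σ) (hg : ∀ i, compSL g (G i) = G (π i)) (i : σ) :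
    permHom G M hCE hM g π hg (genK M i) = genK M (π i) :=
  (exists_algHom_adjoin_field_two M (fun i => genK M (π i))
    (aeval_M_eq_zero_iff_perm G M hCE hM g π hg)).choose_spec i

omit hCE hM in
/-- uniqueness -/
theorem algHom_eq_of_genK {π : σ → σ} {φ ψ : FK M →ₐ[Kbar] FK M}
    (hφ : ∀ i, φ (genK M i) = genK M (π i)) (hψ : ∀ i, ψ (genK M i) = genK M (π i)) : φ = ψ :=
  algHom_ext_FK M fun i => by rw [hφ, hψ]

theorem eq_permHom (g : SL(2, ℤ)) (π : σ → σ) (hg : ∀ i, compSL g (G i) = G (π i))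
    {φ : FK M →ₐ[Kbar] FK M} (hφ : ∀ i, φ (genK M i) = genK M (π i)) :
    φ = permHom G M hCE hM g π hg :=
  algHom_eq_of_genK M hφ (permHom_genK G M hCE hM g π hg)

/-- `permHom` depends only on the permutation -/
theorem permHom_congr (g g' : SL(2, ℤ)) (π : σ → σ) (hg : ∀ i, compSL g (G i) = G (π i))
    (hg' : ∀ i, compSL g' (G i) = G (π i)) :
    permHom G M hCE hM g π hg = permHom G M hCE hM g' π hg' :=
  eq_permHom G M hCE hM g' π hg' (permHom_genK G M hCE hM g π hg)

/-- **compatibility with the realisation** -/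
theorem realK_permHom (g : SL(2, ℤ)) (π : σ → σ) (hg : ∀ i, compSL g (G i) = G (π i))
    (x : FK M) :
    realK G M hCE hM (permHom G M hCE hM g π hg x) = compM g (realK G M hCE hM x) := by
  have h : (realK G M hCE hM).comp (permHom G M hCE hM g π hg) =
      (compMₐ g).comp (realK G M hCE hM) := by
    apply algHom_ext_FK
    intro i
    show realK G M hCE hM (permHom G M hCE hM g π hg (genK M i)) =
      compM g (realK G M hCE hM (genK M i))
    rw [permHom_genK, realK_gen, realK_gen, compM_algebraMap, hg i]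
  exact DFunLike.congr_fun h x

theorem permHom_id (g : SL(2, ℤ)) (hg : ∀ i, compSL g (G i) = G i) :
    permHom G M hCE hM g id hg = AlgHom.id Kbar (FK M) :=
  (eq_permHom G M hCE hM g id hg fun _ => rfl).symm

theorem permHom_id_apply (g : SL(2, ℤ)) (hg : ∀ i, compSL g (G i) = G i) (x : FK M) :
    permHom G M hCE hM g id hg x = x :=
  DFunLike.congr_fun (permHom_id G M hCE hM g hg) x

/-- multiplicativity -/
theorem permHom_permHom (g₁ g₂ : SL(2, ℤ)) (π₁ π₂ : σ → σ)
    (hg₁ : ∀ i, compSL g₁ (G i) = G (π₁ i)) (hg₂ : ∀ i, compSL g₂ (G i) = G (π₂ i)) (x : FK M) :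
    permHom G M hCE hM g₁ π₁ hg₁ (permHom G M hCE hM g₂ π₂ hg₂ x) =
      permHom G M hCE hM (g₂ * g₁) (fun i => π₁ (π₂ i)) (compSL_mul_of_perm G hg₁ hg₂) x := by
  have h : (permHom G M hCE hM g₁ π₁ hg₁).comp (permHom G M hCE hM g₂ π₂ hg₂) =
      permHom G M hCE hM (g₂ * g₁) (fun i => π₁ (π₂ i)) (compSL_mul_of_perm G hg₁ hg₂) := by
    apply eq_permHom
    intro i
    show permHom G M hCE hM g₁ π₁ hg₁ (permHom G M hCE hM g₂ π₂ hg₂ (genK M i)) = _
    rw [permHom_genK, permHom_genK]
  exact DFunLike.congr_fun h x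

/-- **the automorphism of `FK M` induced by `g` permuting the generators by `π`** -/
def permEquiv (g : SL(2, ℤ)) (π : Equiv.Perm σ) (hg : ∀ i, compSL g (G i) = G (π i)) :
    FK M ≃ₐ[Kbar] FK M :=
  AlgEquiv.ofAlgHom (permHom G M hCE hM g π hg)
    (permHom G M hCE hM g⁻¹ π.symm (compSL_inv_of_perm G hg))
    (by
      apply algHom_ext_FK
      intro i
      show permHom G M hCE hM g π hg (permHom G M hCE hM g⁻¹ π.symm _ (genK M i)) = genK M i
      rw [permHom_genK, permHom_genK, Equiv.apply_symm_apply])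
    (by
      apply algHom_ext_FK
      intro i
      show permHom G M hCE hM g⁻¹ π.symm _ (permHom G M hCE hM g π hg (genK M i)) = genK M i
      rw [permHom_genK, permHom_genK, Equiv.symm_apply_apply])

theorem permEquiv_apply (g : SL(2, ℤ)) (π : Equiv.Perm σ) (hg : ∀ i, compSL g (G i) = G (π i))
    (x : FK M) : permEquiv G M hCE hM g π hg x = permHom G M hCE hM g π hg x := rfl

theorem permEquiv_symm_apply (g : SL(2, ℤ)) (π : Equiv.Perm σ)
    (hg : ∀ i, compSL g (G i) = G (π i)) (x : FK M) :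
    (permEquiv G M hCE hM g π hg).symm x =
      permHom G M hCE hM g⁻¹ π.symm (compSL_inv_of_perm G hg) x := rfl

theorem permEquiv_genK (g : SL(2, ℤ)) (π : Equiv.Perm σ) (hg : ∀ i, compSL g (G i) = G (π i))
    (i : σ) : permEquiv G M hCE hM g π hg (genK M i) = genK M (π i) :=
  permHom_genK G M hCE hM g π hg i

theorem realK_permEquiv (g : SL(2, ℤ)) (π : Equiv.Perm σ) (hg : ∀ i, compSL g (G i) = G (π i))
    (x : FK M) :
    realK G M hCE hM (permEquiv G M hCE hM g π hg x) = compM g (realK G M hCE hM x) :=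
  realK_permHom G M hCE hM g π hg x

theorem permEquiv_congr (g g' : SL(2, ℤ)) (π : Equiv.Perm σ)
    (hg : ∀ i, compSL g (G i) = G (π i)) (hg' : ∀ i, compSL g' (G i) = G (π i)) :
    permEquiv G M hCE hM g π hg = permEquiv G M hCE hM g' π hg' :=
  AlgEquiv.ext fun x => DFunLike.congr_fun (permHom_congr G M hCE hM g g' π hg hg') x

theorem permEquiv_one_apply (g : SL(2, ℤ)) (hg : ∀ i, compSL g (G i) = G ((1 : Equiv.Perm σ) i))
    (x : FK M) : permEquiv G M hCE hM g 1 hg x = x :=
  permHom_id_apply G M hCE hM g hg x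

theorem permEquiv_permEquiv (g₁ g₂ : SL(2, ℤ)) (π₁ π₂ : Equiv.Perm σ)
    (hg₁ : ∀ i, compSL g₁ (G i) = G (π₁ i)) (hg₂ : ∀ i, compSL g₂ (G i) = G (π₂ i)) (x : FK M) :
    permEquiv G M hCE hM g₁ π₁ hg₁ (permEquiv G M hCE hM g₂ π₂ hg₂ x) =
      permEquiv G M hCE hM (g₂ * g₁) (π₁ * π₂)
        (compSL_mul_of_perm G (π₁ := π₁) (π₂ := π₂) hg₁ hg₂) x :=
  permHom_permHom G M hCE hM g₁ g₂ π₁ π₂ hg₁ hg₂ x

/-! ### Commutation with the coefficientwise Galois action -/

omit hCE hM in
theorem coeffwise_genK {τ : Kbar ≃ₐ[ℚ] Kbar} {A : FK M ≃+* FK M}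
    (hA : ∀ x : FK M, ((A x : FK M) : LaurentSeries Kbar) =
      coeffMap (τ : Kbar →+* Kbar) (x : LaurentSeries Kbar))
    (hrat : ∀ i, coeffMap (τ : Kbar →+* Kbar) (M i) = M i) (i : σ) :
    A (genK M i) = genK M i :=
  Subtype.ext (by rw [hA, coe_genK, hrat])

omit hCE hM in
theorem coeffwise_algebraMap {τ : Kbar ≃ₐ[ℚ] Kbar} {A : FK M ≃+* FK M}
    (hA : ∀ x : FK M, ((A x : FK M) : LaurentSeries Kbar) =
      coeffMap (τ : Kbar →+* Kbar) (x : LaurentSeries Kbar)) (c : Kbar) :
    A (algebraMap Kbar (FK M) c) = algebraMap Kbar (FK M) (τ c) :=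
  Subtype.ext (by
    rw [hA]
    exact coeffMap_algebraMap (τ : Kbar →+* Kbar) c)

/-- **`permHom` commutes with the coefficientwise Galois action** when the generator series are
fixed by it (`= DiaComm` of `P5/KumType1`). -/
theorem permHom_comm_coeffwise (g : SL(2, ℤ)) (π : σ → σ) (hg : ∀ i, compSL g (G i) = G (π i))
    (τ : Kbar ≃ₐ[ℚ] Kbar) (A : FK M ≃+* FK M)
    (hA : ∀ x : FK M, ((A x : FK M) : LaurentSeries Kbar) =
      coeffMap (τ : Kbar →+* Kbar) (x : LaurentSeries Kbar))
    (hrat : ∀ i, coeffMap (τ : Kbar →+* Kbar) (M i) = M i) (x : FK M) :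
    permHom G M hCE hM g π hg (A x) = A (permHom G M hCE hM g π hg x) := by
  set φ := permHom G M hCE hM g π hg with hφ
  -- the conjugate `A⁻¹ ∘ φ ∘ A` is again a `ℚ̄`-algebra endomorphism
  let ψ : FK M →ₐ[Kbar] FK M :=
    { toRingHom := (A.symm : FK M →+* FK M).comp ((φ : FK M →+* FK M).comp (A : FK M →+* FK M))
      commutes' := fun c => by
        show A.symm (φ (A (algebraMap Kbar (FK M) c))) = algebraMap Kbar (FK M) c
        rw [coeffwise_algebraMap M hA, AlgHom.commutes, RingEquiv.symm_apply_eq,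
          coeffwise_algebraMap M hA] }
  have hψ : ψ = φ := by
    apply algHom_eq_of_genK M (π := π)
    · intro i
      show A.symm (φ (A (genK M i))) = genK M (π i)
      rw [coeffwise_genK M hA hrat, hφ, permHom_genK, RingEquiv.symm_apply_eq,
        coeffwise_genK M hA hrat]
    · intro i
      rw [hφ, permHom_genK]
  have h := DFunLike.congr_fun hψ x
  have h' : A.symm (φ (A x)) = φ x := h
  rw [RingEquiv.symm_apply_eq] at h'
  exact h'

theorem permEquiv_comm_coeffwise (g : SL(2, ℤ)) (π : Equiv.Perm σ)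
    (hg : ∀ i, compSL g (G i) = G (π i))
    (τ : Kbar ≃ₐ[ℚ] Kbar) (A : FK M ≃+* FK M)
    (hA : ∀ x : FK M, ((A x : FK M) : LaurentSeries Kbar) =
      coeffMap (τ : Kbar →+* Kbar) (x : LaurentSeries Kbar))
    (hrat : ∀ i, coeffMap (τ : Kbar →+* Kbar) (M i) = M i) (x : FK M) :
    permEquiv G M hCE hM g π hg (A x) = A (permEquiv G M hCE hM g π hg x) :=
  permHom_comm_coeffwise G M hCE hM g π hg τ A hA hrat x

/-! ### On any field equal to `FK M` -/

/-- the automorphism on any `F = FK M` -/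
def permEquivOf {F : IntermediateField Kbar (LaurentSeries Kbar)} (hF : F = FK M)
    (g : SL(2, ℤ)) (π : Equiv.Perm σ) (hg : ∀ i, compSL g (G i) = G (π i)) : F ≃ₐ[Kbar] F :=
  ((IntermediateField.equivOfEq hF).trans (permEquiv G M hCE hM g π hg)).trans
    (IntermediateField.equivOfEq hF).symm

theorem coe_permEquivOf {F : IntermediateField Kbar (LaurentSeries Kbar)} (hF : F = FK M)
    (g : SL(2, ℤ)) (π : Equiv.Perm σ) (hg : ∀ i, compSL g (G i) = G (π i)) (x : F) :
    ((permEquivOf G M hCE hM hF g π hg x : F) : LaurentSeries Kbar) =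
      ((permEquiv G M hCE hM g π hg ⟨(x : LaurentSeries Kbar), hF ▸ x.2⟩ : FK M) :
        LaurentSeries Kbar) := rfl

/-- values on the generators -/
theorem coe_permEquivOf_of_coe_eq {F : IntermediateField Kbar (LaurentSeries Kbar)}
    (hF : F = FK M) (g : SL(2, ℤ)) (π : Equiv.Perm σ) (hg : ∀ i, compSL g (G i) = G (π i))
    (x : F) (i : σ) (hx : (x : LaurentSeries Kbar) = M i) :
    ((permEquivOf G M hCE hM hF g π hg x : F) : LaurentSeries Kbar) = M (π i) := by
  rw [coe_permEquivOf]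
  have : (⟨(x : LaurentSeries Kbar), hF ▸ x.2⟩ : FK M) = genK M i := Subtype.ext hx
  rw [this, permEquiv_genK, coe_genK]

/-- **compatibility with the realisation** -/
theorem realKOf_permEquivOf {F : IntermediateField Kbar (LaurentSeries Kbar)} (hF : F = FK M)
    (g : SL(2, ℤ)) (π : Equiv.Perm σ) (hg : ∀ i, compSL g (G i) = G (π i)) (x : F) :
    realKOf G M hCE hM hF (permEquivOf G M hCE hM hF g π hg x) =
      compM g (realKOf G M hCE hM hF x) := by
  subst hF
  exact realK_permEquiv G M hCE hM g π hg x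

theorem permEquivOf_congr {F : IntermediateField Kbar (LaurentSeries Kbar)} (hF : F = FK M)
    (g g' : SL(2, ℤ)) (π : Equiv.Perm σ) (hg : ∀ i, compSL g (G i) = G (π i))
    (hg' : ∀ i, compSL g' (G i) = G (π i)) :
    permEquivOf G M hCE hM hF g π hg = permEquivOf G M hCE hM hF g' π hg' := by
  rw [permEquivOf, permEquivOf, permEquiv_congr G M hCE hM g g' π hg hg']

theorem permEquivOf_one_apply {F : IntermediateField Kbar (LaurentSeries Kbar)} (hF : F = FK M)
    (g : SL(2, ℤ)) (hg : ∀ i, compSL g (G i) = G ((1 : Equiv.Perm σ) i)) (x : F) :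
    permEquivOf G M hCE hM hF g 1 hg x = x := by
  subst hF
  exact permEquiv_one_apply G M hCE hM g hg x

theorem permEquivOf_permEquivOf {F : IntermediateField Kbar (LaurentSeries Kbar)} (hF : F = FK M)
    (g₁ g₂ : SL(2, ℤ)) (π₁ π₂ : Equiv.Perm σ)
    (hg₁ : ∀ i, compSL g₁ (G i) = G (π₁ i)) (hg₂ : ∀ i, compSL g₂ (G i) = G (π₂ i)) (x : F) :
    permEquivOf G M hCE hM hF g₁ π₁ hg₁ (permEquivOf G M hCE hM hF g₂ π₂ hg₂ x) =
      permEquivOf G M hCE hM hF (g₂ * g₁) (π₁ * π₂)
        (compSL_mul_of_perm G (π₁ := π₁) (π₂ := π₂) hg₁ hg₂) x := by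
  subst hF
  exact permEquiv_permEquiv G M hCE hM g₁ g₂ π₁ π₂ hg₁ hg₂ x

/-- **commutation with the coefficientwise Galois action** on any `F = FK M` -/
theorem permEquivOf_comm_coeffwise {F : IntermediateField Kbar (LaurentSeries Kbar)}
    (hF : F = FK M) (g : SL(2, ℤ)) (π : Equiv.Perm σ) (hg : ∀ i, compSL g (G i) = G (π i))
    (τ : Kbar ≃ₐ[ℚ] Kbar) (A : F ≃+* F)
    (hA : ∀ x : F, ((A x : F) : LaurentSeries Kbar) =
      coeffMap (τ : Kbar →+* Kbar) (x : LaurentSeries Kbar))
    (hrat : ∀ i, coeffMap (τ : Kbar →+* Kbar) (M i) = M i) (x : F) :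
    permEquivOf G M hCE hM hF g π hg (A x) = A (permEquivOf G M hCE hM hF g π hg x) := by
  subst hF
  exact permEquiv_comm_coeffwise G M hCE hM g π hg τ A hA hrat x

end OverKbar

end Fermat.Agent.DS.P1.PermGen
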