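import Mathlib
import Fermat.Agent.S28.DiscSeries

/-!
# GATE-N / S48-P1-WEBER-AN (L): regrouping Lambert-type double series into power series

For weights `w j k` with `‖w j k‖ ≤ C k`, the double series `∑_{j,k ≥ 1} w j k t^{jk}` converges
absolutely on the unit disc and equals the power series with coefficients
`∑_{jk = n} w j k`.
-/

set_option autoImplicit false

noncomputable section

namespace Fermat.Agent.DS.P1

open Complex PowerSeries Fermat.Agent.S28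
open scoped Topology

/-- the coefficients `∑_{jk = n} w j k` -/
def lamCoeff (w : ℕ → ℕ → ℂ) (n : ℕ) : ℂ := ∑ p ∈ n.divisorsAntidiagonal, w p.1 p.2

@[simp] theorem lamCoeff_zero (w : ℕ → ℕ → ℂ) : lamCoeff w 0 = 0 := by
  simp [lamCoeff]

/-- the power series `∑_n (∑_{jk = n} w j k) t^n` -/
def lamSeries (w : ℕ → ℕ → ℂ) : PowerSeries ℂ := PowerSeries.mk (lamCoeff w)

@[simp] theorem coeff_lamSeries (w : ℕ → ℕ → ℂ) (n : ℕ) :
    coeff n (lamSeries w) = lamCoeff w n := by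
  simp [lamSeries]

section

variable {w : ℕ → ℕ → ℂ} {C : ℝ}

theorem summable_norm_lam (hw : ∀ j k, ‖w j k‖ ≤ C * k) {t : ℂ} (ht : ‖t‖ < 1) :
    Summable fun p : ℕ+ × ℕ+ => ‖w p.1 p.2 * t ^ ((p.1 : ℕ) * p.2)‖ := by
  have hr : ‖(‖t‖ : ℝ)‖ < 1 := by simpa using ht
  have h := (summable_prod_mul_pow (𝕜 := ℝ) 1 hr).mul_left C
  refine Summable.of_nonneg_of_le (fun _ => norm_nonneg _) (fun p => ?_) h
  rw [norm_mul, norm_pow]
  have := hw p.1 p.2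
  have h2 : (0 : ℝ) ≤ ‖t‖ ^ ((p.1 : ℕ) * p.2) := by positivity
  calc ‖w p.1 p.2‖ * ‖t‖ ^ ((p.1 : ℕ) * p.2) ≤ C * (p.2 : ℕ) * ‖t‖ ^ ((p.1 : ℕ) * p.2) :=
        mul_le_mul_of_nonneg_right this h2
    _ = C * ((p.2 : ℝ) ^ 1 * ‖t‖ ^ ((p.1 : ℕ) * p.2)) := by
        rw [pow_one]; ring

theorem summable_lam (hw : ∀ j k, ‖w j k‖ ≤ C * k) {t : ℂ} (ht : ‖t‖ < 1) :
    Summable fun p : ℕ+ × ℕ+ => w p.1 p.2 * t ^ ((p.1 : ℕ) * p.2) :=
  (summable_norm_lam hw ht).of_norm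

/-- the double series regrouped along `n = j k` -/
theorem hasSum_lam_pnat (hw : ∀ j k, ‖w j k‖ ≤ C * k) {t : ℂ} (ht : ‖t‖ < 1) :
    HasSum (fun n : ℕ+ => lamCoeff w n * t ^ (n : ℕ))
      (∑' p : ℕ+ × ℕ+, w p.1 p.2 * t ^ ((p.1 : ℕ) * p.2)) := by
  have hs := summable_lam hw ht
  have hs' : Summable fun x : (Σ n : ℕ+, Nat.divisorsAntidiagonal n) =>
      w (sigmaAntidiagonalEquivProd x).1 (sigmaAntidiagonalEquivProd x).2 *
        t ^ (((sigmaAntidiagonalEquivProd x).1 : ℕ) * (sigmaAntidiagonalEquivProd x).2) :=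
    (sigmaAntidiagonalEquivProd.summable_iff (f := fun p : ℕ+ × ℕ+ =>
      w p.1 p.2 * t ^ ((p.1 : ℕ) * p.2))).mpr hs
  have h1 := hs'.hasSum
  rw [sigmaAntidiagonalEquivProd.tsum_eq (fun p : ℕ+ × ℕ+ =>
      w p.1 p.2 * t ^ ((p.1 : ℕ) * p.2))] at h1
  have h2 := h1.sigma fun n => (hasSum_fintype _)
  refine h2.congr_fun fun n => ?_
  rw [lamCoeff, Finset.sum_mul, ← Finset.sum_coe_sort]
  refine Finset.sum_congr rfl fun b _ => ?_
  have hb := (Nat.mem_divisorsAntidiagonal.mp b.2).1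
  show w b.1.1 b.1.2 * t ^ (n : ℕ) = w b.1.1 b.1.2 * t ^ (b.1.1 * b.1.2)
  rw [hb]

/-- the same as a sum over `ℕ` -/
theorem hasSum_lam (hw : ∀ j k, ‖w j k‖ ≤ C * k) {t : ℂ} (ht : ‖t‖ < 1) :
    HasSum (fun n : ℕ => coeff n (lamSeries w) * t ^ n)
      (∑' p : ℕ+ × ℕ+, w p.1 p.2 * t ^ ((p.1 : ℕ) * p.2)) := by
  have h := hasSum_lam_pnat hw ht
  have hinj : Function.Injective (fun n : ℕ+ => (n : ℕ)) := PNat.coe_injective
  rw [← hinj.hasSum_iff (f := fun n : ℕ => coeff n (lamSeries w) * t ^ n)] at *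
  · simpa [Function.comp_def] using h
  · intro n hn
    have : n = 0 := by
      by_contra h0
      exact hn ⟨⟨n, Nat.pos_of_ne_zero h0⟩, rfl⟩
    subst this
    simp

theorem conv_lamSeries (hw : ∀ j k, ‖w j k‖ ≤ C * k) : Conv (lamSeries w) :=
  fun _ ht => (hasSum_lam hw ht).summable

theorem evalDisc_lamSeries (hw : ∀ j k, ‖w j k‖ ≤ C * k) {t : ℂ} (ht : ‖t‖ < 1) :
    evalDisc (lamSeries w) t = ∑' p : ℕ+ × ℕ+, w p.1 p.2 * t ^ ((p.1 : ℕ) * p.2) :=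
  (hasSum_lam hw ht).tsum_eq

end

end Fermat.Agent.DS.P1
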