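import Mathlib

set_option autoImplicit false

/-!
# The `q`-expansion of Mathlib's Weierstrass `℘` for the period pair `(1, T)`

`hasSum_weierstrassP_rows` : for `T ∈ ℍ`, `|Im z| < Im T`, `z ∉ ℤ`, with `q = e(T)`, `u = e(z)`:
`℘(z) / (2πi)² = 1/12 + u/(1-u)² + ∑_{n,k ≥ 1} k q^{nk} (u^k + u^{-k} - 2)`
(absolutely convergent double series over `ℕ+ × ℕ+`).  Mathlib only.  Analytic kernel of the
Weber/Fricke functions of the `Γ₁(M)` port (GATE-N, S48-P1).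
-/

noncomputable section

namespace Fermat.Agent.DS.P1.WpRows

open Complex PeriodPair Filter Topology
open UpperHalfPlane hiding I
open scoped Real

/-- `S w = ∑_{m ∈ ℤ} 1 / (w + m)²` -/
def rowSum (w : ℂ) : ℂ := ∑' m : ℤ, 1 / (w + m) ^ 2

theorem summable_rowSum (w : ℂ) : Summable fun m : ℤ => 1 / (w + m) ^ 2 := by
  have h := EisensteinSeries.linear_right_summable w 1 (k := 2) le_rfl
  refine h.congr fun m => ?_
  simp [zpow_ofNat]

theorem hasSum_rowSum (w : ℂ) : HasSum (fun m : ℤ => 1 / (w + m) ^ 2) (rowSum w) :=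
  (summable_rowSum w).hasSum

theorem hasSum_rowSum_sub (w : ℂ) : HasSum (fun m : ℤ => 1 / (w - m) ^ 2) (rowSum w) := by
  have h := (Equiv.neg ℤ).hasSum_iff.mpr (hasSum_rowSum w)
  refine h.congr_fun fun m => ?_
  simp [sub_eq_add_neg]

theorem rowSum_neg (w : ℂ) : rowSum (-w) = rowSum w := by
  have h := hasSum_rowSum_sub w
  have h2 : HasSum (fun m : ℤ => 1 / (-w + m) ^ 2) (rowSum w) := by
    refine h.congr_fun fun m => ?_
    congr 1
    ring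
  exact (hasSum_rowSum (-w)).unique h2

/-- `E x = ∑_{k ≥ 1} k x^k` -/
def geomE (x : ℂ) : ℂ := ∑' k : ℕ+, (k : ℂ) * x ^ (k : ℕ)

theorem hasSum_geomE_nat {x : ℂ} (hx : ‖x‖ < 1) :
    HasSum (fun k : ℕ => (k : ℂ) * x ^ k) (x / (1 - x) ^ 2) :=
  hasSum_coe_mul_geometric_of_norm_lt_one hx

theorem hasSum_geomE {x : ℂ} (hx : ‖x‖ < 1) :
    HasSum (fun k : ℕ+ => (k : ℂ) * x ^ (k : ℕ)) (x / (1 - x) ^ 2) := by
  have h := hasSum_geomE_nat hx
  have h2 := (hasSum_nat_add_iff' (f := fun k : ℕ => (k : ℂ) * x ^ k) 1).mpr h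
  simp only [Finset.range_one, Finset.sum_singleton, Nat.cast_zero, zero_mul, sub_zero] at h2
  exact (hasSum_pnat_iff_hasSum_succ (f := fun k : ℕ => (k : ℂ) * x ^ k)).mpr h2

theorem geomE_eq {x : ℂ} (hx : ‖x‖ < 1) : geomE x = x / (1 - x) ^ 2 :=
  (hasSum_geomE hx).tsum_eq

theorem hasSum_geomE' {x : ℂ} (hx : ‖x‖ < 1) :
    HasSum (fun k : ℕ+ => (k : ℂ) * x ^ (k : ℕ)) (geomE x) := by
  rw [geomE_eq hx]; exact hasSum_geomE hx

theorem norm_cexp_two_pi_I_mul (w : ℂ) : ‖cexp (2 * π * I * w)‖ = Real.exp (-2 * π * w.im) := by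
  rw [Complex.norm_exp]
  congr 1
  simp [Complex.mul_re, Complex.mul_im]

theorem norm_cexp_lt_one {w : ℂ} (hw : 0 < w.im) : ‖cexp (2 * π * I * w)‖ < 1 := by
  rw [norm_cexp_two_pi_I_mul, Real.exp_lt_one_iff]
  have := Real.pi_pos
  nlinarith

theorem rowSum_eq_of_im_pos {w : ℂ} (hw : 0 < w.im) :
    rowSum w = -(4 * π ^ 2) * geomE (cexp (2 * π * I * w)) := by
  have h := EisensteinSeries.qExpansion_identity_pnat (k := 1) le_rfl ⟨w, hw⟩
  rw [rowSum, geomE]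
  rw [show (1 + 1 : ℕ) = 2 from rfl] at h
  rw [h]
  congr 1
  · simp only [Nat.factorial_one, Nat.cast_one, div_one]
    ring_nf
    simp [I_sq]
  · refine tsum_congr fun k => ?_
    simp


/-! ### Continuity of the row sum and its closed form -/

theorem exists_pos_le_norm_add_int {w₀ : ℂ} (hw₀ : ∀ n : ℤ, w₀ ≠ n) :
    ∃ ε : ℝ, 0 < ε ∧ ∀ m : ℤ, ε ≤ ‖w₀ + m‖ := by
  have hopen : IsOpen (Set.range (fun n : ℤ => (n : ℂ)))ᶜ := Complex.isOpen_compl_range_intCast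
  have hmem : -w₀ ∈ (Set.range (fun n : ℤ => (n : ℂ)))ᶜ := by
    rintro ⟨n, hn⟩
    apply hw₀ (-n)
    have hn' : (n : ℂ) = -w₀ := hn
    have : w₀ = -(n : ℂ) := by rw [hn']; ring
    rw [this]; push_cast; ring
  obtain ⟨ε, hε, hball⟩ := Metric.isOpen_iff.mp hopen _ hmem
  refine ⟨ε, hε, fun m => ?_⟩
  by_contra hlt
  replace hlt := not_le.mp hlt
  have : ((m : ℤ) : ℂ) ∈ Metric.ball (-w₀) ε := by
    rw [Metric.mem_ball, dist_eq_norm]
    have : (m : ℂ) - -w₀ = w₀ + m := by ring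
    rw [this]; exact hlt
  exact hball this ⟨m, rfl⟩

theorem continuousAt_rowSum {w₀ : ℂ} (hw₀ : ∀ n : ℤ, w₀ ≠ n) : ContinuousAt rowSum w₀ := by
  obtain ⟨ε, hε, hle⟩ := exists_pos_le_norm_add_int hw₀
  have hkey : ∀ m : ℤ, ∀ w ∈ Metric.ball w₀ (ε / 2), ‖w₀ + m‖ / 2 ≤ ‖w + m‖ := by
    intro m w hw
    rw [Metric.mem_ball, dist_eq_norm] at hw
    have h1 : ‖w₀ + m‖ ≤ ‖w + m‖ + ‖w - w₀‖ := by
      have : w₀ + m = (w + m) - (w - w₀) := by ring
      rw [this]; exact norm_sub_le _ _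
    have := hle m
    linarith
  have hcont : ContinuousOn rowSum (Metric.ball w₀ (ε / 2)) := by
    refine continuousOn_tsum (u := fun m : ℤ => 4 * ‖1 / (w₀ + m) ^ 2‖) (fun m => ?_)
      ((summable_rowSum w₀).norm.mul_left 4) (fun m w hw => ?_)
    · refine ContinuousOn.div continuousOn_const (by fun_prop) (fun w hw => ?_)
      have h1 := hkey m w hw
      have h2 := hle m
      have : 0 < ‖w + m‖ := by linarith
      exact pow_ne_zero 2 (norm_pos_iff.mp this)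
    · have h1 := hkey m w hw
      have h2 := hle m
      have hpos : 0 < ‖w₀ + m‖ := by linarith
      rw [norm_div, norm_div, norm_one, norm_pow, norm_pow]
      rw [show 4 * (1 / ‖w₀ + (m : ℂ)‖ ^ 2) = 1 / (‖w₀ + (m : ℂ)‖ / 2) ^ 2 by field_simp; ring]
      apply one_div_le_one_div_of_le (by positivity)
      exact pow_le_pow_left₀ (by positivity) h1 2
  exact hcont.continuousAt (Metric.ball_mem_nhds _ (by positivity))

theorem cexp_two_pi_I_mul_ne_one {w : ℂ} (hw : ∀ n : ℤ, w ≠ n) : cexp (2 * π * I * w) ≠ 1 := by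
  intro h
  rw [Complex.exp_eq_one_iff] at h
  obtain ⟨n, hn⟩ := h
  apply hw n
  have h2 : (2 * π * I : ℂ) ≠ 0 := by
    simp [Real.pi_ne_zero, I_ne_zero]
  apply mul_left_cancel₀ h2
  rw [hn]; ring

theorem rowSum_closed_of_im_pos {w : ℂ} (hw : 0 < w.im) :
    rowSum w = -(4 * π ^ 2) * (cexp (2 * π * I * w) / (1 - cexp (2 * π * I * w)) ^ 2) := by
  rw [rowSum_eq_of_im_pos hw, geomE_eq (norm_cexp_lt_one hw)]

theorem rowSum_closed {w : ℂ} (hw : ∀ n : ℤ, w ≠ n) :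
    rowSum w = -(4 * π ^ 2) * (cexp (2 * π * I * w) / (1 - cexp (2 * π * I * w)) ^ 2) := by
  rcases lt_trichotomy w.im 0 with h | h | h
  · have h' : 0 < (-w).im := by simpa using h
    rw [← rowSum_neg, rowSum_closed_of_im_pos h']
    have hu : cexp (2 * π * I * -w) = (cexp (2 * π * I * w))⁻¹ := by
      rw [← Complex.exp_neg]; congr 1; ring
    rw [hu]
    have h0 : cexp (2 * π * I * w) ≠ 0 := Complex.exp_ne_zero _
    have h1 : 1 - cexp (2 * π * I * w) ≠ 0 := sub_ne_zero.mpr (cexp_two_pi_I_mul_ne_one hw).symm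
    have h2 : 1 - (cexp (2 * π * I * w))⁻¹ ≠ 0 := by
      intro h3
      apply h1
      have : (cexp (2 * π * I * w))⁻¹ = 1 := by linear_combination -h3
      rw [inv_eq_one] at this
      rw [this]; ring
    congr 1
    generalize cexp (2 * π * I * w) = u at h0 h1 h2
    have h3 : 1 - u⁻¹ = (u - 1) / u := by field_simp
    rw [h3]
    have h4 : u - 1 ≠ 0 := fun h => h1 (by linear_combination -h)
    field_simp
    ring
  · -- the real case: continuity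
    set F : ℂ → ℂ := fun v =>
      rowSum v + (4 * π ^ 2) * (cexp (2 * π * I * v) / (1 - cexp (2 * π * I * v)) ^ 2) with hF
    have h1 : 1 - cexp (2 * π * I * w) ≠ 0 := sub_ne_zero.mpr (cexp_two_pi_I_mul_ne_one hw).symm
    have hc : ContinuousAt F w := by
      refine (continuousAt_rowSum hw).add (continuousAt_const.mul ?_)
      refine ContinuousAt.div (by fun_prop) (by fun_prop) (pow_ne_zero 2 h1)
    have ht : Tendsto (fun t : ℝ => w + (t : ℂ) * I) (𝓝[>] 0) (𝓝 w) := by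
      have : Continuous (fun t : ℝ => w + (t : ℂ) * I) := by fun_prop
      have h2 := this.tendsto 0
      simp only [ofReal_zero, zero_mul, add_zero] at h2
      exact h2.mono_left nhdsWithin_le_nhds
    have hev : ∀ᶠ t : ℝ in 𝓝[>] 0, F (w + (t : ℂ) * I) = 0 := by
      filter_upwards [self_mem_nhdsWithin] with t ht0
      have him : 0 < (w + (t : ℂ) * I).im := by
        have : (w + (t : ℂ) * I).im = w.im + t := by simp
        rw [this, h]; simpa using ht0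
      simp only [hF]
      rw [rowSum_closed_of_im_pos him]
      ring
    have h0 : F w = 0 :=
      tendsto_nhds_unique (hc.tendsto.comp ht) (tendsto_const_nhds.congr' (hev.mono fun t ht => ht.symm))
    simp only [hF] at h0
    linear_combination h0
  · exact rowSum_closed_of_im_pos h


/-! ### The period pair `(1, T)` -/

theorem linearIndependent_one_coe (T : ℍ) : LinearIndependent ℝ ![(1 : ℂ), (T : ℂ)] := by
  rw [LinearIndependent.pair_iff]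
  intro s t h
  have him := congrArg Complex.im h
  have hre := congrArg Complex.re h
  simp only [add_im, smul_im, one_im, smul_eq_mul, mul_zero, zero_add, zero_im] at him
  have hT : (T : ℂ).im ≠ 0 := T.im_pos.ne'
  have ht : t = 0 := by
    rcases mul_eq_zero.mp him with h1 | h1
    · exact h1
    · exact absurd h1 hT
  subst ht
  simp only [add_re, smul_re, one_re, smul_eq_mul, mul_one, zero_mul, add_zero, zero_re] at hre
  exact ⟨hre, rfl⟩

/-- the period pair `(1, T)` -/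
def pairOne (T : ℍ) : PeriodPair := ⟨1, T, linearIndependent_one_coe T⟩

@[simp] theorem pairOne_ω₁ (T : ℍ) : (pairOne T).ω₁ = 1 := rfl
@[simp] theorem pairOne_ω₂ (T : ℍ) : (pairOne T).ω₂ = T := rfl

/-- the lattice sum for `℘` over `ℤ × ℤ`, rows indexed by the coefficient of `T` -/
theorem hasSum_weierstrassP_prod (T : ℍ) (z : ℂ) :
    HasSum (fun y : ℤ × ℤ => 1 / (z - ((y.2 : ℂ) + y.1 * T)) ^ 2 - 1 / ((y.2 : ℂ) + y.1 * T) ^ 2)
      ((pairOne T).weierstrassP z) := by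
  have h1 := (pairOne T).hasSum_weierstrassP z
  have h2 := ((pairOne T).latticeEquivProd.symm.toEquiv).hasSum_iff.mpr h1
  have h3 := (Equiv.prodComm ℤ ℤ).hasSum_iff.mpr h2
  refine h3.congr_fun fun y => ?_
  simp only [Function.comp_apply, Equiv.prodComm_apply, LinearEquiv.coe_toEquiv,
    latticeEquiv_symm_apply, Prod.fst_swap, Prod.snd_swap, pairOne_ω₁, pairOne_ω₂, mul_one]

/-- the rows -/
def rowG (T : ℍ) (z : ℂ) (n : ℤ) : ℂ := rowSum (z - n * T) - rowSum (n * T)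

theorem hasSum_row (T : ℍ) (z : ℂ) (n : ℤ) :
    HasSum (fun m : ℤ => 1 / (z - ((m : ℂ) + n * T)) ^ 2 - 1 / ((m : ℂ) + n * T) ^ 2)
      (rowG T z n) := by
  refine ((hasSum_rowSum_sub (z - n * T)).sub (hasSum_rowSum (n * T))).congr_fun fun m => ?_
  congr 3 <;> ring

theorem hasSum_rowG (T : ℍ) (z : ℂ) : HasSum (rowG T z) ((pairOne T).weierstrassP z) :=
  (hasSum_weierstrassP_prod T z).prod_fiberwise fun n => hasSum_row T z n

theorem hasSum_rowG_pnat (T : ℍ) (z : ℂ) :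
    HasSum (fun n : ℕ+ => rowG T z (n : ℕ) + rowG T z (-((n : ℕ) : ℤ)))
      ((pairOne T).weierstrassP z - rowG T z 0) := by
  have h1 := (hasSum_rowG T z).nat_add_neg
  have h2 := (hasSum_nat_add_iff' (f := fun n : ℕ => rowG T z n + rowG T z (-(n : ℤ))) 1).mpr h1
  simp only [Finset.range_one, Finset.sum_singleton, Nat.cast_zero, neg_zero] at h2
  have h3 := (hasSum_pnat_iff_hasSum_succ
    (f := fun n : ℕ => rowG T z n + rowG T z (-(n : ℤ)))).mpr h2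
  convert h3 using 1
  ring


/-! ### The double series -/

theorem summable_pair {q x : ℂ} (hq : ‖q‖ * max 1 ‖x‖ < 1) :
    Summable fun c : ℕ+ × ℕ+ => (c.2 : ℂ) * (q ^ (c.1 : ℕ) * x) ^ (c.2 : ℕ) := by
  set r : ℝ := ‖q‖ * max 1 ‖x‖ with hr
  have hr0 : 0 ≤ r := by positivity
  have hs := summable_prod_mul_pow (𝕜 := ℝ) 1 (r := r) (by rwa [Real.norm_of_nonneg hr0])
  refine Summable.of_norm_bounded hs fun c => ?_
  have hn : (c.1 : ℕ) ≠ 0 := c.1.ne_zero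
  have h1 : ‖q ^ (c.1 : ℕ) * x‖ ≤ r ^ (c.1 : ℕ) := by
    rw [norm_mul, norm_pow, hr, mul_pow]
    gcongr
    exact (le_max_right 1 ‖x‖).trans (le_self_pow₀ (le_max_left 1 ‖x‖) hn)
  rw [norm_mul, norm_pow, pow_one, pow_mul]
  simp only [Complex.norm_natCast]
  gcongr


theorem norm_pow_mul_lt_one {q x : ℂ} (hq : ‖q‖ * max 1 ‖x‖ < 1) (n : ℕ+) :
    ‖q ^ (n : ℕ) * x‖ < 1 := by
  set r : ℝ := ‖q‖ * max 1 ‖x‖ with hr
  have hr0 : 0 ≤ r := by positivity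
  have hn : (n : ℕ) ≠ 0 := n.ne_zero
  have h1 : ‖q ^ (n : ℕ) * x‖ ≤ r ^ (n : ℕ) := by
    rw [norm_mul, norm_pow, hr, mul_pow]
    gcongr
    exact (le_max_right 1 ‖x‖).trans (le_self_pow₀ (le_max_left 1 ‖x‖) hn)
  exact h1.trans_lt (pow_lt_one₀ hr0 hq hn)

theorem rowSum_zero : rowSum 0 = π ^ 2 / 3 := by
  have h := two_mul_riemannZeta_eq_tsum_int_inv_pow_of_even (k := 2) (by norm_num) (by simp)
  have h2 : riemannZeta ((2 : ℕ) : ℂ) = π ^ 2 / 6 := by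
    have := riemannZeta_two
    simpa using this
  rw [h2] at h
  rw [rowSum]
  have : ∀ m : ℤ, 1 / ((0 : ℂ) + m) ^ 2 = ((m : ℂ) ^ 2)⁻¹ := fun m => by rw [zero_add, one_div]
  simp_rw [this]
  rw [← h]; ring

section Main

variable {T : ℍ} {z : ℂ}

theorem cexp_nat_mul_coe (T : ℍ) (n : ℕ) :
    cexp (2 * π * I * ((n : ℂ) * T)) = cexp (2 * π * I * T) ^ n := by
  rw [← Complex.exp_nat_mul]; congr 1; ring

theorem rowG_pair (hz : |z.im| < T.im) (n : ℕ+) :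
    rowG T z ((n : ℕ) : ℤ) + rowG T z (-((n : ℕ) : ℤ)) =
      -(4 * π ^ 2) * (geomE (cexp (2 * π * I * T) ^ (n : ℕ) * (cexp (2 * π * I * z))⁻¹)
        + geomE (cexp (2 * π * I * T) ^ (n : ℕ) * cexp (2 * π * I * z))
        - 2 * geomE (cexp (2 * π * I * T) ^ (n : ℕ) * 1)) := by
  have hT := T.im_pos
  have hn1 : (1 : ℝ) ≤ (n : ℕ) := by exact_mod_cast n.pos
  have hnT : T.im ≤ (n : ℕ) * T.im := le_mul_of_one_le_left hT.le hn1
  obtain ⟨hz1, hz2⟩ := abs_lt.mp hz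
  have hTim : ((T : ℂ)).im = T.im := rfl
  have him_a : 0 < (((n : ℕ) : ℂ) * T - z).im := by
    have : (((n : ℕ) : ℂ) * T - z).im = (n : ℕ) * T.im - z.im := by
      simp [Complex.sub_im, Complex.mul_im]
    rw [this]; linarith
  have him_b : 0 < (((n : ℕ) : ℂ) * T).im := by
    have : (((n : ℕ) : ℂ) * T).im = (n : ℕ) * T.im := by simp [Complex.mul_im]
    rw [this]; linarith
  have him_c : 0 < (z + ((n : ℕ) : ℂ) * T).im := by
    have : (z + ((n : ℕ) : ℂ) * T).im = z.im + (n : ℕ) * T.im := by simp [Complex.mul_im]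
    rw [this]; linarith
  have e1 : rowSum (z - ((n : ℕ) : ℂ) * T) =
      -(4 * π ^ 2) * geomE (cexp (2 * π * I * T) ^ (n : ℕ) * (cexp (2 * π * I * z))⁻¹) := by
    rw [← rowSum_neg, show -(z - ((n : ℕ) : ℂ) * T) = ((n : ℕ) : ℂ) * T - z by ring,
      rowSum_eq_of_im_pos him_a, mul_sub, Complex.exp_sub, cexp_nat_mul_coe, div_eq_mul_inv]
  have e2 : rowSum (((n : ℕ) : ℂ) * T) =
      -(4 * π ^ 2) * geomE (cexp (2 * π * I * T) ^ (n : ℕ) * 1) := by
    rw [rowSum_eq_of_im_pos him_b, cexp_nat_mul_coe, mul_one]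
  have e3 : rowSum (z + ((n : ℕ) : ℂ) * T) =
      -(4 * π ^ 2) * geomE (cexp (2 * π * I * T) ^ (n : ℕ) * cexp (2 * π * I * z)) := by
    rw [rowSum_eq_of_im_pos him_c, mul_add, Complex.exp_add, cexp_nat_mul_coe,
      mul_comm (cexp (2 * π * I * z))]
  have e4 : rowSum (-(((n : ℕ) : ℂ) * T)) = rowSum (((n : ℕ) : ℂ) * T) := rowSum_neg _
  simp only [rowG, Int.cast_neg, Int.cast_natCast]
  rw [show z - -((n : ℕ) : ℂ) * T = z + ((n : ℕ) : ℂ) * T by ring,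
    show -((n : ℕ) : ℂ) * (T : ℂ) = -(((n : ℕ) : ℂ) * T) by ring, e4, e1, e2, e3]
  ring

theorem norm_q_mul_max_lt_one (hz : |z.im| < T.im) :
    ‖cexp (2 * π * I * T)‖ * max 1 ‖cexp (2 * π * I * z)‖ < 1 ∧
    ‖cexp (2 * π * I * T)‖ * max 1 ‖(cexp (2 * π * I * z))⁻¹‖ < 1 ∧
    ‖cexp (2 * π * I * T)‖ * max 1 ‖(1 : ℂ)‖ < 1 := by
  have hT := T.im_pos
  obtain ⟨hz1, hz2⟩ := abs_lt.mp hz
  have hTim : ((T : ℂ)).im = T.im := rfl
  have hq : ‖cexp (2 * π * I * T)‖ < 1 := norm_cexp_lt_one (by rw [hTim]; exact hT)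
  have hq0 : 0 ≤ ‖cexp (2 * π * I * T)‖ := norm_nonneg _
  have hpi := Real.pi_pos
  refine ⟨?_, ?_, ?_⟩
  · rw [mul_max_of_nonneg _ _ hq0, mul_one]
    refine max_lt hq ?_
    rw [← norm_mul, ← Complex.exp_add, ← mul_add, norm_cexp_two_pi_I_mul, Real.exp_lt_one_iff,
      Complex.add_im, hTim]
    nlinarith
  · rw [mul_max_of_nonneg _ _ hq0, mul_one]
    refine max_lt hq ?_
    rw [← Complex.exp_neg, ← norm_mul, ← Complex.exp_add,
      show 2 * π * I * (T : ℂ) + -(2 * π * I * z) = 2 * π * I * ((T : ℂ) - z) by ring,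
      norm_cexp_two_pi_I_mul, Real.exp_lt_one_iff, Complex.sub_im, hTim]
    nlinarith
  · rw [norm_one, max_self, mul_one]; exact hq

/-- **The `q`-expansion of `℘`** for the period pair `(1, T)`: for `|Im z| < Im T`, `z ∉ ℤ`,
with `q = e(T)`, `u = e(z)`:
`℘(z) / (2πi)² = 1/12 + u/(1-u)² + ∑_{n,k ≥ 1} k q^{nk} (u^k + u^{-k} - 2)`,
the double series being absolutely convergent. -/
theorem hasSum_weierstrassP_rows (T : ℍ) (z : ℂ) (hz : |z.im| < T.im) (hzZ : ∀ n : ℤ, z ≠ n) :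
    HasSum (fun p : ℕ+ × ℕ+ => (p.2 : ℂ) * cexp (2 * π * I * T) ^ ((p.1 : ℕ) * (p.2 : ℕ)) *
        (cexp (2 * π * I * z) ^ (p.2 : ℕ) + (cexp (2 * π * I * z))⁻¹ ^ (p.2 : ℕ) - 2))
      ((pairOne T).weierstrassP z / (2 * π * I) ^ 2 - 1 / 12
        - cexp (2 * π * I * z) / (1 - cexp (2 * π * I * z)) ^ 2) := by
  obtain ⟨hu, hu', h1⟩ := norm_q_mul_max_lt_one hz
  set q := cexp (2 * π * I * T) with hq
  set u := cexp (2 * π * I * z) with hu_def
  have hS : Summable (fun c : ℕ+ × ℕ+ => (c.2 : ℂ) * (q ^ (c.1 : ℕ) * u⁻¹) ^ (c.2 : ℕ)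
      + (c.2 : ℂ) * (q ^ (c.1 : ℕ) * u) ^ (c.2 : ℕ)
      - 2 * ((c.2 : ℂ) * (q ^ (c.1 : ℕ) * 1) ^ (c.2 : ℕ))) :=
    ((summable_pair hu').add (summable_pair hu)).sub ((summable_pair h1).mul_left 2)
  have hrows : ∀ n : ℕ+, HasSum (fun k : ℕ+ => (k : ℂ) * (q ^ (n : ℕ) * u⁻¹) ^ (k : ℕ)
      + (k : ℂ) * (q ^ (n : ℕ) * u) ^ (k : ℕ) - 2 * ((k : ℂ) * (q ^ (n : ℕ) * 1) ^ (k : ℕ)))
      (geomE (q ^ (n : ℕ) * u⁻¹) + geomE (q ^ (n : ℕ) * u) - 2 * geomE (q ^ (n : ℕ) * 1)) :=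
    fun n => ((hasSum_geomE' (norm_pow_mul_lt_one hu' n)).add
      (hasSum_geomE' (norm_pow_mul_lt_one hu n))).sub
      ((hasSum_geomE' (norm_pow_mul_lt_one h1 n)).mul_left 2)
  have hfib := hS.hasSum.prod_fiberwise hrows
  have hP := hasSum_rowG_pnat T z
  have hP' : HasSum (fun n : ℕ+ => -(4 * π ^ 2) * (geomE (q ^ (n : ℕ) * u⁻¹)
      + geomE (q ^ (n : ℕ) * u) - 2 * geomE (q ^ (n : ℕ) * 1)))
      ((pairOne T).weierstrassP z - rowG T z 0) :=
    hP.congr_fun fun n => (rowG_pair hz n).symm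
  have hval := (hfib.mul_left (-(4 * (π : ℂ) ^ 2))).unique hP'
  have hG0 : rowG T z 0 = -(4 * π ^ 2) * (u / (1 - u) ^ 2) - π ^ 2 / 3 := by
    simp only [rowG, Int.cast_zero, zero_mul, sub_zero]
    rw [rowSum_closed hzZ, rowSum_zero]
  have hpi : (π : ℂ) ≠ 0 := by exact_mod_cast Real.pi_ne_zero
  have hsum : ∑' c : ℕ+ × ℕ+, ((c.2 : ℂ) * (q ^ (c.1 : ℕ) * u⁻¹) ^ (c.2 : ℕ)
      + (c.2 : ℂ) * (q ^ (c.1 : ℕ) * u) ^ (c.2 : ℕ)
      - 2 * ((c.2 : ℂ) * (q ^ (c.1 : ℕ) * 1) ^ (c.2 : ℕ))) =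
      (pairOne T).weierstrassP z / (2 * π * I) ^ 2 - 1 / 12 - u / (1 - u) ^ 2 := by
    rw [hG0] at hval
    have hI : (2 * (π : ℂ) * I) ^ 2 = -(4 * π ^ 2) := by
      rw [mul_pow, mul_pow, I_sq]; ring
    rw [hI]
    generalize (∑' c : ℕ+ × ℕ+, ((c.2 : ℂ) * (q ^ (c.1 : ℕ) * u⁻¹) ^ (c.2 : ℕ)
      + (c.2 : ℂ) * (q ^ (c.1 : ℕ) * u) ^ (c.2 : ℕ)
      - 2 * ((c.2 : ℂ) * (q ^ (c.1 : ℕ) * 1) ^ (c.2 : ℕ)))) = S at hval ⊢
    generalize (pairOne T).weierstrassP z = P at hval ⊢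
    generalize u / (1 - u) ^ 2 = V at hval ⊢
    have h4 : (4 * (π : ℂ) ^ 2) ≠ 0 := mul_ne_zero (by norm_num) (pow_ne_zero 2 hpi)
    have : S = (P - (-(4 * (π : ℂ) ^ 2) * V - (π : ℂ) ^ 2 / 3)) / (-(4 * (π : ℂ) ^ 2)) := by
      rw [← hval]; field_simp
    rw [this]
    field_simp
    ring
  rw [← hsum]
  refine hS.hasSum.congr_fun fun c => ?_
  rw [mul_pow, mul_pow, mul_pow, one_pow, ← pow_mul]
  ring

/-- absolute convergence of the double series -/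
theorem summable_norm_weierstrassP_rows (T : ℍ) (z : ℂ) (hz : |z.im| < T.im)
    (hzZ : ∀ n : ℤ, z ≠ n) :
    Summable (fun p : ℕ+ × ℕ+ => ‖(p.2 : ℂ) * cexp (2 * π * I * T) ^ ((p.1 : ℕ) * (p.2 : ℕ)) *
        (cexp (2 * π * I * z) ^ (p.2 : ℕ) + (cexp (2 * π * I * z))⁻¹ ^ (p.2 : ℕ) - 2)‖) :=
  (hasSum_weierstrassP_rows T z hz hzZ).summable.norm

/-- the value as a `tsum` -/
theorem weierstrassP_eq_tsum_rows (T : ℍ) (z : ℂ) (hz : |z.im| < T.im) (hzZ : ∀ n : ℤ, z ≠ n) :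
    (pairOne T).weierstrassP z = (2 * π * I) ^ 2 * (1 / 12
        + cexp (2 * π * I * z) / (1 - cexp (2 * π * I * z)) ^ 2
        + ∑' p : ℕ+ × ℕ+, (p.2 : ℂ) * cexp (2 * π * I * T) ^ ((p.1 : ℕ) * (p.2 : ℕ)) *
        (cexp (2 * π * I * z) ^ (p.2 : ℕ) + (cexp (2 * π * I * z))⁻¹ ^ (p.2 : ℕ) - 2)) := by
  rw [(hasSum_weierstrassP_rows T z hz hzZ).tsum_eq]
  have hpi : (π : ℂ) ≠ 0 := by exact_mod_cast Real.pi_ne_zero
  have h2 : (2 * (π : ℂ) * I) ^ 2 ≠ 0 :=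
    pow_ne_zero 2 (mul_ne_zero (mul_ne_zero (by norm_num) hpi) I_ne_zero)
  field_simp
  ring

/-- a point of the strip `0 < Im z < Im T` is not an integer -/
theorem ne_intCast_of_im_pos {z : ℂ} (hz : 0 < z.im) (n : ℤ) : z ≠ n := by
  intro h
  rw [h] at hz
  simp at hz

/-- for `0 < Im z < Im T` the term `u/(1-u)²` is `∑_k k u^k` -/
theorem hasSum_row_zero_of_im_pos {z : ℂ} (hz : 0 < z.im) :
    HasSum (fun k : ℕ+ => (k : ℂ) * cexp (2 * π * I * z) ^ (k : ℕ))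
      (cexp (2 * π * I * z) / (1 - cexp (2 * π * I * z)) ^ 2) :=
  hasSum_geomE (norm_cexp_lt_one hz)

end Main

end Fermat.Agent.DS.P1.WpRows
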