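import Mathlib
import Fermat.Agent.DS.P1.WpRows

/-!
# GATE-N / S48-P1-WEBER-AN (W1): the `℘`-values at `M`-division points as functions of `τ`

For `τ` in the upper half plane let `L_τ = ℤ + ℤ τ`.  For `v = (a, b) ∈ ℤ²` put
`pFun M v τ = ℘((a τ + b) / M; L_τ)`.  We prove

* `weierstrassP_eq_of_lattice_eq`, `weierstrassP_smul_lattice` : `℘` only depends on the lattice
  and is homogeneous of degree `-2`;
* `pFun_smul` : `pFun M v (g • τ) = (c τ + d)² · pFun M (v g) τ` for `g ∈ SL(2, ℤ)`;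
* `pFun_add_smul`, `pFun_neg` : dependence on `v` modulo `M` and modulo `±`.
-/

set_option autoImplicit false

noncomputable section

namespace Fermat.Agent.DS.P1

open Complex UpperHalfPlane PeriodPair
open scoped Real Topology MatrixGroups

/-- the period pair `(1, τ)` (`= WpRows.pairOne τ`) -/
abbrev tauPair (τ : ℍ) : PeriodPair := WpRows.pairOne τ

@[simp] theorem tauPair_ω₁ (τ : ℍ) : (tauPair τ).ω₁ = 1 := rfl
@[simp] theorem tauPair_ω₂ (τ : ℍ) : (tauPair τ).ω₂ = τ := rfl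

theorem mem_tauPair_lattice {τ : ℍ} {x : ℂ} :
    x ∈ (tauPair τ).lattice ↔ ∃ n m : ℤ, (n : ℂ) + m * τ = x := by
  rw [PeriodPair.mem_lattice]
  simp

/-! ### `℘` depends only on the lattice, homogeneity -/

theorem weierstrassP_eq_of_lattice_eq (L L' : PeriodPair) (h : L.lattice = L'.lattice) (z : ℂ) :
    ℘[L] z = ℘[L'] z := by
  unfold PeriodPair.weierstrassP
  rw [h]

/-- homogeneity: if `L'.lattice = c • L.lattice` then `℘[L'] (c z) = c⁻² ℘[L] z`. -/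
theorem weierstrassP_smul_lattice (L L' : PeriodPair) {c : ℂ} (hc : c ≠ 0)
    (h : ∀ x : ℂ, x ∈ L'.lattice ↔ c⁻¹ * x ∈ L.lattice) (z : ℂ) :
    ℘[L'] (c * z) = (c ^ 2)⁻¹ * ℘[L] z := by
  unfold PeriodPair.weierstrassP
  let e : L.lattice ≃ L'.lattice :=
    { toFun := fun l => ⟨c * l, (h _).mpr (by rw [inv_mul_cancel_left₀ hc]; exact l.2)⟩
      invFun := fun l => ⟨c⁻¹ * l, (h _).mp l.2⟩
      left_inv := fun l => by ext; simp [inv_mul_cancel_left₀ hc]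
      right_inv := fun l => by ext; simp [mul_inv_cancel_left₀ hc] }
  rw [← e.tsum_eq, ← tsum_mul_left]
  refine tsum_congr fun l => ?_
  show 1 / (c * z - c * (l : ℂ)) ^ 2 - 1 / (c * (l : ℂ)) ^ 2 = _
  rw [← mul_sub, mul_pow, mul_pow]
  field_simp

/-! ### The action of `SL(2, ℤ)` on the lattices `L_τ` -/

/-- `c τ + d` for `g = [[a, b], [c, d]]` -/
def den (g : SL(2, ℤ)) (τ : ℍ) : ℂ := (g 1 0 : ℂ) * τ + (g 1 1 : ℂ)

theorem den_eq_denom (g : SL(2, ℤ)) (τ : ℍ) :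
    den g τ = denom (Matrix.SpecialLinearGroup.mapGL ℝ g) τ := by
  simp [den, denom]

theorem den_ne_zero (g : SL(2, ℤ)) (τ : ℍ) : den g τ ≠ 0 := by
  rw [den_eq_denom]
  exact denom_ne_zero _ _

theorem coe_smul_eq (g : SL(2, ℤ)) (τ : ℍ) :
    ((g • τ : ℍ) : ℂ) = ((g 0 0 : ℂ) * τ + (g 0 1 : ℂ)) / den g τ := by
  rw [UpperHalfPlane.coe_specialLinearGroup_apply]
  simp [den]

theorem det_eq_one' (g : SL(2, ℤ)) : g 0 0 * g 1 1 - g 0 1 * g 1 0 = 1 := by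
  have := g.det_coe
  rw [Matrix.det_fin_two] at this
  exact this

/-- `L_{g τ} = (c τ + d)⁻¹ L_τ` -/
theorem mem_tauPair_lattice_smul (g : SL(2, ℤ)) (τ : ℍ) (x : ℂ) :
    x ∈ (tauPair (g • τ)).lattice ↔ den g τ * x ∈ (tauPair τ).lattice := by
  have hD := den_ne_zero g τ
  have hdet : ((g 0 0 : ℤ) : ℂ) * (g 1 1 : ℂ) - (g 0 1 : ℂ) * (g 1 0 : ℂ) = 1 := by
    exact_mod_cast congrArg (Int.cast : ℤ → ℂ) (det_eq_one' g)
  rw [mem_tauPair_lattice, mem_tauPair_lattice, coe_smul_eq]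
  constructor
  · rintro ⟨n, m, rfl⟩
    refine ⟨n * g 1 1 + m * g 0 1, n * g 1 0 + m * g 0 0, ?_⟩
    push_cast
    field_simp
    simp only [den]
    ring
  · rintro ⟨n, m, h⟩
    refine ⟨n * g 0 0 - m * g 0 1, - n * g 1 0 + m * g 1 1, ?_⟩
    push_cast
    have hx : x = ((n : ℂ) + m * τ) / den g τ := by
      rw [h]; field_simp
    rw [hx]
    field_simp
    simp only [den]
    linear_combination ((n : ℂ) + (m : ℂ) * (τ : ℂ)) * hdet

/-! ### Division points and the functions `pFun` -/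

/-- the row vector `v` times the matrix `g` -/
def vmul (v : ℤ × ℤ) (g : SL(2, ℤ)) : ℤ × ℤ :=
  (v.1 * g 0 0 + v.2 * g 1 0, v.1 * g 0 1 + v.2 * g 1 1)

@[simp] theorem vmul_one (v : ℤ × ℤ) : vmul v 1 = v := by
  ext <;> simp [vmul]

theorem vmul_mul (v : ℤ × ℤ) (g h : SL(2, ℤ)) : vmul v (g * h) = vmul (vmul v g) h := by
  ext <;> simp [vmul, Matrix.mul_apply, Fin.sum_univ_two] <;> ring

theorem vmul_neg (v : ℤ × ℤ) (g : SL(2, ℤ)) : vmul (-v) g = -vmul v g := by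
  ext <;> simp [vmul] <;> ring

theorem vmul_add (v w : ℤ × ℤ) (g : SL(2, ℤ)) : vmul (v + w) g = vmul v g + vmul w g := by
  ext <;> simp [vmul] <;> ring

theorem vmul_smul (c : ℤ) (v : ℤ × ℤ) (g : SL(2, ℤ)) : vmul (c • v) g = c • vmul v g := by
  ext <;> simp [vmul] <;> ring

/-- the point `(a τ + b) / M` -/
def divPt (M : ℕ) (v : ℤ × ℤ) (τ : ℍ) : ℂ := ((v.1 : ℂ) * τ + (v.2 : ℂ)) / M

/-- `℘((a τ + b) / M; ℤ + ℤ τ)` -/
def pFun (M : ℕ) (v : ℤ × ℤ) (τ : ℍ) : ℂ := ℘[tauPair τ] (divPt M v τ)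

theorem divPt_smul (M : ℕ) (v : ℤ × ℤ) (g : SL(2, ℤ)) (τ : ℍ) :
    divPt M v (g • τ) = (den g τ)⁻¹ * divPt M (vmul v g) τ := by
  have hD := den_ne_zero g τ
  rw [divPt, divPt, coe_smul_eq, vmul]
  push_cast
  field_simp
  simp only [den]
  ring

/-- **Transformation law**: `pFun M v (g τ) = (c τ + d)² pFun M (v g) τ`. -/
theorem pFun_smul (M : ℕ) (v : ℤ × ℤ) (g : SL(2, ℤ)) (τ : ℍ) :
    pFun M v (g • τ) = den g τ ^ 2 * pFun M (vmul v g) τ := by
  have hD := den_ne_zero g τ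
  rw [pFun, pFun, divPt_smul,
    weierstrassP_smul_lattice (tauPair τ) (tauPair (g • τ)) (inv_ne_zero hD)
      (fun x => by rw [inv_inv]; exact mem_tauPair_lattice_smul g τ x)]
  rw [inv_pow, inv_inv]

theorem divPt_add_smul {M : ℕ} (hM : M ≠ 0) (v w : ℤ × ℤ) (τ : ℍ) :
    divPt M (v + (M : ℤ) • w) τ = divPt M v τ + ((w.2 : ℂ) + (w.1 : ℂ) * τ) := by
  have hM' : (M : ℂ) ≠ 0 := Nat.cast_ne_zero.mpr hM
  simp only [divPt, Prod.fst_add, Prod.snd_add, Prod.smul_fst, Prod.smul_snd, smul_eq_mul]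
  push_cast
  field_simp
  ring

/-- `pFun M v` only depends on `v` modulo `M`. -/
theorem pFun_add_smul {M : ℕ} (hM : M ≠ 0) (v w : ℤ × ℤ) (τ : ℍ) :
    pFun M (v + (M : ℤ) • w) τ = pFun M v τ := by
  rw [pFun, pFun, divPt_add_smul hM]
  have hl : (w.2 : ℂ) + (w.1 : ℂ) * τ ∈ (tauPair τ).lattice :=
    mem_tauPair_lattice.mpr ⟨w.2, w.1, rfl⟩
  exact (tauPair τ).weierstrassP_add_coe _ ⟨_, hl⟩

theorem divPt_neg (M : ℕ) (v : ℤ × ℤ) (τ : ℍ) : divPt M (-v) τ = -divPt M v τ := by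
  simp only [divPt, Prod.fst_neg, Prod.snd_neg]
  push_cast
  ring

/-- `pFun M (-v) = pFun M v`. -/
theorem pFun_neg (M : ℕ) (v : ℤ × ℤ) (τ : ℍ) : pFun M (-v) τ = pFun M v τ := by
  rw [pFun, pFun, divPt_neg, PeriodPair.weierstrassP_neg]

/-- the division point lies in the lattice iff `M ∣ v` -/
theorem divPt_mem_lattice_iff {M : ℕ} (hM : M ≠ 0) (v : ℤ × ℤ) (τ : ℍ) :
    divPt M v τ ∈ (tauPair τ).lattice ↔ (M : ℤ) ∣ v.1 ∧ (M : ℤ) ∣ v.2 := by
  have hM' : (M : ℂ) ≠ 0 := Nat.cast_ne_zero.mpr hM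
  rw [mem_tauPair_lattice]
  constructor
  · rintro ⟨n, m, h⟩
    rw [divPt, eq_div_iff hM'] at h
    have him := congrArg Complex.im h
    have hre := congrArg Complex.re h
    simp only [add_mul, mul_im, add_im, intCast_re, intCast_im, natCast_re, natCast_im, mul_zero,
      zero_mul, add_zero, zero_add, mul_re, sub_zero, add_re, UpperHalfPlane.coe_im,
      UpperHalfPlane.coe_re, natCast_im, mul_zero] at him hre
    have h1 : (m : ℝ) * M = v.1 := by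
      have hτ := τ.im_pos.ne'
      have : ((m : ℝ) * M - v.1) * τ.im = 0 := by
        nlinarith [him]
      rcases mul_eq_zero.mp this with h' | h'
      · linarith
      · exact absurd h' hτ
    have h2 : (n : ℝ) * M = v.2 := by
      have : (m : ℝ) * τ.re * M = v.1 * τ.re := by rw [← h1]; ring
      linarith
    refine ⟨⟨m, ?_⟩, ⟨n, ?_⟩⟩
    · have : ((v.1 : ℤ) : ℝ) = ((M : ℤ) * m : ℤ) := by push_cast; linarith
      exact_mod_cast this
    · have : ((v.2 : ℤ) : ℝ) = ((M : ℤ) * n : ℤ) := by push_cast; linarith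
      exact_mod_cast this
  · rintro ⟨⟨m, hm⟩, ⟨n, hn⟩⟩
    refine ⟨n, m, ?_⟩
    rw [divPt, hm, hn]
    push_cast
    field_simp
    ring

end Fermat.Agent.DS.P1
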