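import Mathlib
import Fermat.Agent.DS.P1.WeberAnLattice
import Fermat.Agent.DS.P1.WeberAnLambert
import Fermat.Agent.S28.CuspExp

/-!
# GATE-N / S48-P1-WEBER-AN (E1): the cusp expansion of `pFun M (a, b)`, `0 ≤ a < M`

`pFun M (a,b) τ / (2πi)² = c₀ + ∑_{j,k ≥ 1} k (ζ^{bk} [j ≡ a] + ζ^{-bk} [j ≡ -a] - 2 [j ≡ 0]) t^{jk}`,
`t = 𝕢 M τ = e(τ/M)`, `ζ = e(1/M)`, `c₀ = 1/12` (`a ≠ 0`) resp. `1/12 + ζ^b/(1-ζ^b)²` (`a = 0`).
-/

set_option autoImplicit false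

noncomputable section

namespace Fermat.Agent.DS.P1

open Complex PowerSeries PeriodPair Fermat.Agent.S28 Fermat.Agent.DS.P1.WpRows
open UpperHalfPlane hiding I
open scoped Real Topology

local notation "𝕢" => Function.Periodic.qParam

/-! ### Indicators of residue classes and reindexing -/

/-- the indicator of the residue class `c` modulo `M` -/
def ind (M : ℕ) (c : ZMod M) (j : ℕ) : ℂ := if (j : ZMod M) = c then 1 else 0

theorem ind_eq_one {M : ℕ} {c : ZMod M} {j : ℕ} (h : (j : ZMod M) = c) : ind M c j = 1 := by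
  simp [ind, h]

theorem ind_eq_zero {M : ℕ} {c : ZMod M} {j : ℕ} (h : (j : ZMod M) ≠ c) : ind M c j = 0 := by
  simp [ind, h]

theorem norm_ind_le (M : ℕ) (c : ZMod M) (j : ℕ) : ‖ind M c j‖ ≤ 1 := by
  unfold ind; split_ifs <;> simp

/-- **Reindexing**: the positive integers `≡ -a' mod M` (`0 ≤ a' < M`) are the `M m - a'`,
`m ≥ 1`. -/
theorem hasSum_ind_iff {M : ℕ} [NeZero M] {a' : ℕ} (ha' : a' < M) (h : ℕ → ℂ) (S : ℂ) :
    HasSum (fun j : ℕ+ => ind M (-(a' : ZMod M)) j * h j) S ↔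
      HasSum (fun m : ℕ+ => h (M * m - a')) S := by
  have hpos : ∀ m : ℕ+, 0 < M * (m : ℕ) - a' := fun m => by
    have : M ≤ M * (m : ℕ) := Nat.le_mul_of_pos_right _ m.pos
    omega
  let i : ℕ+ → ℕ+ := fun m => ⟨M * (m : ℕ) - a', hpos m⟩
  have hi : Function.Injective i := by
    intro m m' hmm
    have h1 : M * (m : ℕ) - a' = M * (m' : ℕ) - a' := congrArg PNat.val hmm
    have h2 : M ≤ M * (m : ℕ) := Nat.le_mul_of_pos_right _ m.pos
    have h3 : M ≤ M * (m' : ℕ) := Nat.le_mul_of_pos_right _ m'.pos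
    have h4 : M * (m : ℕ) = M * (m' : ℕ) := by omega
    exact PNat.coe_injective (Nat.eq_of_mul_eq_mul_left (NeZero.pos M) h4)
  rw [← hi.hasSum_iff (f := fun j : ℕ+ => ind M (-(a' : ZMod M)) j * h j)]
  · refine iff_of_eq (congrArg (fun f => HasSum f S) (funext fun m => ?_))
    show ind M (-(a' : ZMod M)) (M * (m : ℕ) - a') * h (M * (m : ℕ) - a') = _
    have h2 : a' ≤ M * (m : ℕ) := by
      have : M ≤ M * (m : ℕ) := Nat.le_mul_of_pos_right _ m.pos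
      omega
    rw [ind_eq_one, one_mul]
    rw [Nat.cast_sub h2]
    simp
  · intro j hj
    rw [ind_eq_zero, zero_mul]
    intro hjc
    apply hj
    have h0 : ((j + a' : ℕ) : ZMod M) = 0 := by
      push_cast; rw [hjc]; ring
    rw [ZMod.natCast_eq_zero_iff] at h0
    obtain ⟨m, hm⟩ := h0
    have hm0 : 0 < m := by
      rcases Nat.eq_zero_or_pos m with h | h
      · subst h; have := j.pos; omega
      · exact h
    refine ⟨⟨m, hm0⟩, ?_⟩
    apply PNat.coe_injective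
    show M * m - a' = j
    omega

/-! ### One family `∑_{j ≡ c, k} k x^k t^{jk}` -/

/-- the weights `k x^k [j ≡ c]` -/
def famW (M : ℕ) (x : ℂ) (c : ZMod M) (j k : ℕ) : ℂ := (k : ℂ) * x ^ k * ind M c j

theorem norm_famW_le (M : ℕ) {x : ℂ} (hx : ‖x‖ ≤ 1) (c : ZMod M) (j k : ℕ) :
    ‖famW M x c j k‖ ≤ 1 * k := by
  rw [famW, norm_mul, norm_mul, norm_pow, Complex.norm_natCast, one_mul]
  have h1 : ‖x‖ ^ k ≤ 1 := pow_le_one₀ (norm_nonneg _) hx
  have h2 := norm_ind_le M c j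
  calc (k : ℝ) * ‖x‖ ^ k * ‖ind M c j‖ ≤ (k : ℝ) * 1 * 1 := by gcongr
    _ = k := by ring

theorem norm_mul_pow_lt_one {x t : ℂ} (hx : ‖x‖ ≤ 1) (ht : ‖t‖ < 1) {j : ℕ} (hj : j ≠ 0) :
    ‖x * t ^ j‖ < 1 := by
  rw [norm_mul, norm_pow]
  have h1 : ‖t‖ ^ j < 1 := pow_lt_one₀ (norm_nonneg _) ht hj
  have h2 : 0 ≤ ‖t‖ ^ j := by positivity
  calc ‖x‖ * ‖t‖ ^ j ≤ 1 * ‖t‖ ^ j := by gcongr
    _ < 1 := by rw [one_mul]; exact h1

/-- summing the family over `k` first -/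
theorem hasSum_fam (M : ℕ) {x t : ℂ} (hx : ‖x‖ ≤ 1) (ht : ‖t‖ < 1) (c : ZMod M) :
    HasSum (fun j : ℕ+ => ind M c j * geomE (x * t ^ (j : ℕ)))
      (evalDisc (lamSeries (famW M x c)) t) := by
  have hw := norm_famW_le M hx c
  have h1 := (summable_lam hw ht).hasSum
  rw [← evalDisc_lamSeries hw ht] at h1
  refine h1.prod_fiberwise fun j => ?_
  have h2 := (hasSum_geomE' (norm_mul_pow_lt_one hx ht j.ne_zero)).mul_left (ind M c j)
  refine h2.congr_fun fun k => ?_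
  show famW M x c j k * t ^ ((j : ℕ) * (k : ℕ)) = _
  rw [famW, mul_pow, pow_mul]
  ring

/-- the family along the progression `j = M m - a'` -/
theorem hasSum_fam_prog {M : ℕ} [NeZero M] {x t : ℂ} (hx : ‖x‖ ≤ 1) (ht : ‖t‖ < 1)
    {a' : ℕ} (ha' : a' < M) :
    HasSum (fun m : ℕ+ => geomE (x * t ^ (M * (m : ℕ) - a')))
      (evalDisc (lamSeries (famW M x (-(a' : ZMod M)))) t) :=
  (hasSum_ind_iff ha' (fun j => geomE (x * t ^ j)) _).mp (hasSum_fam M hx ht _)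

/-- the family along the progression `j = M n + a`, `n ≥ 1`, `0 < a < M` -/
theorem hasSum_fam_prog_add {M : ℕ} [NeZero M] {x t : ℂ} (hx : ‖x‖ ≤ 1) (ht : ‖t‖ < 1)
    {a : ℕ} (ha0 : 0 < a) (ha : a < M) :
    HasSum (fun n : ℕ+ => geomE (x * t ^ (M * (n : ℕ) + a)))
      (evalDisc (lamSeries (famW M x (a : ZMod M))) t - geomE (x * t ^ a)) := by
  have hc : (a : ZMod M) = -((M - a : ℕ) : ZMod M) := by
    rw [Nat.cast_sub ha.le]; simp
  have h1 := hasSum_fam_prog hx ht (a' := M - a) (Nat.sub_lt (NeZero.pos M) ha0)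
  rw [← hc] at h1
  have h2 : HasSum (fun n : ℕ => geomE (x * t ^ (M * n + a)))
      (evalDisc (lamSeries (famW M x (a : ZMod M))) t) := by
    have := (hasSum_pnat_iff_hasSum_succ (f := fun m : ℕ => geomE (x * t ^ (M * m - (M - a))))).mp h1
    refine this.congr_fun fun n => ?_
    show geomE (x * t ^ (M * n + a)) = geomE (x * t ^ (M * (n + 1) - (M - a)))
    congr 3
    have : M * (n + 1) = M * n + M := by ring
    omega
  have h3 := (hasSum_nat_add_iff' (f := fun n : ℕ => geomE (x * t ^ (M * n + a))) 1).mpr h2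
  simp only [Finset.range_one, Finset.sum_singleton, mul_zero, zero_add] at h3
  exact (hasSum_pnat_iff_hasSum_succ (f := fun n : ℕ => geomE (x * t ^ (M * n + a)))).mpr h3

/-! ### The rows of `℘` along a division point -/

/-- the power series of `℘(z_v)/(2πi)²` without its constant term, `x = ζ^b`, `a` the residue
class of the `τ`-coefficient -/
def pSeries (M : ℕ) (x : ℂ) (a : ZMod M) : PowerSeries ℂ :=
  lamSeries (famW M x a) + lamSeries (famW M x⁻¹ (-a)) - (2 : ℂ) • lamSeries (famW M 1 0)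

theorem conv_pSeries (M : ℕ) {x : ℂ} (hx : ‖x‖ = 1) (a : ZMod M) : Conv (pSeries M x a) := by
  have hx' : ‖x⁻¹‖ ≤ 1 := by rw [norm_inv, hx, inv_one]
  exact ((conv_lamSeries (norm_famW_le M hx.le a)).add
    (conv_lamSeries (norm_famW_le M hx' (-a)))).sub
    ((conv_lamSeries (norm_famW_le M (x := 1) (by simp) 0)).smul 2)

theorem evalDisc_pSeries (M : ℕ) {x : ℂ} (hx : ‖x‖ = 1) (a : ZMod M) {t : ℂ} (ht : ‖t‖ < 1) :
    evalDisc (pSeries M x a) t = evalDisc (lamSeries (famW M x a)) t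
      + evalDisc (lamSeries (famW M x⁻¹ (-a))) t - 2 * evalDisc (lamSeries (famW M 1 0)) t := by
  have hx' : ‖x⁻¹‖ ≤ 1 := by rw [norm_inv, hx, inv_one]
  have c1 := conv_lamSeries (norm_famW_le M hx.le a)
  have c2 := conv_lamSeries (norm_famW_le M hx' (-a))
  have c3 := conv_lamSeries (norm_famW_le M (x := 1) (by simp) (0 : ZMod M))
  rw [pSeries, evalDisc_sub (c1.add c2) (c3.smul 2) ht, evalDisc_add c1 c2 ht, evalDisc_smul]

/-- the rows `n ≠ 0` of `℘`, for `e(T) = t^M`, `e(z) = x t^a`, `0 ≤ a < M`, `|x| = 1`; `S` is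
the sum of the family `n ↦ geomE (x t^{Mn+a})`. -/
theorem weierstrassP_sub_rowG_zero {M : ℕ} [NeZero M] {a : ℕ} (ha : a < M) {T : ℍ} {z t x S : ℂ}
    (ht : ‖t‖ < 1) (ht0 : t ≠ 0) (hx : ‖x‖ = 1)
    (hT : cexp (2 * π * I * T) = t ^ M) (hzx : cexp (2 * π * I * z) = x * t ^ a)
    (hz : |z.im| < T.im)
    (hS : HasSum (fun n : ℕ+ => geomE (x * t ^ (M * (n : ℕ) + a))) S) :
    ℘[pairOne T] z - rowG T z 0 = -(4 * π ^ 2) *
      (evalDisc (lamSeries (famW M x⁻¹ (-(a : ZMod M)))) t + S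
        - 2 * evalDisc (lamSeries (famW M 1 0)) t) := by
  have hx' : ‖x⁻¹‖ ≤ 1 := by rw [norm_inv, hx, inv_one]
  have hx0 : x ≠ 0 := by
    intro h; rw [h, norm_zero] at hx; exact zero_ne_one hx
  have hm := hasSum_fam_prog (M := M) hx' ht ha
  have h0 := hasSum_fam_prog (M := M) (x := 1) (by simp) ht (a' := 0) (NeZero.pos M)
  simp only [Nat.cast_zero, neg_zero] at h0
  have hP := hasSum_rowG_pnat T z
  have hsum := (((hm.add hS).sub (h0.mul_left 2)).mul_left (-(4 * (π : ℂ) ^ 2)))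
  refine hP.unique (hsum.congr_fun fun n => ?_)
  rw [rowG_pair hz n, hT, hzx]
  have hMn : a ≤ M * (n : ℕ) := by
    have : M ≤ M * (n : ℕ) := Nat.le_mul_of_pos_right _ n.pos
    omega
  have e1 : (t ^ M) ^ (n : ℕ) * (x * t ^ a)⁻¹ = x⁻¹ * t ^ (M * (n : ℕ) - a) := by
    rw [← pow_mul, pow_sub₀ t ht0 hMn, mul_inv]; ring
  have e2 : (t ^ M) ^ (n : ℕ) * (x * t ^ a) = x * t ^ (M * (n : ℕ) + a) := by
    rw [← pow_mul, pow_add]; ring
  have e3 : (t ^ M) ^ (n : ℕ) * 1 = 1 * t ^ (M * (n : ℕ) - 0) := by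
    rw [← pow_mul, Nat.sub_zero]; ring
  rw [e1, e2, e3]

/-! ### The expansion of `pFun M (a, b)` in `t = 𝕢 M τ` -/

/-- `ζ_M^b = e(b/M)` -/
def zetaPow (M : ℕ) (b : ℤ) : ℂ := cexp (2 * π * I * b / M)

theorem norm_zetaPow (M : ℕ) (b : ℤ) : ‖zetaPow M b‖ = 1 := by
  rw [zetaPow, show 2 * (π : ℂ) * I * b / M = ((2 * π * b / M : ℝ) : ℂ) * I by push_cast; ring]
  exact Complex.norm_exp_ofReal_mul_I _

theorem zetaPow_ne_zero (M : ℕ) (b : ℤ) : zetaPow M b ≠ 0 := Complex.exp_ne_zero _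

theorem zetaPow_zero (M : ℕ) : zetaPow M 0 = 1 := by simp [zetaPow]

theorem qParam_pow_level {M : ℕ} (hM : M ≠ 0) (τ : ℂ) :
    cexp (2 * π * I * τ) = 𝕢 (M : ℝ) τ ^ M := by
  have hM' : (M : ℂ) ≠ 0 := Nat.cast_ne_zero.mpr hM
  unfold Function.Periodic.qParam
  rw [← Complex.exp_nat_mul]
  congr 1
  push_cast
  field_simp

theorem cexp_divPt {M : ℕ} (hM : M ≠ 0) (a : ℕ) (b : ℤ) (τ : ℍ) :
    cexp (2 * π * I * divPt M ((a : ℤ), b) τ) = zetaPow M b * 𝕢 (M : ℝ) τ ^ a := by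
  have hM' : (M : ℂ) ≠ 0 := Nat.cast_ne_zero.mpr hM
  unfold Function.Periodic.qParam zetaPow divPt
  rw [← Complex.exp_nat_mul, ← Complex.exp_add]
  congr 1
  push_cast
  field_simp
  ring

theorem im_divPt (M : ℕ) (a : ℕ) (b : ℤ) (τ : ℍ) :
    (divPt M ((a : ℤ), b) τ).im = a * τ.im / M := by
  unfold divPt
  rw [Complex.div_natCast_im]
  simp [Complex.add_im, Complex.mul_im]

theorem abs_im_divPt_lt {M : ℕ} {a : ℕ} (ha : a < M) (b : ℤ) (τ : ℍ) :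
    |(divPt M ((a : ℤ), b) τ).im| < τ.im := by
  have hτ := τ.im_pos
  have hM : (0 : ℝ) < M := by exact_mod_cast (Nat.zero_le a).trans_lt ha
  have ha' : (a : ℝ) < M := by exact_mod_cast ha
  rw [im_divPt, abs_of_nonneg (by positivity), div_lt_iff₀ hM]
  nlinarith

/-- **(E1), `0 < a < M`**: `℘((aτ+b)/M)/(2πi)² = 1/12 + ∑_n c_n t^n`, `t = e(τ/M)`. -/
theorem pFun_eq_evalDisc_of_pos {M : ℕ} [NeZero M] {a : ℕ} (ha0 : 0 < a) (ha : a < M) (b : ℤ)
    (τ : ℍ) :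
    pFun M ((a : ℤ), b) τ / (2 * π * I) ^ 2 =
      1 / 12 + evalDisc (pSeries M (zetaPow M b) (a : ZMod M)) (𝕢 (M : ℝ) τ) := by
  have hM : M ≠ 0 := NeZero.ne M
  have hMpos : (0 : ℝ) < M := by exact_mod_cast NeZero.pos M
  have ht := norm_qParam_lt_one' hMpos τ
  have ht0 := qParam_ne_zero' (M : ℝ) τ
  have hx := norm_zetaPow M b
  have hz := abs_im_divPt_lt ha b τ
  have hzpos : 0 < (divPt M ((a : ℤ), b) τ).im := by
    rw [im_divPt]
    have := τ.im_pos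
    have ha' : (0 : ℝ) < a := by exact_mod_cast ha0
    positivity
  have hS := hasSum_fam_prog_add (M := M) hx.le ht ha0 ha
  have key := weierstrassP_sub_rowG_zero ha ht ht0 hx (qParam_pow_level hM τ)
    (cexp_divPt hM a b τ) hz hS
  have hG0 : rowG τ (divPt M ((a : ℤ), b) τ) 0 =
      -(4 * π ^ 2) * geomE (zetaPow M b * 𝕢 (M : ℝ) τ ^ a) - π ^ 2 / 3 := by
    simp only [rowG, Int.cast_zero, zero_mul, sub_zero]
    rw [rowSum_eq_of_im_pos hzpos, rowSum_zero, cexp_divPt hM]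
  rw [hG0] at key
  rw [evalDisc_pSeries M hx _ ht]
  have hI : (2 * (π : ℂ) * I) ^ 2 = -(4 * π ^ 2) := by
    rw [mul_pow, mul_pow, I_sq]; ring
  have hpi : (π : ℂ) ≠ 0 := by exact_mod_cast Real.pi_ne_zero
  have h4 : (4 * (π : ℂ) ^ 2) ≠ 0 := mul_ne_zero (by norm_num) (pow_ne_zero 2 hpi)
  rw [hI, pFun]
  have key' : ℘[tauPair τ] (divPt M ((a : ℤ), b) τ) = -(4 * π ^ 2) *
      (evalDisc (lamSeries (famW M (zetaPow M b)⁻¹ (-(a : ZMod M)))) (𝕢 (M : ℝ) τ)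
        + (evalDisc (lamSeries (famW M (zetaPow M b) (a : ZMod M))) (𝕢 (M : ℝ) τ)
          - geomE (zetaPow M b * 𝕢 (M : ℝ) τ ^ a))
        - 2 * evalDisc (lamSeries (famW M 1 0)) (𝕢 (M : ℝ) τ))
      + (-(4 * π ^ 2) * geomE (zetaPow M b * 𝕢 (M : ℝ) τ ^ a) - π ^ 2 / 3) := by
    rw [← key]; ring
  rw [key']
  field_simp
  ring

theorem divPt_zero_left (M : ℕ) (b : ℤ) (τ : ℍ) : divPt M ((0 : ℤ), b) τ = (b : ℂ) / M := by
  simp [divPt]

theorem divPt_zero_ne_int {M : ℕ} [NeZero M] {b : ℤ} (hb : ¬ (M : ℤ) ∣ b) (τ : ℍ) (n : ℤ) :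
    divPt M ((0 : ℤ), b) τ ≠ n := by
  have hM' : (M : ℂ) ≠ 0 := Nat.cast_ne_zero.mpr (NeZero.ne M)
  rw [divPt_zero_left]
  intro h
  apply hb
  rw [div_eq_iff hM'] at h
  refine ⟨n, ?_⟩
  have : ((b : ℤ) : ℂ) = ((M * n : ℤ) : ℂ) := by push_cast; rw [h]; ring
  exact_mod_cast this

/-- **(E1), `a = 0`, `M ∤ b`**: `℘(b/M)/(2πi)² = 1/12 + ζ^b/(1-ζ^b)² + ∑_n c_n t^n`. -/
theorem pFun_eq_evalDisc_of_zero {M : ℕ} [NeZero M] {b : ℤ} (hb : ¬ (M : ℤ) ∣ b) (τ : ℍ) :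
    pFun M ((0 : ℤ), b) τ / (2 * π * I) ^ 2 =
      1 / 12 + zetaPow M b / (1 - zetaPow M b) ^ 2
        + evalDisc (pSeries M (zetaPow M b) (0 : ZMod M)) (𝕢 (M : ℝ) τ) := by
  have hM : M ≠ 0 := NeZero.ne M
  have hMpos : (0 : ℝ) < M := by exact_mod_cast NeZero.pos M
  have ht := norm_qParam_lt_one' hMpos τ
  have ht0 := qParam_ne_zero' (M : ℝ) τ
  have hx := norm_zetaPow M b
  have hz := abs_im_divPt_lt (NeZero.pos M) b τ
  have hS0 := hasSum_fam_prog (M := M) hx.le ht (a' := 0) (NeZero.pos M)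
  simp only [Nat.cast_zero, neg_zero, Nat.sub_zero] at hS0
  have hzx := cexp_divPt hM 0 b τ
  simp only [Nat.cast_zero] at hzx hz
  have key := weierstrassP_sub_rowG_zero (a := 0) (NeZero.pos M) ht ht0 hx
    (qParam_pow_level hM τ) hzx hz (by simpa using hS0)
  simp only [Nat.cast_zero, neg_zero] at key
  have hG0 : rowG τ (divPt M ((0 : ℤ), b) τ) 0 =
      -(4 * π ^ 2) * (zetaPow M b / (1 - zetaPow M b) ^ 2) - π ^ 2 / 3 := by
    simp only [rowG, Int.cast_zero, zero_mul, sub_zero]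
    rw [rowSum_closed (divPt_zero_ne_int hb τ), rowSum_zero, hzx, pow_zero, mul_one]
  rw [hG0] at key
  rw [evalDisc_pSeries M hx _ ht]
  have hI : (2 * (π : ℂ) * I) ^ 2 = -(4 * π ^ 2) := by
    rw [mul_pow, mul_pow, I_sq]; ring
  have hpi : (π : ℂ) ≠ 0 := by exact_mod_cast Real.pi_ne_zero
  have h4 : (4 * (π : ℂ) ^ 2) ≠ 0 := mul_ne_zero (by norm_num) (pow_ne_zero 2 hpi)
  rw [hI, pFun]
  generalize zetaPow M b / (1 - zetaPow M b) ^ 2 = V at key ⊢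
  have key' : ℘[tauPair τ] (divPt M ((0 : ℤ), b) τ) = -(4 * π ^ 2) *
      (evalDisc (lamSeries (famW M (zetaPow M b)⁻¹ (0 : ZMod M))) (𝕢 (M : ℝ) τ)
        + evalDisc (lamSeries (famW M (zetaPow M b) (0 : ZMod M))) (𝕢 (M : ℝ) τ)
        - 2 * evalDisc (lamSeries (famW M 1 0)) (𝕢 (M : ℝ) τ))
      + (-(4 * π ^ 2) * V - π ^ 2 / 3) := by
    rw [← key]; ring
  rw [key', neg_zero]
  field_simp
  ring

/-! ### General `v`, and the cusp expansion -/

/-- the constant term of `℘(z_v)/(2πi)²` -/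
def pConst (M : ℕ) (a : ZMod M) (b : ℤ) : ℂ :=
  1 / 12 + if a = 0 then zetaPow M b / (1 - zetaPow M b) ^ 2 else 0

/-- **(E1)** for every `v ∉ M ℤ²`. -/
theorem pFun_eq_evalDisc {M : ℕ} [NeZero M] (v : ℤ × ℤ)
    (hv : ¬ ((M : ℤ) ∣ v.1 ∧ (M : ℤ) ∣ v.2)) (τ : ℍ) :
    pFun M v τ / (2 * π * I) ^ 2 = pConst M (v.1 : ZMod M) v.2
      + evalDisc (pSeries M (zetaPow M v.2) (v.1 : ZMod M)) (𝕢 (M : ℝ) τ) := by
  have hM : M ≠ 0 := NeZero.ne M
  have hMZ : (0 : ℤ) < M := by exact_mod_cast NeZero.pos M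
  obtain ⟨a, b⟩ := v
  simp only at hv ⊢
  have hmod0 : 0 ≤ a % (M : ℤ) := Int.emod_nonneg _ hMZ.ne'
  have hmodlt : a % (M : ℤ) < M := Int.emod_lt_of_pos _ hMZ
  obtain ⟨a', ha'⟩ := Int.eq_ofNat_of_zero_le hmod0
  have ha'lt : a' < M := by
    have : (a' : ℤ) < M := by rw [← ha']; exact hmodlt
    exact_mod_cast this
  have hv' : ((a, b) : ℤ × ℤ) = ((a' : ℤ), b) + (M : ℤ) • ((a / (M : ℤ), 0) : ℤ × ℤ) := by
    ext
    · simp only [Prod.fst_add, Prod.smul_fst, smul_eq_mul]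
      rw [← ha']; exact (Int.emod_add_mul_ediv a M).symm
    · simp
  have hcast : ((a' : ℕ) : ZMod M) = ((a : ℤ) : ZMod M) := by
    have : (((a' : ℕ) : ℤ) : ZMod M) = ((a : ℤ) : ZMod M) := by
      rw [← ha']; exact ZMod.intCast_mod a M
    simpa using this
  rw [hv', pFun_add_smul hM, ← hcast]
  rcases Nat.eq_zero_or_pos a' with h0 | hpos
  · subst h0
    have hMa : (M : ℤ) ∣ a := by
      rw [Int.dvd_iff_emod_eq_zero, ha']; simp
    have hb : ¬ (M : ℤ) ∣ b := fun h => hv ⟨hMa, h⟩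
    rw [Nat.cast_zero, pConst, if_pos (by simp), pFun_eq_evalDisc_of_zero hb]
    simp
  · have hne : ((a' : ℕ) : ZMod M) ≠ 0 := by
      rw [Ne, ZMod.natCast_eq_zero_iff]
      intro h
      have := Nat.le_of_dvd hpos h
      omega
    rw [pConst, if_neg hne, add_zero, pFun_eq_evalDisc_of_pos hpos ha'lt]

theorem conv_pExp (M : ℕ) (a : ZMod M) (b : ℤ) :
    Conv (C (pConst M a b) + pSeries M (zetaPow M b) a) :=
  (conv_C _).add (conv_pSeries M (norm_zetaPow M b) a)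

/-- **(E1), cusp-expansion form**: `τ ↦ ℘((aτ+b)/M; ℤ+ℤτ)/(2πi)²` has a holomorphic expansion in
`t = e(τ/M)`. -/
theorem hasCuspExp_pFun {M : ℕ} [NeZero M] (v : ℤ × ℤ)
    (hv : ¬ ((M : ℤ) ∣ v.1 ∧ (M : ℤ) ∣ v.2)) :
    HasCuspExp (M : ℝ) (fun τ => pFun M v τ / (2 * π * I) ^ 2)
      (lsOf 0 (C (pConst M (v.1 : ZMod M) v.2) + pSeries M (zetaPow M v.2) (v.1 : ZMod M))) := by
  have hMpos : (0 : ℝ) < M := by exact_mod_cast NeZero.pos M
  refine hasCuspExp_of_evalDisc 0 (conv_pExp M _ _) fun τ => ?_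
  have ht := norm_qParam_lt_one' hMpos τ
  rw [pow_zero, mul_one, pFun_eq_evalDisc v hv,
    evalDisc_add (conv_C _) (conv_pSeries M (norm_zetaPow M v.2) _) ht, evalDisc_C]

/-- the coefficients of `pSeries` -/
theorem coeff_pSeries (M : ℕ) (x : ℂ) (a : ZMod M) (n : ℕ) :
    coeff n (pSeries M x a) = ∑ p ∈ n.divisorsAntidiagonal,
      (p.2 : ℂ) * (x ^ p.2 * ind M a p.1 + x⁻¹ ^ p.2 * ind M (-a) p.1 - 2 * ind M 0 p.1) := by
  rw [pSeries, map_sub, map_add, PowerSeries.coeff_smul, coeff_lamSeries, coeff_lamSeries,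
    coeff_lamSeries, lamCoeff, lamCoeff, lamCoeff, smul_eq_mul, Finset.mul_sum,
    ← Finset.sum_add_distrib, ← Finset.sum_sub_distrib]
  refine Finset.sum_congr rfl fun p _ => ?_
  simp only [famW, one_pow]
  ring

end Fermat.Agent.DS.P1
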