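import Mathlib
import Fermat.Agent.DS.P1.WeberAnLattice
import Fermat.Agent.S28.JFunction

/-!
# GATE-N / S48-P1-WEBER-AN (W3a): the Fricke functions `f_v` of level `M`

`frickeFun M v τ = (E₄ E₆ / Δ)(τ) · ℘((a τ + b)/M; ℤ + ℤ τ) / (2πi)²`, `v = (a, b)`:
weight `0`, `frickeFun M v (g • τ) = frickeFun M (v g) τ` for all `g ∈ SL(2, ℤ)`.
-/

set_option autoImplicit false

noncomputable section

namespace Fermat.Agent.DS.P1

open Complex PeriodPair ModularForm EisensteinSeries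
open UpperHalfPlane hiding I
open scoped Real Topology MatrixGroups

local notation "Δ" => ModularForm.discriminant

/-- the level one form `E₄ E₆ / Δ` of weight `-2` -/
def wtNegTwo (τ : ℍ) : ℂ := E₄ τ * E₆ τ / Δ τ

theorem wtNegTwo_smul (g : SL(2, ℤ)) (τ : ℍ) :
    wtNegTwo (g • τ) = (den g τ ^ 2)⁻¹ * wtNegTwo τ := by
  have hmem : Matrix.SpecialLinearGroup.mapGL ℝ g ∈ 𝒮ℒ := ⟨g, rfl⟩
  have h4 := SlashInvariantForm.slash_action_eqn'' E₄ hmem τ
  have h6 := SlashInvariantForm.slash_action_eqn'' E₆ hmem τ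
  have h12 := SlashInvariantForm.slash_action_eqn'' CuspForm.discriminant hmem τ
  have hd : denom (Matrix.SpecialLinearGroup.mapGL ℝ g) τ ≠ 0 := denom_ne_zero _ _
  have hsm : (Matrix.SpecialLinearGroup.mapGL ℝ g) • τ = g • τ := rfl
  rw [hsm] at h4 h6 h12
  simp only [CuspForm.coe_discriminant] at h12
  rw [wtNegTwo, wtNegTwo, h4, h6, h12, den_eq_denom]
  have hΔ : Δ τ ≠ 0 := discriminant_ne_zero τ
  norm_num
  field_simp

/-- the Fricke function of level `M` attached to `v ∈ ℤ²` -/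
def frickeFun (M : ℕ) (v : ℤ × ℤ) (τ : ℍ) : ℂ :=
  wtNegTwo τ * (pFun M v τ / (2 * π * I) ^ 2)

/-- **Equivariance**: `f_v (g τ) = f_{v g} (τ)` for every `g ∈ SL(2, ℤ)`. -/
theorem frickeFun_smul (M : ℕ) (v : ℤ × ℤ) (g : SL(2, ℤ)) (τ : ℍ) :
    frickeFun M v (g • τ) = frickeFun M (vmul v g) τ := by
  have hD := den_ne_zero g τ
  rw [frickeFun, frickeFun, wtNegTwo_smul, pFun_smul]
  field_simp

theorem frickeFun_add_smul {M : ℕ} (hM : M ≠ 0) (v w : ℤ × ℤ) (τ : ℍ) :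
    frickeFun M (v + (M : ℤ) • w) τ = frickeFun M v τ := by
  rw [frickeFun, frickeFun, pFun_add_smul hM]

theorem frickeFun_neg (M : ℕ) (v : ℤ × ℤ) (τ : ℍ) : frickeFun M (-v) τ = frickeFun M v τ := by
  rw [frickeFun, frickeFun, pFun_neg]

/-- the **twist law**: `f_{(a,b)}(τ + 1) = f_{(a, a + b)}(τ)` -/
theorem frickeFun_T_smul (M : ℕ) (v : ℤ × ℤ) (τ : ℍ) :
    frickeFun M v (ModularGroup.T • τ) = frickeFun M (v.1, v.1 + v.2) τ := by
  rw [frickeFun_smul]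
  congr 1
  ext <;> simp [vmul, ModularGroup.T]

end Fermat.Agent.DS.P1
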