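import Mathlib
import Fermat.Agent.DS.P1.WeberAnExp
import Fermat.Agent.DS.P1.WeberAnFricke
import Fermat.Agent.DS.P0.Weber
import Fermat.Agent.S28.MeroSubst
import Fermat.Agent.S28.CuspExpansion

/-!
# GATE-N / S48-P1-WEBER-AN (E2): cusp expansions of the weight `-2` factor and of the Fricke
functions

* `hasCuspExp_wtNegTwo : HasCuspExp 1 wtNegTwo (weberFactorC ℂ)` (`E₄E₆/Δ = q⁻¹ + …`);
* `hasCuspExp_frickeFun` : `frickeFun M v` (`v ∉ M ℤ²`) has an expansion in `e(τ/M)`;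
* `frickeHol M v hv : Hol`.
-/

set_option autoImplicit false

noncomputable section

namespace Fermat.Agent.DS.P1

open Complex PowerSeries PeriodPair ModularForm EisensteinSeries ModularCurve
open Fermat.Agent.S28 Fermat.Agent.DS.P0
open UpperHalfPlane hiding I
open scoped Real Topology MatrixGroups Manifold

local notation "𝕢" => Function.Periodic.qParam
local notation "Δ" => ModularForm.discriminant

/-! ### `E₆` -/

theorem qExpansion_E6_eq : qExpansion 1 E₆ = toC eisenstein6 := by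
  ext m
  rw [E_qExpansion_coeff (by norm_num : 3 ≤ 6) ⟨3, rfl⟩ m, coeff_toC]
  simp only [eisenstein6, coeff_mk]
  rcases eq_or_ne m 0 with rfl | hm
  · simp
  · simp only [hm, if_false]
    rw [show bernoulli 6 = 1 / 42 by decide +kernel]
    simp [ArithmeticFunction.sigma_apply]
    norm_num

theorem conv_eisenstein6 : Conv (toC eisenstein6) := by
  rw [← qExpansion_E6_eq]; exact conv_qExpansion_levelOne E₆

theorem evalDisc_eisenstein6 (z : ℍ) : evalDisc (toC eisenstein6) (𝕢 1 z) = E₆ z := by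
  rw [← qExpansion_E6_eq]; exact evalDisc_qExpansion_levelOne E₆ z

/-! ### The weight `-2` factor -/

theorem conv_weberNum : Conv (toC weberNum) := by
  rw [weberNum, toC_mul, toC_mul]
  exact (conv_eisenstein4.mul conv_eisenstein6).mul conv_dedekindEtaUnitInv

theorem weberFactorC_eq_lsOf : weberFactorC ℂ = lsOf 1 (toC weberNum) := by
  rw [weberFactorC, lsOf, toC]; simp

/-- `E₄E₆/Δ = q⁻¹ + ⋯` -/
theorem hasCuspExp_wtNegTwo : HasCuspExp 1 wtNegTwo (weberFactorC ℂ) := by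
  rw [weberFactorC_eq_lsOf]
  refine hasCuspExp_of_evalDisc 1 conv_weberNum fun τ => ?_
  have hq := norm_qParam_one_lt_one τ
  have hq0 : 𝕢 1 (τ : ℂ) ≠ 0 := Function.Periodic.qParam_ne_zero _
  have hu : evalDisc (toC dedekindEtaUnit) (𝕢 1 τ) ≠ 0 := evalDisc_dedekindEtaUnit_ne_zero hq
  rw [pow_one, weberNum, toC_mul, toC_mul,
    evalDisc_mul (conv_eisenstein4.mul conv_eisenstein6) conv_dedekindEtaUnitInv hq,
    evalDisc_mul conv_eisenstein4 conv_eisenstein6 hq, evalDisc_eisenstein4,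
    evalDisc_eisenstein6, evalDisc_dedekindEtaUnitInv hq, wtNegTwo, discriminant_eq_evalDisc]
  field_simp

/-! ### Fricke functions -/

/-- `v ∉ M ℤ²` -/
def NotDiv (M : ℕ) (v : ℤ × ℤ) : Prop := ¬ ((M : ℤ) ∣ v.1 ∧ (M : ℤ) ∣ v.2)

theorem dvd_vmul {M : ℕ} {v : ℤ × ℤ} (h : (M : ℤ) ∣ v.1 ∧ (M : ℤ) ∣ v.2) (g : SL(2, ℤ)) :
    (M : ℤ) ∣ (vmul v g).1 ∧ (M : ℤ) ∣ (vmul v g).2 :=
  ⟨dvd_add (Dvd.dvd.mul_right h.1 _) (Dvd.dvd.mul_right h.2 _),
    dvd_add (Dvd.dvd.mul_right h.1 _) (Dvd.dvd.mul_right h.2 _)⟩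

theorem NotDiv.vmul {M : ℕ} {v : ℤ × ℤ} (hv : NotDiv M v) (g : SL(2, ℤ)) :
    NotDiv M (vmul v g) := by
  intro h
  apply hv
  have := dvd_vmul h g⁻¹
  rwa [← vmul_mul, mul_inv_cancel, vmul_one] at this

/-- the cusp expansion of `frickeFun M v` in `e(τ/M)` -/
def frickeExp (M : ℕ) [NeZero M] (v : ℤ × ℤ) : LaurentSeries ℂ :=
  qExpand ℂ M (weberFactorC ℂ) *
    lsOf 0 (C (pConst M (v.1 : ZMod M) v.2) + pSeries M (zetaPow M v.2) (v.1 : ZMod M))

theorem natCast_pos_real (M : ℕ) [NeZero M] : (0 : ℝ) < (M : ℝ) := by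
  exact_mod_cast NeZero.pos M

theorem hasCuspExp_frickeFun {M : ℕ} [NeZero M] (v : ℤ × ℤ) (hv : NotDiv M v) :
    HasCuspExp (M : ℝ) (frickeFun M v) (frickeExp M v) :=
  (hasCuspExp_wtNegTwo.period_nat M).mul (natCast_pos_real M) (hasCuspExp_pFun v hv)

theorem mdifferentiable_frickeFun {M : ℕ} [NeZero M] (v : ℤ × ℤ) (hv : NotDiv M v) :
    MDiff (frickeFun M v) :=
  (hasCuspExp_frickeFun v hv).mdifferentiable (natCast_pos_real M)

/-! ### The Weber functions of the model `(𝔾ₘ/q^{Mℤ}, q)` -/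

/-- the Weber function of the multiple `a P` of the point `P = q` of the Tate curve
`𝔾ₘ / q^{Mℤ}`: `w_a(τ) = f_{(a,0)}(M τ)`. -/
def weberFun (M : ℕ) [NeZero M] (a : ZMod M) (τ : ℍ) : ℂ :=
  frickeFun M ((a.val : ℤ), 0) (CuspExp.dilate M (NeZero.pos M) τ)

/-- any representative may be used -/
theorem frickeFun_dilate_eq_weberFun {M : ℕ} [NeZero M] (a : ZMod M) {a' b' : ℤ}
    (ha : (a' : ZMod M) = a) (hb : (M : ℤ) ∣ b') (τ : ℍ) :
    frickeFun M (a', b') (CuspExp.dilate M (NeZero.pos M) τ) = weberFun M a τ := by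
  have h1 : (M : ℤ) ∣ a' - (a.val : ℤ) := by
    rw [← ZMod.intCast_eq_intCast_iff_dvd_sub, ha]
    simp
  obtain ⟨k, hk⟩ := h1
  obtain ⟨l, hl⟩ := hb
  have : ((a', b') : ℤ × ℤ) = ((a.val : ℤ), 0) + (M : ℤ) • ((k, l) : ℤ × ℤ) := by
    ext
    · simp only [Prod.fst_add, Prod.smul_fst, smul_eq_mul]; linarith
    · simp only [Prod.snd_add, Prod.smul_snd, smul_eq_mul]; linarith
  rw [this, frickeFun_add_smul (NeZero.ne M), weberFun]

theorem qParam_dilate (M : ℕ) [NeZero M] (τ : ℍ) :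
    𝕢 (M : ℝ) (CuspExp.dilate M (NeZero.pos M) τ : ℂ) = 𝕢 1 (τ : ℂ) := by
  have hM' : (M : ℂ) ≠ 0 := Nat.cast_ne_zero.mpr (NeZero.ne M)
  unfold Function.Periodic.qParam
  rw [CuspExp.coe_dilate]
  congr 1
  push_cast
  field_simp

/-- `1 + 12 X(q^a; q^M)` is the power series of `12 ℘/(2πi)²` -/
theorem toC_tateX12 (M : ℕ) (a : ZMod M) :
    toC (tateX12 M a) = C 1 + (12 : ℂ) • pSeries M 1 a := by
  ext n
  rw [coeff_toC, map_add, PowerSeries.coeff_smul, coeff_pSeries, smul_eq_mul]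
  rcases eq_or_ne n 0 with rfl | hn
  · simp [tateX12]
  · rw [PowerSeries.coeff_C, if_neg hn, zero_add, tateX12, coeff_mk, if_neg hn, tateCoeff,
      Int.cast_mul, Int.cast_ofNat, Int.cast_sum]
    congr 1
    rw [Nat.sum_divisorsAntidiagonal (fun e k => (k : ℂ) * ((1 : ℂ) ^ k * ind M a e
      + (1 : ℂ)⁻¹ ^ k * ind M (-a) e - 2 * ind M 0 e))]
    refine Finset.sum_congr rfl fun e _ => ?_
    simp only [ind, one_pow, inv_one, one_mul, Int.cast_mul, Int.cast_natCast, Int.cast_sub,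
      Int.cast_add, Int.cast_ite, Int.cast_one, Int.cast_zero, Int.cast_ofNat]

theorem hasCuspExp_wtNegTwo_dilate (M : ℕ) [NeZero M] :
    HasCuspExp 1 (fun τ => wtNegTwo (CuspExp.dilate M (NeZero.pos M) τ))
      (qExpand ℂ M (weberFactorC ℂ)) := by
  have h := hasCuspExp_wtNegTwo.subst (A := M) (D := 1) (e := M) (N := 1) (B := 0) one_ne_zero
    one_ne_zero (by ring) (CuspExp.dilate M (NeZero.pos M)) (fun τ => by simp) 1 (by simp)
  rw [CuspExp.cuspS_one_eq_qExpand, Nat.cast_one] at h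
  exact h

/-- **(E3)** `12 w_a = (E₄E₆/Δ)(q^M) (1 + 12 X(q^a; q^M))`: the analytic Weber function has the
formal expansion `weber12C ℂ M a` of `DS/P0/Weber.lean`. -/
theorem hasCuspExp_weberFun {M : ℕ} [NeZero M] {a : ZMod M} (ha : a ≠ 0) :
    HasCuspExp 1 (fun τ => 12 * weberFun M a τ) (weber12C ℂ M a) := by
  have hcast : (((a.val : ℕ) : ℤ) : ZMod M) = a := by simp
  have hv : NotDiv M ((a.val : ℤ), 0) := by
    rintro ⟨h1, -⟩
    apply ha
    rw [← hcast]
    exact (ZMod.intCast_zmod_eq_zero_iff_dvd _ M).mpr h1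
  have hconv : Conv (toC (tateX12 M a)) := by
    rw [toC_tateX12]
    exact (conv_C 1).add ((conv_pSeries M (by simp) a).smul 12)
  have h2 : HasCuspExp 1 (fun τ => 12 * (pFun M ((a.val : ℤ), 0)
      (CuspExp.dilate M (NeZero.pos M) τ) / (2 * π * I) ^ 2))
      (HahnSeries.ofPowerSeries ℤ ℂ (toC (tateX12 M a))) := by
    rw [← lsOf_zero_left]
    refine hasCuspExp_of_evalDisc 0 hconv fun τ => ?_
    have ht := norm_qParam_one_lt_one τ
    rw [pow_zero, mul_one, pFun_eq_evalDisc _ hv, qParam_dilate, toC_tateX12,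
      evalDisc_add (conv_C 1) ((conv_pSeries M (by simp) a).smul 12) ht, evalDisc_C,
      evalDisc_smul]
    simp only [hcast, zetaPow_zero, pConst, if_neg ha, add_zero]
    ring
  have h := (hasCuspExp_wtNegTwo_dilate M).mul one_pos h2
  refine h.congr fun τ => ?_
  rw [weberFun, frickeFun]
  ring

end Fermat.Agent.DS.P1
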