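import Mathlib
import Fermat.Agent.DS.P1.WeberAnCusp
import Fermat.Agent.DS.P0.WeberDistinct
import Fermat.Agent.GJ.J2.Dict.FieldGen

/-!
# GATE-N / S48-P1-WEBER-AN (E3): the Weber functions as holomorphic functions of moderate growth

* `weberFun_smul_of_mem_Gamma0` : `w_a ∘ g = w_{a g₀₀}` for `g ∈ Γ₀(M)`; `Γ₁(M)`-invariance;
* `frickeHol`, `weberHol : Hol`, `frickeHol_mem_MG`, `weberHol_mem_MG`;
* the stabiliser of `weberHol M 1` in `Γ₀(M)` is `±Γ₁(M)`.
-/

set_option autoImplicit false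

noncomputable section

namespace Fermat.Agent.DS.P1

open Complex PowerSeries ModularCurve CongruenceSubgroup Filter
open Fermat.Agent.S28 Fermat.Agent.DS.P0 Fermat.Agent.S24_helper82
open Fermat.Agent.GJ.Dict.FieldGen
open UpperHalfPlane hiding I
open scoped Real Topology MatrixGroups Manifold

local notation "𝕢" => Function.Periodic.qParam

/-! ### The action of `Γ₀(M)` -/

/-- for every `g ∈ SL(2,ℤ)`: `w_a(g z) = f_{(a,0) g''}((A z + B)/D)` -/
theorem weberFun_smul_hermite {M : ℕ} [NeZero M] (a : ZMod M) {g : SL(2, ℤ)}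
    (H : CuspExp.HermiteData M g) (z : ℍ) :
    weberFun M a (g • z) =
      frickeFun M (vmul ((a.val : ℤ), 0) H.g'') (H.pt (NeZero.pos M) z) := by
  rw [weberFun, H.dilate_smul (NeZero.pos M), frickeFun_smul]

/-- **`Γ₀(M)`-equivariance**: `w_a ∘ g = w_{a g₀₀}`. -/
theorem weberFun_smul_of_mem_Gamma0 {M : ℕ} [NeZero M] (a : ZMod M) {g : SL(2, ℤ)}
    (hg : g ∈ Gamma0 M) (z : ℍ) :
    weberFun M a (g • z) = weberFun M (a * ((g 0 0 : ℤ) : ZMod M)) z := by
  have hM := NeZero.pos M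
  obtain ⟨H⟩ := CuspExp.nonempty_hermiteData M hM g
  have hdvd := CuspExp.dvd_lower_left_of_mem_Gamma0 (dvd_refl M) hg
  have hA := H.A_eq_of_dvd hdvd
  have hD := H.D_eq_one_of_dvd hM hdvd
  have hB := H.B_eq_zero_of_dvd hM hdvd
  have hM' : (M : ℤ) ≠ 0 := by exact_mod_cast hM.ne'
  have h00 : H.g'' 0 0 = g 0 0 := by
    have := H.h00
    rw [hA, mul_comm] at this
    exact mul_left_cancel₀ hM' this
  have h01 : H.g'' 0 1 = M * g 0 1 := by
    have := H.h01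
    rw [hB, hD, mul_zero, zero_add, mul_one] at this
    exact this
  rw [weberFun_smul_hermite a H, H.pt_eq_dilate_of_dvd hM hdvd]
  refine frickeFun_dilate_eq_weberFun _ ?_ ?_ z
  · simp only [zero_mul, add_zero, h00]
    push_cast
    simp
  · simp only [zero_mul, add_zero, h01]
    exact Dvd.dvd.mul_left (dvd_mul_right _ _) _

theorem cast_00_of_mem_Gamma1 {M : ℕ} {g : SL(2, ℤ)} (hg : g ∈ Gamma1 M) :
    ((g 0 0 : ℤ) : ZMod M) = 1 := (Gamma1_mem M g).mp hg |>.1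

/-- **`Γ₁(M)`-invariance** -/
theorem weberFun_smul_of_mem_Gamma1 {M : ℕ} [NeZero M] (a : ZMod M) {g : SL(2, ℤ)}
    (hg : g ∈ Gamma1 M) (z : ℍ) : weberFun M a (g • z) = weberFun M a z := by
  have hg0 : g ∈ Gamma0 M := by
    rw [Gamma0_mem]; exact ((Gamma1_mem M g).mp hg).2.2
  rw [weberFun_smul_of_mem_Gamma0 a hg0, cast_00_of_mem_Gamma1 hg, mul_one]

/-! ### Holomorphy and moderate growth -/

theorem notDiv_of_ne_zero {M : ℕ} [NeZero M] {a : ZMod M} (ha : a ≠ 0) :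
    NotDiv M ((a.val : ℤ), 0) := by
  rintro ⟨h1, -⟩
  apply ha
  have hcast : (((a.val : ℕ) : ℤ) : ZMod M) = a := by simp
  rw [← hcast]
  exact (ZMod.intCast_zmod_eq_zero_iff_dvd _ M).mpr h1

/-- the Fricke function `f_v`, `v ∉ M ℤ²`, as a holomorphic function -/
def frickeHol (M : ℕ) [NeZero M] (v : ℤ × ℤ) (hv : NotDiv M v) : Hol :=
  ⟨frickeFun M v, mdifferentiable_frickeFun v hv⟩

@[simp] theorem frickeHol_apply (M : ℕ) [NeZero M] (v : ℤ × ℤ) (hv : NotDiv M v) (τ : ℍ) :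
    (frickeHol M v hv : ℍ → ℂ) τ = frickeFun M v τ := rfl

theorem compSL_frickeHol (M : ℕ) [NeZero M] (v : ℤ × ℤ) (hv : NotDiv M v) (g : SL(2, ℤ)) :
    compSL g (frickeHol M v hv) = frickeHol M (vmul v g) (hv.vmul g) := by
  ext τ
  exact frickeFun_smul M v g τ

/-- the Fricke functions have moderate growth at every cusp -/
theorem moderateGrowth_frickeFun {M : ℕ} [NeZero M] (v : ℤ × ℤ) (hv : NotDiv M v) :
    ModerateGrowth M (frickeFun M v) := by
  intro g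
  obtain ⟨m, hm⟩ := (hasCuspExp_frickeFun _ (hv.vmul g)).exists_bdd (natCast_pos_real M)
  refine ⟨m, ?_⟩
  simpa only [frickeFun_smul] using hm

theorem frickeHol_mem_MG (M : ℕ) [NeZero M] (v : ℤ × ℤ) (hv : NotDiv M v) :
    frickeHol M v hv ∈ MG M := moderateGrowth_frickeFun v hv

theorem im_hermite_pt {d : ℕ} {g : SL(2, ℤ)} (hd : 0 < d) (H : CuspExp.HermiteData d g) (z : ℍ) :
    (H.pt hd z).im = (H.A : ℝ) * z.im / H.D := by
  have : (H.pt hd z).im = ((H.pt hd z : ℍ) : ℂ).im := rfl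
  rw [this, H.coe_pt hd, CuspExp.im_affine_div]
  rfl

theorem tendsto_hermite_pt {d : ℕ} {g : SL(2, ℤ)} (hd : 0 < d) (H : CuspExp.HermiteData d g) :
    Tendsto (H.pt hd) atImInfty atImInfty := by
  rw [atImInfty, tendsto_comap_iff]
  have hA : (0 : ℝ) < H.A := by exact_mod_cast H.A_pos
  have hD : (0 : ℝ) < H.D := by exact_mod_cast H.D_pos hd
  have hfun : (UpperHalfPlane.im ∘ H.pt hd) = fun z : ℍ => ((H.A : ℝ) / H.D) * z.im := by
    funext z
    rw [Function.comp_apply, im_hermite_pt]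
    ring
  rw [hfun]
  exact (tendsto_comap (f := UpperHalfPlane.im) (x := atTop)).const_mul_atTop (div_pos hA hD)

/-- comparison of the local parameters at `z` and at `(A z + B)/D`, `A D = M` -/
theorem norm_qParam_pow_le_hermite {M : ℕ} [NeZero M] {g : SL(2, ℤ)}
    (H : CuspExp.HermiteData M g) (K : ℕ) (z : ℍ) :
    ‖𝕢 (M : ℝ) (z : ℂ) ^ (H.A.toNat * K)‖ ≤ ‖𝕢 (M : ℝ) (H.pt (NeZero.pos M) z : ℂ) ^ K‖ := by
  have hM : (0 : ℝ) < M := natCast_pos_real M
  have hA : (0 : ℝ) < H.A := by exact_mod_cast H.A_pos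
  have hD1 : (1 : ℝ) ≤ H.D := by exact_mod_cast H.D_pos (NeZero.pos M)
  have hAn : ((H.A.toNat : ℕ) : ℝ) = (H.A : ℝ) := by
    have : ((H.A.toNat : ℕ) : ℤ) = H.A := Int.toNat_of_nonneg H.A_pos.le
    exact_mod_cast this
  rw [pow_mul, norm_pow, norm_pow, norm_pow]
  refine pow_le_pow_left₀ (by positivity) ?_ K
  rw [Function.Periodic.norm_qParam, Function.Periodic.norm_qParam, ← Real.exp_nat_mul,
    Real.exp_le_exp, hAn]
  have him : ((H.pt (NeZero.pos M) z : ℍ) : ℂ).im = (H.A : ℝ) * z.im / H.D :=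
    im_hermite_pt (NeZero.pos M) H z
  rw [him]
  have hz := z.im_pos
  have hzc : (z : ℂ).im = z.im := rfl
  rw [hzc]
  have h1 : (H.A : ℝ) * z.im / H.D ≤ (H.A : ℝ) * z.im :=
    div_le_self (by positivity) hD1
  have hpi := Real.pi_pos
  have h2 : -2 * π * ((H.A : ℝ) * z.im) / M ≤ -2 * π * ((H.A : ℝ) * z.im / H.D) / M := by
    apply div_le_div_of_nonneg_right _ hM.le
    nlinarith
  calc (H.A : ℝ) * (-2 * π * z.im / M) = -2 * π * ((H.A : ℝ) * z.im) / M := by ring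
    _ ≤ _ := h2

/-- the Weber functions have moderate growth at every cusp -/
theorem moderateGrowth_weberFun {M : ℕ} [NeZero M] {a : ZMod M} (ha : a ≠ 0) :
    ModerateGrowth M (weberFun M a) := by
  intro g
  have hMpos := natCast_pos_real M
  obtain ⟨H⟩ := CuspExp.nonempty_hermiteData M (NeZero.pos M) g
  have hv : NotDiv M (vmul ((a.val : ℤ), 0) H.g'') := (notDiv_of_ne_zero ha).vmul _
  obtain ⟨K, p, hp, -, hf⟩ := hasCuspExp_frickeFun _ hv
  have hb := HasCuspExp.isBoundedAtImInfty hMpos hp hf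
  have hb' := hb.comp_tendsto (tendsto_hermite_pt (NeZero.pos M) H)
  refine ⟨H.A.toNat * K, ?_⟩
  refine Asymptotics.IsBigO.trans (Asymptotics.isBigO_of_le _ fun z => ?_) hb'
  rw [weberFun_smul_hermite a H, Function.comp_apply, norm_mul, norm_mul]
  exact mul_le_mul_of_nonneg_right (norm_qParam_pow_le_hermite H K z) (norm_nonneg _)

/-! ### `weberHol` -/

/-- `12 w_a` as a holomorphic function (`a ≠ 0`) -/
def weberHol (M : ℕ) [NeZero M] (a : ZMod M) (ha : a ≠ 0) : Hol :=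
  ⟨fun τ => 12 * weberFun M a τ, (hasCuspExp_weberFun ha).mdifferentiable one_pos⟩

@[simp] theorem weberHol_apply (M : ℕ) [NeZero M] (a : ZMod M) (ha : a ≠ 0) (τ : ℍ) :
    (weberHol M a ha : ℍ → ℂ) τ = 12 * weberFun M a τ := rfl

/-- **the `q`-expansion of the analytic Weber function is the formal one** -/
theorem hasCuspExp_weberHol (M : ℕ) [NeZero M] (a : ZMod M) (ha : a ≠ 0) :
    HasCuspExp 1 (weberHol M a ha : ℍ → ℂ) (weber12C ℂ M a) := hasCuspExp_weberFun ha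

theorem isCE_weberHol (M : ℕ) [NeZero M] (a : ZMod M) (ha : a ≠ 0) :
    IsCE 1 (weberHol M a ha : ℍ → ℂ) := (hasCuspExp_weberHol M a ha).isCE

theorem cuspExp_weberHol (M : ℕ) [NeZero M] (a : ZMod M) (ha : a ≠ 0) :
    cuspExp 1 (weberHol M a ha : ℍ → ℂ) = weber12C ℂ M a :=
  (hasCuspExp_weberHol M a ha).cuspExp_eq one_pos

theorem weberHol_mem_MG (M : ℕ) [NeZero M] (a : ZMod M) (ha : a ≠ 0) :
    weberHol M a ha ∈ MG M := by
  have h : ModerateGrowth M (fun τ => (12 : ℂ) * weberFun M a τ) :=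
    ModerateGrowth.mul (N := M) (moderateGrowth_const 12) (moderateGrowth_weberFun ha)
  exact h

theorem weberFun_neg (M : ℕ) [NeZero M] (b : ZMod M) (τ : ℍ) :
    weberFun M (-b) τ = weberFun M b τ := by
  rw [← frickeFun_dilate_eq_weberFun (-b) (a' := -(b.val : ℤ)) (b' := 0) (by simp) (dvd_zero _)]
  have : ((-(b.val : ℤ), 0) : ℤ × ℤ) = -((b.val : ℤ), 0) := by ext <;> simp
  rw [this, frickeFun_neg]
  rfl

/-- `12 w_a = 12 w_b` iff `a = ± b` -/
theorem weberHol_eq_iff (M : ℕ) [NeZero M] {a b : ZMod M} (ha : a ≠ 0) (hb : b ≠ 0) :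
    weberHol M a ha = weberHol M b hb ↔ a = b ∨ a = -b := by
  constructor
  · intro h
    rw [← WeberDistinct.weber12C_eq_iff_of_charZero ℂ a b, ← cuspExp_weberHol M a ha,
      ← cuspExp_weberHol M b hb, h]
  · rintro (rfl | rfl)
    · rfl
    · apply Subtype.ext
      funext τ
      rw [weberHol_apply, weberHol_apply, weberFun_neg]

/-! ### Invariance and the stabiliser -/

/-- for `g ∈ Γ₀(M)`: `g₀₀ g₁₁ ≡ 1 mod M` -/
theorem cast_00_mul_cast_11 {M : ℕ} {g : SL(2, ℤ)} (hg : g ∈ Gamma0 M) :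
    ((g 0 0 : ℤ) : ZMod M) * ((g 1 1 : ℤ) : ZMod M) = 1 := by
  have hc : ((g 1 0 : ℤ) : ZMod M) = 0 := Gamma0_mem.mp hg
  have hdet := det_eq_one' g
  have := congrArg (fun x : ℤ => (x : ZMod M)) hdet
  simp only [Int.cast_sub, Int.cast_mul, Int.cast_one, hc, mul_zero, sub_zero] at this
  exact this

theorem mul_cast_00_ne_zero {M : ℕ} {g : SL(2, ℤ)} (hg : g ∈ Gamma0 M) {a : ZMod M}
    (ha : a ≠ 0) : a * ((g 0 0 : ℤ) : ZMod M) ≠ 0 := by
  intro h
  apply ha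
  have := congrArg (fun x => x * ((g 1 1 : ℤ) : ZMod M)) h
  simpa [mul_assoc, cast_00_mul_cast_11 hg] using this

/-- **`Γ₀(M)` permutes the Weber functions**: `(12 w_a) ∘ g = 12 w_{a g₀₀}` -/
theorem compSL_weberHol_of_mem_Gamma0 (M : ℕ) [NeZero M] {a : ZMod M} (ha : a ≠ 0)
    {g : SL(2, ℤ)} (hg : g ∈ Gamma0 M) :
    compSL g (weberHol M a ha) =
      weberHol M (a * ((g 0 0 : ℤ) : ZMod M)) (mul_cast_00_ne_zero hg ha) := by
  ext τ
  rw [compSL_apply, weberHol_apply, weberHol_apply, weberFun_smul_of_mem_Gamma0 a hg]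

/-- **`Γ₁(M)`-invariance** -/
theorem compSL_weberHol_of_mem_Gamma1 (M : ℕ) [NeZero M] {a : ZMod M} (ha : a ≠ 0)
    {g : SL(2, ℤ)} (hg : g ∈ Gamma1 M) : compSL g (weberHol M a ha) = weberHol M a ha := by
  ext τ
  rw [compSL_apply, weberHol_apply, weberHol_apply, weberFun_smul_of_mem_Gamma1 a hg]

/-- **The stabiliser** of `12 w_1` in `Γ₀(M)` is `±Γ₁(M)` (diamond form). -/
theorem cast_11_of_compSL_weberHol_one (M : ℕ) [NeZero M] (h1 : (1 : ZMod M) ≠ 0)
    {g : SL(2, ℤ)} (hg : g ∈ Gamma0 M)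
    (h : compSL g (weberHol M 1 h1) = weberHol M 1 h1) :
    ((g 1 1 : ℤ) : ZMod M) = 1 ∨ ((g 1 1 : ℤ) : ZMod M) = -1 := by
  rw [compSL_weberHol_of_mem_Gamma0 M h1 hg, weberHol_eq_iff] at h
  have hdet := cast_00_mul_cast_11 hg
  rcases h with h | h
  · left
    rw [one_mul] at h
    rw [h, one_mul] at hdet
    exact hdet
  · right
    rw [one_mul] at h
    rw [h, neg_mul, one_mul, neg_eq_iff_eq_neg] at hdet
    exact hdet

/-- the same for any unit `a` -/
theorem cast_11_of_compSL_weberHol (M : ℕ) [NeZero M] {a : ZMod M} (ha : IsUnit a)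
    (ha0 : a ≠ 0) {g : SL(2, ℤ)} (hg : g ∈ Gamma0 M)
    (h : compSL g (weberHol M a ha0) = weberHol M a ha0) :
    ((g 1 1 : ℤ) : ZMod M) = 1 ∨ ((g 1 1 : ℤ) : ZMod M) = -1 := by
  rw [compSL_weberHol_of_mem_Gamma0 M ha0 hg, weberHol_eq_iff] at h
  have hdet := cast_00_mul_cast_11 hg
  rcases h with h | h
  · left
    have h' : ((g 0 0 : ℤ) : ZMod M) = 1 := by
      have := ha.mul_left_cancel (h.trans (mul_one a).symm)
      exact this
    rw [h', one_mul] at hdet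
    exact hdet
  · right
    have h' : ((g 0 0 : ℤ) : ZMod M) = -1 := by
      have := ha.mul_left_cancel (h.trans (mul_neg_one a).symm)
      exact this
    rw [h', neg_mul, one_mul, neg_eq_iff_eq_neg] at hdet
    exact hdet

/-- `±Γ₁(M)` form of the stabiliser statement (= `hstab` of `fieldGenHol_Gamma1`) -/
theorem mem_Gamma1_or_neg_of_compSL_weberHol_one (M : ℕ) [NeZero M] (h1 : (1 : ZMod M) ≠ 0)
    {g : SL(2, ℤ)} (hg : g ∈ Gamma0 M)
    (h : compSL g (weberHol M 1 h1) = weberHol M 1 h1) : g ∈ Gamma1 M ∨ -g ∈ Gamma1 M := by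
  have hd := cast_11_of_compSL_weberHol_one M h1 hg h
  have hc : ((g 1 0 : ℤ) : ZMod M) = 0 := Gamma0_mem.mp hg
  have hdet := cast_00_mul_cast_11 hg
  rcases hd with hd | hd
  · left
    rw [Gamma1_mem]
    refine ⟨?_, hd, hc⟩
    rw [hd, mul_one] at hdet
    exact hdet
  · right
    rw [Gamma1_mem]
    have e00 : ((-g : SL(2, ℤ)) 0 0 : ℤ) = -(g 0 0) := by simp
    have e11 : ((-g : SL(2, ℤ)) 1 1 : ℤ) = -(g 1 1) := by simp
    have e10 : ((-g : SL(2, ℤ)) 1 0 : ℤ) = -(g 1 0) := by simp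
    rw [e00, e11, e10, Int.cast_neg, Int.cast_neg, Int.cast_neg, hd, hc, neg_neg, neg_zero]
    refine ⟨?_, rfl, rfl⟩
    rw [hd, mul_neg, mul_one, neg_eq_iff_eq_neg] at hdet
    rw [hdet, neg_neg]

end Fermat.Agent.DS.P1
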