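import Mathlib
import Fermat.Agent.DS.P1.WeberAnHol
import Fermat.Agent.DS.P1.RealizeF1

/-!
# GATE-N / S48-P1-WEBER-AN: the term `weberData M : WeberData M`

The analytic Weber data required by `DS/P1/RealizeF1.lean` (helper30), for every level `M > 1`:
`W a := weberHol M a = 12 · f_{(a,0)}(M τ)`.  Consequently all the conclusions of `RealizeF1.lean`
hold unconditionally for `M > 1`.
-/

set_option autoImplicit false

noncomputable section

namespace Fermat.Agent.DS.P1

open UpperHalfPlane ModularCurve CongruenceSubgroup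
open Fermat.Agent.S24 Fermat.Agent.S28 Fermat.Agent.DS.P0 Fermat.Agent.S24_helper82
open Fermat.Agent.GJ.Dict.FieldGen Fermat.Agent.DS.P1.RealizeF1
open scoped MatrixGroups

theorem one_ne_zero_zmod {M : ℕ} (hM : 1 < M) : (1 : ZMod M) ≠ 0 := by
  have : Fact (1 < M) := ⟨hM⟩
  exact one_ne_zero

/-- **the analytic Weber data at level `M > 1`** -/
def weberData (M : ℕ) [NeZero M] (hM : 1 < M) : WeberData M where
  W a := weberHol M a.1 a.2
  isCE a := isCE_weberHol M a.1 a.2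
  exp a := cuspExp_weberHol M a.1 a.2
  mg a := weberHol_mem_MG M a.1 a.2
  inv _ hγ a := compSL_weberHol_of_mem_Gamma1 M a.2 hγ
  a₁ := ⟨1, one_ne_zero_zmod hM⟩
  stab _ hg h := mem_Gamma1_or_neg_of_compSL_weberHol_one M (one_ne_zero_zmod hM) hg h

@[simp] theorem weberData_W (M : ℕ) [NeZero M] (hM : 1 < M) (a : WIdx M) :
    (weberData M hM).W a = weberHol M a.1 a.2 := rfl

/-! ### Plug tests: the unconditional conclusions of `RealizeF1.lean` -/

/-- the realisation of `ℂ(X₁(M))` -/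
def realC1 (M : ℕ) [NeZero M] (hM : 1 < M) : F1C ℂ M →ₐ[ℂ] Mer := real1C (weberData M hM)

/-- the realisation of `ℚ̄(X₁(M))` -/
def realK1 (M : ℕ) [NeZero M] (hM : 1 < M) : F1C Kbar M →ₐ[Kbar] Mer := real1 (weberData M hM)

theorem realC1_w (M : ℕ) [NeZero M] (hM : 1 < M) (a : ZMod M) (ha : a ≠ 0) :
    realC1 M hM (w1 M ℂ a ha) = algebraMap Hol Mer (weberHol M a ha) :=
  real1C_w (weberData M hM) a ha

theorem realK1_w (M : ℕ) [NeZero M] (hM : 1 < M) (a : ZMod M) (ha : a ≠ 0) :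
    realK1 M hM (w1 M Kbar a ha) = algebraMap Hol Mer (weberHol M a ha) :=
  real1_w (weberData M hM) a ha

theorem fieldGenHyp_realC1 (M : ℕ) [NeZero M] (hM : 1 < M) :
    Fermat.Agent.DS.P3.Sat1.FieldGenHyp (Gamma1 M) M
      ((realC1 M hM : F1C ℂ M →ₐ[ℂ] Mer) : F1C ℂ M →+* Mer) :=
  fieldGenHyp1 (weberData M hM)

theorem finrank_F1_of_one_lt (M : ℕ) [NeZero M] (hM : 1 < M) :
    FiniteDimensional (IntermediateField.adjoin Kbar {j1K M}) (F1C Kbar M) ∧
      Module.finrank (IntermediateField.adjoin Kbar {j1K M}) (F1C Kbar M) =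
        Fintype.card (SL(2, ℤ) ⧸ Fermat.Agent.DS.P1.FieldGenG.pm (Gamma1 M)) :=
  finrank_F1 (weberData M hM)

theorem isGen_j1_of_one_lt (M : ℕ) [NeZero M] (hM : 1 < M) :
    Fermat.Agent.S24.IsGen Kbar (j1K M) := isGen_j1 (weberData M hM)

theorem placeBranch_j1_of_one_lt (M : ℕ) [NeZero M] (hM : 1 < M) :
    Fermat.Agent.GJ.J1.DiffAdapter.PlaceBranch Kbar (j1K M)
      (Polynomial.X * (Polynomial.X - Polynomial.C (1728 : Kbar))) :=
  placeBranch_j1 (weberData M hM)

end Fermat.Agent.DS.P1
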