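import Mathlib
import Fermat.Agent.DS.P1.RealizeF1
import Fermat.Agent.DS.P1.WeberAnHol

/-!
# GATE-N / S48 J1-PORT, node P1: the analytic Weber data — `WeberData M` is INHABITED

`weberData M hM : RealizeF1.WeberData M` (`1 < M`) from helper71's `DS/P1/WeberAnHol.lean`
(`weberHol M a ha = 12 · w_a`, its `q`-expansion `weber12C ℂ M a`, moderate growth,
`Γ₁(M)`-invariance, the stabiliser of `12 · w_1`).  Hence every export of `DS/P1/RealizeF1.lean`
is UNCONDITIONAL for `1 < M`: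

* `realC M hM : F1C ℂ M →ₐ[ℂ] Mer`, `realK M hM : F1C ℚ̄ M →ₐ[ℚ̄] Mer`, values on generators,
  `±Γ₁(M)`-invariance;
* `fieldGenHyp1_thm`, `sat1_thm`;
* `finrank_F1C_C_thm`, `finrank_F1_thm`, `isGen_j1_thm`, `jRam_F1_thm`, `placeBranch_j1_thm`,
  `placeBranch_t2_F1_thm`, `placeBranch_t3_F1_thm`, `realization1_thm`.
-/

set_option autoImplicit false

noncomputable section

namespace Fermat.Agent.DS.P1.WeberDataInst

open UpperHalfPlane ModularCurve IntermediateField Polynomial CongruenceSubgroup AlgebraicCurve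
open Fermat.Agent.S24 Fermat.Agent.S28 Fermat.Agent.S28.CuspExp
open Fermat.Agent.S24_helper62 Fermat.Agent.S24_helper82
open Fermat.Agent.GJ.Dict Fermat.Agent.GJ.Dict.FieldGen
open Fermat.Agent.DS.P0 Fermat.Agent.DS.P1 Fermat.Agent.DS.P1.RealizeGen
open Fermat.Agent.DS.P1.FieldGenG Fermat.Agent.DS.P1.RealizeF1
open Fermat.Agent.DS.P3.Sat1
open scoped MatrixGroups Manifold

variable (M : ℕ) [NeZero M]

omit [NeZero M] in
theorem one_ne_zero_zmod (hM : 1 < M) : (1 : ZMod M) ≠ 0 := by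
  have : Fact (1 < M) := ⟨hM⟩
  exact one_ne_zero

/-- **the analytic Weber data** (helper71's `weberHol`) -/
def weberData (hM : 1 < M) : WeberData M where
  W a := weberHol M a.1 a.2
  isCE a := isCE_weberHol M a.1 a.2
  exp a := cuspExp_weberHol M a.1 a.2
  mg a := weberHol_mem_MG M a.1 a.2
  inv _ hγ a := compSL_weberHol_of_mem_Gamma1 M a.2 hγ
  a₁ := ⟨1, one_ne_zero_zmod M hM⟩
  stab _ hg h := mem_Gamma1_or_neg_of_compSL_weberHol_one M (one_ne_zero_zmod M hM) hg h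

@[simp] theorem weberData_W (hM : 1 < M) (a : WIdx M) :
    (weberData M hM).W a = weberHol M a.1 a.2 := rfl

/-- the realisation of `F1C ℂ M` in the meromorphic functions on `ℍ` -/
def realC (hM : 1 < M) : F1C ℂ M →ₐ[ℂ] Mer := real1C (weberData M hM)

/-- the realisation of `F1C ℚ̄ M` in the meromorphic functions on `ℍ` -/
def realK (hM : 1 < M) : F1C Kbar M →ₐ[Kbar] Mer := real1 (weberData M hM)

theorem realC_injective (hM : 1 < M) : Function.Injective (realC M hM) :=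
  real1C_injective _

theorem realK_injective (hM : 1 < M) : Function.Injective (realK M hM) :=
  real1_injective _

theorem realC_jd (hM : 1 < M) (d : ℕ) [NeZero d] (hd : d ∣ M) :
    realC M hM (jd1 M ℂ d hd) = algebraMap Hol Mer (jDilHol d (NeZero.pos d)) :=
  real1C_jd _ d hd

theorem realC_w (hM : 1 < M) (a : ZMod M) (ha : a ≠ 0) :
    realC M hM (w1 M ℂ a ha) = algebraMap Hol Mer (weberHol M a ha) :=
  real1C_w _ a ha

theorem realK_jd (hM : 1 < M) (d : ℕ) [NeZero d] (hd : d ∣ M) :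
    realK M hM (jd1 M Kbar d hd) = algebraMap Hol Mer (jDilHol d (NeZero.pos d)) :=
  real1_jd _ d hd

theorem realK_w (hM : 1 < M) (a : ZMod M) (ha : a ≠ 0) :
    realK M hM (w1 M Kbar a ha) = algebraMap Hol Mer (weberHol M a ha) :=
  real1_w _ a ha

theorem realC_j (hM : 1 < M) : realC M hM (j1C M) = algebraMap Hol Mer jH := real1C_j _

theorem realK_j (hM : 1 < M) : realK M hM (j1K M) = algebraMap Hol Mer jH := real1_j _

theorem compM_realC (hM : 1 < M) {γ : SL(2, ℤ)} (hγ : γ ∈ pm (Gamma1 M)) (f : F1C ℂ M) :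
    compM γ (realC M hM f) = realC M hM f := compM_real1C _ hγ f

theorem compM_realK (hM : 1 < M) {γ : SL(2, ℤ)} (hγ : γ ∈ pm (Gamma1 M)) (f : F1C Kbar M) :
    compM γ (realK M hM f) = realK M hM f := compM_real1 _ hγ f

/-- **(P1b)** field generation, unconditional -/
theorem fieldGenHyp1_thm (hM : 1 < M) :
    FieldGenHyp (Gamma1 M) M ((realC M hM : F1C ℂ M →ₐ[ℂ] Mer) : F1C ℂ M →+* Mer) :=
  fieldGenHyp1 _

/-- **saturation**, unconditional -/
theorem sat1_thm (hM : 1 < M) {p : ℕ} (hp : 0 < p) :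
    ∀ m : Mer, (∀ γ : Gamma1 M, compM (γ : SL(2, ℤ)) m = m) →
      m ^ p ∈ Set.range ((realC M hM : F1C ℂ M →ₐ[ℂ] Mer) : F1C ℂ M →+* Mer) →
      m ∈ Set.range ((realC M hM : F1C ℂ M →ₐ[ℂ] Mer) : F1C ℂ M →+* Mer) :=
  sat1 _ hp

/-- **the degree over `ℂ`**, unconditional -/
theorem finrank_F1C_C_thm (hM : 1 < M) : FiniteDimensional ℂ⟮j1C M⟯ (F1C ℂ M) ∧
    Module.finrank ℂ⟮j1C M⟯ (F1C ℂ M) = Fintype.card (SL(2, ℤ) ⧸ pm (Gamma1 M)) :=
  finrank_F1C_C (weberData M hM)

/-- **the degree over `ℚ̄`**, unconditional -/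
theorem finrank_F1_thm (hM : 1 < M) : FiniteDimensional Kbar⟮j1K M⟯ (F1C Kbar M) ∧
    Module.finrank Kbar⟮j1K M⟯ (F1C Kbar M) = Fintype.card (SL(2, ℤ) ⧸ pm (Gamma1 M)) :=
  finrank_F1 (weberData M hM)

/-- helper96's `Realization1`, unconditional -/
def realization1_thm (hM : 1 < M) :
    Fermat.Agent.DS.P1.OrbitGen.Realization1 (j1K M) (pm (Gamma1 M)) :=
  realization1 (weberData M hM)

theorem realization1_thm_conj_injective (hM : 1 < M) :
    Function.Injective (realization1_thm M hM).conj :=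
  realization1_conj_injective _

/-- **`j` generates `F1C ℚ̄ M`**, unconditional -/
theorem isGen_j1_thm (hM : 1 < M) : IsGen Kbar (j1K M) := isGen_j1 (weberData M hM)

/-- **the branch datum of `F1C ℚ̄ M / ℚ̄(j)`**, unconditional -/
theorem jRam_F1_thm (hM : 1 < M) (v : Place Kbar (F1C Kbar M)) :
    Fermat.Agent.GJ.Aux.Branch.JRam v (j1K M) := jRam_F1 (weberData M hM) v

theorem placeBranch_j1_thm (hM : 1 < M) :
    Fermat.Agent.GJ.J1.DiffAdapter.PlaceBranch Kbar (j1K M) (X * (X - C (1728 : Kbar))) :=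
  placeBranch_j1 (weberData M hM)

theorem placeBranch_t2_F1_thm (hM : 1 < M) {t : F1C Kbar M}
    (hrel : j1K M * t ^ 2 = (t + 256) ^ 3) :
    Fermat.Agent.GJ.J1.DiffAdapter.PlaceBranch Kbar t (X * (X - C (-64 : Kbar))) :=
  placeBranch_t2_F1 (weberData M hM) hrel

theorem placeBranch_t3_F1_thm (hM : 1 < M) {t : F1C Kbar M}
    (hrel : j1K M * t ^ 3 = (t + 27) * (t + 243) ^ 3) :
    Fermat.Agent.GJ.J1.DiffAdapter.PlaceBranch Kbar t (X * (X - C (-27 : Kbar))) :=
  placeBranch_t3_F1 (weberData M hM) hrel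

end Fermat.Agent.DS.P1.WeberDataInst
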