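import Mathlib
import Fermat.Agent.DS.P1.PermGen
import Fermat.Agent.DS.P1.WeberDataInst
import Fermat.Agent.DS.P1.WeberAnData
import Fermat.Agent.DS.Hecke.Diamond
import Fermat.Agent.DS.P5.KumType1

/-!
# GATE-N / S48 J1-PORT, node P1 (DIA) at `F₀ := F1 M`: the diamond automorphisms (helper30; hedge
for `DiaF1`)

For `D : WeberData M` satisfying the `Γ₀(M)`-law `compSL g (W a) = W (a · g₀₀)` (`Gamma0Law`; true
for helper71's `weberHol`, both `weberData` twins) and `u : (ZMod M)ˣ`: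

* `dia D hlaw u : FL (F1 M) ≃ₐ[ℚ̄] FL (F1 M)` (`FL (F1 M) = ↥(laurentBaseChange ℚ̄ (F1 M))`), the
  unique `ℚ̄`-automorphism with `12 w^{(a)} ↦ 12 w^{(a u)}`, `j(q^d) ↦ j(q^d)` (`coe_dia_w`,
  `coe_dia_jd`, `dia_unique`);
* `realKL D : FL (F1 M) →ₐ[ℚ̄] Mer` (the realisation on `FL (F1 M)`) and
  **`realKL_dia : realKL D (dia u x) = compM g (realKL D x)`** for EVERY `g ∈ Γ₀(M)` with
  `g₀₀ ≡ u`;
* **`diaComm : DiaComm (dia D hlaw u)`** (`P5/KumType1`), `dia_mul_apply`, `dia_one_apply`,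
  `dia_neg_apply`;
* `diaT M hM`, … : the instance at `WeberDataInst.weberData M hM` (`1 < M`).
-/

set_option autoImplicit false
set_option linter.unusedSectionVars false

noncomputable section

namespace Fermat.Agent.DS.P1.DiaF1H

open UpperHalfPlane ModularCurve IntermediateField CongruenceSubgroup AlgebraicCurve
open Fermat.Agent.S24 Fermat.Agent.S28 Fermat.Agent.S28.CuspExp
open Fermat.Agent.S24_helper62 Fermat.Agent.S24_helper82
open Fermat.Agent.GJ.Dict Fermat.Agent.GJ.Dict.FieldGen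
open Fermat.Agent.DS.P0 Fermat.Agent.DS.P1 Fermat.Agent.DS.P1.RealizeGen
open Fermat.Agent.DS.P1.RealizeF1 Fermat.Agent.DS.P1.PermGen
open Fermat.Agent.DS.P5.KumType1
open scoped MatrixGroups Manifold

variable (M : ℕ) [NeZero M]

/-! ### The permutation of the generator indices -/

/-- multiplication by a unit on the Weber indices -/
def mulW (u : (ZMod M)ˣ) : Equiv.Perm (WIdx M) where
  toFun a := ⟨a.1 * u, fun h => a.2 ((Units.mul_left_eq_zero u).mp h)⟩
  invFun a := ⟨a.1 * (u⁻¹ : (ZMod M)ˣ), fun h => a.2 ((Units.mul_left_eq_zero u⁻¹).mp h)⟩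
  left_inv a := Subtype.ext (by
    show a.1 * u * (u⁻¹ : (ZMod M)ˣ) = a.1
    rw [mul_assoc, Units.mul_inv, mul_one])
  right_inv a := Subtype.ext (by
    show a.1 * (u⁻¹ : (ZMod M)ˣ) * u = a.1
    rw [mul_assoc, Units.inv_mul, mul_one])

@[simp] theorem mulW_val (u : (ZMod M)ˣ) (a : WIdx M) : (mulW M u a).1 = a.1 * u := rfl

/-- the permutation of the generator indices: `j(q^d)` fixed, `w^{(a)} ↦ w^{(a u)}` -/
def piU (u : (ZMod M)ˣ) : Equiv.Perm (RealizeF1.GenIdx M) :=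
  Equiv.sumCongr (Equiv.refl (DivIdx M)) (mulW M u)

theorem piU_inl (u : (ZMod M)ˣ) (d : DivIdx M) : piU M u (Sum.inl d) = Sum.inl d := rfl

theorem piU_inr (u : (ZMod M)ˣ) (a : WIdx M) :
    piU M u (Sum.inr a) = Sum.inr (mulW M u a) := rfl

theorem piU_mul (u v : (ZMod M)ˣ) : piU M u * piU M v = piU M (u * v) := by
  apply Equiv.ext
  intro i
  rcases i with d | a
  · rfl
  · show Sum.inr (mulW M u (mulW M v a)) = Sum.inr (mulW M (u * v) a)
    congr 1
    apply Subtype.ext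
    show a.1 * v * u = a.1 * ((u * v : (ZMod M)ˣ) : ZMod M)
    rw [Units.val_mul, mul_assoc, mul_comm (v : ZMod M)]

theorem piU_one : piU M 1 = 1 := by
  apply Equiv.ext
  intro i
  rcases i with d | a
  · rfl
  · show Sum.inr (mulW M 1 a) = Sum.inr a
    congr 1
    apply Subtype.ext
    show a.1 * ((1 : (ZMod M)ˣ) : ZMod M) = a.1
    rw [Units.val_one, mul_one]

/-! ### A lift of `u` to `Γ₀(M)` -/

/-- an element of `Γ₀(M)` with upper left entry `≡ u` -/
def gOf (u : (ZMod M)ˣ) : SL(2, ℤ) := Fermat.Agent.DS.Hecke.diamondRep u⁻¹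

theorem gOf_mem (u : (ZMod M)ˣ) : gOf M u ∈ Gamma0 M := Fermat.Agent.DS.Hecke.diamondRep_mem u⁻¹

theorem gOf_00 (u : (ZMod M)ˣ) : (((gOf M u) 0 0 : ℤ) : ZMod M) = u := by
  have h1 := cast_00_mul_cast_11 (gOf_mem M u)
  have h2 : (((gOf M u) 1 1 : ℤ) : ZMod M) = ((u⁻¹ : (ZMod M)ˣ) : ZMod M) :=
    Fermat.Agent.DS.Hecke.diamondRep_d u⁻¹
  rw [h2] at h1
  calc (((gOf M u) 0 0 : ℤ) : ZMod M)
      = (((gOf M u) 0 0 : ℤ) : ZMod M) * (((u⁻¹ : (ZMod M)ˣ) : ZMod M) * u) := by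
        rw [Units.inv_mul, mul_one]
    _ = u := by rw [← mul_assoc, h1, one_mul]

/-! ### The `Γ₀(M)`-law -/

variable {M}

/-- the `Γ₀(M)`-law of the Weber functions: `(W a) ∘ g = W (a g₀₀)` -/
def Gamma0Law (D : WeberData M) : Prop :=
  ∀ g ∈ Gamma0 M, ∀ a b : WIdx M, b.1 = a.1 * ((g 0 0 : ℤ) : ZMod M) →
    compSL g (D.W a) = D.W b

theorem weberHol_congr {a b : ZMod M} (h : a = b) (ha : a ≠ 0) (hb : b ≠ 0) :
    weberHol M a ha = weberHol M b hb := by
  subst h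
  rfl

theorem gamma0Law_weberData (hM : 1 < M) : Gamma0Law (WeberDataInst.weberData M hM) := by
  intro g hg a b hb
  show compSL g (weberHol M a.1 a.2) = weberHol M b.1 b.2
  rw [compSL_weberHol_of_mem_Gamma0 M a.2 hg]
  exact weberHol_congr hb.symm _ _

theorem gamma0Law_weberData' (hM : 1 < M) :
    Gamma0Law (Fermat.Agent.DS.P1.weberData M hM) := by
  intro g hg a b hb
  show compSL g (weberHol M a.1 a.2) = weberHol M b.1 b.2
  rw [compSL_weberHol_of_mem_Gamma0 M a.2 hg]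
  exact weberHol_congr hb.symm _ _

variable (D : WeberData M) (hlaw : Gamma0Law D)

include hlaw in
/-- `g ∈ Γ₀(M)` with `g₀₀ ≡ u` permutes the generator functions by `piU u` -/
theorem compSL_genFam {g : SL(2, ℤ)} (hg : g ∈ Gamma0 M) {u : (ZMod M)ˣ}
    (hu : ((g 0 0 : ℤ) : ZMod M) = u) (i : RealizeF1.GenIdx M) :
    compSL g (genFam D i) = genFam D (piU M u i) := by
  rcases i with d | a
  · show compSL g (jDilHol d.1 (DivIdx.pos M d)) = jDilHol d.1 (DivIdx.pos M d)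
    exact compSL_jDilHol M (DivIdx.pos M d) d.2 hg
  · show compSL g (D.W a) = D.W (mulW M u a)
    exact hlaw g hg a _ (by rw [mulW_val, hu])

/-! ### The field `FL (F1 M)` -/

omit [NeZero M] in
/-- transport of `realKOf` along an equality of fields -/
theorem realKOf_equivOfEq {σ : Type*} (G : σ → Hol) (Ms : σ → LaurentSeries Kbar)
    (hCE : ∀ i, IsCE 1 ((G i : Hol) : ℍ → ℂ))
    (hMs : ∀ i, coeffMap iotaC (Ms i) = cuspExp 1 ((G i : Hol) : ℍ → ℂ))
    {F F' : IntermediateField Kbar (LaurentSeries Kbar)} (h : F = F')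
    (hF' : F' = FK Ms) (x : F) :
    realKOf G Ms hCE hMs hF' (IntermediateField.equivOfEq h x) =
      realKOf G Ms hCE hMs (h.trans hF') x := by
  subst h
  rfl

variable (M) in
theorem FL_eq_FK : laurentBaseChange Kbar (F1 M) = FK (serFam M Kbar) :=
  (laurentBaseChange_F1 Kbar M).trans F1C_eq_FK

/-- the realisation on `FL (F1 M) = ↥(laurentBaseChange ℚ̄ (F1 M))` -/
def realKL : FL (F1 M) →ₐ[Kbar] Mer :=
  realKOf (genFam D) (serFam M Kbar) (isCE_genFam D) (coeffMap_serFam D) (FL_eq_FK M)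

theorem realKL_injective : Function.Injective (realKL D) := (realKL D).toRingHom.injective

/-- `realKL` is `real1` transported along `laurentBaseChange ℚ̄ (F1 M) = F1C ℚ̄ M` -/
theorem realKL_eq_real1 (x : FL (F1 M)) :
    realKL D x = real1 D (IntermediateField.equivOfEq (laurentBaseChange_F1 Kbar M) x) :=
  (realKOf_equivOfEq (genFam D) (serFam M Kbar) (isCE_genFam D) (coeffMap_serFam D)
    (laurentBaseChange_F1 Kbar M) F1C_eq_FK x).symm

theorem realKL_of_coe_eq_w (x : FL (F1 M)) (a : ZMod M) (ha : a ≠ 0)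
    (hx : (x : LaurentSeries Kbar) = weber12C Kbar M a) :
    realKL D x = algebraMap Hol Mer (D.W ⟨a, ha⟩) :=
  realKOf_of_coe_eq (genFam D) (serFam M Kbar) (isCE_genFam D) (coeffMap_serFam D) (FL_eq_FK M)
    x (Sum.inr ⟨a, ha⟩) hx

theorem realKL_of_coe_eq_jd (x : FL (F1 M)) (d : ℕ) [NeZero d] (hd : d ∣ M)
    (hx : (x : LaurentSeries Kbar) = qExpand Kbar d (jqModC Kbar)) :
    realKL D x = algebraMap Hol Mer (jDilHol d (NeZero.pos d)) :=
  realKOf_of_coe_eq (genFam D) (serFam M Kbar) (isCE_genFam D) (coeffMap_serFam D) (FL_eq_FK M)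
    x (Sum.inl ⟨d, hd⟩) hx

/-! ### The diamond automorphisms -/

/-- **the diamond automorphism `⟨u⟩`** of `FL (F1 M)`: `12 w^{(a)} ↦ 12 w^{(a u)}` -/
def dia (u : (ZMod M)ˣ) : FL (F1 M) ≃ₐ[Kbar] FL (F1 M) :=
  permEquivOf (genFam D) (serFam M Kbar) (isCE_genFam D) (coeffMap_serFam D) (FL_eq_FK M)
    (gOf M u) (piU M u) (compSL_genFam D hlaw (gOf_mem M u) (gOf_00 M u))

/-- `dia` is computed by ANY `g ∈ Γ₀(M)` with `g₀₀ ≡ u` -/
theorem dia_eq_permEquivOf (u : (ZMod M)ˣ) {g : SL(2, ℤ)} (hg : g ∈ Gamma0 M)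
    (hu : ((g 0 0 : ℤ) : ZMod M) = u) :
    dia D hlaw u =
      permEquivOf (genFam D) (serFam M Kbar) (isCE_genFam D) (coeffMap_serFam D) (FL_eq_FK M)
        g (piU M u) (compSL_genFam D hlaw hg hu) :=
  permEquivOf_congr _ _ _ _ _ _ _ _ _ _

/-- **compatibility with the realisation**, for every lift `g ∈ Γ₀(M)` of `u` -/
theorem realKL_dia (u : (ZMod M)ˣ) {g : SL(2, ℤ)} (hg : g ∈ Gamma0 M)
    (hu : ((g 0 0 : ℤ) : ZMod M) = u) (x : FL (F1 M)) :
    realKL D (dia D hlaw u x) = compM g (realKL D x) := by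
  rw [dia_eq_permEquivOf D hlaw u hg hu]
  exact realKOf_permEquivOf _ _ _ _ _ _ _ _ x

/-- value on the Weber generators -/
theorem coe_dia_w (u : (ZMod M)ˣ) (x : FL (F1 M)) (a : ZMod M) (ha : a ≠ 0)
    (hx : (x : LaurentSeries Kbar) = weber12C Kbar M a) :
    ((dia D hlaw u x : FL (F1 M)) : LaurentSeries Kbar) = weber12C Kbar M (a * u) :=
  coe_permEquivOf_of_coe_eq (genFam D) (serFam M Kbar) (isCE_genFam D) (coeffMap_serFam D)
    (FL_eq_FK M) _ _ _ x (Sum.inr ⟨a, ha⟩) hx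

/-- value on the generators `j(q^d)`, `d ∣ M` -/
theorem coe_dia_jd (u : (ZMod M)ˣ) (x : FL (F1 M)) (d : ℕ) [NeZero d] (hd : d ∣ M)
    (hx : (x : LaurentSeries Kbar) = qExpand Kbar d (jqModC Kbar)) :
    ((dia D hlaw u x : FL (F1 M)) : LaurentSeries Kbar) = qExpand Kbar d (jqModC Kbar) :=
  coe_permEquivOf_of_coe_eq (genFam D) (serFam M Kbar) (isCE_genFam D) (coeffMap_serFam D)
    (FL_eq_FK M) _ _ _ x (Sum.inl ⟨d, hd⟩) hx

/-- the generator series have rational coefficients -/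
theorem coeffMap_serFam_gal (τ : Kbar ≃ₐ[ℚ] Kbar) (i : RealizeF1.GenIdx M) :
    coeffMap (τ : Kbar →+* Kbar) (serFam M Kbar i) = serFam M Kbar i := by
  rcases i with d | a
  · show coeffMap (τ : Kbar →+* Kbar) (jFam Kbar M d) = jFam Kbar M d
    rw [jFam, coeffMap_qExpand, coeffMap_jqModC]
  · show coeffMap (τ : Kbar →+* Kbar) (weber12C Kbar M a.1) = weber12C Kbar M a.1
    rw [coeffMap_weber12C]

/-- **(DIA-GAL)** the diamond automorphisms are defined over `ℚ` -/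
theorem diaComm (u : (ZMod M)ˣ) : DiaComm (dia D hlaw u) := by
  intro τ x
  exact permEquivOf_comm_coeffwise (genFam D) (serFam M Kbar) (isCE_genFam D)
    (coeffMap_serFam D) (FL_eq_FK M) _ _ _ τ (arithmeticRingAut (F1 M) τ) (fun _ => rfl)
    (coeffMap_serFam_gal τ) x

theorem permEquivOf_congr_perm {σ : Type*} (G : σ → Hol) (Ms : σ → LaurentSeries Kbar)
    (hCE : ∀ i, IsCE 1 ((G i : Hol) : ℍ → ℂ))
    (hMs : ∀ i, coeffMap iotaC (Ms i) = cuspExp 1 ((G i : Hol) : ℍ → ℂ))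
    {F : IntermediateField Kbar (LaurentSeries Kbar)} (hF : F = FK Ms)
    {π π' : Equiv.Perm σ} (h : π = π') (g g' : SL(2, ℤ))
    (hg : ∀ i, compSL g (G i) = G (π i)) (hg' : ∀ i, compSL g' (G i) = G (π' i)) :
    permEquivOf G Ms hCE hMs hF g π hg = permEquivOf G Ms hCE hMs hF g' π' hg' := by
  subst h
  exact permEquivOf_congr _ _ _ _ _ _ _ _ _ _

/-- multiplicativity -/
theorem dia_mul_apply (u v : (ZMod M)ˣ) (x : FL (F1 M)) :
    dia D hlaw (u * v) x = dia D hlaw u (dia D hlaw v x) := by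
  rw [dia, dia, dia, permEquivOf_permEquivOf]
  exact DFunLike.congr_fun (permEquivOf_congr_perm _ _ _ _ _ (piU_mul M u v).symm _ _ _ _) x

theorem dia_one_apply (x : FL (F1 M)) : dia D hlaw 1 x = x := by
  have h : dia D hlaw 1 =
      permEquivOf (genFam D) (serFam M Kbar) (isCE_genFam D) (coeffMap_serFam D) (FL_eq_FK M)
        1 1 (fun i => by rw [compSL_one]; rfl) :=
    permEquivOf_congr_perm _ _ _ _ _ (piU_one M) _ _ _ _
  rw [h]
  exact permEquivOf_one_apply _ _ _ _ _ _ _ x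

theorem dia_mul (u v : (ZMod M)ˣ) : dia D hlaw (u * v) = (dia D hlaw v).trans (dia D hlaw u) :=
  AlgEquiv.ext fun x => dia_mul_apply D hlaw u v x

theorem dia_inv_apply (u : (ZMod M)ˣ) (x : FL (F1 M)) :
    dia D hlaw u⁻¹ (dia D hlaw u x) = x := by
  rw [← dia_mul_apply, inv_mul_cancel, dia_one_apply]

theorem dia_symm (u : (ZMod M)ˣ) : (dia D hlaw u).symm = dia D hlaw u⁻¹ := by
  apply AlgEquiv.ext
  intro x
  rw [AlgEquiv.symm_apply_eq, ← dia_mul_apply, mul_inv_cancel, dia_one_apply]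

/-- the diamond operators as a group homomorphism -/
def diaHom : (ZMod M)ˣ →* (FL (F1 M) ≃ₐ[Kbar] FL (F1 M)) where
  toFun u := dia D hlaw u
  map_one' := AlgEquiv.ext fun x => dia_one_apply D hlaw x
  map_mul' u v := AlgEquiv.ext fun x => dia_mul_apply D hlaw u v x

/-- uniqueness: an automorphism with the same values on the generators is `dia u` -/
theorem dia_unique (u : (ZMod M)ˣ) (φ : FL (F1 M) ≃ₐ[Kbar] FL (F1 M))
    (hφ : ∀ (x : FL (F1 M)) (i : RealizeF1.GenIdx M), (x : LaurentSeries Kbar) = serFam M Kbar i →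
      ((φ x : FL (F1 M)) : LaurentSeries Kbar) = serFam M Kbar (piU M u i)) :
    φ = dia D hlaw u := by
  have h : (φ : FL (F1 M) →ₐ[Kbar] FL (F1 M)) =
      (dia D hlaw u : FL (F1 M) →ₐ[Kbar] FL (F1 M)) := by
    apply IntermediateField.algHom_ext_of_eq_adjoin Kbar (FL_eq_FK M)
    rintro x ⟨i, hi⟩
    apply Subtype.ext
    have hmem : x ∈ laurentBaseChange Kbar (F1 M) := by
      rw [FL_eq_FK M]
      exact IntermediateField.subset_adjoin Kbar _ ⟨i, hi⟩
    show ((φ ⟨x, hmem⟩ : FL (F1 M)) : LaurentSeries Kbar) =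
      ((dia D hlaw u ⟨x, hmem⟩ : FL (F1 M)) : LaurentSeries Kbar)
    rw [hφ ⟨x, hmem⟩ i hi.symm]
    exact (coe_permEquivOf_of_coe_eq (genFam D) (serFam M Kbar) (isCE_genFam D)
      (coeffMap_serFam D) (FL_eq_FK M) _ _ _ ⟨x, hmem⟩ i hi.symm).symm
  exact AlgEquiv.ext fun x => DFunLike.congr_fun h x

/-- `⟨-1⟩ = id` on `FL (F1 M)` (`w^{(-a)} = w^{(a)}`) -/
theorem dia_neg_one_apply (x : FL (F1 M)) : dia D hlaw (-1) x = x := by
  have h : (AlgEquiv.refl : FL (F1 M) ≃ₐ[Kbar] FL (F1 M)) = dia D hlaw (-1) := by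
    apply dia_unique
    intro x i hx
    show (x : LaurentSeries Kbar) = _
    rw [hx]
    rcases i with d | a
    · rfl
    · show weber12C Kbar M a.1 = weber12C Kbar M (a.1 * ((-1 : (ZMod M)ˣ) : ZMod M))
      rw [Units.val_neg, Units.val_one, mul_neg, mul_one, weber12C_neg]
  exact (DFunLike.congr_fun h x).symm

theorem dia_neg_apply (u : (ZMod M)ˣ) (x : FL (F1 M)) : dia D hlaw (-u) x = dia D hlaw u x := by
  rw [show -u = u * (-1) by rw [mul_neg, mul_one], dia_mul_apply, dia_neg_one_apply]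

/-! ### The instance at `weberData M hM` -/

variable (M)

/-- the diamond automorphisms of `FL (F1 M)`, `1 < M` -/
def diaT (hM : 1 < M) (u : (ZMod M)ˣ) : FL (F1 M) ≃ₐ[Kbar] FL (F1 M) :=
  dia (WeberDataInst.weberData M hM) (gamma0Law_weberData hM) u

/-- the realisation of `FL (F1 M)`, `1 < M` -/
def realKLT (hM : 1 < M) : FL (F1 M) →ₐ[Kbar] Mer := realKL (WeberDataInst.weberData M hM)

theorem diaT_eq (hM : 1 < M) (u : (ZMod M)ˣ) :
    diaT M hM u = dia (WeberDataInst.weberData M hM) (gamma0Law_weberData hM) u := rfl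

theorem realKLT_eq (hM : 1 < M) : realKLT M hM = realKL (WeberDataInst.weberData M hM) := rfl

theorem diaComm_diaT (hM : 1 < M) (u : (ZMod M)ˣ) : DiaComm (diaT M hM u) :=
  diaComm (WeberDataInst.weberData M hM) (gamma0Law_weberData hM) u

theorem realKLT_diaT (hM : 1 < M) (u : (ZMod M)ˣ) {g : SL(2, ℤ)} (hg : g ∈ Gamma0 M)
    (hu : ((g 0 0 : ℤ) : ZMod M) = u) (x : FL (F1 M)) :
    realKLT M hM (diaT M hM u x) = compM g (realKLT M hM x) :=
  realKL_dia (WeberDataInst.weberData M hM) (gamma0Law_weberData hM) u hg hu x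

theorem coe_diaT_w (hM : 1 < M) (u : (ZMod M)ˣ) (x : FL (F1 M)) (a : ZMod M) (ha : a ≠ 0)
    (hx : (x : LaurentSeries Kbar) = weber12C Kbar M a) :
    ((diaT M hM u x : FL (F1 M)) : LaurentSeries Kbar) = weber12C Kbar M (a * u) :=
  coe_dia_w (WeberDataInst.weberData M hM) (gamma0Law_weberData hM) u x a ha hx

theorem coe_diaT_jd (hM : 1 < M) (u : (ZMod M)ˣ) (x : FL (F1 M)) (d : ℕ) [NeZero d] (hd : d ∣ M)
    (hx : (x : LaurentSeries Kbar) = qExpand Kbar d (jqModC Kbar)) :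
    ((diaT M hM u x : FL (F1 M)) : LaurentSeries Kbar) = qExpand Kbar d (jqModC Kbar) :=
  coe_dia_jd (WeberDataInst.weberData M hM) (gamma0Law_weberData hM) u x d hd hx

end Fermat.Agent.DS.P1.DiaF1H
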