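/-
S48 / Γ₁(M)-port, node P1-DIA, generic part (helper45): AUTOMORPHISMS of a field of `q`-expansions
from PERMUTATIONS of its generators.

Setting of helper30's `DS/P1/RealizeGen`: `G : σ → Hol` holomorphic functions with cusp expansions,
`M i ∈ ℚ̄((q))` their `q`-expansions, `FK M = ℚ̄(M i : i)`, `realK : FK M →ₐ[ℚ̄] Mer`, `M i ↦ G i`.

If `g ∈ SL(2,ℤ)` PERMUTES the generator functions, `G i ∘ g = G (π i)`, then `f ↦ f ∘ g` preserves
the image of `realK`, hence induces a `ℚ̄`-algebra endomorphism of `FK M`: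

* `exists_realK_eq_compM`  : `compM g (realK x) ∈ range realK`;
* `permHom g π hg : FK M →ₐ[ℚ̄] FK M`, `realK_permHom : realK (permHom x) = compM g (realK x)`,
  `permHom_genK : permHom (genK i) = genK (π i)`, `permHom_unique`, `permHom_comp`, `permHom_id`;
* `permEquiv g π hg : FK M ≃ₐ[ℚ̄] FK M` for a permutation `π : Equiv.Perm σ`;
* Galois: for a ring endomorphism `τ` of `ℚ̄` fixing all the `M i` coefficientwise
  (e.g. the `M i` have RATIONAL coefficients): `coeffMap_mem_FK`, `galFK τ hτ : FK M →+* FK M` and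
  **`permHom_galFK : permHom (galFK τ x) = galFK τ (permHom x)`** (the diamond operators are defined
  over `ℚ`: `DiaComm` of P5).
-/
import Fermat.Agent.DS.P1.RealizeGen

set_option autoImplicit false
set_option linter.unusedSectionVars false
set_option maxHeartbeats 400000

noncomputable section

namespace Fermat.Agent.DS.P1.DiaGen

open UpperHalfPlane ModularCurve Fermat.Agent.S24 Fermat.Agent.S28 Fermat.Agent.S28.CuspExp
open Fermat.Agent.S24_helper62 Fermat.Agent.S24_helper82 Fermat.Agent.GJ.Dict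
open Fermat.Agent.DS.P1.RealizeGen
open scoped MatrixGroups Manifold

variable {σ : Type*} (G : σ → Hol) (M : σ → LaurentSeries Kbar)
variable (hCE : ∀ i, IsCE 1 ((G i : Hol) : ℍ → ℂ))
  (hM : ∀ i, coeffMap iotaC (M i) = cuspExp 1 ((G i : Hol) : ℍ → ℂ))

/-! ### The endomorphism attached to a permutation of the generators -/

section Perm

variable {g : SL(2, ℤ)} {π : σ → σ} (hg : ∀ i, compSL g (G i) = G (π i))

include hg in
/-- if `g` permutes the generators, `f ↦ f ∘ g` preserves the image of the realisation -/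
theorem exists_realK_eq_compM (x : FK M) :
    ∃ y : FK M, realK G M hCE hM y = compM g (realK G M hCE hM x) := by
  obtain ⟨x, hx⟩ := x
  refine IntermediateField.adjoin_induction Kbar
    (p := fun x hx => ∃ y : FK M, realK G M hCE hM y = compM g (realK G M hCE hM ⟨x, hx⟩))
    ?_ ?_ ?_ ?_ ?_ hx
  · rintro x ⟨i, rfl⟩
    refine ⟨genK M (π i), ?_⟩
    have h1 : (⟨M i, IntermediateField.subset_adjoin Kbar _ ⟨i, rfl⟩⟩ : FK M) = genK M i := rfl
    rw [h1, realK_gen, realK_gen, compM_algebraMap, hg i]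
  · intro c
    refine ⟨algebraMap Kbar (FK M) c, ?_⟩
    have h1 : (⟨algebraMap Kbar (LaurentSeries Kbar) c,
        (FK M).algebraMap_mem c⟩ : FK M) = algebraMap Kbar (FK M) c := rfl
    rw [h1, AlgHom.commutes]
    exact ((compMₐ g).commutes c).symm
  · rintro x y hx hy ⟨x', hx'⟩ ⟨y', hy'⟩
    refine ⟨x' + y', ?_⟩
    have h1 : (⟨x + y, add_mem hx hy⟩ : FK M) = ⟨x, hx⟩ + ⟨y, hy⟩ := rfl
    rw [h1, map_add, map_add, map_add, hx', hy']
  · rintro x hx ⟨x', hx'⟩
    refine ⟨x'⁻¹, ?_⟩
    have h1 : (⟨x⁻¹, inv_mem hx⟩ : FK M) = (⟨x, hx⟩ : FK M)⁻¹ := rfl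
    rw [h1, map_inv₀, map_inv₀, map_inv₀, hx']
  · rintro x y hx hy ⟨x', hx'⟩ ⟨y', hy'⟩
    refine ⟨x' * y', ?_⟩
    have h1 : (⟨x * y, mul_mem hx hy⟩ : FK M) = ⟨x, hx⟩ * ⟨y, hy⟩ := rfl
    rw [h1, map_mul, map_mul, map_mul, hx', hy']

/-- **the endomorphism of `FK M` induced by `g`**, `M i ↦ M (π i)` -/
def permHom : FK M →ₐ[Kbar] FK M :=
  (AlgEquiv.ofInjective (realK G M hCE hM) (realK_injective G M hCE hM)).symm.toAlgHom.comp
    (((compMₐ g).comp (realK G M hCE hM)).codRestrict (realK G M hCE hM).range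
      (fun x => by
        obtain ⟨y, hy⟩ := exists_realK_eq_compM G M hCE hM hg x
        exact ⟨y, hy⟩))

/-- compatibility with the realisation -/
theorem realK_permHom (x : FK M) :
    realK G M hCE hM (permHom G M hCE hM hg x) = compM g (realK G M hCE hM x) := by
  set e := AlgEquiv.ofInjective (realK G M hCE hM) (realK_injective G M hCE hM) with he
  have h1 : ((e (permHom G M hCE hM hg x) : (realK G M hCE hM).range) : Mer) =
      realK G M hCE hM (permHom G M hCE hM hg x) := rfl
  rw [← h1]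
  unfold permHom
  rw [AlgHom.comp_apply]
  show ((e (e.symm _) : (realK G M hCE hM).range) : Mer) = _
  rw [AlgEquiv.apply_symm_apply]
  rfl

theorem permHom_genK (i : σ) : permHom G M hCE hM hg (genK M i) = genK M (π i) := by
  apply realK_injective G M hCE hM
  rw [realK_permHom, realK_gen, realK_gen, compM_algebraMap, hg i]

theorem coe_permHom_genK (i : σ) :
    ((permHom G M hCE hM hg (genK M i) : FK M) : LaurentSeries Kbar) = M (π i) := by
  rw [permHom_genK]; rfl

/-- the endomorphism only depends on the permutation -/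
theorem permHom_unique (φ : FK M →ₐ[Kbar] FK M) (hφ : ∀ i, φ (genK M i) = genK M (π i)) :
    φ = permHom G M hCE hM hg :=
  algHom_ext_FK M fun i => by rw [hφ i, permHom_genK]

end Perm

theorem permHom_comp {g₁ g₂ : SL(2, ℤ)} {π₁ π₂ : σ → σ}
    (hg₁ : ∀ i, compSL g₁ (G i) = G (π₁ i)) (hg₂ : ∀ i, compSL g₂ (G i) = G (π₂ i))
    {g₃ : SL(2, ℤ)} (hg₃ : ∀ i, compSL g₃ (G i) = G (π₂ (π₁ i))) :
    (permHom G M hCE hM hg₂).comp (permHom G M hCE hM hg₁) =
      permHom G M hCE hM (π := π₂ ∘ π₁) hg₃ :=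
  permHom_unique G M hCE hM (π := π₂ ∘ π₁) hg₃ _ fun i => by
    rw [AlgHom.comp_apply, permHom_genK, permHom_genK]; rfl

theorem permHom_id {g : SL(2, ℤ)} (hg : ∀ i, compSL g (G i) = G (id i)) :
    permHom G M hCE hM hg = AlgHom.id Kbar (FK M) :=
  (permHom_unique G M hCE hM hg _ fun _ => rfl).symm

/-- **the automorphism of `FK M` induced by `g`** when `π` is a permutation -/
def permEquiv {g : SL(2, ℤ)} (π : Equiv.Perm σ) (hg : ∀ i, compSL g (G i) = G (π i)) :
    FK M ≃ₐ[Kbar] FK M :=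
  have hg' : ∀ i, compSL g⁻¹ (G i) = G (π.symm i) := fun i => by
    have h := hg (π.symm i)
    rw [Equiv.apply_symm_apply] at h
    rw [← h, ← compSL_mul, mul_inv_cancel, compSL_one]
  AlgEquiv.ofAlgHom (permHom G M hCE hM hg) (permHom G M hCE hM hg')
    (algHom_ext_FK M fun i => by
      rw [AlgHom.comp_apply, permHom_genK, permHom_genK, Equiv.apply_symm_apply]; rfl)
    (algHom_ext_FK M fun i => by
      rw [AlgHom.comp_apply, permHom_genK, permHom_genK, Equiv.symm_apply_apply]; rfl)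

theorem permEquiv_apply {g : SL(2, ℤ)} (π : Equiv.Perm σ) (hg : ∀ i, compSL g (G i) = G (π i))
    (x : FK M) : permEquiv G M hCE hM π hg x = permHom G M hCE hM hg x := rfl

theorem permEquiv_genK {g : SL(2, ℤ)} (π : Equiv.Perm σ) (hg : ∀ i, compSL g (G i) = G (π i))
    (i : σ) : permEquiv G M hCE hM π hg (genK M i) = genK M (π i) :=
  permHom_genK G M hCE hM hg i

theorem realK_permEquiv {g : SL(2, ℤ)} (π : Equiv.Perm σ) (hg : ∀ i, compSL g (G i) = G (π i))
    (x : FK M) :
    realK G M hCE hM (permEquiv G M hCE hM π hg x) = compM g (realK G M hCE hM x) :=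
  realK_permHom G M hCE hM hg x

/-! ### Coefficientwise Galois action -/

section Galois

variable (τ : Kbar →+* Kbar) (hτ : ∀ i, coeffMap τ (M i) = M i)

include hτ in
omit G hCE hM in
/-- a ring endomorphism of the constants fixing the generators preserves `FK M` -/
theorem coeffMap_mem_FK {x : LaurentSeries Kbar} (hx : x ∈ FK M) : coeffMap τ x ∈ FK M := by
  refine IntermediateField.adjoin_induction Kbar (p := fun x _ => coeffMap τ x ∈ FK M)
    ?_ ?_ ?_ ?_ ?_ hx
  · rintro x ⟨i, rfl⟩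
    rw [hτ i]
    exact IntermediateField.subset_adjoin Kbar _ ⟨i, rfl⟩
  · intro c
    rw [algebraMap_laurentSeries_eq_single, coeffMap_single, ← algebraMap_laurentSeries_eq_single]
    exact (FK M).algebraMap_mem _
  · intro x y _ _ hx hy
    rw [map_add]; exact add_mem hx hy
  · intro x _ hx
    rw [map_inv₀]; exact inv_mem hx
  · intro x y _ _ hx hy
    rw [map_mul]; exact mul_mem hx hy

omit G hCE hM in
/-- the coefficientwise action of `τ` on `FK M` -/
def galFK : FK M →+* FK M where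
  toFun x := ⟨coeffMap τ (x : LaurentSeries Kbar), coeffMap_mem_FK M τ hτ x.2⟩
  map_one' := Subtype.ext (map_one _)
  map_mul' x y := Subtype.ext (map_mul _ _ _)
  map_zero' := Subtype.ext (map_zero _)
  map_add' x y := Subtype.ext (map_add _ _ _)

omit G hCE hM in
@[simp]
theorem coe_galFK (x : FK M) :
    ((galFK M τ hτ x : FK M) : LaurentSeries Kbar) = coeffMap τ (x : LaurentSeries Kbar) := rfl

omit G hCE hM in
theorem galFK_genK (i : σ) : galFK M τ hτ (genK M i) = genK M i :=
  Subtype.ext (hτ i)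

omit G hCE hM in
theorem galFK_algebraMap (c : Kbar) :
    galFK M τ hτ (algebraMap Kbar (FK M) c) = algebraMap Kbar (FK M) (τ c) := by
  apply Subtype.ext
  show coeffMap τ (algebraMap Kbar (LaurentSeries Kbar) c) = algebraMap Kbar (LaurentSeries Kbar) (τ c)
  rw [algebraMap_laurentSeries_eq_single, coeffMap_single, ← algebraMap_laurentSeries_eq_single]

/-- **the permutation endomorphisms commute with the coefficientwise Galois action**
(they are defined over the field generated by the coefficients of the `M i`) -/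
theorem permHom_galFK {g : SL(2, ℤ)} {π : σ → σ} (hg : ∀ i, compSL g (G i) = G (π i))
    (x : FK M) :
    permHom G M hCE hM hg (galFK M τ hτ x) = galFK M τ hτ (permHom G M hCE hM hg x) := by
  obtain ⟨x, hx⟩ := x
  refine IntermediateField.adjoin_induction Kbar
    (p := fun x hx => permHom G M hCE hM hg (galFK M τ hτ ⟨x, hx⟩) =
      galFK M τ hτ (permHom G M hCE hM hg ⟨x, hx⟩)) ?_ ?_ ?_ ?_ ?_ hx
  · rintro x ⟨i, rfl⟩
    have h1 : (⟨M i, IntermediateField.subset_adjoin Kbar _ ⟨i, rfl⟩⟩ : FK M) = genK M i := rfl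
    rw [h1, galFK_genK, permHom_genK, galFK_genK]
  · intro c
    have h1 : (⟨algebraMap Kbar (LaurentSeries Kbar) c,
        (FK M).algebraMap_mem c⟩ : FK M) = algebraMap Kbar (FK M) c := rfl
    rw [h1, galFK_algebraMap, AlgHom.commutes, AlgHom.commutes, galFK_algebraMap]
  · intro x y hx hy h1 h2
    have h : (⟨x + y, add_mem hx hy⟩ : FK M) = ⟨x, hx⟩ + ⟨y, hy⟩ := rfl
    rw [h, map_add, map_add, map_add, map_add, h1, h2]
  · intro x hx h1
    have h : (⟨x⁻¹, inv_mem hx⟩ : FK M) = (⟨x, hx⟩ : FK M)⁻¹ := rfl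
    rw [h, map_inv₀, map_inv₀, map_inv₀, map_inv₀, h1]
  · intro x y hx hy h1 h2
    have h : (⟨x * y, mul_mem hx hy⟩ : FK M) = ⟨x, hx⟩ * ⟨y, hy⟩ := rfl
    rw [h, map_mul, map_mul, map_mul, map_mul, h1, h2]

end Galois

end Fermat.Agent.DS.P1.DiaGen
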