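/-
S48 / Γ₁(M)-port, node P1-DIA, UNCONDITIONAL instance (helper45): the diamond automorphisms of
`FL (F1 M) = ↥(laurentBaseChange ℚ̄ (F1 M))` for `1 < M`, from helper71's analytic Weber functions
(`DS/P1/WeberAnHol`) through helper30's `weberData M hM`.

* `gamma0Law_weberData` : the `Γ₀(M)`-law for `weberData M hM`;
* `diaX1 M hM : (ZMod M)ˣ → (FL (F1 M) ≃ₐ[ℚ̄] FL (F1 M))`  — the family `dia` of P4/P5;
* `diaX1_comm` (= `DiaComm (diaX1 M hM u)` = `DiaGal`), `diaX1_one`, `diaX1_mul`,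
  `coe_diaX1_w` (`⟨u⟩ 12w^{(a)} = 12 w^{(a u)}`), `diaX1_of_mem_fullC`,
  `realK_diaX1K` (`⟨u⟩ = (f ↦ f ∘ g)` on the realisation, `g ∈ Γ₀(M)`, `g₀₀ ≡ u`).
-/
import Fermat.Agent.DS.P1.DiaF1
import Fermat.Agent.DS.P1.WeberDataInst

set_option autoImplicit false
set_option maxHeartbeats 200000

noncomputable section

namespace Fermat.Agent.DS.P1.DiaInst

open UpperHalfPlane ModularCurve IntermediateField CongruenceSubgroup
open Fermat.Agent.S24 Fermat.Agent.S24_helper62 Fermat.Agent.S24_helper82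
open Fermat.Agent.DS.P0 Fermat.Agent.DS.P1 Fermat.Agent.DS.P1.RealizeF1
open Fermat.Agent.DS.P1.DiaF1 Fermat.Agent.DS.P1.WeberDataInst
open scoped MatrixGroups Manifold

variable (M : ℕ) [NeZero M] (hM : 1 < M)

/-- the `Γ₀(M)`-law for the analytic Weber data (helper71) -/
theorem gamma0Law_weberData : Gamma0Law (weberData M hM) := by
  intro g hg a h
  show compSL g (weberHol M a.1 a.2) = weberHol M (a.1 * ((g 0 0 : ℤ) : ZMod M)) h
  exact compSL_weberHol_of_mem_Gamma0 M a.2 hg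

/-- **the moduli diamonds `⟨u⟩ : (E, P) ↦ (E, uP)` on `ℚ̄(X₁(M))`**, `F1C` form -/
def diaX1K (u : (ZMod M)ˣ) : F1C Kbar M ≃ₐ[Kbar] F1C Kbar M :=
  diaK (weberData M hM) (gamma0Law_weberData M hM) u

/-- **the moduli diamonds on `FL (F1 M)`** (the family `dia` of `DS/P4/ESGen`, `DS/P5/KumType1`) -/
def diaX1 (u : (ZMod M)ˣ) :
    ↥(laurentBaseChange Kbar (F1 M)) ≃ₐ[Kbar] ↥(laurentBaseChange Kbar (F1 M)) :=
  dia (weberData M hM) (gamma0Law_weberData M hM) u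

/-- **`DiaComm` / `DiaGal`**: the diamonds are defined over `ℚ` -/
theorem diaX1_comm (u : (ZMod M)ˣ) (σ : Kbar ≃ₐ[ℚ] Kbar)
    (x : ↥(laurentBaseChange Kbar (F1 M))) :
    diaX1 M hM u (arithmeticRingAut (F1 M) σ x) = arithmeticRingAut (F1 M) σ (diaX1 M hM u x) :=
  dia_comm _ u σ x

theorem diaX1_one (x : ↥(laurentBaseChange Kbar (F1 M))) : diaX1 M hM 1 x = x :=
  dia_one _ x

theorem diaX1_mul (u v : (ZMod M)ˣ) (x : ↥(laurentBaseChange Kbar (F1 M))) :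
    diaX1 M hM (u * v) x = diaX1 M hM v (diaX1 M hM u x) :=
  dia_mul _ u v x

/-- `⟨u⟩ (12 w^{(a)}) = 12 w^{(a u)}` -/
theorem coe_diaX1_w (u : (ZMod M)ˣ) (x : ↥(laurentBaseChange Kbar (F1 M))) {a : ZMod M}
    (ha : a ≠ 0) (hx : (x : LaurentSeries Kbar) = weber12C Kbar M a) :
    ((diaX1 M hM u x : ↥(laurentBaseChange Kbar (F1 M))) : LaurentSeries Kbar) =
      weber12C Kbar M (a * u) :=
  coe_dia_of_coe_eq_w _ u x ha hx

/-- the diamonds fix the functions of `X₀(M)` -/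
theorem diaX1_of_mem_fullC (u : (ZMod M)ˣ) (x : ↥(laurentBaseChange Kbar (F1 M)))
    (hx : (x : LaurentSeries Kbar) ∈ modularFunctionFieldFullC Kbar M) :
    diaX1 M hM u x = x :=
  dia_of_mem_fullC _ u x hx

theorem coe_diaX1 (u : (ZMod M)ˣ) (x : ↥(laurentBaseChange Kbar (F1 M))) :
    ((diaX1 M hM u x : ↥(laurentBaseChange Kbar (F1 M))) : LaurentSeries Kbar) =
      ((diaX1K M hM u (IntermediateField.equivOfEq (laurentBaseChange_F1 Kbar M) x) :
        F1C Kbar M) : LaurentSeries Kbar) :=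
  coe_dia _ u x

/-- **on the realisation the diamond `⟨u⟩` is `f ↦ f ∘ g`**, `g ∈ Γ₀(M)`, `g₀₀ ≡ u mod M` -/
theorem realK_diaX1K {g : SL(2, ℤ)} (hg : g ∈ Gamma0 M) {u : (ZMod M)ˣ}
    (hu : ((g 0 0 : ℤ) : ZMod M) = u) (x : F1C Kbar M) :
    WeberDataInst.realK M hM (diaX1K M hM u x) = compM g (WeberDataInst.realK M hM x) :=
  real1_diaK _ hg hu x

end Fermat.Agent.DS.P1.DiaInst
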