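import Mathlib
import Fermat.Agent.GJ.J2.Dict.FieldGen
import Fermat.Agent.S28.CuspExpansion

/-!
# GATE-N / S48-P1-DILATE-MG : dilation preserves holomorphy and moderate growth

For `d > 0` and `F : ℍ → ℂ` write `F_d z := F (d z)` (`dilate d hd` of `S28/CuspExpansion`).

* `mdifferentiable_comp_dilate`, `dilHol d hd : Hol →ₐ[ℂ] Hol` : `F_d` is holomorphic if `F` is;
* `moderateGrowth_dilate` : `ModerateGrowth N F → ModerateGrowth N F_d` (the notion of
  `GJ/J2/Dict/FieldGen`: every `SL(2,ℤ)`-translate is `O(q_N^{-m})` at `i∞`).  The proof is the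
  Hermite normal form `diag(d,1) g = g'' [[A,B],[0,D]]` (`HermiteData.dilate_smul`):
  `F_d (g z) = (F ∘ g'') ((A z + B)/D)` and `Im ((A z + B)/D) = A Im z / D ∈ [Im z / d, d Im z]`;
* `dilHol_mem_MG` : the same for `MG N`;
* `moderateGrowth_of_width`, `MG_le_of_width` : the width `N` in `ModerateGrowth N` is immaterial;
* `compSL_dilHol_of_dvd` : for `g ∈ SL(2,ℤ)` with `d ∣ g 1 0` the translate
  `compSL g (dilHol d hd F)` is `dilHol d hd (compSL g'' F)` with `g''` the Hermite factor;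
  `dilHol_invariant_of_Gamma0` : an `SL(2,ℤ)`-invariant `F` gives a `Γ₀(d)`-invariant `F_d`.
-/

set_option autoImplicit false

noncomputable section

namespace Fermat.Agent.DS.P1.DilateMG

open UpperHalfPlane Function.Periodic CongruenceSubgroup
open Fermat.Agent.S24_helper82 Fermat.Agent.S28 Fermat.Agent.S28.CuspExp
open Fermat.Agent.S28.CosetSym Fermat.Agent.GJ.Dict.FieldGen
open scoped MatrixGroups Manifold

/-! ### holomorphy -/

theorem mdifferentiable_comp_dilate (d : ℕ) (hd : 0 < d) {F : ℍ → ℂ}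
    (hF : MDifferentiable 𝓘(ℂ) 𝓘(ℂ) F) :
    MDifferentiable 𝓘(ℂ) 𝓘(ℂ) fun z : ℍ => F (dilate d hd z) := by
  rw [UpperHalfPlane.mdifferentiable_iff] at hF ⊢
  have hmaps : Set.MapsTo (fun z : ℂ => (d : ℂ) * z) {z | 0 < z.im} {z | 0 < z.im} := by
    intro z hz
    have : ((d : ℂ) * z).im = d * z.im := by simp
    show 0 < ((d : ℂ) * z).im
    rw [this]
    exact mul_pos (Nat.cast_pos.mpr hd) hz
  have h1 : DifferentiableOn ℂ ((F ∘ ofComplex) ∘ fun z : ℂ => (d : ℂ) * z) {z | 0 < z.im} :=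
    hF.comp ((differentiable_id.const_mul (d : ℂ)).differentiableOn) hmaps
  refine h1.congr fun z hz => ?_
  simp only [Function.comp_apply]
  congr 1
  apply UpperHalfPlane.ext
  rw [coe_dilate, ofComplex_apply_of_im_pos hz, ofComplex_apply_of_im_pos (hmaps hz)]

/-- `F ↦ F (d ·)` as an algebra endomorphism of `Hol` -/
def dilHol (d : ℕ) (hd : 0 < d) : Hol →ₐ[ℂ] Hol where
  toFun F := ⟨fun z => (F : ℍ → ℂ) (dilate d hd z), mdifferentiable_comp_dilate d hd F.2⟩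
  map_one' := rfl
  map_mul' _ _ := rfl
  map_zero' := rfl
  map_add' _ _ := rfl
  commutes' _ := rfl

@[simp] theorem dilHol_apply (d : ℕ) (hd : 0 < d) (F : Hol) (z : ℍ) :
    (dilHol d hd F : ℍ → ℂ) z = (F : ℍ → ℂ) (dilate d hd z) := rfl

theorem dilHol_jH (d : ℕ) (hd : 0 < d) : dilHol d hd jH = jDilHol d hd := by
  apply Subtype.ext
  funext z
  show (jH : ℍ → ℂ) (dilate d hd z) = (jDilHol d hd : ℍ → ℂ) z
  rw [jH_apply]
  rfl

/-! ### moderate growth -/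

/-- imaginary part of the Hermite point -/
theorem im_pt {d : ℕ} {g : SL(2, ℤ)} (hd : 0 < d) (H : HermiteData d g) (z : ℍ) :
    (H.pt hd z).im = (H.A : ℝ) * z.im / (H.D : ℝ) := by
  have h := im_affine_div H.A H.B H.D (z : ℂ)
  have h2 : ((H.pt hd z : ℍ) : ℂ).im = (H.pt hd z).im := rfl
  rw [← h2, H.coe_pt hd, h]
  rfl

theorem A_le {d : ℕ} {g : SL(2, ℤ)} (hd : 0 < d) (H : HermiteData d g) : H.A ≤ d := by
  have hD := H.D_pos hd
  have h := H.A_mul_D
  nlinarith [H.A_pos]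

theorem D_le {d : ℕ} {g : SL(2, ℤ)} (hd : 0 < d) (H : HermiteData d g) : H.D ≤ d := by
  have hD := H.D_pos hd
  have h := H.A_mul_D
  nlinarith [H.A_pos]

/-- `Im z / d ≤ Im ((A z + B)/D)` -/
theorem le_im_pt {d : ℕ} {g : SL(2, ℤ)} (hd : 0 < d) (H : HermiteData d g) (z : ℍ) :
    z.im / (d : ℝ) ≤ (H.pt hd z).im := by
  rw [im_pt hd H z]
  have hDpos : (0 : ℝ) < H.D := by exact_mod_cast H.D_pos hd
  have hdpos : (0 : ℝ) < d := by exact_mod_cast hd
  have hA1 : (1 : ℝ) ≤ H.A := by exact_mod_cast H.A_pos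
  have hDd : (H.D : ℝ) ≤ d := by exact_mod_cast D_le hd H
  have hz := z.im_pos
  rw [div_le_div_iff₀ hdpos hDpos]
  nlinarith [mul_pos hz hDpos, mul_pos hz hdpos]

/-- `Im ((A z + B)/D) ≤ d Im z` -/
theorem im_pt_le {d : ℕ} {g : SL(2, ℤ)} (hd : 0 < d) (H : HermiteData d g) (z : ℍ) :
    (H.pt hd z).im ≤ (d : ℝ) * z.im := by
  rw [im_pt hd H z]
  have hDpos : (0 : ℝ) < H.D := by exact_mod_cast H.D_pos hd
  have hD1 : (1 : ℝ) ≤ H.D := by exact_mod_cast H.D_pos hd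
  have hAd : (H.A : ℝ) ≤ d := by exact_mod_cast A_le hd H
  have hdpos : (0 : ℝ) < d := by exact_mod_cast hd
  have hz := z.im_pos
  rw [div_le_iff₀ hDpos]
  nlinarith [mul_nonneg (sub_nonneg.mpr hAd) hz.le,
    mul_nonneg (mul_nonneg hdpos.le hz.le) (sub_nonneg.mpr hD1)]

/-- `|q_h(z)|^d ≤ |q_h((A z + B)/D)|` -/
theorem norm_qParam_pow_le_pt {h : ℝ} (hh : 0 < h) {d : ℕ} {g : SL(2, ℤ)} (hd : 0 < d)
    (H : HermiteData d g) (z : ℍ) :
    ‖qParam h (z : ℂ)‖ ^ d ≤ ‖qParam h (H.pt hd z : ℂ)‖ := by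
  rw [norm_qParam, norm_qParam, ← Real.exp_nat_mul, Real.exp_le_exp]
  have h1 : ((H.pt hd z : ℍ) : ℂ).im ≤ (d : ℝ) * (z : ℂ).im := im_pt_le hd H z
  have h2 : (d : ℝ) * (-2 * Real.pi * (z : ℂ).im / h) = -2 * Real.pi * ((d : ℝ) * (z : ℂ).im) / h := by
    ring
  rw [h2, div_le_div_iff_of_pos_right hh]
  nlinarith [Real.pi_pos]

/-- **Dilation preserves moderate growth.** -/
theorem moderateGrowth_dilate {N : ℕ} [NeZero N] (d : ℕ) (hd : 0 < d) {f : ℍ → ℂ}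
    (hf : ModerateGrowth N f) : ModerateGrowth N fun z : ℍ => f (dilate d hd z) := by
  intro g
  obtain ⟨H⟩ := nonempty_hermiteData d hd g
  obtain ⟨m, hm⟩ := hf H.g''
  refine ⟨m * d, ?_⟩
  rw [UpperHalfPlane.isBoundedAtImInfty_iff] at hm ⊢
  obtain ⟨C, A₀, hC⟩ := hm
  have hdpos : (0 : ℝ) < d := by exact_mod_cast hd
  refine ⟨C, max A₀ 0 * d, fun z hz => ?_⟩
  have hz' : A₀ ≤ (H.pt hd z).im := by
    refine le_trans ?_ (le_im_pt hd H z)
    rw [le_div_iff₀ hdpos]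
    exact le_trans (mul_le_mul_of_nonneg_right (le_max_left _ _) hdpos.le) hz
  have hb := hC (H.pt hd z) hz'
  show ‖qParam (N : ℝ) (z : ℂ) ^ (m * d) * f (dilate d hd (g • z))‖ ≤ C
  rw [H.dilate_smul hd z]
  refine le_trans ?_ hb
  rw [norm_mul, norm_mul, norm_pow, norm_pow, mul_comm m d, pow_mul]
  refine mul_le_mul_of_nonneg_right ?_ (norm_nonneg _)
  exact pow_le_pow_left₀ (pow_nonneg (norm_nonneg _) _)
    (norm_qParam_pow_le_pt (natCast_pos' (N := N)) hd H z) m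

theorem dilHol_mem_MG {N : ℕ} [NeZero N] (d : ℕ) (hd : 0 < d) {F : Hol} (hF : F ∈ MG N) :
    dilHol d hd F ∈ MG N :=
  moderateGrowth_dilate (N := N) d hd hF

/-! ### the width is immaterial -/

theorem moderateGrowth_of_width {N N' : ℕ} [NeZero N] [NeZero N'] {f : ℍ → ℂ}
    (hf : ModerateGrowth N f) : ModerateGrowth N' f := by
  intro g
  obtain ⟨m, hm⟩ := hf g
  refine ⟨m * N', ?_⟩
  refine Asymptotics.IsBigO.trans (Asymptotics.isBigO_of_le _ fun z => ?_) hm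
  rw [norm_mul, norm_mul, norm_pow, norm_pow]
  refine mul_le_mul_of_nonneg_right ?_ (norm_nonneg _)
  rw [norm_qParam, norm_qParam, ← Real.exp_nat_mul, ← Real.exp_nat_mul, Real.exp_le_exp]
  have hN : (0 : ℝ) < N := natCast_pos' (N := N)
  have hN' : (0 : ℝ) < N' := natCast_pos' (N := N')
  have hN1 : (1 : ℝ) ≤ N := by exact_mod_cast NeZero.pos N
  have hz : 0 < (z : ℂ).im := z.im_pos
  have e1 : ((m * N' : ℕ) : ℝ) * (-2 * Real.pi * (z : ℂ).im / (N' : ℝ)) =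
      -(2 * Real.pi * (z : ℂ).im * m) := by
    push_cast
    field_simp
  have e2 : (m : ℝ) * (-2 * Real.pi * (z : ℂ).im / (N : ℝ)) =
      -(2 * Real.pi * (z : ℂ).im * m) / N := by
    ring
  rw [e1, e2, le_div_iff₀ hN]
  have h0 : 0 ≤ 2 * Real.pi * (z : ℂ).im * m := by positivity
  nlinarith

theorem MG_le_of_width (N N' : ℕ) [NeZero N] [NeZero N'] : MG N ≤ MG N' :=
  fun _ hF => moderateGrowth_of_width (N := N) (N' := N') hF

theorem MG_eq_of_width (N N' : ℕ) [NeZero N] [NeZero N'] : MG N = MG N' :=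
  le_antisymm (MG_le_of_width N N') (MG_le_of_width N' N)

/-! ### translates by `Γ₀(d)`-type elements -/

theorem dilate_smul_of_dvd {d : ℕ} (hd : 0 < d) {g : SL(2, ℤ)} (H : HermiteData d g)
    (h : (d : ℤ) ∣ g 1 0) (z : ℍ) : dilate d hd (g • z) = H.g'' • dilate d hd z := by
  rw [H.dilate_smul hd z, H.pt_eq_dilate_of_dvd hd h]

theorem compSL_dilHol_of_dvd {d : ℕ} (hd : 0 < d) {g : SL(2, ℤ)} (H : HermiteData d g)
    (h : (d : ℤ) ∣ g 1 0) (F : Hol) :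
    compSL g (dilHol d hd F) = dilHol d hd (compSL H.g'' F) := by
  apply Subtype.ext
  funext z
  show (F : ℍ → ℂ) (dilate d hd (g • z)) = (F : ℍ → ℂ) (H.g'' • dilate d hd z)
  rw [dilate_smul_of_dvd hd H h z]

theorem exists_compSL_dilHol_of_dvd {d : ℕ} (hd : 0 < d) (g : SL(2, ℤ))
    (h : (d : ℤ) ∣ g 1 0) :
    ∃ g'' : SL(2, ℤ), g'' 1 0 * d = g 1 0 ∧ g'' 0 0 = g 0 0 ∧ g'' 1 1 = g 1 1 ∧
      g'' 0 1 = d * g 0 1 ∧
      ∀ F : Hol, compSL g (dilHol d hd F) = dilHol d hd (compSL g'' F) := by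
  obtain ⟨H⟩ := nonempty_hermiteData d hd g
  have hA := H.A_eq_of_dvd h
  have hD := H.D_eq_one_of_dvd hd h
  have hB := H.B_eq_zero_of_dvd hd h
  have hd0 : (d : ℤ) ≠ 0 := by exact_mod_cast hd.ne'
  refine ⟨H.g'', ?_, ?_, ?_, ?_, fun F => compSL_dilHol_of_dvd hd H h F⟩
  · have := H.h10
    rwa [hA] at this
  · have := H.h00
    rw [hA, mul_comm] at this
    exact mul_left_cancel₀ hd0 this
  · have := H.h11
    rwa [hB, hD, mul_zero, zero_add, mul_one] at this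
  · have := H.h01
    rwa [hB, hD, mul_zero, zero_add, mul_one] at this

theorem dilHol_invariant_of_dvd {d : ℕ} (hd : 0 < d) {F : Hol}
    (hF : ∀ γ : SL(2, ℤ), compSL γ F = F) {g : SL(2, ℤ)} (h : (d : ℤ) ∣ g 1 0) :
    compSL g (dilHol d hd F) = dilHol d hd F := by
  obtain ⟨H⟩ := nonempty_hermiteData d hd g
  rw [compSL_dilHol_of_dvd hd H h F, hF]

end Fermat.Agent.DS.P1.DilateMG
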