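import Mathlib
import Fermat.Agent.DS.P0.WeberDistinct
import Fermat.Agent.DS.P1.WeberAnLambert

/-!
# GATE-N / S48-P1-FRICKE-INJ (formal part): the Fricke expansions determine `±v`

For `v = (a, b) ∈ (ℤ/M)²`, `v ≠ 0`, the Fricke function `f_v` has the `q_M`-expansion
(up to the common factor `E₄E₆/Δ` and the constant `1/12`)

`c₀(v) + ∑_{n ≥ 1} (∑_{jk = n} w_v j k) q_M^n`,
`w_v j k = k (χ(bk) [j ≡ a] + χ(-bk) [j ≡ -a] - 2 [j ≡ 0 mod M])`,
`c₀(v) = [a = 0] χ(b) / (1 - χ(b))²`,

where `χ x = ζ ^ x` for a primitive `M`-th root of unity `ζ`.  We show that these data determine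
`v` up to sign: the constant term decides the case `a = 0`, and the coefficient at
`n = r(a) = min(a, M - a)` (which is `χ(±b)`, or `χ(b) + χ(-b)` when `a = -a`) decides the rest.

Everything is stated for an abstract "character" `χ : ZMod M → ℂ` (injective, `χ (-x) = (χ x)⁻¹`,
`χ x ≠ 0`) and weights satisfying the displayed formula, so that it applies verbatim to the
weights of `WeberAnExp` whatever their definitional shape; `zetaChar` is the instance
`χ x = ζ ^ x.val`.
-/

set_option autoImplicit false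
set_option linter.unusedSectionVars false

noncomputable section

namespace Fermat.Agent.DS.P1.FrickeInj

open Fermat.Agent.DS.P0.WeberDistinct Fermat.Agent.DS.P1

variable {M : ℕ} [NeZero M]

/-- the hypotheses on the character `x ↦ ζ ^ x` -/
structure IsChar (χ : ZMod M → ℂ) : Prop where
  inj : Function.Injective χ
  neg : ∀ x, χ (-x) = (χ x)⁻¹
  ne_zero : ∀ x, χ x ≠ 0
  zero : χ 0 = 1

/-- the weights of the Fricke expansion at `v = (a, b)` -/
def frickeWt (χ : ZMod M → ℂ) (a b : ZMod M) (j k : ℕ) : ℂ :=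
  (k : ℂ) * (χ (b * k) * (if ((j : ℕ) : ZMod M) = a then 1 else 0)
    + χ (-b * k) * (if ((j : ℕ) : ZMod M) = -a then 1 else 0)
    - 2 * (if ((j : ℕ) : ZMod M) = 0 then 1 else 0))

/-- the constant term of the Fricke expansion at `v = (a, b)` (without the `1/12`) -/
def frickeConst (χ : ZMod M → ℂ) (a b : ZMod M) : ℂ :=
  if a = 0 then χ b / (1 - χ b) ^ 2 else 0

section Weights

variable (χ : ZMod M → ℂ) (a b : ZMod M)

theorem frickeWt_eq_zero_of_lt (ha : a ≠ 0) {j : ℕ} (hj0 : 0 < j) (hj : j < absRep M a) (k : ℕ) :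
    frickeWt χ a b j k = 0 := by
  have hrM := absRep_lt a
  have hr1 : absRep M a ≤ a.val := Nat.min_le_left _ _
  have hr2 : absRep M a ≤ M - a.val := Nat.min_le_right _ _
  have hjM : j < M := by omega
  unfold frickeWt
  rw [if_neg, if_neg, if_neg (natCast_ne_zero_of_lt hj0 hjM)]
  · ring
  · rw [natCast_eq_iff_of_lt hjM, neg_val_of_ne_zero ha]
    omega
  · rw [natCast_eq_iff_of_lt hjM]
    omega

/-- the value of the weight at `(j, k) = (r(a), 1)` -/
def leadVal : ℂ :=
  χ b * (if absRep M a = a.val then 1 else 0) + χ (-b) * (if absRep M a = M - a.val then 1 else 0)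

theorem frickeWt_absRep_one (ha : a ≠ 0) : frickeWt χ a b (absRep M a) 1 = leadVal χ a b := by
  have hr0 := absRep_pos ha
  have hrM := absRep_lt a
  unfold frickeWt leadVal
  rw [if_neg (natCast_ne_zero_of_lt hr0 hrM)]
  simp only [natCast_eq_iff_of_lt hrM, neg_val_of_ne_zero ha, Nat.cast_one, mul_one]
  ring

theorem lamCoeff_frickeWt_of_lt (ha : a ≠ 0) {n : ℕ} (hn : n < absRep M a) :
    lamCoeff (frickeWt χ a b) n = 0 := by
  unfold lamCoeff
  refine Finset.sum_eq_zero fun p hp => ?_
  have h := Nat.mem_divisorsAntidiagonal.mp hp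
  have hj0 : 0 < p.1 := Nat.pos_of_ne_zero fun h0 => h.2 (by rw [← h.1, h0, zero_mul])
  have hk0 : 0 < p.2 := Nat.pos_of_ne_zero fun h0 => h.2 (by rw [← h.1, h0, mul_zero])
  have hjn : p.1 ≤ n := by
    rw [← h.1]
    exact Nat.le_mul_of_pos_right _ hk0
  exact frickeWt_eq_zero_of_lt χ a b ha hj0 (by omega) _

theorem lamCoeff_frickeWt_absRep (ha : a ≠ 0) :
    lamCoeff (frickeWt χ a b) (absRep M a) = leadVal χ a b := by
  have hr0 := absRep_pos ha
  unfold lamCoeff
  rw [Finset.sum_eq_single (absRep M a, 1)]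
  · exact frickeWt_absRep_one χ a b ha
  · intro p hp hne
    have h := Nat.mem_divisorsAntidiagonal.mp hp
    have hj0 : 0 < p.1 := Nat.pos_of_ne_zero fun h0 => h.2 (by rw [← h.1, h0, zero_mul])
    have hk0 : 0 < p.2 := Nat.pos_of_ne_zero fun h0 => h.2 (by rw [← h.1, h0, mul_zero])
    have hjn : p.1 ≤ absRep M a := by
      rw [← h.1]
      exact Nat.le_mul_of_pos_right _ hk0
    rcases lt_or_eq_of_le hjn with hlt | heq
    · exact frickeWt_eq_zero_of_lt χ a b ha hj0 hlt _
    · exfalso
      apply hne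
      have h1 : p.2 = 1 := by
        have h2 := h.1
        rw [heq] at h2
        exact Nat.eq_of_mul_eq_mul_left hr0 (by rw [h2, mul_one])
      exact Prod.ext heq h1
  · intro h
    exfalso
    apply h
    rw [Nat.mem_divisorsAntidiagonal]
    exact ⟨mul_one _, hr0.ne'⟩

end Weights

section Lead

variable {χ : ZMod M → ℂ} (hχ : IsChar χ) {a b : ZMod M}

include hχ

omit hχ in
theorem val_eq_sub_val_iff (ha : a ≠ 0) : a.val = M - a.val ↔ a = -a := by
  constructor
  · intro h
    apply ZMod.val_injective M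
    rw [neg_val_of_ne_zero ha]
    exact h
  · intro h
    conv_lhs => rw [h]
    exact neg_val_of_ne_zero ha

/-- if `a ≠ -a` the leading value is `χ(±b) ≠ 0` -/
theorem leadVal_ne_zero (ha : a ≠ 0) (hneg : a ≠ -a) : leadVal χ a b ≠ 0 := by
  have h1 := val_pos_of_ne_zero ha
  have h2 := ZMod.val_lt a
  have hv : a.val ≠ M - a.val := fun h => hneg ((val_eq_sub_val_iff ha).mp h)
  have hcases : absRep M a = a.val ∨ absRep M a = M - a.val := by unfold absRep; omega
  unfold leadVal
  rcases hcases with h | h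
  · rw [if_pos h, if_neg (by omega)]
    simpa using hχ.ne_zero b
  · rw [if_neg (by omega), if_pos h]
    simpa using hχ.ne_zero (-b)

end Lead

/-! ### the main formal statement -/

section Main

variable {χ : ZMod M → ℂ} (hχ : IsChar χ)

include hχ

theorem char_ne_one {b : ZMod M} (hb : b ≠ 0) : χ b ≠ 1 := fun h =>
  hb (hχ.inj (h.trans hχ.zero.symm))

theorem frickeConst_ne_zero {b : ZMod M} (hb : b ≠ 0) : frickeConst χ 0 b ≠ 0 := by
  unfold frickeConst
  rw [if_pos rfl]
  have h1 : (1 : ℂ) - χ b ≠ 0 := sub_ne_zero.mpr (char_ne_one hχ hb).symm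
  exact div_ne_zero (hχ.ne_zero b) (pow_ne_zero 2 h1)

omit hχ in
/-- `x/(1-x)² = y/(1-y)²` forces `x = y` or `xy = 1` -/
theorem eq_or_mul_eq_one_of_const_eq {x y : ℂ} (hx : x ≠ 1) (hy : y ≠ 1)
    (h : x / (1 - x) ^ 2 = y / (1 - y) ^ 2) : x = y ∨ x * y = 1 := by
  have h1 : (1 : ℂ) - x ≠ 0 := sub_ne_zero.mpr hx.symm
  have h2 : (1 : ℂ) - y ≠ 0 := sub_ne_zero.mpr hy.symm
  rw [div_eq_div_iff (pow_ne_zero 2 h1) (pow_ne_zero 2 h2)] at h
  have h3 : (x - y) * (1 - x * y) = 0 := by linear_combination h
  rcases mul_eq_zero.mp h3 with h4 | h4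
  · exact Or.inl (sub_eq_zero.mp h4)
  · exact Or.inr (sub_eq_zero.mp h4).symm

omit hχ in
/-- `x + x⁻¹ = y + y⁻¹` forces `x = y` or `xy = 1` -/
theorem eq_or_mul_eq_one_of_add_inv_eq {x y : ℂ} (hx : x ≠ 0) (hy : y ≠ 0)
    (h : x + x⁻¹ = y + y⁻¹) : x = y ∨ x * y = 1 := by
  have h3 : (x - y) * (x * y - 1) = 0 := by
    have h' := h
    field_simp at h'
    linear_combination h'
  rcases mul_eq_zero.mp h3 with h4 | h4
  · exact Or.inl (sub_eq_zero.mp h4)
  · exact Or.inr (sub_eq_zero.mp h4)

theorem eq_neg_of_mul_eq_one {b b' : ZMod M} (h : χ b * χ b' = 1) : b = -b' := by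
  apply hχ.inj
  rw [hχ.neg]
  exact eq_inv_of_mul_eq_one_left h

/-- **Formal injectivity of the Fricke expansions.**  If the constant terms and all the
coefficients `∑_{jk = n} w_v j k` agree for `v = (a, b)` and `v' = (a', b')` (both nonzero in
`(ℤ/M)²`), then `v = ±v'`. -/
theorem eq_or_eq_neg_of_expansion_eq {a b a' b' : ZMod M}
    (hv : ¬ (a = 0 ∧ b = 0)) (hv' : ¬ (a' = 0 ∧ b' = 0))
    (h0 : frickeConst χ a b = frickeConst χ a' b')
    (h : ∀ n, lamCoeff (frickeWt χ a b) n = lamCoeff (frickeWt χ a' b') n) :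
    (a = a' ∧ b = b') ∨ (a = -a' ∧ b = -b') := by
  by_cases ha : a = 0
  · have hb : b ≠ 0 := fun hb => hv ⟨ha, hb⟩
    subst ha
    by_cases ha' : a' = 0
    · have hb' : b' ≠ 0 := fun hb' => hv' ⟨ha', hb'⟩
      subst ha'
      unfold frickeConst at h0
      rw [if_pos rfl, if_pos rfl] at h0
      rcases eq_or_mul_eq_one_of_const_eq (char_ne_one hχ hb) (char_ne_one hχ hb') h0 with h1 | h1
      · exact Or.inl ⟨rfl, hχ.inj h1⟩
      · exact Or.inr ⟨neg_zero.symm, eq_neg_of_mul_eq_one hχ h1⟩
    · exfalso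
      apply frickeConst_ne_zero hχ hb
      rw [h0]
      unfold frickeConst
      rw [if_neg ha']
  · by_cases ha' : a' = 0
    · have hb' : b' ≠ 0 := fun hb' => hv' ⟨ha', hb'⟩
      subst ha'
      exfalso
      apply frickeConst_ne_zero hχ hb'
      rw [← h0]
      unfold frickeConst
      rw [if_neg ha]
    · -- both `a`, `a'` nonzero: compare at `min (r a) (r a')`
      have ha1 := val_pos_of_ne_zero ha
      have ha2 := ZMod.val_lt a
      have ha1' := val_pos_of_ne_zero ha'
      have ha2' := ZMod.val_lt a'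
      have h2r := two_mul_absRep_le a
      have h2r' := two_mul_absRep_le a'
      rcases lt_trichotomy (absRep M a) (absRep M a') with hlt | heq | hgt
      · exfalso
        have h1 := h (absRep M a)
        rw [lamCoeff_frickeWt_absRep χ a b ha, lamCoeff_frickeWt_of_lt χ a' b' ha' hlt] at h1
        by_cases hneg : a = -a
        · have hval := (val_eq_sub_val_iff ha).mpr hneg
          have : absRep M a = a.val := by unfold absRep; omega
          omega
        · exact leadVal_ne_zero hχ ha hneg h1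
      · have h1 := h (absRep M a)
        rw [lamCoeff_frickeWt_absRep χ a b ha] at h1
        rw [heq, lamCoeff_frickeWt_absRep χ a' b' ha'] at h1
        have haa' := eq_or_eq_neg_of_absRep_eq ha ha' heq
        by_cases hneg : a = -a
        · -- `a = -a`, so `a' = a`
          have haeq : a = a' := by
            rcases haa' with h2 | h2
            · exact h2
            · rw [h2, neg_neg] at hneg
              rw [h2]
              exact hneg
          subst haeq
          have hval := (val_eq_sub_val_iff ha).mpr hneg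
          have hr : absRep M a = a.val := by unfold absRep; omega
          unfold leadVal at h1
          rw [if_pos hr, if_pos (by omega), mul_one, mul_one, mul_one, mul_one, hχ.neg, hχ.neg]
            at h1
          rcases eq_or_mul_eq_one_of_add_inv_eq (hχ.ne_zero b) (hχ.ne_zero b') h1 with h2 | h2
          · exact Or.inl ⟨rfl, hχ.inj h2⟩
          · exact Or.inr ⟨hneg, eq_neg_of_mul_eq_one hχ h2⟩
        · have hneg' : a' ≠ -a' := by
            intro h2
            rcases haa' with h3 | h3
            · exact hneg (by rw [h3]; exact h2)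
            · apply hneg
              rw [h3, neg_neg, ← h2]
          have hv1 : a.val ≠ M - a.val := fun h2 => hneg ((val_eq_sub_val_iff ha).mp h2)
          have hv1' : a'.val ≠ M - a'.val := fun h2 => hneg' ((val_eq_sub_val_iff ha').mp h2)
          have hc : absRep M a = a.val ∨ absRep M a = M - a.val := by unfold absRep; omega
          have hc' : absRep M a' = a'.val ∨ absRep M a' = M - a'.val := by unfold absRep; omega
          unfold leadVal at h1
          rcases hc with hc | hc <;> rcases hc' with hc' | hc'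
          · rw [if_pos hc, if_neg (by omega), if_pos hc', if_neg (by omega)] at h1
            simp only [mul_one, mul_zero, add_zero] at h1
            refine Or.inl ⟨ZMod.val_injective M (by omega), hχ.inj h1⟩
          · rw [if_pos hc, if_neg (by omega), if_neg (by omega), if_pos hc'] at h1
            simp only [mul_one, mul_zero, add_zero, zero_add] at h1
            refine Or.inr ⟨ZMod.val_injective M ?_, hχ.inj h1⟩
            rw [neg_val_of_ne_zero ha']
            omega
          · rw [if_neg (by omega), if_pos hc, if_pos hc', if_neg (by omega)] at h1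
            simp only [mul_one, mul_zero, add_zero, zero_add] at h1
            refine Or.inr ⟨ZMod.val_injective M ?_, ?_⟩
            · rw [neg_val_of_ne_zero ha']
              omega
            · rw [← neg_eq_iff_eq_neg]
              exact hχ.inj h1
          · rw [if_neg (by omega), if_pos hc, if_neg (by omega), if_pos hc'] at h1
            simp only [mul_one, mul_zero, zero_add] at h1
            refine Or.inl ⟨ZMod.val_injective M (by omega), neg_injective (hχ.inj h1)⟩
      · exfalso
        have h1 := h (absRep M a')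
        rw [lamCoeff_frickeWt_absRep χ a' b' ha', lamCoeff_frickeWt_of_lt χ a b ha hgt] at h1
        by_cases hneg : a' = -a'
        · have hval := (val_eq_sub_val_iff ha').mpr hneg
          have : absRep M a' = a'.val := by unfold absRep; omega
          omega
        · exact leadVal_ne_zero hχ ha' hneg h1.symm

end Main

/-! ### the character `x ↦ ζ ^ x` -/

section Zeta

variable {ζ : ℂ}

/-- the character `x ↦ ζ ^ x` of `ZMod M` attached to an `M`-th root of unity -/
def zetaChar (M : ℕ) (ζ : ℂ) (x : ZMod M) : ℂ := ζ ^ x.val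

theorem zetaChar_natCast (hζ : ζ ^ M = 1) (n : ℕ) : zetaChar M ζ ((n : ℕ) : ZMod M) = ζ ^ n := by
  unfold zetaChar
  rw [ZMod.val_natCast]
  conv_rhs => rw [← Nat.mod_add_div n M]
  rw [pow_add, pow_mul, hζ, one_pow, mul_one]

theorem zetaChar_add (hζ : ζ ^ M = 1) (x y : ZMod M) :
    zetaChar M ζ (x + y) = zetaChar M ζ x * zetaChar M ζ y := by
  have h := zetaChar_natCast hζ (x.val + y.val)
  rw [Nat.cast_add, ZMod.natCast_zmod_val, ZMod.natCast_zmod_val] at h
  rw [h, pow_add]
  rfl

theorem zetaChar_zero : zetaChar M ζ (0 : ZMod M) = 1 := by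
  unfold zetaChar
  rw [ZMod.val_zero, pow_zero]

theorem zetaChar_intCast (hζ : ζ ^ M = 1) (hζ0 : ζ ≠ 0) (n : ℤ) :
    zetaChar M ζ ((n : ℤ) : ZMod M) = ζ ^ n := by
  have hM : (M : ℤ) ≠ 0 := by exact_mod_cast NeZero.ne M
  have h1 : ((n : ℤ) : ZMod M) = (((n % (M : ℤ)).toNat : ℕ) : ZMod M) := by
    have h2 : ((n % (M : ℤ)).toNat : ℤ) = n % (M : ℤ) :=
      Int.toNat_of_nonneg (Int.emod_nonneg n hM)
    have h3 : (((n % (M : ℤ)).toNat : ℕ) : ZMod M) = (((n % (M : ℤ)).toNat : ℤ) : ZMod M) := by
      push_cast; rfl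
    rw [h3, h2]
    rw [ZMod.intCast_eq_intCast_iff]
    exact (Int.mod_modEq n M).symm
  rw [h1, zetaChar_natCast hζ]
  have h2 : ((n % (M : ℤ)).toNat : ℤ) = n % (M : ℤ) :=
    Int.toNat_of_nonneg (Int.emod_nonneg n hM)
  rw [← zpow_natCast, h2]
  conv_rhs => rw [← Int.emod_add_mul_ediv n M]
  rw [zpow_add₀ hζ0, zpow_mul, zpow_natCast, hζ, one_zpow, mul_one]

theorem isChar_zetaChar (hζ : IsPrimitiveRoot ζ M) : IsChar (zetaChar M ζ) where
  inj := by
    intro x y h
    unfold zetaChar at h
    exact ZMod.val_injective M (hζ.pow_inj (ZMod.val_lt x) (ZMod.val_lt y) h)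
  neg := by
    intro x
    have h := zetaChar_add hζ.pow_eq_one (-x) x
    rw [neg_add_cancel, zetaChar_zero] at h
    exact eq_inv_of_mul_eq_one_left h.symm
  ne_zero := by
    intro x
    unfold zetaChar
    exact pow_ne_zero _ (hζ.ne_zero (NeZero.ne M))
  zero := zetaChar_zero

end Zeta

end Fermat.Agent.DS.P1.FrickeInj
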