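import Mathlib
import Fermat.Agent.S28.DiscSeries

/-!
# Regrouping Lambert-type double series into power series

For a weight `w : ℕ → ℕ → ℂ` with `‖w j k‖ ≤ C k`, the double series
`∑_{j,k ≥ 1} w j k t^{jk}` converges absolutely for `‖t‖ < 1` and equals the value of the
power series `lambertPS w = ∑_n (∑_{jk = n} w j k) X^n`, which converges on the unit disc.
-/

set_option autoImplicit false

noncomputable section

namespace Fermat.Agent.DS.P1.Lambert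

open Fermat.Agent.S28 PowerSeries

/-- the power series `∑_n (∑_{jk = n} w j k) X^n` -/
def lambertPS (w : ℕ → ℕ → ℂ) : PowerSeries ℂ :=
  PowerSeries.mk fun n => ∑ x ∈ n.divisorsAntidiagonal, w x.1 x.2

@[simp] theorem coeff_lambertPS (w : ℕ → ℕ → ℂ) (n : ℕ) :
    coeff n (lambertPS w) = ∑ x ∈ n.divisorsAntidiagonal, w x.1 x.2 := by
  simp [lambertPS]

theorem coeff_zero_lambertPS (w : ℕ → ℕ → ℂ) : coeff 0 (lambertPS w) = 0 := by simp

variable (w : ℕ → ℕ → ℂ) (C : ℝ)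

theorem summable_lambert (hw : ∀ j k, ‖w j k‖ ≤ C * k) {t : ℂ} (ht : ‖t‖ < 1) :
    Summable fun p : ℕ+ × ℕ+ => w p.1 p.2 * t ^ ((p.1 : ℕ) * (p.2 : ℕ)) := by
  have hs := (summable_prod_mul_pow (𝕜 := ℝ) 1 (r := ‖t‖) (by rwa [norm_norm])).mul_left C
  refine Summable.of_norm_bounded hs fun p => ?_
  rw [norm_mul, norm_pow, pow_one, ← mul_assoc]
  exact mul_le_mul_of_nonneg_right (by exact_mod_cast hw p.1 p.2) (by positivity)

theorem hasSum_lambert_pnat (hw : ∀ j k, ‖w j k‖ ≤ C * k) {t : ℂ} (ht : ‖t‖ < 1) :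
    HasSum (fun n : ℕ+ => coeff (n : ℕ) (lambertPS w) * t ^ (n : ℕ))
      (∑' p : ℕ+ × ℕ+, w p.1 p.2 * t ^ ((p.1 : ℕ) * (p.2 : ℕ))) := by
  have hS := (summable_lambert w C hw ht).hasSum
  have hS' := sigmaAntidiagonalEquivProd.hasSum_iff.mpr hS
  refine hS'.sigma fun n => ?_
  have hfin := hasSum_fintype (fun c : Nat.divisorsAntidiagonal (n : ℕ) =>
    ((fun p : ℕ+ × ℕ+ => w p.1 p.2 * t ^ ((p.1 : ℕ) * (p.2 : ℕ))) ∘ sigmaAntidiagonalEquivProd)
      ⟨n, c⟩)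
  convert hfin using 1
  rw [coeff_lambertPS, Finset.sum_mul, Finset.univ_eq_attach,
    ← Finset.sum_attach (n : ℕ).divisorsAntidiagonal]
  refine Finset.sum_congr rfl fun x _ => ?_
  have hx : ((divisorsAntidiagonalFactors n x).1 : ℕ) * ((divisorsAntidiagonalFactors n x).2 : ℕ)
      = (n : ℕ) := divisorsAntidiagonalFactors_eq x
  change _ = w ((divisorsAntidiagonalFactors n x).1 : ℕ) ((divisorsAntidiagonalFactors n x).2 : ℕ) *
    t ^ (((divisorsAntidiagonalFactors n x).1 : ℕ) * ((divisorsAntidiagonalFactors n x).2 : ℕ))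
  rw [hx]
  rfl


theorem hasSum_lambert_nat (hw : ∀ j k, ‖w j k‖ ≤ C * k) {t : ℂ} (ht : ‖t‖ < 1) :
    HasSum (fun n : ℕ => coeff n (lambertPS w) * t ^ n)
      (∑' p : ℕ+ × ℕ+, w p.1 p.2 * t ^ ((p.1 : ℕ) * (p.2 : ℕ))) := by
  have h1 := hasSum_lambert_pnat w C hw ht
  have h2 := (hasSum_pnat_iff_hasSum_succ
    (f := fun n : ℕ => coeff n (lambertPS w) * t ^ n)).mp h1
  have h3 := (hasSum_nat_add_iff (f := fun n : ℕ => coeff n (lambertPS w) * t ^ n) 1).mp h2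
  simpa using h3

/-- the regrouped series converges on the unit disc -/
theorem conv_lambertPS (hw : ∀ j k, ‖w j k‖ ≤ C * k) : Conv (lambertPS w) :=
  fun _ ht => (hasSum_lambert_nat w C hw ht).summable

/-- **Regrouping**: `∑_{j,k ≥ 1} w j k t^{jk} = (lambertPS w)(t)`. -/
theorem hasSum_lambert (hw : ∀ j k, ‖w j k‖ ≤ C * k) {t : ℂ} (ht : ‖t‖ < 1) :
    HasSum (fun p : ℕ+ × ℕ+ => w p.1 p.2 * t ^ ((p.1 : ℕ) * (p.2 : ℕ)))
      (evalDisc (lambertPS w) t) := by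
  rw [evalDisc_eq_of_hasSum (hasSum_lambert_nat w C hw ht)]
  exact (summable_lambert w C hw ht).hasSum

theorem evalDisc_lambertPS (hw : ∀ j k, ‖w j k‖ ≤ C * k) {t : ℂ} (ht : ‖t‖ < 1) :
    evalDisc (lambertPS w) t = ∑' p : ℕ+ × ℕ+, w p.1 p.2 * t ^ ((p.1 : ℕ) * (p.2 : ℕ)) :=
  evalDisc_eq_of_hasSum (hasSum_lambert_nat w C hw ht)

end Fermat.Agent.DS.P1.Lambert
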