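import Mathlib
import Fermat.Agent.DS.P1.WpRows
import Fermat.Agent.DS.P1.Lambert
import Fermat.Agent.S28.CuspExp

/-!
# `q^{1/M}`-expansions of `℘` at the `M`-torsion points (Fricke / Weber functions)

`hasSum_fricke` : for `T ∈ ℍ`, `0 ≤ a < M`, `(a, b) ≢ 0 mod M`, `z = (aT + b)/M`,
`t = e(T/M)`, `ξ = e(b/M)`:
`℘(z; ℤ + Tℤ)/(2πi)² = 1/12 + [a = 0] ξ/(1-ξ)² + ∑_{j,k ≥ 1} w(j,k) t^{jk}` with
`w(j,k) = k ([j ≡ a] ξ^k + [j ≡ -a] ξ^{-k} - 2 [j ≡ 0])`;
`weierstrassP_zPt_eq_evalDisc`, `hasCuspExp_pFun` : the same as the value of the convergent power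
series `frickePS M a b` / as a cusp expansion of width `M`; `frickePS_zero_eq` : for `b = 0` the
series is `1/12 +` an integral power series.  (GATE-N, S48-P1 (P1f).)
-/

set_option autoImplicit false

noncomputable section

namespace Fermat.Agent.DS.P1.FrickeRows

open Complex PeriodPair Filter Topology
open UpperHalfPlane hiding I
open scoped Real
open Fermat.Agent.S28 Fermat.Agent.DS.P1.WpRows Fermat.Agent.DS.P1.Lambert

/-- the weight of `t^{jk}` in the expansion of `℘((aT+b)/M)/(2πi)²`, `ξ = e(b/M)` -/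
def frickeWgt (M a : ℕ) (ξ : ℂ) (j k : ℕ) : ℂ :=
  (k : ℂ) * ((if j ≡ a [MOD M] then ξ ^ k else 0) + (if M ∣ j + a then ξ⁻¹ ^ k else 0)
    - (if M ∣ j then 2 else 0))

theorem norm_frickeWgt_le (M a : ℕ) {ξ : ℂ} (hξ : ‖ξ‖ = 1) (j k : ℕ) :
    ‖frickeWgt M a ξ j k‖ ≤ 4 * k := by
  rw [frickeWgt, norm_mul, Complex.norm_natCast, mul_comm]
  refine mul_le_mul_of_nonneg_right ?_ (Nat.cast_nonneg k)
  have h1 : ‖(if j ≡ a [MOD M] then ξ ^ k else 0)‖ ≤ 1 := by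
    split_ifs <;> simp [hξ]
  have h2 : ‖(if M ∣ j + a then ξ⁻¹ ^ k else 0)‖ ≤ 1 := by
    split_ifs <;> simp [hξ]
  have h3 : ‖(if M ∣ j then (2 : ℂ) else 0)‖ ≤ 2 := by
    split_ifs <;> simp
  calc _ ≤ ‖(if j ≡ a [MOD M] then ξ ^ k else 0) + (if M ∣ j + a then ξ⁻¹ ^ k else 0)‖
        + ‖(if M ∣ j then (2 : ℂ) else 0)‖ := norm_sub_le _ _
    _ ≤ (‖(if j ≡ a [MOD M] then ξ ^ k else 0)‖ + ‖(if M ∣ j + a then ξ⁻¹ ^ k else 0)‖)
        + ‖(if M ∣ j then (2 : ℂ) else 0)‖ := by gcongr; exact norm_add_le _ _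
    _ ≤ 4 := by linarith

/-- reindexing along an injective map into `ℕ+ × ℕ+` -/
theorem hasSum_indicator_of_injective {γ : Type*} (g : γ → ℕ+ × ℕ+) (hg : Function.Injective g)
    (P : ℕ+ × ℕ+ → Prop) [DecidablePred P] (hP : ∀ x, P x ↔ x ∈ Set.range g)
    (F : ℕ+ × ℕ+ → ℂ) {s : ℂ} (h : HasSum (F ∘ g) s) :
    HasSum (fun p => if P p then F p else 0) s := by
  have h2 : (fun p => if P p then F p else 0) ∘ g = F ∘ g := by
    funext x
    simp only [Function.comp_apply]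
    rw [if_pos ((hP _).mpr ⟨x, rfl⟩)]
  rw [← h2] at h
  exact (hg.hasSum_iff (fun x hx => by
    rw [if_neg (fun hp => hx ((hP x).mp hp))])).mp h


section Reindex

variable (M : ℕ) [NeZero M]

/-- `(n, k) ↦ (M n + r, k)` -/
def shiftUp (r : ℕ) (x : ℕ+ × ℕ+) : ℕ+ × ℕ+ :=
  (⟨M * (x.1 : ℕ) + r, by have := x.1.pos; have := Nat.pos_of_ne_zero (NeZero.ne M); positivity⟩,
    x.2)

theorem shiftUp_injective (r : ℕ) : Function.Injective (shiftUp M r) := by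
  intro x y h
  have hM := Nat.pos_of_ne_zero (NeZero.ne M)
  have h1 : M * (x.1 : ℕ) + r = M * (y.1 : ℕ) + r :=
    congrArg (fun p : ℕ+ × ℕ+ => ((p.1 : ℕ+) : ℕ)) h
  have h2 : x.2 = y.2 := (Prod.ext_iff.mp h).2
  have h3 : (x.1 : ℕ) = y.1 := Nat.eq_of_mul_eq_mul_left hM (Nat.add_right_cancel h1)
  exact Prod.ext (PNat.coe_injective h3) h2

theorem mem_range_shiftUp {r : ℕ} (hr : r < M) (p : ℕ+ × ℕ+) :
    ((p.1 : ℕ) ≡ r [MOD M] ∧ (p.1 : ℕ) ≠ r) ↔ p ∈ Set.range (shiftUp M r) := by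
  have hM := Nat.pos_of_ne_zero (NeZero.ne M)
  constructor
  · rintro ⟨h1, h2⟩
    have hmod : (p.1 : ℕ) % M = r := by
      have := h1
      rw [Nat.ModEq, Nat.mod_eq_of_lt hr] at this
      exact this
    have hdiv : (p.1 : ℕ) = M * ((p.1 : ℕ) / M) + r := by
      have := Nat.div_add_mod (p.1 : ℕ) M
      rw [hmod] at this
      exact this.symm
    have hpos : 0 < (p.1 : ℕ) / M := by
      rcases Nat.eq_zero_or_pos ((p.1 : ℕ) / M) with h0 | h0
      · exfalso; apply h2; rw [hdiv, h0]; simp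
      · exact h0
    refine ⟨(⟨(p.1 : ℕ) / M, hpos⟩, p.2), ?_⟩
    refine Prod.ext (PNat.coe_injective ?_) rfl
    exact hdiv.symm
  · rintro ⟨x, rfl⟩
    have hx := x.1.pos
    refine ⟨?_, ?_⟩
    · show M * (x.1 : ℕ) + r ≡ r [MOD M]
      rw [Nat.ModEq, Nat.mul_add_mod]
    · show M * (x.1 : ℕ) + r ≠ r
      have : 0 < M * (x.1 : ℕ) := Nat.mul_pos hM hx
      omega

/-- `(n, k) ↦ (M n - a, k)` -/
def shiftDown (a : ℕ) (ha : a < M) (x : ℕ+ × ℕ+) : ℕ+ × ℕ+ :=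
  (⟨M * (x.1 : ℕ) - a, by
      have h1 := x.1.pos
      have : M * 1 ≤ M * (x.1 : ℕ) := Nat.mul_le_mul_left M h1
      omega⟩, x.2)

theorem shiftDown_injective (a : ℕ) (ha : a < M) : Function.Injective (shiftDown M a ha) := by
  intro x y h
  have hM := Nat.pos_of_ne_zero (NeZero.ne M)
  have h1 : M * (x.1 : ℕ) - a = M * (y.1 : ℕ) - a :=
    congrArg (fun p : ℕ+ × ℕ+ => ((p.1 : ℕ+) : ℕ)) h
  have h2 : x.2 = y.2 := (Prod.ext_iff.mp h).2
  have hx : M * 1 ≤ M * (x.1 : ℕ) := Nat.mul_le_mul_left M x.1.pos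
  have hy : M * 1 ≤ M * (y.1 : ℕ) := Nat.mul_le_mul_left M y.1.pos
  have h3 : (x.1 : ℕ) = y.1 := Nat.eq_of_mul_eq_mul_left hM (by omega)
  exact Prod.ext (PNat.coe_injective h3) h2

theorem mem_range_shiftDown {a : ℕ} (ha : a < M) (p : ℕ+ × ℕ+) :
    (M ∣ (p.1 : ℕ) + a) ↔ p ∈ Set.range (shiftDown M a ha) := by
  have hM := Nat.pos_of_ne_zero (NeZero.ne M)
  constructor
  · rintro ⟨n, hn⟩
    have hp := p.1.pos
    have hnpos : 0 < n := by
      rcases Nat.eq_zero_or_pos n with h0 | h0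
      · rw [h0] at hn; omega
      · exact h0
    refine ⟨(⟨n, hnpos⟩, p.2), ?_⟩
    refine Prod.ext (PNat.coe_injective ?_) rfl
    show M * n - a = (p.1 : ℕ)
    omega
  · rintro ⟨x, rfl⟩
    show M ∣ (M * (x.1 : ℕ) - a) + a
    have hx : M * 1 ≤ M * (x.1 : ℕ) := Nat.mul_le_mul_left M x.1.pos
    have : M * (x.1 : ℕ) - a + a = M * (x.1 : ℕ) := by omega
    rw [this]
    exact dvd_mul_right _ _

/-- `k ↦ (a, k)` -/
def rowZero (a : ℕ) (ha : 0 < a) (k : ℕ+) : ℕ+ × ℕ+ := (⟨a, ha⟩, k)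

theorem rowZero_injective (a : ℕ) (ha : 0 < a) : Function.Injective (rowZero a ha) := by
  intro x y h
  exact (Prod.ext_iff.mp h).2

theorem mem_range_rowZero {a : ℕ} (ha : 0 < a) (p : ℕ+ × ℕ+) :
    ((p.1 : ℕ) = a) ↔ p ∈ Set.range (rowZero a ha) := by
  constructor
  · intro h
    exact ⟨p.2, Prod.ext (PNat.coe_injective h.symm) rfl⟩
  · rintro ⟨x, rfl⟩
    rfl

end Reindex


section Main

variable (M : ℕ) [NeZero M] (a : ℕ) (b : ℤ) (T : ℍ)

/-- the local parameter `t = e(T/M)` -/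
def tPar : ℂ := cexp (2 * π * I * T / M)

/-- the root of unity `ξ = e(b/M)` -/
def xiPar : ℂ := cexp (2 * π * I * b / M)

/-- the torsion point `z = (aT + b)/M` -/
def zPt : ℂ := ((a : ℂ) * T + b) / M

omit [NeZero M] in
theorem norm_xiPar : ‖xiPar M b‖ = 1 := by
  rw [xiPar, Complex.norm_exp]
  have : (2 * (π : ℂ) * I * b / M).re = 0 := by
    have : (2 * (π : ℂ) * I * b / M) = ((2 * π * b / M : ℝ) : ℂ) * I := by
      push_cast; ring
    rw [this]; simp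
  rw [this, Real.exp_zero]

omit [NeZero M] in
theorem tPar_ne_zero : tPar M T ≠ 0 := Complex.exp_ne_zero _

theorem tPar_pow : tPar M T ^ M = cexp (2 * π * I * T) := by
  have hM : (M : ℂ) ≠ 0 := by exact_mod_cast NeZero.ne M
  rw [tPar, ← Complex.exp_nat_mul]
  congr 1
  field_simp

theorem cexp_zPt : cexp (2 * π * I * zPt M a b T) = xiPar M b * tPar M T ^ a := by
  have hM : (M : ℂ) ≠ 0 := by exact_mod_cast NeZero.ne M
  rw [xiPar, tPar, ← Complex.exp_nat_mul, ← Complex.exp_add, zPt]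
  congr 1
  field_simp
  ring

theorem zPt_im : (zPt M a b T).im = a * T.im / M := by
  have hM : (M : ℂ) ≠ 0 := by exact_mod_cast NeZero.ne M
  have : zPt M a b T = (((a : ℝ) / M : ℝ) : ℂ) * (T : ℂ) + ((b / M : ℝ) : ℂ) := by
    rw [zPt]; push_cast; field_simp
  rw [this]
  simp only [add_im, mul_im, ofReal_re, ofReal_im, zero_mul, add_zero]
  have hT : ((T : ℂ)).im = T.im := rfl
  rw [hT]; ring

theorem abs_zPt_im_lt (ha : a < M) : |(zPt M a b T).im| < T.im := by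
  have hM : (0 : ℝ) < M := by exact_mod_cast Nat.pos_of_ne_zero (NeZero.ne M)
  have hT := T.im_pos
  have haM : (a : ℝ) < M := by exact_mod_cast ha
  rw [zPt_im, abs_of_nonneg (by positivity), div_lt_iff₀ hM]
  nlinarith

theorem zPt_ne_int (hab : a = 0 → ¬ (M : ℤ) ∣ b) (n : ℤ) : zPt M a b T ≠ n := by
  have hM : (0 : ℝ) < M := by exact_mod_cast Nat.pos_of_ne_zero (NeZero.ne M)
  rcases Nat.eq_zero_or_pos a with h0 | h0
  · intro h
    apply hab h0
    have hMc : (M : ℂ) ≠ 0 := by exact_mod_cast NeZero.ne M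
    rw [zPt, h0] at h
    simp only [Nat.cast_zero, zero_mul, zero_add] at h
    rw [div_eq_iff hMc] at h
    have h2 : b = n * (M : ℤ) := by exact_mod_cast h
    exact ⟨n, by rw [h2]; ring⟩
  · apply ne_intCast_of_im_pos
    rw [zPt_im]
    have hT := T.im_pos
    have : (0 : ℝ) < a := by exact_mod_cast h0
    positivity

omit [NeZero M] in
theorem ptA (t ξ : ℂ) (n k : ℕ) :
    (k : ℂ) * ((t ^ M) ^ n * (ξ * t ^ a)) ^ k = (k : ℂ) * ξ ^ k * t ^ ((M * n + a) * k) := by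
  rw [mul_pow, mul_pow, ← pow_mul, ← pow_mul, ← pow_mul, add_mul, pow_add]
  ring

omit [NeZero M] in
theorem ptB (t ξ : ℂ) (ht0 : t ≠ 0) (n k : ℕ) (hle : a ≤ M * n) :
    (k : ℂ) * ((t ^ M) ^ n * (ξ * t ^ a)⁻¹) ^ k = (k : ℂ) * ξ⁻¹ ^ k * t ^ ((M * n - a) * k) := by
  rw [pow_mul t (M * n - a), pow_sub₀ t ht0 hle, mul_inv, ← pow_mul t M n]
  rw [mul_pow, mul_pow, mul_pow]
  ring

omit [NeZero M] in
theorem ptC (t : ℂ) (n k : ℕ) :
    (k : ℂ) * ((t ^ M) ^ n * 1) ^ k = (k : ℂ) * t ^ ((M * n + 0) * k) := by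
  rw [mul_one, add_zero, ← pow_mul, ← pow_mul, mul_assoc]

omit [NeZero M] in
theorem ptRows (t u : ℂ) (n k : ℕ) :
    (k : ℂ) * ((t ^ M) ^ n * u) ^ k + (k : ℂ) * ((t ^ M) ^ n * u⁻¹) ^ k
      - 2 * ((k : ℂ) * ((t ^ M) ^ n * 1) ^ k) =
    (k : ℂ) * (t ^ M) ^ (n * k) * (u ^ k + u⁻¹ ^ k - 2) := by
  rw [mul_pow, mul_pow, mul_pow, one_pow, ← pow_mul]
  ring

omit [NeZero M] in
theorem wgt_split (ξ t : ℂ) (j k : ℕ) (hj : 0 < j) :
    frickeWgt M a ξ j k * t ^ (j * k) =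
      (if (j ≡ a [MOD M] ∧ j ≠ a) then (k : ℂ) * ξ ^ k * t ^ (j * k) else 0)
      + (if j = a then (k : ℂ) * ξ ^ k * t ^ (j * k) else 0)
      + (if M ∣ j + a then (k : ℂ) * ξ⁻¹ ^ k * t ^ (j * k) else 0)
      - 2 * (if (j ≡ 0 [MOD M] ∧ j ≠ 0) then (k : ℂ) * t ^ (j * k) else 0) := by
  have e1 : (j ≡ 0 [MOD M] ∧ j ≠ 0) ↔ M ∣ j :=
    ⟨fun h => (Nat.modEq_zero_iff_dvd).mp h.1,
      fun h => ⟨Nat.modEq_zero_iff_dvd.mpr h, hj.ne'⟩⟩
  unfold frickeWgt
  by_cases h2 : j = a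
  · subst h2
    have hr : j ≡ j [MOD M] := Nat.ModEq.refl j
    by_cases h3 : M ∣ j + j <;> by_cases h4 : M ∣ j <;>
      simp [hr, h3, h4, e1] <;> ring
  · by_cases h1 : j ≡ a [MOD M] <;> by_cases h3 : M ∣ j + a <;> by_cases h4 : M ∣ j <;>
      simp [h1, h2, h3, h4, e1] <;> ring

/-- **`q_M`-expansion of `℘` at the `M`-torsion point `(aT+b)/M`** of `ℂ/(ℤ + Tℤ)`,
`0 ≤ a < M`, `(a, b) ≢ 0`: with `t = e(T/M)`, `ξ = e(b/M)`,
`℘(z)/(2πi)² = 1/12 + [a = 0] ξ/(1-ξ)² + ∑_{j,k ≥ 1} w(j,k) t^{jk}`,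
`w(j,k) = k ([j ≡ a] ξ^k + [j ≡ -a] ξ^{-k} - 2 [j ≡ 0])` (congruences mod `M`). -/
theorem hasSum_fricke (ha : a < M) (hab : a = 0 → ¬ (M : ℤ) ∣ b) :
    HasSum (fun p : ℕ+ × ℕ+ => frickeWgt M a (xiPar M b) p.1 p.2 *
        tPar M T ^ ((p.1 : ℕ) * (p.2 : ℕ)))
      ((pairOne T).weierstrassP (zPt M a b T) / (2 * π * I) ^ 2 - 1 / 12
        - (if a = 0 then xiPar M b / (1 - xiPar M b) ^ 2 else 0)) := by
  have hM := Nat.pos_of_ne_zero (NeZero.ne M)
  have hz := abs_zPt_im_lt M a b T ha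
  have hzZ := zPt_ne_int M a b T hab
  obtain ⟨hu, hu', h1⟩ := norm_q_mul_max_lt_one hz
  have hrows := hasSum_weierstrassP_rows T (zPt M a b T) hz hzZ
  have hun : 0 < a → ‖cexp (2 * π * I * zPt M a b T)‖ < 1 := fun h0 => by
    apply norm_cexp_lt_one
    rw [zPt_im]
    have hT := T.im_pos
    have h1 : (0 : ℝ) < a := by exact_mod_cast h0
    have h2 : (0 : ℝ) < M := by exact_mod_cast hM
    positivity
  rw [cexp_zPt] at hu hu' hrows hun
  rw [← tPar_pow M T] at hu hu' h1 hrows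
  have ht0 : tPar M T ≠ 0 := tPar_ne_zero M T
  generalize tPar M T = t at *
  generalize xiPar M b = ξ at *
  have SA := (summable_pair hu).hasSum
  have SB := (summable_pair hu').hasSum
  have SC := (summable_pair h1).hasSum
  -- the value of the rows in terms of the three families
  have hV := ((SA.add SB).sub (SC.mul_left 2)).unique
    (hrows.congr_fun fun c => ptRows M t (ξ * t ^ a) c.1 c.2)
  -- the three reindexed families
  have HA := hasSum_indicator_of_injective (shiftUp M a) (shiftUp_injective M a)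
    (fun p => ((p.1 : ℕ) ≡ a [MOD M] ∧ (p.1 : ℕ) ≠ a)) (mem_range_shiftUp M ha)
    (fun p => (p.2 : ℂ) * ξ ^ (p.2 : ℕ) * t ^ ((p.1 : ℕ) * (p.2 : ℕ)))
    (SA.congr_fun fun c => (ptA M a t ξ c.1 c.2).symm)
  have HB := hasSum_indicator_of_injective (shiftDown M a ha) (shiftDown_injective M a ha)
    (fun p => (M ∣ (p.1 : ℕ) + a)) (mem_range_shiftDown M ha)
    (fun p => (p.2 : ℂ) * ξ⁻¹ ^ (p.2 : ℕ) * t ^ ((p.1 : ℕ) * (p.2 : ℕ)))
    (SB.congr_fun fun c => by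
      have hle : a ≤ M * (c.1 : ℕ) := by
        have : M * 1 ≤ M * (c.1 : ℕ) := Nat.mul_le_mul_left M c.1.pos
        omega
      exact (ptB M a t ξ ht0 c.1 c.2 hle).symm)
  have HC := hasSum_indicator_of_injective (shiftUp M 0) (shiftUp_injective M 0)
    (fun p => ((p.1 : ℕ) ≡ 0 [MOD M] ∧ (p.1 : ℕ) ≠ 0)) (mem_range_shiftUp M hM)
    (fun p => (p.2 : ℂ) * t ^ ((p.1 : ℕ) * (p.2 : ℕ)))
    (SC.congr_fun fun c => (ptC M t c.1 c.2).symm)
  have H0 : HasSum (fun p : ℕ+ × ℕ+ => if (p.1 : ℕ) = a then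
      (p.2 : ℂ) * ξ ^ (p.2 : ℕ) * t ^ ((p.1 : ℕ) * (p.2 : ℕ)) else 0)
      (if a = 0 then 0 else (ξ * t ^ a) / (1 - ξ * t ^ a) ^ 2) := by
    rcases Nat.eq_zero_or_pos a with h0 | h0
    · rw [if_pos h0]
      refine hasSum_zero.congr_fun fun p => ?_
      rw [if_neg]
      rw [h0]; exact p.1.ne_zero
    · rw [if_neg h0.ne']
      refine hasSum_indicator_of_injective (rowZero a h0) (rowZero_injective a h0)
        (fun p => (p.1 : ℕ) = a) (mem_range_rowZero h0)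
        (fun p => (p.2 : ℂ) * ξ ^ (p.2 : ℕ) * t ^ ((p.1 : ℕ) * (p.2 : ℕ))) ?_
      refine (hasSum_geomE (hun h0)).congr_fun fun k => ?_
      simp only [Function.comp_apply, rowZero, PNat.mk_coe]
      rw [mul_pow, ← pow_mul]
      ring
  have Total := (((HA.add H0).add HB).sub (HC.mul_left 2))
  have hval : (pairOne T).weierstrassP (zPt M a b T) / (2 * π * I) ^ 2 - 1 / 12
        - (if a = 0 then ξ / (1 - ξ) ^ 2 else 0) =
      ((∑' c : ℕ+ × ℕ+, (c.2 : ℂ) * ((t ^ M) ^ (c.1 : ℕ) * (ξ * t ^ a)) ^ (c.2 : ℕ)) +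
          (if a = 0 then 0 else ξ * t ^ a / (1 - ξ * t ^ a) ^ 2)) +
        (∑' c : ℕ+ × ℕ+, (c.2 : ℂ) * ((t ^ M) ^ (c.1 : ℕ) * (ξ * t ^ a)⁻¹) ^ (c.2 : ℕ)) -
      2 * ∑' c : ℕ+ × ℕ+, (c.2 : ℂ) * ((t ^ M) ^ (c.1 : ℕ) * 1) ^ (c.2 : ℕ) := by
    rcases Nat.eq_zero_or_pos a with h0 | h0
    · subst h0
      simp only [if_true, pow_zero, mul_one] at hV ⊢
      linear_combination -hV
    · rw [if_neg h0.ne', if_neg h0.ne']
      linear_combination -hV
  rw [hval]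
  exact Total.congr_fun fun p => wgt_split M a ξ t p.1 p.2 p.1.pos

/-- the constant term of the expansion -/
def frickeConst : ℂ :=
  1 / 12 + (if a = 0 then xiPar M b / (1 - xiPar M b) ^ 2 else 0)

/-- the power series (in `t = q^{1/M}`) of `℘((aT+b)/M)/(2πi)²` -/
def frickePS : PowerSeries ℂ :=
  PowerSeries.C (frickeConst M a b) + lambertPS (frickeWgt M a (xiPar M b))

omit [NeZero M] in
theorem conv_frickePS : Conv (frickePS M a b) :=
  (conv_C _).add (conv_lambertPS _ 4 (norm_frickeWgt_le M a (norm_xiPar M b)))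

theorem norm_tPar_lt_one : ‖tPar M T‖ < 1 := by
  have hM : (0 : ℝ) < M := by exact_mod_cast Nat.pos_of_ne_zero (NeZero.ne M)
  have : (2 * (π : ℂ) * I * T / M) = 2 * π * I * ((T : ℂ) / M) := by ring
  rw [tPar, this]
  apply norm_cexp_lt_one
  have h2 : ((T : ℂ) / M).im = T.im / M := by
    have : (T : ℂ) / M = ((1 / (M : ℝ) : ℝ) : ℂ) * (T : ℂ) := by push_cast; ring
    rw [this, Complex.im_ofReal_mul]
    have hT : ((T : ℂ)).im = T.im := rfl
    rw [hT]; ring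
  rw [h2]
  exact div_pos T.im_pos hM

/-- `℘((aT+b)/M)/(2πi)²` is the value at `t = e(T/M)` of the convergent power series
`frickePS M a b` -/
theorem weierstrassP_zPt_eq_evalDisc (ha : a < M) (hab : a = 0 → ¬ (M : ℤ) ∣ b) :
    (pairOne T).weierstrassP (zPt M a b T) / (2 * π * I) ^ 2 =
      evalDisc (frickePS M a b) (tPar M T) := by
  have ht := norm_tPar_lt_one M T
  have h1 := hasSum_fricke M a b T ha hab
  have h2 := hasSum_lambert (frickeWgt M a (xiPar M b)) 4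
    (norm_frickeWgt_le M a (norm_xiPar M b)) ht
  have h3 := h1.unique h2
  rw [frickePS, evalDisc_add (conv_C _) (conv_lambertPS _ 4
    (norm_frickeWgt_le M a (norm_xiPar M b))) ht, evalDisc_C, ← h3, frickeConst]
  ring

omit [NeZero M] in
theorem qParam_natCast_eq_tPar : Function.Periodic.qParam (M : ℝ) (T : ℂ) = tPar M T := by
  rw [Function.Periodic.qParam, tPar]
  push_cast
  rfl

/-- cusp-expansion form: `T ↦ ℘((aT+b)/M; ℤ + Tℤ)/(2πi)²` has the cusp expansion `frickePS`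
in the parameter `q^{1/M}` -/
theorem hasCuspExp_pFun (ha : a < M) (hab : a = 0 → ¬ (M : ℤ) ∣ b) :
    HasCuspExp (M : ℝ)
      (fun T : ℍ => (pairOne T).weierstrassP (zPt M a b T) / (2 * π * I) ^ 2)
      (lsOf 0 (frickePS M a b)) :=
  hasCuspExp_of_evalDisc 0 (conv_frickePS M a b) fun T => by
    rw [pow_zero, mul_one, qParam_natCast_eq_tPar, weierstrassP_zPt_eq_evalDisc M a b T ha hab]

omit [NeZero M] in
theorem coeff_frickePS (n : ℕ) :
    PowerSeries.coeff n (frickePS M a b) = (if n = 0 then frickeConst M a b else 0)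
      + ∑ x ∈ n.divisorsAntidiagonal, frickeWgt M a (xiPar M b) x.1 x.2 := by
  rw [frickePS, map_add, PowerSeries.coeff_C, coeff_lambertPS]

/-! ### The rational case `b = 0` (Weber function of `(ℂ/(ℤ + Mτℤ), aτ)`) -/

omit [NeZero M] in
theorem xiPar_zero : xiPar M 0 = 1 := by simp [xiPar]

/-- the integral weights `k ([j ≡ a] + [j ≡ -a] - 2 [j ≡ 0])` -/
def weberWgtZ (j k : ℕ) : ℤ :=
  (k : ℤ) * ((if j ≡ a [MOD M] then 1 else 0) + (if M ∣ j + a then 1 else 0)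
    - (if M ∣ j then 2 else 0))

omit [NeZero M] in
theorem frickeWgt_one_eq (j k : ℕ) : frickeWgt M a 1 j k = (weberWgtZ M a j k : ℂ) := by
  unfold frickeWgt weberWgtZ
  by_cases h1 : j ≡ a [MOD M] <;> by_cases h3 : M ∣ j + a <;> by_cases h4 : M ∣ j <;>
    simp only [h1, h3, h4, if_true, if_false, one_pow, inv_one] <;> push_cast <;> ring

/-- the integral power series `∑_n (∑_{jk = n} k ([j ≡ a] + [j ≡ -a] - 2 [j ≡ 0])) X^n` -/
def weberPSZ : PowerSeries ℤ :=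
  PowerSeries.mk fun n => ∑ x ∈ n.divisorsAntidiagonal, weberWgtZ M a x.1 x.2

omit [NeZero M] in
/-- for `0 < a` and `b = 0` the expansion is `1/12 +` an integral power series -/
theorem frickePS_zero_eq (ha0 : 0 < a) :
    frickePS M a 0 = PowerSeries.C (1 / 12 : ℂ)
      + (weberPSZ M a).map (Int.castRingHom ℂ) := by
  ext n
  rw [coeff_frickePS, map_add, PowerSeries.coeff_C, PowerSeries.coeff_map, weberPSZ,
    PowerSeries.coeff_mk, frickeConst, if_neg ha0.ne', add_zero, xiPar_zero]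
  congr 1
  rw [map_sum]
  refine Finset.sum_congr rfl fun x _ => ?_
  rw [frickeWgt_one_eq]
  simp

/-- the parameter at `T = Mτ` is `e(τ)` -/
theorem tPar_of_coe_eq {τ : ℍ} (hT : (T : ℂ) = M * τ) : tPar M T = cexp (2 * π * I * τ) := by
  have hM : (M : ℂ) ≠ 0 := by exact_mod_cast NeZero.ne M
  rw [tPar, hT]
  congr 1
  field_simp

end Main

end Fermat.Agent.DS.P1.FrickeRows
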