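import Mathlib
import Fermat.Agent.DS.P1.FrickeInjFormal
import Fermat.Agent.DS.P1.FrickeRows
import Fermat.Agent.DS.P1.WeberAnFricke
import Fermat.Agent.S16.Conj.Expand.QExp

/-!
# GATE-N / S48-P1-FRICKE-INJ: the Fricke functions `f_v` determine `±v mod M`

`frickeFun_eq_iff` : for `v, v' ∈ ℤ²`, not divisible by `M`,
`(∀ τ, frickeFun M v τ = frickeFun M v' τ) ↔ v ≡ v' ∨ v ≡ -v' (mod M)`.

Proof: both sides have cusp expansions of width `M` (`FrickeRows.hasCuspExp_pFun` times the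
expansion of `E₄E₆/Δ`), expansions are unique, and the formal statement
`FrickeInj.eq_or_eq_neg_of_expansion_eq` reads off `±v` from the constant term and one more
coefficient.

Corollary `stabilizer_frickeFun` : `f_v ∘ g = f_v` iff `v g ≡ ±v (mod M)` — the coset separation
statement of the `Γ₁`-port (helper22 3478 A2).
-/

set_option autoImplicit false
set_option linter.unusedSectionVars false

noncomputable section

namespace Fermat.Agent.DS.P1.FrickeInj

open Complex PeriodPair ModularForm EisensteinSeries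
open UpperHalfPlane hiding I
open scoped Real Topology MatrixGroups
open Fermat.Agent.S28 Fermat.Agent.DS.P1 Fermat.Agent.DS.P1.FrickeRows
open Fermat.Agent.DS.P1.WpRows Fermat.Agent.DS.P1.Lambert Fermat.Agent.S16.Conj.Expand
open ModularCurve

local notation "Δ" => ModularForm.discriminant

/-! ### the expansion of `E₄E₆/Δ` -/

theorem hasCuspExp_E6 :
    HasCuspExp 1 (fun τ => E₆ τ) (HahnSeries.ofPowerSeries ℤ ℂ (qExpansion 1 E₆)) :=
  (hasQExp_of_bounded one_pos (ModularFormClass.holo E₆)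
    (SlashInvariantFormClass.periodic_comp_ofComplex E₆ one_mem_strictPeriods_SL)
    (ModularFormClass.bdd_at_infty E₆)).hasCuspExp

/-- the `q`-expansion of `E₄E₆/Δ` -/
def wtSeries : LaurentSeries ℂ :=
  e4S ℂ * HahnSeries.ofPowerSeries ℤ ℂ (qExpansion 1 E₆) * deltaInvS ℂ

theorem hasCuspExp_wtNegTwo : HasCuspExp 1 wtNegTwo wtSeries := by
  have h := (hasCuspExp_E4.mul one_pos hasCuspExp_E6).mul one_pos hasCuspExp_discriminant_inv
  exact h.congr fun τ => by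
    show E₄ τ * E₆ τ * (Δ τ)⁻¹ = wtNegTwo τ
    rw [wtNegTwo, div_eq_mul_inv]

theorem wtNegTwo_not_identically_zero : ∃ τ : ℍ, wtNegTwo τ ≠ 0 := by
  by_contra hcon
  push Not at hcon
  -- `E₄ E₆ = 0` identically, so `(E₄ E₆)² = 0`; but `E₄²E₆² = E₄² (E₄³ - 1728 Δ)` …
  -- we argue with `q`-expansions instead: `E₄ · E₆` has expansion with coefficient …
  have hprod : ∀ τ : ℍ, E₄ τ * E₆ τ = 0 := by
    intro τ
    have h := hcon τ
    rw [wtNegTwo, div_eq_zero_iff] at h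
    exact h.resolve_right (discriminant_ne_zero τ)
  have h46 := hasCuspExp_E4.mul one_pos hasCuspExp_E6
  have h0 : HasCuspExp 1 (fun τ => E₄ τ * E₆ τ) 0 :=
    (hasCuspExp_zero 1).congr fun τ => (hprod τ).symm
  have hz := h46.unique one_pos h0
  rcases mul_eq_zero.mp hz with h4 | h6
  · -- `E₄ = 0`
    have hE4 : ∀ τ : ℍ, E₄ τ = 0 := fun τ =>
      HasCuspExp.eq_zero_of_exp_eq_zero (h4 ▸ hasCuspExp_E4) τ
    have hfun : (⇑E₄ : ℍ → ℂ) = 0 := funext hE4
    have h1 := E₄_qExpansion_coeff_one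
    rw [hfun, qExpansion_zero] at h1
    simp at h1
  · have h6' : qExpansion 1 E₆ = 0 := by
      apply HahnSeries.ofPowerSeries_injective (Γ := ℤ)
      rw [h6, map_zero]
    have h1 := E₆_qExpansion_coeff_one
    rw [h6'] at h1
    simp at h1

theorem wtSeries_ne_zero : wtSeries ≠ 0 := by
  intro h
  obtain ⟨τ, hτ⟩ := wtNegTwo_not_identically_zero
  exact hτ (HasCuspExp.eq_zero_of_exp_eq_zero (h ▸ hasCuspExp_wtNegTwo) τ)

section Width

variable (M : ℕ) [NeZero M]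

theorem natCast_pos_real : (0 : ℝ) < (M : ℝ) := by
  exact_mod_cast Nat.pos_of_ne_zero (NeZero.ne M)

theorem hasCuspExp_wtNegTwo_width :
    HasCuspExp (M : ℝ) wtNegTwo (qExpand ℂ M wtSeries) := by
  have h := hasCuspExp_wtNegTwo.period_mul one_pos M
  rwa [one_mul] at h

theorem qExpand_wtSeries_ne_zero : qExpand ℂ M wtSeries ≠ 0 := by
  intro h
  apply wtSeries_ne_zero
  have hinj : Function.Injective (qExpand ℂ M) := (qExpand ℂ M).injective
  exact hinj (by rw [h, map_zero])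

/-! ### from the functions to the expansions -/

theorem pFun_natCast_eq (a : ℕ) (b : ℤ) (τ : ℍ) :
    pFun M ((a : ℤ), b) τ = (pairOne τ).weierstrassP (zPt M a b τ) := by
  rw [pFun, divPt, zPt]
  push_cast
  rfl

theorem hasCuspExp_frickeFun {a : ℕ} {b : ℤ} (ha : a < M) (hab : a = 0 → ¬ (M : ℤ) ∣ b) :
    HasCuspExp (M : ℝ) (frickeFun M ((a : ℤ), b))
      (qExpand ℂ M wtSeries * lsOf 0 (frickePS M a b)) := by
  have h := (hasCuspExp_wtNegTwo_width M).mul (natCast_pos_real M) (hasCuspExp_pFun M a b ha hab)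
  exact h.congr fun τ => by
    show wtNegTwo τ * ((pairOne τ).weierstrassP (zPt M a b τ) / (2 * π * I) ^ 2) =
      frickeFun M ((a : ℤ), b) τ
    rw [frickeFun, pFun_natCast_eq]

/-- equal Fricke functions have equal expansions -/
theorem frickePS_eq_of_frickeFun_eq {a a' : ℕ} {b b' : ℤ} (ha : a < M) (ha' : a' < M)
    (hab : a = 0 → ¬ (M : ℤ) ∣ b) (hab' : a' = 0 → ¬ (M : ℤ) ∣ b')
    (h : ∀ τ, frickeFun M ((a : ℤ), b) τ = frickeFun M ((a' : ℤ), b') τ) :
    frickePS M a b = frickePS M a' b' := by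
  have h1 := hasCuspExp_frickeFun M ha hab
  have h2 := (hasCuspExp_frickeFun M ha' hab').congr fun τ => (h τ).symm
  have h3 := h1.unique (natCast_pos_real M) h2
  have h4 := mul_left_cancel₀ (qExpand_wtSeries_ne_zero M) h3
  rw [lsOf_zero_left, lsOf_zero_left] at h4
  exact HahnSeries.ofPowerSeries_injective h4

end Width

/-! ### the adapter to the formal statement -/

section Adapter

variable (M : ℕ) [NeZero M]

/-- `ζ_M = e(1/M)` -/
def zetaM : ℂ := cexp (2 * π * I / M)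

theorem isPrimitiveRoot_zetaM : IsPrimitiveRoot (zetaM M) M :=
  Complex.isPrimitiveRoot_exp M (NeZero.ne M)

theorem zetaM_ne_zero : zetaM M ≠ 0 := Complex.exp_ne_zero _

theorem zetaM_pow : zetaM M ^ M = 1 := (isPrimitiveRoot_zetaM M).pow_eq_one

theorem xiPar_eq_zpow (b : ℤ) : xiPar M b = zetaM M ^ b := by
  rw [xiPar, zetaM, ← Complex.exp_int_mul]
  congr 1
  ring

theorem zetaChar_intCast_mul_natCast (b : ℤ) (k : ℕ) :
    zetaChar M (zetaM M) ((b : ZMod M) * (k : ZMod M)) = xiPar M b ^ k := by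
  have h : ((b : ZMod M) * (k : ZMod M)) = (((b * (k : ℤ) : ℤ)) : ZMod M) := by push_cast; rfl
  rw [h, zetaChar_intCast (zetaM_pow M) (zetaM_ne_zero M), xiPar_eq_zpow, zpow_mul, zpow_natCast]

theorem zetaChar_neg_intCast_mul_natCast (b : ℤ) (k : ℕ) :
    zetaChar M (zetaM M) (-(b : ZMod M) * (k : ZMod M)) = (xiPar M b)⁻¹ ^ k := by
  have h : (-(b : ZMod M) * (k : ZMod M)) = (((-b * (k : ℤ) : ℤ)) : ZMod M) := by push_cast; rfl
  rw [h, zetaChar_intCast (zetaM_pow M) (zetaM_ne_zero M), xiPar_eq_zpow, zpow_mul, zpow_natCast,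
    zpow_neg]

theorem zetaChar_intCast_eq_xiPar (b : ℤ) :
    zetaChar M (zetaM M) ((b : ℤ) : ZMod M) = xiPar M b := by
  rw [zetaChar_intCast (zetaM_pow M) (zetaM_ne_zero M), xiPar_eq_zpow]

theorem dvd_add_iff_natCast_eq_neg (j a : ℕ) :
    M ∣ j + a ↔ ((j : ℕ) : ZMod M) = -((a : ℕ) : ZMod M) := by
  rw [eq_neg_iff_add_eq_zero, ← Nat.cast_add, ZMod.natCast_eq_zero_iff]

/-- the weights of `FrickeRows` are the formal weights -/
theorem frickeWgt_eq_frickeWt (a : ℕ) (b : ℤ) (j k : ℕ) :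
    frickeWgt M a (xiPar M b) j k =
      frickeWt (zetaChar M (zetaM M)) ((a : ℕ) : ZMod M) ((b : ℤ) : ZMod M) j k := by
  unfold frickeWgt frickeWt
  rw [zetaChar_intCast_mul_natCast, zetaChar_neg_intCast_mul_natCast]
  have e1 : (j ≡ a [MOD M]) ↔ ((j : ℕ) : ZMod M) = ((a : ℕ) : ZMod M) :=
    (ZMod.natCast_eq_natCast_iff j a M).symm
  have e2 := dvd_add_iff_natCast_eq_neg M j a
  have e3 : M ∣ j ↔ ((j : ℕ) : ZMod M) = 0 := (ZMod.natCast_eq_zero_iff j M).symm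
  simp only [e1, e2, e3]
  split_ifs <;> ring

theorem lamCoeff_frickeWgt (a : ℕ) (b : ℤ) (n : ℕ) :
    lamCoeff (frickeWgt M a (xiPar M b)) n =
      lamCoeff (frickeWt (zetaChar M (zetaM M)) ((a : ℕ) : ZMod M) ((b : ℤ) : ZMod M)) n := by
  unfold lamCoeff
  exact Finset.sum_congr rfl fun p _ => frickeWgt_eq_frickeWt M a b p.1 p.2

theorem natCast_zmod_eq_zero_iff_of_lt {a : ℕ} (ha : a < M) : ((a : ℕ) : ZMod M) = 0 ↔ a = 0 := by
  rw [ZMod.natCast_eq_zero_iff]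
  constructor
  · intro h
    exact Nat.eq_zero_of_dvd_of_lt h ha
  · intro h
    rw [h]
    exact dvd_zero _

theorem frickeConst_eq {a : ℕ} (ha : a < M) (b : ℤ) :
    FrickeRows.frickeConst M a b =
      1 / 12 + frickeConst (zetaChar M (zetaM M)) ((a : ℕ) : ZMod M) ((b : ℤ) : ZMod M) := by
  unfold FrickeRows.frickeConst frickeConst
  rw [zetaChar_intCast_eq_xiPar]
  by_cases h : a = 0
  · rw [if_pos h, if_pos ((natCast_zmod_eq_zero_iff_of_lt M ha).mpr h)]
  · rw [if_neg h, if_neg (fun h' => h ((natCast_zmod_eq_zero_iff_of_lt M ha).mp h'))]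

/-- **Injectivity, reduced representatives**: equal Fricke functions at `(a, b)`, `(a', b')` with
`0 ≤ a, a' < M` force `(a, b) ≡ ±(a', b') mod M`. -/
theorem eq_or_eq_neg_of_frickeFun_eq {a a' : ℕ} {b b' : ℤ} (ha : a < M) (ha' : a' < M)
    (hab : a = 0 → ¬ (M : ℤ) ∣ b) (hab' : a' = 0 → ¬ (M : ℤ) ∣ b')
    (h : ∀ τ, frickeFun M ((a : ℤ), b) τ = frickeFun M ((a' : ℤ), b') τ) :
    (((a : ℕ) : ZMod M) = ((a' : ℕ) : ZMod M) ∧ ((b : ℤ) : ZMod M) = ((b' : ℤ) : ZMod M)) ∨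
    (((a : ℕ) : ZMod M) = -((a' : ℕ) : ZMod M) ∧ ((b : ℤ) : ZMod M) = -((b' : ℤ) : ZMod M)) := by
  have hps := frickePS_eq_of_frickeFun_eq M ha ha' hab hab' h
  have hc : ∀ n, PowerSeries.coeff n (frickePS M a b) = PowerSeries.coeff n (frickePS M a' b') :=
    fun n => by rw [hps]
  refine eq_or_eq_neg_of_expansion_eq (isChar_zetaChar (isPrimitiveRoot_zetaM M)) ?_ ?_ ?_ ?_
  · rintro ⟨h1, h2⟩
    exact hab ((natCast_zmod_eq_zero_iff_of_lt M ha).mp h1)
      ((ZMod.intCast_zmod_eq_zero_iff_dvd b M).mp h2)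
  · rintro ⟨h1, h2⟩
    exact hab' ((natCast_zmod_eq_zero_iff_of_lt M ha').mp h1)
      ((ZMod.intCast_zmod_eq_zero_iff_dvd b' M).mp h2)
  · have h0 := hc 0
    rw [coeff_frickePS, coeff_frickePS, if_pos rfl, if_pos rfl] at h0
    simp only [Nat.divisorsAntidiagonal_zero, Finset.sum_empty, add_zero] at h0
    rw [frickeConst_eq M ha, frickeConst_eq M ha'] at h0
    exact add_left_cancel h0
  · intro n
    rcases Nat.eq_zero_or_pos n with rfl | hn
    · rw [lamCoeff_zero, lamCoeff_zero]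
    · have h1 := hc n
      rw [coeff_frickePS, coeff_frickePS, if_neg hn.ne', if_neg hn.ne', zero_add, zero_add] at h1
      rw [← lamCoeff_frickeWgt, ← lamCoeff_frickeWgt]
      exact h1

end Adapter

/-! ### general `v ∈ ℤ²` -/

section General

variable (M : ℕ) [NeZero M]

/-- `v ≡ w (mod M)` componentwise -/
def CongMod (v w : ℤ × ℤ) : Prop :=
  ((v.1 : ℤ) : ZMod M) = ((w.1 : ℤ) : ZMod M) ∧ ((v.2 : ℤ) : ZMod M) = ((w.2 : ℤ) : ZMod M)

/-- `M ∤ v` -/
def NotDvd (v : ℤ × ℤ) : Prop := ¬ ((M : ℤ) ∣ v.1 ∧ (M : ℤ) ∣ v.2)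

/-- the reduced representative of the first coordinate -/
def redFst (v : ℤ × ℤ) : ℕ := (v.1 % (M : ℤ)).toNat

theorem redFst_cast (v : ℤ × ℤ) : ((redFst M v : ℕ) : ℤ) = v.1 % (M : ℤ) := by
  have hM : (M : ℤ) ≠ 0 := by exact_mod_cast NeZero.ne M
  exact Int.toNat_of_nonneg (Int.emod_nonneg _ hM)

theorem redFst_lt (v : ℤ × ℤ) : redFst M v < M := by
  have hM : (0 : ℤ) < (M : ℤ) := by exact_mod_cast Nat.pos_of_ne_zero (NeZero.ne M)
  have h := Int.emod_lt_of_pos v.1 hM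
  have h2 := redFst_cast M v
  omega

theorem redFst_zmod (v : ℤ × ℤ) : ((redFst M v : ℕ) : ZMod M) = ((v.1 : ℤ) : ZMod M) := by
  have h : ((redFst M v : ℕ) : ZMod M) = (((redFst M v : ℕ) : ℤ) : ZMod M) := by push_cast; rfl
  rw [h, redFst_cast, ZMod.intCast_eq_intCast_iff]
  exact Int.mod_modEq _ _

theorem frickeFun_red (v : ℤ × ℤ) (τ : ℍ) :
    frickeFun M v τ = frickeFun M ((redFst M v : ℤ), v.2) τ := by
  have h : v = ((redFst M v : ℤ), v.2) + (M : ℤ) • (v.1 / (M : ℤ), (0 : ℤ)) := by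
    ext
    · simp only [Prod.fst_add, Prod.smul_fst, smul_eq_mul]
      rw [redFst_cast]
      exact (Int.emod_add_mul_ediv v.1 M).symm
    · simp
  conv_lhs => rw [h]
  exact frickeFun_add_smul (NeZero.ne M) _ _ τ

theorem redFst_eq_zero_imp {v : ℤ × ℤ} (hv : NotDvd M v) (h : redFst M v = 0) :
    ¬ (M : ℤ) ∣ v.2 := by
  intro h2
  apply hv
  refine ⟨?_, h2⟩
  have h1 := redFst_cast M v
  rw [h] at h1
  exact Int.dvd_of_emod_eq_zero (by simpa using h1.symm)

/-- **Injectivity of `v ↦ f_v` up to sign and modulo `M`.** -/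
theorem congMod_or_of_frickeFun_eq {v v' : ℤ × ℤ} (hv : NotDvd M v) (hv' : NotDvd M v')
    (h : ∀ τ, frickeFun M v τ = frickeFun M v' τ) : CongMod M v v' ∨ CongMod M v (-v') := by
  have h' : ∀ τ, frickeFun M ((redFst M v : ℤ), v.2) τ =
      frickeFun M ((redFst M v' : ℤ), v'.2) τ := fun τ => by
    rw [← frickeFun_red, ← frickeFun_red, h τ]
  rcases eq_or_eq_neg_of_frickeFun_eq M (redFst_lt M v) (redFst_lt M v')
    (redFst_eq_zero_imp M hv) (redFst_eq_zero_imp M hv') h' with ⟨h1, h2⟩ | ⟨h1, h2⟩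
  · left
    rw [redFst_zmod, redFst_zmod] at h1
    exact ⟨h1, h2⟩
  · right
    rw [redFst_zmod, redFst_zmod] at h1
    refine ⟨?_, ?_⟩
    · rw [h1]; simp
    · rw [h2]; simp

theorem frickeFun_eq_of_congMod {v v' : ℤ × ℤ} (h : CongMod M v v') (τ : ℍ) :
    frickeFun M v τ = frickeFun M v' τ := by
  obtain ⟨c1, hc1⟩ := (ZMod.intCast_eq_intCast_iff_dvd_sub _ _ M).mp h.1
  obtain ⟨c2, hc2⟩ := (ZMod.intCast_eq_intCast_iff_dvd_sub _ _ M).mp h.2
  have e : v' = v + (M : ℤ) • (c1, c2) := by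
    ext
    · simp only [Prod.fst_add, Prod.smul_fst, smul_eq_mul]
      linarith
    · simp only [Prod.snd_add, Prod.smul_snd, smul_eq_mul]
      linarith
  rw [e, frickeFun_add_smul (NeZero.ne M)]

/-- **`f_v = f_{v'} ↔ v ≡ ±v' (mod M)`** -/
theorem frickeFun_eq_iff {v v' : ℤ × ℤ} (hv : NotDvd M v) (hv' : NotDvd M v') :
    (∀ τ, frickeFun M v τ = frickeFun M v' τ) ↔ CongMod M v v' ∨ CongMod M v (-v') := by
  constructor
  · exact congMod_or_of_frickeFun_eq M hv hv'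
  · rintro (h | h) τ
    · exact frickeFun_eq_of_congMod M h τ
    · rw [frickeFun_eq_of_congMod M h τ, frickeFun_neg]

theorem notDvd_vmul {v : ℤ × ℤ} (hv : NotDvd M v) (g : SL(2, ℤ)) : NotDvd M (vmul v g) := by
  intro h
  apply hv
  have e : v = vmul (vmul v g) g⁻¹ := by rw [← vmul_mul, mul_inv_cancel, vmul_one]
  rw [e]
  obtain ⟨⟨c1, hc1⟩, ⟨c2, hc2⟩⟩ := h
  unfold vmul at hc1 hc2 ⊢
  simp only at hc1 hc2 ⊢
  rw [hc1, hc2]
  exact ⟨⟨c1 * g⁻¹ 0 0 + c2 * g⁻¹ 1 0, by ring⟩, ⟨c1 * g⁻¹ 0 1 + c2 * g⁻¹ 1 1, by ring⟩⟩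

/-- **Stabiliser**: `f_v ∘ g = f_v` iff `v g ≡ ±v (mod M)` -/
theorem frickeFun_smul_eq_iff {v : ℤ × ℤ} (hv : NotDvd M v) (g : SL(2, ℤ)) :
    (∀ τ, frickeFun M v (g • τ) = frickeFun M v τ) ↔
      CongMod M (vmul v g) v ∨ CongMod M (vmul v g) (-v) := by
  rw [← frickeFun_eq_iff M (notDvd_vmul M hv g) hv]
  exact forall_congr' fun τ => by rw [frickeFun_smul]

end General

end Fermat.Agent.DS.P1.FrickeInj
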