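import Mathlib
import Fermat.Agent.DS.P1.RealizeGen
import Fermat.Agent.DS.P1.FieldGenAsm
import Fermat.Agent.DS.P1.RealizeF1
import Fermat.Agent.DS.P3.Sat1
import Fermat.Agent.DS.P3.HNMem

/-!
# GATE-N / S48-P1-QUOTHOL-F1: quotient presentations of the realisations over `ℚ̄` and of `F1C`

(Companion of helper42's `DS/P1/QuotHolG.lean` (`quotHol_realG`, over `ℂ`) and of helper94's
adapters in `DS/P3/EigFinalHN.lean`; this file adds the `ℚ̄`-forms and the instances at
`RealizeF1.real1C D`, `RealizeF1.real1 D`.)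

helper42's membership half of (HN) (`DS/P3/HNMem.lean`) needs, besides `FieldGenHol Γ N real`,
the hypothesis `HNMem.QuotHol Γ N real`: every `real f` is a quotient `A / B` of two `Γ`-invariant
holomorphic functions of moderate growth, `B ≠ 0`.

* `quotHol_of_quotHyp` / `quotHyp_of_quotHol` : `HNMem.QuotHol` is equivalent to helper16's
  `Sat1.QuotHyp` (multiplicative form `B · real f = A`);
* `quotHol_realG`, `quotHol_realOf` : the realisation over `ℂ` of helper30's `RealizeGen`, all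
  generators in `IMGG Γ N`;
* `quotHyp_realK`, `quotHol_realK`, `quotHyp_realKOf`, `quotHol_realKOf` : the same over `ℚ̄`;
* `quotHol_real1C`, `quotHol_real1` (+ `QuotHyp` forms) : the instances at `Γ₁(M)` (and `±Γ₁(M)`)
  for `RealizeF1.real1C D`, `RealizeF1.real1 D`;
* `fieldGenHol_real1C` : `TwEisG.FieldGenHol (Gamma1 M) M (real1C D)` (restating
  `RealizeF1.fieldGenHyp1`), so that `HNMem.merSys_real_mem_range` applies verbatim.
-/

set_option autoImplicit false
set_option linter.unusedSectionVars false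

noncomputable section

namespace Fermat.Agent.DS.P1.QuotHolF1

open UpperHalfPlane ModularCurve CongruenceSubgroup
open Fermat.Agent.S24 Fermat.Agent.S28 Fermat.Agent.S28.CuspExp
open Fermat.Agent.S24_helper62 Fermat.Agent.S24_helper82 Fermat.Agent.GJ.Dict
open Fermat.Agent.GJ.Dict.FieldGen Fermat.Agent.DS.P1.RealizeGen
open Fermat.Agent.DS.P3.Sat1 Fermat.Agent.DS.P3.HNMem Fermat.Agent.DS.P3.TwEisG
open scoped MatrixGroups Manifold

/-! ### The two forms of the quotient hypothesis -/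

section Forms

variable {Γ : Subgroup SL(2, ℤ)} {N : ℕ} [NeZero N] {F : Type*} [Field F] {real : F →+* Mer}

/-- helper16's multiplicative form implies helper42's division form -/
theorem quotHol_of_quotHyp (h : QuotHyp Γ N real) : QuotHol Γ N real := by
  intro f
  obtain ⟨H, Q, hH, hQ, hQ0, hrel⟩ := h f
  refine ⟨H, Q, hQ0, hH.2, hQ.2, hH.1, hQ.1, ?_⟩
  have hQ' : algebraMap Hol Mer Q ≠ 0 := algebraMap_ne_zero hQ0
  rw [eq_div_iff hQ', mul_comm, hrel]

/-- helper42's division form implies helper16's multiplicative form -/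
theorem quotHyp_of_quotHol (h : QuotHol Γ N real) : QuotHyp Γ N real := by
  intro f
  obtain ⟨A, B, hB0, hAinv, hBinv, hAmg, hBmg, hf⟩ := h f
  refine ⟨A, B, ⟨hAmg, hAinv⟩, ⟨hBmg, hBinv⟩, hB0, ?_⟩
  have hB' : algebraMap Hol Mer B ≠ 0 := algebraMap_ne_zero hB0
  rw [hf, mul_div_cancel₀ _ hB']

theorem quotHol_iff_quotHyp : QuotHol Γ N real ↔ QuotHyp Γ N real :=
  ⟨quotHyp_of_quotHol, quotHol_of_quotHyp⟩

/-- monotonicity in the group -/
theorem quotHyp_mono {Γ' : Subgroup SL(2, ℤ)} (hΓ : Γ' ≤ Γ) (h : QuotHyp Γ N real) :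
    QuotHyp Γ' N real := by
  intro f
  obtain ⟨H, Q, hH, hQ, hQ0, hrel⟩ := h f
  exact ⟨H, Q, IMGG_mono (N := N) hΓ hH, IMGG_mono (N := N) hΓ hQ, hQ0, hrel⟩

theorem quotHol_mono {Γ' : Subgroup SL(2, ℤ)} (hΓ : Γ' ≤ Γ) (h : QuotHol Γ N real) :
    QuotHol Γ' N real :=
  quotHol_of_quotHyp (quotHyp_mono hΓ (quotHyp_of_quotHol h))

/-- `FieldGenHyp` (helper16) and `FieldGenHol` (helper94) are the same proposition -/
theorem fieldGenHol_iff_fieldGenHyp : FieldGenHol Γ N real ↔ FieldGenHyp Γ N real := Iff.rfl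

end Forms

/-! ### Over `ℂ` -/

section OverC

variable {Γ : Subgroup SL(2, ℤ)} {N : ℕ} [NeZero N] {σ : Type*} (G : σ → Hol)
  (hCE : ∀ i, IsCE 1 ((G i : Hol) : ℍ → ℂ))

/-- **`QuotHol` for `realG G hCE`** -/
theorem quotHol_realG (hG : ∀ i, G i ∈ IMGG Γ N) :
    QuotHol Γ N ((realG G hCE : FG G →ₐ[ℂ] Mer) : FG G →+* Mer) :=
  quotHol_of_quotHyp (hquot_realG G hCE hG)

/-- **`QuotHol` for `realOf G hCE hF`** -/
theorem quotHol_realOf {F : IntermediateField ℂ (LaurentSeries ℂ)} (hF : F = FG G)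
    (hG : ∀ i, G i ∈ IMGG Γ N) :
    QuotHol Γ N ((realOf G hCE hF : F →ₐ[ℂ] Mer) : F →+* Mer) :=
  quotHol_of_quotHyp
    (Fermat.Agent.DS.P1.FieldGenAsm.quotHyp_realOf G hCE hF (hquot_realG G hCE hG))

end OverC

/-! ### Over `ℚ̄` -/

section OverKbar

variable {Γ : Subgroup SL(2, ℤ)} {N : ℕ} [NeZero N] {σ : Type*} (G : σ → Hol)
  (M : σ → LaurentSeries Kbar) (hCE : ∀ i, IsCE 1 ((G i : Hol) : ℍ → ℂ))
  (hM : ∀ i, coeffMap iotaC (M i) = cuspExp 1 ((G i : Hol) : ℍ → ℂ))

/-- every element of `FK M` is a quotient of polynomials in the generators -/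
theorem exists_aeval_div_FK (f : FK M) : ∃ r s : MvPolynomial σ Kbar,
    f = MvPolynomial.aeval (genK M) r / MvPolynomial.aeval (genK M) s := by
  have hf : (f : LaurentSeries Kbar) ∈ IntermediateField.adjoin Kbar (Set.range M) := f.2
  obtain ⟨r, s, hrs⟩ := (IntermediateField.mem_adjoin_range_iff Kbar M _).mp hf
  refine ⟨r, s, Subtype.ext ?_⟩
  have hval : ∀ P : MvPolynomial σ Kbar,
      ((MvPolynomial.aeval (genK M) P : FK M) : LaurentSeries Kbar) =
        MvPolynomial.aeval M P := by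
    intro P
    have := MvPolynomial.comp_aeval_apply (f := genK M) (FK M).val P
    exact this
  rw [hrs]
  show _ = ((FK M).val (MvPolynomial.aeval (genK M) r / MvPolynomial.aeval (genK M) s))
  rw [map_div₀]
  show _ = ((MvPolynomial.aeval (genK M) r : FK M) : LaurentSeries Kbar) /
    ((MvPolynomial.aeval (genK M) s : FK M) : LaurentSeries Kbar)
  rw [hval, hval]

/-- the realisation over `ℚ̄` of a polynomial expression in the generators -/
theorem realK_aeval (P : MvPolynomial σ Kbar) :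
    realK G M hCE hM (MvPolynomial.aeval (genK M) P) =
      algebraMap Hol Mer (MvPolynomial.aeval G (MvPolynomial.map iotaC P)) := by
  rw [← aeval_genMer_Kbar, MvPolynomial.comp_aeval_apply]
  have h : (fun i => realK G M hCE hM (genK M i)) = genMer G :=
    funext fun i => realK_gen G M hCE hM i
  rw [h]

/-- **the quotient hypothesis for `realK G M hCE hM`** when all the generators are `Γ`-invariant
holomorphic functions of moderate growth -/
theorem quotHyp_realK (hG : ∀ i, G i ∈ IMGG Γ N) :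
    QuotHyp Γ N ((realK G M hCE hM : FK M →ₐ[Kbar] Mer) : FK M →+* Mer) := by
  intro f
  obtain ⟨r, s, rfl⟩ := exists_aeval_div_FK M f
  show ∃ H Q : Hol, H ∈ IMGG Γ N ∧ Q ∈ IMGG Γ N ∧ Q ≠ 0 ∧
    algebraMap Hol Mer Q * realK G M hCE hM (MvPolynomial.aeval (genK M) r /
      MvPolynomial.aeval (genK M) s) = algebraMap Hol Mer H
  by_cases hs : MvPolynomial.aeval G (MvPolynomial.map iotaC s) = 0
  · refine ⟨0, 1, (IMGG Γ N).zero_mem, (IMGG Γ N).one_mem, one_ne_zero, ?_⟩
    rw [map_div₀, realK_aeval G M hCE hM s, hs, map_zero, div_zero, mul_zero]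
  · refine ⟨MvPolynomial.aeval G (MvPolynomial.map iotaC r),
      MvPolynomial.aeval G (MvPolynomial.map iotaC s),
      aeval_mem_IMGG G hG _, aeval_mem_IMGG G hG _, hs, ?_⟩
    rw [map_div₀, realK_aeval, realK_aeval, mul_div_cancel₀ _ (algebraMap_ne_zero hs)]

/-- **`QuotHol` for `realK G M hCE hM`** -/
theorem quotHol_realK (hG : ∀ i, G i ∈ IMGG Γ N) :
    QuotHol Γ N ((realK G M hCE hM : FK M →ₐ[Kbar] Mer) : FK M →+* Mer) :=
  quotHol_of_quotHyp (quotHyp_realK G M hCE hM hG)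

theorem quotHyp_realKOf {F : IntermediateField Kbar (LaurentSeries Kbar)} (hF : F = FK M)
    (hG : ∀ i, G i ∈ IMGG Γ N) :
    QuotHyp Γ N ((realKOf G M hCE hM hF : F →ₐ[Kbar] Mer) : F →+* Mer) :=
  fun f => quotHyp_realK G M hCE hM hG ((IntermediateField.equivOfEq hF) f)

/-- **`QuotHol` for `realKOf G M hCE hM hF`** -/
theorem quotHol_realKOf {F : IntermediateField Kbar (LaurentSeries Kbar)} (hF : F = FK M)
    (hG : ∀ i, G i ∈ IMGG Γ N) :
    QuotHol Γ N ((realKOf G M hCE hM hF : F →ₐ[Kbar] Mer) : F →+* Mer) :=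
  quotHol_of_quotHyp (quotHyp_realKOf G M hCE hM hF hG)

/-- field generation transfers from `ℂ` to `ℚ̄`?  NO (the constants differ); but it transfers
along any field containing the image: if `real' : F' →+* Mer` has a larger image than `real`,
`FieldGenHyp` for `real` gives it for `real'`. -/
theorem fieldGenHyp_of_range_le {F F' : Type*} [Field F] [Field F'] {real : F →+* Mer}
    {real' : F' →+* Mer} (hle : ∀ f : F, ∃ f' : F', real' f' = real f)
    (h : FieldGenHyp Γ N real) : FieldGenHyp Γ N real' := by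
  intro H hinv hgr
  obtain ⟨f, hf⟩ := h H hinv hgr
  obtain ⟨f', hf'⟩ := hle f
  exact ⟨f', hf'.trans hf⟩

end OverKbar

/-! ### The instances at `Γ₁(M)` -/

section Gamma1

open Fermat.Agent.DS.P1.RealizeF1 Fermat.Agent.DS.P1.FieldGenG Fermat.Agent.DS.P0

variable {M : ℕ} [NeZero M] (D : WeberData M)

/-- the quotient hypothesis for `real1C D` at `Γ₁(M)` -/
theorem quotHyp_real1C :
    QuotHyp (Gamma1 M) M ((real1C D : F1C ℂ M →ₐ[ℂ] Mer) : F1C ℂ M →+* Mer) :=
  Fermat.Agent.DS.P1.FieldGenAsm.quotHyp_realOf (genFam D) (isCE_genFam D) (F1C_eq_FG D)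
    (hquot_realG (genFam D) (isCE_genFam D) (genFam_mem_IMGG D))

/-- **`QuotHol (Gamma1 M) M (real1C D)`** -/
theorem quotHol_real1C :
    QuotHol (Gamma1 M) M ((real1C D : F1C ℂ M →ₐ[ℂ] Mer) : F1C ℂ M →+* Mer) :=
  quotHol_of_quotHyp (quotHyp_real1C D)

/-- **`FieldGenHol (Gamma1 M) M (real1C D)`** (`= RealizeF1.fieldGenHyp1`) -/
theorem fieldGenHol_real1C :
    FieldGenHol (Gamma1 M) M ((real1C D : F1C ℂ M →ₐ[ℂ] Mer) : F1C ℂ M →+* Mer) :=
  fieldGenHyp1 D

/-- the quotient hypothesis for `real1 D` (over `ℚ̄`) at `Γ₁(M)` -/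
theorem quotHyp_real1 :
    QuotHyp (Gamma1 M) M ((real1 D : F1C Kbar M →ₐ[Kbar] Mer) : F1C Kbar M →+* Mer) :=
  quotHyp_realKOf (genFam D) (serFam M Kbar) (isCE_genFam D) (coeffMap_serFam D)
    (F1C_eq_FK (M := M)) (genFam_mem_IMGG D)

/-- **`QuotHol (Gamma1 M) M (real1 D)`** -/
theorem quotHol_real1 :
    QuotHol (Gamma1 M) M ((real1 D : F1C Kbar M →ₐ[Kbar] Mer) : F1C Kbar M →+* Mer) :=
  quotHol_of_quotHyp (quotHyp_real1 D)

end Gamma1

end Fermat.Agent.DS.P1.QuotHolF1
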