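import Mathlib
import Fermat.Agent.DS.P1.RealizeF1
import Fermat.Agent.DS.P1.ExpBridge
import Fermat.Agent.DS.P1.QuotHolF1
import Fermat.Agent.DS.P1.WeberDataInst
import Fermat.Agent.DS.P3.Desc1G
import Fermat.Agent.DS.P3.DictCuspInst
import Fermat.Agent.DS.P3.DictIntH.Inst1
import Fermat.Agent.DS.P3.EigFinalHN

/-!
# GATE-N / S48-P1-PORT-INST: the P1 binders of the `Γ₁(M)` port at `F₀ := F1 M`

Every consumer of the port (`DS/P3/EigFinalHN.eig1All2_of_exp`, `DS/P3/HNAsm.hnMem1_Gamma1`,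
`DS/P4/HNDivAn.dvd_ord_merSys`, `DS/Port/PlugTest.portExport1_of_open_leaves`) works on the TYPES
`↥(laurentBaseChange ℂ (F1 M))` and `FL (F1 M) = ↥(laurentBaseChange ℚ̄ (F1 M))`, while the P1
producers work on `↥(F1C ℂ M)`, `↥(F1C ℚ̄ M)`.  This file transports everything along
`laurentBaseChange_F1 L M : laurentBaseChange L (F1 M) = F1C L M`, for an arbitrary
`D : WeberData M`, and instantiates at `D := WeberDataInst.weberData M hM`.

* `eCL M`, `eKL M` : the two identifications; `realCL D` (ring hom, definitionally helper69's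
  `PlugTest.realC D`), `realCA D` (the `ℂ`-algebra hom), `realKL D` (over `ℚ̄`);
* `hexp_F1 D` (EXP), `fieldGenHol_F1 D` (GEN), `quotHyp_F1 D` / `quotHol_F1 D` (QUOT),
  `hinv_F1 D` (INV), `realCL_bcG D` (`realCL ∘ bcG = realKL`), `realCL_injective`;
* `x0_F1 M`, `isGen_x0_F1 D`, `hq0_F1 M`; `jCL M`, `realCL_jCL`, `bcG_x0_F1`;
* generic transport `transport_equivOfEq` and the dictionaries `intDict_F1 D`, `cuspDict_F1 D`,
  `e1_F1 D` for `realCL D`, `jCL M`;
* `eig1All2_F1_of_dia`, `eig1AllCl_F1_of_dia` : helper94's `eig1All2_of_exp` / `eig1AllCl_of_exp`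
  at `F₀ := F1 M` with ONLY the diamond data (P1e) left.
-/

set_option autoImplicit false
set_option linter.unusedSectionVars false
set_option linter.style.haveILetI false

open UpperHalfPlane Complex AlgebraicCurve ModularCurve CongruenceSubgroup
open scoped MatrixGroups

noncomputable section

namespace Fermat.Agent.DS.P1.PortInstP1

open Fermat.Agent.S24 Fermat.Agent.S24_helper82 Fermat.Agent.S24_helper62
open Fermat.Agent.GJ.Dict Fermat.Agent.GJ.Dict.FieldGen Fermat.Agent.GJ.TwEis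
open Fermat.Agent.DS.P0 Fermat.Agent.DS.P1.RealizeGen Fermat.Agent.DS.P1.RealizeF1
open Fermat.Agent.DS.P1.FieldGenG
open Fermat.Agent.DS.P3.Sat1 Fermat.Agent.DS.P3.HNMem Fermat.Agent.DS.P3.TwEisG
open Fermat.Agent.DS.P3.PDiv1 Fermat.Agent.DS.P3.Desc1G
open Fermat.Agent.DS.P5.KumType1

attribute [local instance] Fermat.Agent.GJ.EigAsm.algKbC

/-- `ℚ̄` -/
local notation "Kb" => AlgebraicClosure ℚ

/-! ### Generic transport along an equality of intermediate fields -/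

section Generic

variable {K L : Type*} [Field K] [Field L] [Algebra K L]

/-- **transport of any property of (a ring hom out of an intermediate field, an element)** along
`IntermediateField.equivOfEq`. -/
theorem transport_equivOfEq {T : Type*} [Semiring T] {F F' : IntermediateField K L} (h : F = F')
    (P : ∀ E : IntermediateField K L, (E →+* T) → E → Prop) (real : F' →+* T) (j : F')
    (H : P F' real j) :
    P F (real.comp ((IntermediateField.equivOfEq h : F ≃ₐ[K] F') : F →+* F'))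
      ((IntermediateField.equivOfEq h).symm j) := by
  subst h
  have e1 : real.comp ((IntermediateField.equivOfEq (rfl : F = F) : F ≃ₐ[K] F) : F →+* F)
      = real := by
    ext x
    simp [IntermediateField.equivOfEq_rfl]
  have e2 : (IntermediateField.equivOfEq (rfl : F = F)).symm j = j := by
    simp [IntermediateField.equivOfEq_rfl]
  rw [e1, e2]
  exact H

theorem coe_equivOfEq {F F' : IntermediateField K L} (h : F = F') (x : F) :
    ((IntermediateField.equivOfEq h x : F') : L) = (x : L) := rfl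

theorem coe_equivOfEq_symm {F F' : IntermediateField K L} (h : F = F') (x : F') :
    (((IntermediateField.equivOfEq h).symm x : F) : L) = (x : L) := by
  subst h
  simp [IntermediateField.equivOfEq_rfl]

theorem isGen_equivOfEq_symm {F F' : IntermediateField K L} (h : F = F') (x : F')
    [hx : IsGen K x] : IsGen K ((IntermediateField.equivOfEq h).symm x) := by
  subst h
  have : (IntermediateField.equivOfEq (rfl : F = F)).symm x = x := by
    simp [IntermediateField.equivOfEq_rfl]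
  rw [this]
  exact hx

end Generic

variable {M : ℕ} [NeZero M]

/-! ### The identifications and the realisations -/

/-- `F1 M ⊗ ℂ ≃ ℂ(X₁(M))` -/
def eCL (M : ℕ) [NeZero M] : ↥(laurentBaseChange ℂ (F1 M)) ≃ₐ[ℂ] ↥(F1C ℂ M) :=
  IntermediateField.equivOfEq (laurentBaseChange_F1 ℂ M)

/-- `F1 M ⊗ ℚ̄ ≃ ℚ̄(X₁(M))` -/
def eKL (M : ℕ) [NeZero M] : FL (F1 M) ≃ₐ[Kb] ↥(F1C Kb M) :=
  IntermediateField.equivOfEq (laurentBaseChange_F1 Kb M)

@[simp] theorem coe_eCL (f : ↥(laurentBaseChange ℂ (F1 M))) :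
    ((eCL M f : F1C ℂ M) : LaurentSeries ℂ) = (f : LaurentSeries ℂ) :=
  coe_equivOfEq (laurentBaseChange_F1 ℂ M) f

@[simp] theorem coe_eKL (f : FL (F1 M)) :
    ((eKL M f : F1C Kb M) : LaurentSeries Kb) = (f : LaurentSeries Kb) :=
  coe_equivOfEq (laurentBaseChange_F1 Kb M) f

@[simp] theorem coe_eCL_symm (f : F1C ℂ M) :
    (((eCL M).symm f : ↥(laurentBaseChange ℂ (F1 M))) : LaurentSeries ℂ) = (f : LaurentSeries ℂ) :=
  coe_equivOfEq_symm _ f

@[simp] theorem coe_eKL_symm (f : F1C Kb M) :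
    (((eKL M).symm f : FL (F1 M)) : LaurentSeries Kb) = (f : LaurentSeries Kb) :=
  coe_equivOfEq_symm _ f

variable (D : WeberData M)

/-- **the realisation of `F1 M ⊗ ℂ`** (ring hom; definitionally helper69's `PlugTest.realC D`) -/
def realCL : ↥(laurentBaseChange ℂ (F1 M)) →+* Mer :=
  ((real1C D : F1C ℂ M →ₐ[ℂ] Mer) : F1C ℂ M →+* Mer).comp
    ((eCL M : ↥(laurentBaseChange ℂ (F1 M)) ≃ₐ[ℂ] ↥(F1C ℂ M)) :
      ↥(laurentBaseChange ℂ (F1 M)) →+* ↥(F1C ℂ M))

theorem realCL_apply (f : ↥(laurentBaseChange ℂ (F1 M))) : realCL D f = real1C D (eCL M f) := by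
  simp only [realCL, RingHom.coe_comp, Function.comp_apply, RingHom.coe_coe]

theorem realCL_algebraMap (c : ℂ) :
    realCL D (algebraMap ℂ ↥(laurentBaseChange ℂ (F1 M)) c) = algebraMap ℂ Mer c := by
  rw [realCL_apply, AlgEquiv.commutes, AlgHom.commutes]

/-- **the realisation of `F1 M ⊗ ℂ` as a `ℂ`-algebra hom** (`(realCA D : _ →+* _) = realCL D` by
`rfl`) -/
def realCA : ↥(laurentBaseChange ℂ (F1 M)) →ₐ[ℂ] Mer :=
  { realCL D with commutes' := realCL_algebraMap D }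

@[simp] theorem realCA_apply (f : ↥(laurentBaseChange ℂ (F1 M))) : realCA D f = realCL D f := rfl

theorem coe_realCA :
    ((realCA D : ↥(laurentBaseChange ℂ (F1 M)) →ₐ[ℂ] Mer) :
      ↥(laurentBaseChange ℂ (F1 M)) →+* Mer) = realCL D := rfl

/-- **the realisation of `F1 M ⊗ ℚ̄`** -/
def realKL : FL (F1 M) →ₐ[Kb] Mer := (real1 D).comp (eKL M).toAlgHom

theorem realKL_apply (u : FL (F1 M)) : realKL D u = real1 D (eKL M u) := rfl

theorem realCL_injective : Function.Injective (realCL D) := (realCL D).injective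

theorem realKL_injective : Function.Injective (realKL D) := (realKL D).toRingHom.injective

theorem range_realCL :
    Set.range (realCL D) = Set.range ((real1C D : F1C ℂ M →ₐ[ℂ] Mer) : F1C ℂ M →+* Mer) := by
  ext m
  constructor
  · rintro ⟨f, rfl⟩
    exact ⟨eCL M f, rfl⟩
  · rintro ⟨f, rfl⟩
    refine ⟨(eCL M).symm f, ?_⟩
    rw [realCL_apply, AlgEquiv.apply_symm_apply]
    rfl

/-! ### (EXP), (GEN), (QUOT), (INV) -/

/-- **(EXP)** the expansion at `i∞` of `realCL D f` is `f` -/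
theorem hexp_F1 (f : ↥(laurentBaseChange ℂ (F1 M))) :
    MerCE 1 (realCL D f) (f : LaurentSeries ℂ) := by
  have h := Fermat.Agent.DS.P1.ExpBridge.merCE_realOf (genFam D) (isCE_genFam D) (F1C_eq_FG D)
    (eCL M f)
  rw [coe_eCL] at h
  rw [realCL_apply]
  exact h

/-- **(EXP) over `ℚ̄`** -/
theorem hexpK_F1 (u : FL (F1 M)) :
    MerCE 1 (realKL D u) (coeffMap iotaC (u : LaurentSeries Kb)) := by
  have h := Fermat.Agent.DS.P1.ExpBridge.merCE_realKOf (genFam D) (serFam M Kbar) (isCE_genFam D)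
    (coeffMap_serFam D) F1C_eq_FK (eKL M u)
  rw [coe_eKL] at h
  rw [realKL_apply]
  exact h

/-- **(GEN)** in helper94's shape -/
theorem fieldGenHol_F1 : FieldGenHol (Gamma1 M) M (realCL D) := by
  intro H hH hmg
  obtain ⟨f, hf⟩ := fieldGenHyp1 D H hH hmg
  refine ⟨(eCL M).symm f, ?_⟩
  rw [realCL_apply, AlgEquiv.apply_symm_apply]
  exact hf

/-- **(GEN)** in helper16's shape -/
theorem fieldGenHyp_F1 : FieldGenHyp (Gamma1 M) M (realCL D) := fieldGenHol_F1 D

/-- **(QUOT)**, multiplicative form -/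
theorem quotHyp_F1 : QuotHyp (Gamma1 M) M (realCL D) := fun f =>
  Fermat.Agent.DS.P1.QuotHolF1.quotHyp_real1C D (eCL M f)

/-- **(QUOT)**, division form -/
theorem quotHol_F1 : QuotHol (Gamma1 M) M (realCL D) := fun f =>
  Fermat.Agent.DS.P1.QuotHolF1.quotHol_real1C D (eCL M f)

/-- **(INV)** under `±Γ₁(M)` -/
theorem hinv_pm_F1 {γ : SL(2, ℤ)} (hγ : γ ∈ pm (Gamma1 M)) (f : ↥(laurentBaseChange ℂ (F1 M))) :
    compM γ (realCL D f) = realCL D f := compM_real1C D hγ _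

/-- **(INV)** under `Γ₁(M)` -/
theorem hinv_F1 (γ : Gamma1 M) (f : ↥(laurentBaseChange ℂ (F1 M))) :
    compM (γ : SL(2, ℤ)) (realCL D f) = realCL D f :=
  hinv_pm_F1 D (le_pm (Gamma1 M) γ.2) f

/-- **(SAT)** -/
theorem sat_F1 {p : ℕ} (hp : 0 < p) (m : Mer)
    (hm : ∀ γ : Gamma1 M, compM (γ : SL(2, ℤ)) m = m) (hmp : m ^ p ∈ Set.range (realCL D)) :
    m ∈ Set.range (realCL D) := by
  rw [range_realCL] at hmp ⊢
  exact sat1 D hp m hm hmp

/-! ### The base change `ℚ̄ → ℂ` -/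

/-- a meromorphic function is determined by its expansion at `i∞` -/
theorem eq_of_merCE {m m' : Mer} {L : LaurentSeries ℂ} (h : MerCE 1 m L) (h' : MerCE 1 m' L) :
    m = m' := by
  have h0 : MerCE 1 (m + -m') (L + -L) := MerCE.add one_pos h (MerCE.neg one_pos h')
  have h1 : m + -m' = 0 := (MerCE.eq_zero_iff one_pos h0).mp (add_neg_cancel L)
  rw [add_neg_eq_zero] at h1
  exact h1

/-- **`realCL ∘ bcG = realKL`** -/
theorem realCL_bcG (u : FL (F1 M)) : realCL D (bcG (F1 M) u) = realKL D u := by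
  refine eq_of_merCE (hexp_F1 D _) ?_
  have := hexpK_F1 D u
  exact this

/-! ### The generator, the order condition -/

/-- `j` in `F1 M ⊗ ℂ` -/
def jCL (M : ℕ) [NeZero M] : ↥(laurentBaseChange ℂ (F1 M)) := (eCL M).symm (j1C M)

/-- the generator `j` of `FL (F1 M)` -/
def x0_F1 (M : ℕ) [NeZero M] : FL (F1 M) := (eKL M).symm (j1K M)

include D in
theorem isGen_x0_F1 : IsGen Kb (x0_F1 M) := by
  haveI : IsGen Kb (j1K M) := isGen_j1 D
  exact isGen_equivOfEq_symm (laurentBaseChange_F1 Kb M) (j1K M)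

theorem realCL_jCL : realCL D (jCL M) = algebraMap Hol Mer jH := by
  rw [realCL_apply, jCL, AlgEquiv.apply_symm_apply, real1C_j]

theorem realKL_x0 : realKL D (x0_F1 M) = algebraMap Hol Mer jH := by
  rw [realKL_apply, x0_F1, AlgEquiv.apply_symm_apply, real1_j]

include D in
theorem bcG_x0_F1 : bcG (F1 M) (x0_F1 M) = jCL M := by
  apply realCL_injective D
  rw [realCL_bcG, realKL_x0, realCL_jCL]

theorem hq0_F1 (M : ℕ) [NeZero M] : ∃ f ∈ F1 M, f.order ≠ 0 := by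
  refine ⟨jqModC ℚ, jqModC_mem_F1C ℚ M, ?_⟩
  rw [Fermat.Agent.S28.order_jqModC]
  decide

/-! ### The dictionaries -/

/-- **interior dictionary** for `realCL D`, `jCL M` -/
theorem intDict_F1 (hM : 4 ≤ M) : IntDict (Gamma1 M) (realCL D) (jCL M) :=
  transport_equivOfEq (laurentBaseChange_F1 ℂ M)
    (fun _ real j => IntDict (Gamma1 M) real j) _ _
    (Fermat.Agent.DS.P3.DictIntH.intDict1 D hM)

/-- **cusp dictionary** for `realCL D`, `jCL M` -/
theorem cuspDict_F1 (hM : ¬ M ∣ 4) : CuspDict (Gamma1 M) (realCL D) (jCL M) :=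
  transport_equivOfEq (laurentBaseChange_F1 ℂ M)
    (fun _ real j => CuspDict (Gamma1 M) real j) _ _
    (Fermat.Agent.DS.P3.DictCuspInst.cuspDict1 D hM)

/-- **(E1)** for `realCL D` -/
theorem e1_F1 : Fermat.Agent.DS.P3.FinC1.E1 (realCL D) :=
  transport_equivOfEq (laurentBaseChange_F1 ℂ M)
    (fun _ real _ => Fermat.Agent.DS.P3.FinC1.E1 real) _ (j1C M)
    (Fermat.Agent.DS.P3.DictIntH.e1_1 D)

/-! ### (P1e) in the `ℚ̄`-form, and the P3 / P4 exports at `F₀ := F1 M` -/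

section Final

open Fermat.Agent.DS.P3.EigFinalHN Fermat.Agent.DS.P3.HNAsm Fermat.Agent.DS.P3
open Fermat.Agent.DS.P5 Fermat.Agent.DS.P5.Final2 Fermat.Agent.DS.P5.FinalCl

/-- (P1e): the `ℂ`-form `hHND` of the consumers from the `ℚ̄`-form (the one a producer of the
diamond automorphisms proves: `realKL D (dia d u) = compM σ (realKL D u)`). -/
theorem hHND_of_realKL {dia : (ZMod M)ˣ → (FL (F1 M) ≃ₐ[Kb] FL (F1 M))}
    {σD : (ZMod M)ˣ → SL(2, ℤ)}
    (h : ∀ (d : (ZMod M)ˣ) (u : FL (F1 M)), realKL D (dia d u) = compM (σD d) (realKL D u))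
    (d : (ZMod M)ˣ) (u : FL (F1 M)) :
    realCL D (bcG (F1 M) (dia d u)) = compM (σD d) (realCL D (bcG (F1 M) u)) := by
  rw [realCL_bcG, realCL_bcG, h]

theorem not_dvd_four_of_five_le (hM : 5 ≤ M) : ¬ M ∣ 4 := fun h =>
  absurd (Nat.le_of_dvd (by norm_num) h) (by omega)

variable {p : ℕ} [Fact p.Prime]

/-- **helper94's `eig1All2_of_exp` at `F₀ := F1 M`** (moduli convention): only the diamond data
(P1e) is left. -/
theorem eig1All2_F1_of_dia {dia : (ZMod M)ˣ → (FL (F1 M) ≃ₐ[Kb] FL (F1 M))} (hM : 5 ≤ M)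
    (S : Set ℕ) (σD' : (ZMod M)ˣ → SL(2, ℤ)) (hσD'0 : ∀ d, (M : ℤ) ∣ σD' d 1 0)
    (hσD'1 : ∀ d : (ZMod M)ˣ, ((σD' d 1 1 : ℤ) : ZMod M) = ((d⁻¹ : (ZMod M)ˣ) : ZMod M))
    (hHND : ∀ (d : (ZMod M)ˣ) (u : FL (F1 M)),
      realCL D (bcG (F1 M) (dia d u)) = compM (σD' d) (realCL D (bcG (F1 M) u)))
    (hS : ∀ ℓ : ℕ, ℓ.Prime → ¬ ℓ ∣ M * p → ℓ ∉ S) :
    EIG1All2' (F1 M) p dia S := by
  haveI : IsGen Kb (x0_F1 M) := isGen_x0_F1 D
  exact eig1All2_of_exp (by omega) S (realCL D) (jCL M) (hexp_F1 D) (fieldGenHol_F1 D)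
    (quotHol_F1 D) (x0_F1 M) (hq0_F1 M) (intDict_F1 D (by omega))
    (cuspDict_F1 D (not_dvd_four_of_five_le hM)) (e1_F1 D) σD' hσD'0 hσD'1 hHND hS

/-- **helper94's `eig1AllCl_of_exp` at `F₀ := F1 M`** (classical convention) -/
theorem eig1AllCl_F1_of_dia {diaCl : (ZMod M)ˣ → (FL (F1 M) ≃ₐ[Kb] FL (F1 M))} (hM : 5 ≤ M)
    (S : Set ℕ) (σD : (ZMod M)ˣ → SL(2, ℤ)) (hσD0 : ∀ d, (M : ℤ) ∣ σD d 1 0)
    (hσD1 : ∀ d : (ZMod M)ˣ, ((σD d 1 1 : ℤ) : ZMod M) = (d : ZMod M))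
    (hHND : ∀ (d : (ZMod M)ˣ) (u : FL (F1 M)),
      realCL D (bcG (F1 M) (diaCl d u)) = compM (σD d) (realCL D (bcG (F1 M) u)))
    (hS : ∀ ℓ : ℕ, ℓ.Prime → ¬ ℓ ∣ M * p → ℓ ∉ S) :
    EIG1AllCl (F1 M) p diaCl S := by
  haveI : IsGen Kb (x0_F1 M) := isGen_x0_F1 D
  exact eig1AllCl_of_exp (by omega) S (realCL D) (jCL M) (hexp_F1 D) (fieldGenHol_F1 D)
    (quotHol_F1 D) (x0_F1 M) (hq0_F1 M) (intDict_F1 D (by omega))
    (cuspDict_F1 D (not_dvd_four_of_five_le hM)) (e1_F1 D) σD hσD0 hσD1 hHND hS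

/-- **helper86's `hnMem1_Gamma1` at `F₀ := F1 M`**: `HNMem1 ℓ δ` from the `ℚ̄`-form of (P1e) -/
theorem hnMem1_F1 {ℓ : ℕ} [Fact ℓ.Prime] (hℓM : ¬ ℓ ∣ M) (δ : FL (F1 M) ≃ₐ[Kb] FL (F1 M))
    (hδ : ∀ u : FL (F1 M), realKL D (δ u)
      = HeckeMerTriple.merD (Coh1.unitOf hℓM) (realKL D u)) :
    KumType1.HNMem1 ℓ δ :=
  hnMem1_Gamma1 (F1 M) (realCL D) (hexp_F1 D) (fieldGenHol_F1 D) (quotHol_F1 D) hℓM δ
    (fun u => by rw [realCL_bcG, realCL_bcG, hδ])

end Final

/-! ### The instance at helper71's analytic Weber data -/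

section Inst

open Fermat.Agent.DS.P1.WeberDataInst

variable (M) (hM : 1 < M)

/-- the realisation of `F1 M ⊗ ℂ`, unconditional -/
abbrev realCL₁ : ↥(laurentBaseChange ℂ (F1 M)) →+* Mer := realCL (weberData M hM)

/-- the realisation of `F1 M ⊗ ℚ̄`, unconditional -/
abbrev realKL₁ : FL (F1 M) →ₐ[Kb] Mer := realKL (weberData M hM)

theorem realCL₁_apply (f : ↥(laurentBaseChange ℂ (F1 M))) :
    realCL₁ M hM f = WeberDataInst.realC M hM (eCL M f) := realCL_apply _ f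

theorem realKL₁_apply (u : FL (F1 M)) :
    realKL₁ M hM u = WeberDataInst.realK M hM (eKL M u) := rfl

include hM in
theorem isGen_x0_F1_thm : IsGen Kb (x0_F1 M) := isGen_x0_F1 (weberData M hM)

end Inst

end Fermat.Agent.DS.P1.PortInstP1
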