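/-
S48 / GATE-N, P1 ↔ P3 glue (helper42): the QUOTIENT PRESENTATION `QuotHol` of helper30's generic
realisation `realG G hCE : FG G →ₐ[ℂ] Mer` (`DS/P1/RealizeGen.lean`).

If the holomorphic generators `G i : Hol` are `Γ`-invariant and of moderate growth (in `q_N`, at
all cusps), then every `realG f` is a quotient `A / B` of `Γ`-invariant holomorphic functions of
moderate growth — the hypothesis `QuotHol Γ N real` of `DS/P3/HNMem.lean` (membership half of
(HN): Hecke norms and diamond translates of realised functions are realised).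
-/
import Mathlib
import Fermat.Agent.DS.P1.RealizeGen
import Fermat.Agent.DS.P3.HNMem

set_option autoImplicit false
set_option linter.unusedSectionVars false

open UpperHalfPlane
open scoped MatrixGroups

noncomputable section

namespace Fermat.Agent.DS.P1.QuotHolG

open Fermat.Agent.S24_helper82 Fermat.Agent.GJ.Dict Fermat.Agent.GJ.Dict.FieldGen
open Fermat.Agent.DS.P1.RealizeGen Fermat.Agent.DS.P3.HNMem
open Fermat.Agent.S24 Fermat.Agent.S28 Fermat.Agent.S28.CuspExp

variable {σ : Type*} (G : σ → Hol)

/-- polynomial expressions in invariant generators are invariant -/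
theorem compSL_aeval {Γ : Subgroup SL(2, ℤ)} (hinv : ∀ γ ∈ Γ, ∀ i, compSL γ (G i) = G i)
    (P : MvPolynomial σ ℂ) (γ : SL(2, ℤ)) (hγ : γ ∈ Γ) :
    compSL γ (MvPolynomial.aeval G P) = MvPolynomial.aeval G P := by
  rw [MvPolynomial.comp_aeval_apply]
  have h : (fun i => compSL γ (G i)) = G := funext fun i => hinv γ hγ i
  rw [h]

/-- polynomial expressions in generators of moderate growth have moderate growth -/
theorem aeval_mem_MG {N : ℕ} [NeZero N] (hmg : ∀ i, G i ∈ MG N) (P : MvPolynomial σ ℂ) :
    MvPolynomial.aeval G P ∈ MG N := by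
  have h : MvPolynomial.aeval G P
      = (MG N).val (MvPolynomial.aeval (fun i => (⟨G i, hmg i⟩ : MG N)) P) := by
    rw [MvPolynomial.comp_aeval_apply]
    rfl
  rw [h]
  exact (MvPolynomial.aeval (fun i => (⟨G i, hmg i⟩ : MG N)) P).2

variable (hCE : ∀ i, IsCE 1 ((G i : Hol) : ℍ → ℂ))

/-- every element of `FG G` is a quotient of polynomial expressions in the generators -/
theorem exists_eq_aeval_div (f : FG G) :
    ∃ r s : MvPolynomial σ ℂ,
      f = MvPolynomial.aeval (gen G) r / MvPolynomial.aeval (gen G) s := by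
  obtain ⟨r, s, hrs⟩ :=
    (IntermediateField.mem_adjoin_range_iff ℂ (genSer G) (f : LaurentSeries ℂ)).mp f.2
  refine ⟨r, s, Subtype.ext ?_⟩
  have hcoe : ∀ P : MvPolynomial σ ℂ,
      ((MvPolynomial.aeval (gen G) P : FG G) : LaurentSeries ℂ)
        = MvPolynomial.aeval (genSer G) P := by
    intro P
    have := MvPolynomial.comp_aeval_apply (f := gen G) (FG G).val P
    exact this
  rw [hrs]
  show _ = (((MvPolynomial.aeval (gen G) r / MvPolynomial.aeval (gen G) s : FG G)) :
    LaurentSeries ℂ)
  rw [IntermediateField.coe_div, hcoe, hcoe]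

/-- **`QuotHol` for the generic realisation**: if the generators are `Γ`-invariant of moderate
growth, every realised function is a quotient of `Γ`-invariant holomorphic functions of moderate
growth. -/
theorem quotHol_realG {Γ : Subgroup SL(2, ℤ)} {N : ℕ} [NeZero N]
    (hinv : ∀ γ ∈ Γ, ∀ i, compSL γ (G i) = G i) (hmg : ∀ i, G i ∈ MG N) :
    QuotHol Γ N ((realG G hCE : FG G →ₐ[ℂ] Mer) : FG G →+* Mer) := by
  intro f
  obtain ⟨r, s, hrs⟩ := exists_eq_aeval_div G f
  have hreal : realG G hCE f = algebraMap Hol Mer (MvPolynomial.aeval G r) /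
      algebraMap Hol Mer (MvPolynomial.aeval G s) := by
    rw [hrs, map_div₀, realG_aeval, realG_aeval]
  by_cases hs : MvPolynomial.aeval G s = 0
  · -- degenerate presentation: `f = r / 0 = 0`
    refine ⟨0, 1, one_ne_zero, fun γ _ => map_zero _, fun γ _ => map_one _,
      moderateGrowth_const 0, moderateGrowth_const 1, ?_⟩
    show realG G hCE f = _
    rw [hreal, hs, map_zero, div_zero, zero_div]
  · exact ⟨MvPolynomial.aeval G r, MvPolynomial.aeval G s, hs,
      fun γ hγ => compSL_aeval G hinv r γ hγ, fun γ hγ => compSL_aeval G hinv s γ hγ,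
      aeval_mem_MG G hmg r, aeval_mem_MG G hmg s, hreal⟩

end Fermat.Agent.DS.P1.QuotHolG
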