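import Mathlib
import Fermat.Agent.DS.P1.DegreeFG
import Fermat.Agent.DS.P1.RealizeF1
import Fermat.Agent.GJ.Desc.Defs

/-!
# GATE-N / S48 J1-PORT, node P1: compatibility of the realisations over `ℂ` and over `ℚ̄` (helper30)

Context of `DS/P1/RealizeGen.lean`: `realG G hCE : FG G →ₐ[ℂ] Mer` and
`realK G M hCE hM : FK M →ₐ[ℚ̄] Mer`, where `coeffMap iotaC (M i) = cuspExp 1 (G i)`.

* `bcFK : FK M →+* FG G`, the coefficientwise `iotaC`;
* **`realG_bcFK : realG (bcFK x) = realK x`**;
* `realOf_eq_realKOf_of_coe_eq` : the same for `realOf hF`, `realKOf hF'` on fields `F = FG G`,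
  `F' = FK M` and elements `y : F`, `x : F'` with `(y : ℂ((q))) = coeffMap iotaC x`;
* the instance at `F1C`: **`real1C_bcHom D x : real1C D (eC (bcHom ℚ̄ ℂ (F1 M) x)) = real1 D (eQ x)`**
  (`eC`, `eQ` = `IntermediateField.equivOfEq (laurentBaseChange_F1 _ M)`; `bcHom ℚ̄ ℂ (F1 M)` is
  `DS/P3/Desc1G.bcG (F1 M)`, `real1C D ∘ eC` is `DS/Port/PlugTest.realC D`).
-/

set_option autoImplicit false
set_option linter.unusedSectionVars false

noncomputable section

namespace Fermat.Agent.DS.P1.RealCompat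

open UpperHalfPlane ModularCurve Fermat.Agent.S24 Fermat.Agent.S28 Fermat.Agent.S28.CuspExp
open Fermat.Agent.S24_helper62 Fermat.Agent.S24_helper82 Fermat.Agent.GJ.Dict
open Fermat.Agent.DS.P0 Fermat.Agent.DS.P1.RealizeGen Fermat.Agent.DS.P1.DegreeFG
open Fermat.Agent.DS.P1.RealizeF1 Fermat.Agent.GJ.Desc
open scoped MatrixGroups Manifold

attribute [local instance] algKbarC

section Generic

variable {σ : Type*} (G : σ → Hol) (M : σ → LaurentSeries Kbar)
  (hCE : ∀ i, IsCE 1 ((G i : Hol) : ℍ → ℂ))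
  (hM : ∀ i, coeffMap iotaC (M i) = cuspExp 1 ((G i : Hol) : ℍ → ℂ))

include hM in
/-- the coefficientwise base change `FK M → FG G` -/
def bcFK : FK M →+* FG G where
  toFun x := ⟨coeffMap iotaC (x : LaurentSeries Kbar), coeffMap_mem_FG G M hM x.2⟩
  map_one' := Subtype.ext (map_one (coeffMap iotaC))
  map_mul' _ _ := Subtype.ext (map_mul (coeffMap iotaC) _ _)
  map_zero' := Subtype.ext (map_zero (coeffMap iotaC))
  map_add' _ _ := Subtype.ext (map_add (coeffMap iotaC) _ _)

@[simp] theorem coe_bcFK (x : FK M) :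
    ((bcFK G M hM x : FG G) : LaurentSeries ℂ) = coeffMap iotaC (x : LaurentSeries Kbar) := rfl

theorem bcFK_genK (i : σ) : bcFK G M hM (genK M i) = gen G i :=
  Subtype.ext (hM i)

theorem bcFK_algebraMap (c : Kbar) :
    bcFK G M hM (algebraMap Kbar (FK M) c) = algebraMap ℂ (FG G) (iotaC c) := by
  apply Subtype.ext
  show coeffMap iotaC (algebraMap Kbar (LaurentSeries Kbar) c) =
    algebraMap ℂ (LaurentSeries ℂ) (iotaC c)
  rw [algebraMap_laurentSeries_eq_single, coeffMap_single, ← algebraMap_laurentSeries_eq_single]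

/-- `realG ∘ bcFK` as a `ℚ̄`-algebra homomorphism -/
def realGbc : FK M →ₐ[Kbar] Mer where
  toRingHom := ((realG G hCE : FG G →ₐ[ℂ] Mer) : FG G →+* Mer).comp (bcFK G M hM)
  commutes' c := by
    show realG G hCE (bcFK G M hM (algebraMap Kbar (FK M) c)) = algebraMap Kbar Mer c
    rw [bcFK_algebraMap, AlgHom.commutes, algebraMap_Kbar_Mer]

theorem realGbc_apply (x : FK M) : realGbc G M hCE hM x = realG G hCE (bcFK G M hM x) := rfl

/-- **compatibility of the two realisations** -/
theorem realG_bcFK (x : FK M) : realG G hCE (bcFK G M hM x) = realK G M hCE hM x := by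
  have h : realGbc G M hCE hM = realK G M hCE hM := by
    apply algHom_ext_FK
    intro i
    rw [realGbc_apply, bcFK_genK, realG_gen, realK_gen]
  exact DFunLike.congr_fun h x

/-- the same on fields equal to `FG G`, `FK M` -/
theorem realOf_eq_realKOf_of_coe_eq {F : IntermediateField ℂ (LaurentSeries ℂ)} (hF : F = FG G)
    {F' : IntermediateField Kbar (LaurentSeries Kbar)} (hF' : F' = FK M) (y : F) (x : F')
    (hxy : (y : LaurentSeries ℂ) = coeffMap iotaC (x : LaurentSeries Kbar)) :
    realOf G hCE hF y = realKOf G M hCE hM hF' x := by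
  subst hF
  subst hF'
  rw [realOf_apply, realKOf_apply, ← realG_bcFK G M hCE hM]
  congr 1
  exact Subtype.ext hxy

end Generic

section F1

variable {M : ℕ} [NeZero M] (D : WeberData M)

/-- **`real1C D (bc x) = real1 D x`** for `x : F1C ℚ̄ M`, `bc x : F1C ℂ M` the coefficientwise
base change -/
theorem real1C_eq_real1_of_coe_eq (y : F1C ℂ M) (x : F1C Kbar M)
    (hxy : (y : LaurentSeries ℂ) = coeffMap iotaC (x : LaurentSeries Kbar)) :
    real1C D y = real1 D x :=
  realOf_eq_realKOf_of_coe_eq (genFam D) (serFam M Kbar) (isCE_genFam D) (coeffMap_serFam D)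
    (F1C_eq_FG D) F1C_eq_FK y x hxy

/-- **the `ℂ/ℚ̄` compatibility in the port shape**: `PlugTest.realC D (bcG (F1 M) x) =
real1 D (eQ M x)`. -/
theorem coe_equivOfEq {K : Type*} [Field K] {F F' : IntermediateField K (LaurentSeries K)}
    (h : F = F') (x : F) :
    ((IntermediateField.equivOfEq h x : F') : LaurentSeries K) = (x : LaurentSeries K) := rfl

theorem real1C_bcHom (x : ↥(laurentBaseChange Kbar (F1 M))) :
    real1C D (IntermediateField.equivOfEq (laurentBaseChange_F1 ℂ M) (bcHom Kbar ℂ (F1 M) x)) =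
      real1 D (IntermediateField.equivOfEq (laurentBaseChange_F1 Kbar M) x) := by
  apply real1C_eq_real1_of_coe_eq D
  rw [coe_equivOfEq, coe_equivOfEq, coe_bcHom]
  rfl

end F1

end Fermat.Agent.DS.P1.RealCompat
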