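import Mathlib
import Fermat.Agent.DS.P1.FieldGenAsm
import Fermat.Agent.S24_helper66.CosetSepJ

/-!
# GATE-N / S48-P1: coset separation for `±Γ₁(M)` on a generic realisation (tau-view)

For a family `G : σ → Hol` containing the `X₀(M)`-generators `j(d z)` and a function `Θ = G iΘ`
whose stabiliser in `Γ₀(M)` is `±Γ₁(M)`:

* `sep_family` : an element of `SL(2,ℤ)` fixing all the `G i` lies in `±Γ₁(M)`;
* `sep_realG` : an element of `SL(2,ℤ)` fixing the image of `realG G hCE` lies in `±Γ₁(M)`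
  (the `sep` field of helper80's `CuspHyp`, the injectivity of `conj` of helper96's `OrbitGen`);
* `compM_realG_pm` : conversely the image is fixed by `±Γ₁(M)` when all `G i` are
  `Γ₁(M)`-invariant;
* `compM_neg` : `-g` and `g` act in the same way on `Mer`.
-/

set_option autoImplicit false
set_option linter.unusedSectionVars false

noncomputable section

namespace Fermat.Agent.DS.P1.FieldGenAsm

open UpperHalfPlane ModularCurve Fermat.Agent.S24 Fermat.Agent.S28 Fermat.Agent.S28.CuspExp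
open Fermat.Agent.S24_helper62 Fermat.Agent.S24_helper82 Fermat.Agent.GJ.Dict
open Fermat.Agent.GJ.Dict.FieldGen Fermat.Agent.DS.P1.RealizeGen Fermat.Agent.DS.P1.RelLagrange
open Fermat.Agent.DS.P3.Sat1 CongruenceSubgroup
open scoped MatrixGroups Manifold

/-- `-g` and `g` act in the same way on meromorphic functions -/
theorem compM_neg (g : SL(2, ℤ)) (m : Mer) : compM (-g) m = compM g m := by
  obtain ⟨a, b, hb, rfl⟩ := IsFractionRing.div_surjective (A := Hol) m
  rw [map_div₀, map_div₀, compM_algebraMap, compM_algebraMap, compM_algebraMap, compM_algebraMap,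
    compSL_neg]

variable (M : ℕ) [NeZero M] {σ : Type*} (G : σ → Hol)
  (hCE : ∀ i, IsCE 1 ((G i : Hol) : ℍ → ℂ))
  (e : DivIdx M → σ) (he : ∀ d, G (e d) = genHol M d)

include he in
/-- an element of `SL(2,ℤ)` fixing all the generators lies in `Γ₀(M)` -/
theorem mem_Gamma0_of_fix {δ : SL(2, ℤ)} (h : ∀ i, compSL δ (G i) = G i) : δ ∈ Gamma0 M := by
  have h1 := h (e ⟨M, dvd_rfl⟩)
  rw [he] at h1
  rw [← Fermat.Agent.S24_helper66.CosetSep.jDil_smul_eq_iff_mem_Gamma0 (NeZero.pos M)]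
  intro τ
  have h2 := congrFun (congrArg Subtype.val h1) τ
  exact h2

include he in
/-- **coset separation on the family** -/
theorem sep_family (iΘ : σ)
    (hstab : ∀ g ∈ Gamma0 M, compSL g (G iΘ) = G iΘ → g ∈ Gamma1 M ∨ -g ∈ Gamma1 M)
    {δ : SL(2, ℤ)} (h : ∀ i, compSL δ (G i) = G i) : δ ∈ Gamma1 M ∨ -δ ∈ Gamma1 M :=
  hstab δ (mem_Gamma0_of_fix M G e he h) (h iΘ)

include he in
/-- **coset separation on the realisation** -/
theorem sep_realG (iΘ : σ)
    (hstab : ∀ g ∈ Gamma0 M, compSL g (G iΘ) = G iΘ → g ∈ Gamma1 M ∨ -g ∈ Gamma1 M)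
    {δ : SL(2, ℤ)} (h : ∀ f : FG G, compM δ (realG G hCE f) = realG G hCE f) :
    δ ∈ Gamma1 M ∨ -δ ∈ Gamma1 M := by
  refine sep_family M G e he iΘ hstab fun i => ?_
  have h1 := h (gen G i)
  rw [realG_gen, compM_algebraMap] at h1
  exact IsFractionRing.injective Hol Mer h1

/-- the image of the realisation is fixed by `±Γ₁(M)` -/
theorem compM_realG_pm (hG : ∀ i, G i ∈ IMGG (Gamma1 M) M) {γ : SL(2, ℤ)}
    (hγ : γ ∈ Gamma1 M ∨ -γ ∈ Gamma1 M) (f : FG G) :
    compM γ (realG G hCE f) = realG G hCE f := by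
  rcases hγ with hγ | hγ
  · exact compM_realG_Gamma1 M G hCE hG hγ f
  · rw [← compM_neg]
    exact compM_realG_Gamma1 M G hCE hG hγ f

include he in
/-- the stabiliser of the realisation is exactly `±Γ₁(M)` -/
theorem compM_realG_iff (iΘ : σ) (hG : ∀ i, G i ∈ IMGG (Gamma1 M) M)
    (hstab : ∀ g ∈ Gamma0 M, compSL g (G iΘ) = G iΘ → g ∈ Gamma1 M ∨ -g ∈ Gamma1 M)
    (δ : SL(2, ℤ)) :
    (∀ f : FG G, compM δ (realG G hCE f) = realG G hCE f) ↔ (δ ∈ Gamma1 M ∨ -δ ∈ Gamma1 M) :=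
  ⟨fun h => sep_realG M G hCE e he iΘ hstab h, fun h f => compM_realG_pm M G hCE hG h f⟩

end Fermat.Agent.DS.P1.FieldGenAsm
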