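import Mathlib
import Fermat.Agent.S28.CuspExp
import Fermat.Agent.S28.MeroSubst
import Fermat.Agent.DS.P0.Weber
import Fermat.Agent.DS.P1.WeberAnFricke
import Fermat.Agent.DS.P1.FrickeRows

/-!
# The analytic bridge for `E₆` and `E₄E₆/Δ`, cusp expansions of the Fricke functions

* `qExpansion_E6`, `evalDisc_eisenstein6`, `hasCuspExp_E6` : Mathlib's `E₆` has the formal
  `q`-expansion `P0.eisenstein6`;
* `hasCuspExp_wtNegTwo : HasCuspExp 1 wtNegTwo (weberFactorC ℂ)` (`wtNegTwo = E₄E₆/Δ`);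
* `hasCuspExp_frickeFun` : `HasCuspExp M (frickeFun M (a, b))
  (qExpand ℂ M (weberFactorC ℂ) * lsOf 0 (frickePS M a b))` for `0 ≤ a < M`, `(a, b) ≢ 0`;
* `isCE_frickeFun` : every `f_v`, `v ∉ Mℤ²`, has a cusp expansion of width `M`.
(GATE-N, S48-P1.)
-/

set_option autoImplicit false

noncomputable section

namespace Fermat.Agent.DS.P1.WtNegTwoExp

open Complex Filter Topology Metric PowerSeries UpperHalfPlane ModularForm EisensteinSeries
open ModularCurve Fermat.Agent.S28 Fermat.Agent.DS.P0 Fermat.Agent.DS.P1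
open scoped Real ArithmeticFunction.sigma MatrixGroups Manifold

local notation "𝕢" => Function.Periodic.qParam
local notation "Δ" => ModularForm.discriminant

theorem qExpansion_E6 : qExpansion 1 E₆ = toC eisenstein6 := by
  ext m
  rw [E_qExpansion_coeff (by norm_num : 3 ≤ 6) ⟨3, rfl⟩ m, coeff_toC]
  simp only [eisenstein6, coeff_mk]
  rcases eq_or_ne m 0 with rfl | hm
  · simp
  · simp only [hm, if_false]
    rw [show bernoulli 6 = 1 / 42 by decide +kernel]
    simp [ArithmeticFunction.sigma_apply]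
    norm_num

theorem conv_eisenstein6 : Conv (toC eisenstein6) := by
  rw [← qExpansion_E6]; exact conv_qExpansion_levelOne E₆

theorem evalDisc_eisenstein6 (z : ℍ) : evalDisc (toC eisenstein6) (𝕢 1 z) = E₆ z := by
  rw [← qExpansion_E6]; exact evalDisc_qExpansion_levelOne E₆ z

theorem hasCuspExp_E6 : HasCuspExp 1 (fun τ => E₆ τ) (lsOf 0 (toC eisenstein6)) :=
  hasCuspExp_of_evalDisc 0 conv_eisenstein6 fun τ => by
    rw [pow_zero, mul_one, evalDisc_eisenstein6]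


theorem weberFactorC_eq_lsOf : weberFactorC ℂ = lsOf 1 (toC weberNum) := by
  rw [weberFactorC, lsOf, toC]
  simp

/-- **the analytic bridge for the factor `E₄E₆/Δ`** -/
theorem hasCuspExp_wtNegTwo : HasCuspExp 1 wtNegTwo (weberFactorC ℂ) := by
  have h := ((hasCuspExp_E4.mul one_pos hasCuspExp_E6).mul one_pos hasCuspExp_discriminant_inv)
  rw [e4S_eq_lsOf, deltaInvS_eq_lsOf, lsOf_mul, lsOf_mul, ← toC_mul, ← toC_mul] at h
  rw [weberFactorC_eq_lsOf, weberNum]
  refine h.congr fun τ => ?_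
  rw [wtNegTwo, div_eq_mul_inv]

theorem isCE_wtNegTwo : IsCE 1 wtNegTwo := HasCuspExp.isCE hasCuspExp_wtNegTwo

theorem cuspExp_wtNegTwo : cuspExp 1 wtNegTwo = weberFactorC ℂ :=
  HasCuspExp.cuspExp_eq one_pos hasCuspExp_wtNegTwo

/-- period `M` form -/
theorem hasCuspExp_wtNegTwo_nat (M : ℕ) [NeZero M] :
    HasCuspExp M wtNegTwo (qExpand ℂ M (weberFactorC ℂ)) :=
  HasCuspExp.period_nat hasCuspExp_wtNegTwo M


open Fermat.Agent.DS.P1.FrickeRows Fermat.Agent.DS.P1.WpRows in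
theorem pFun_eq_zPt (M : ℕ) (a : ℕ) (b : ℤ) (τ : ℍ) :
    pFun M ((a : ℤ), b) τ = (pairOne τ).weierstrassP (zPt M a b τ) := by
  simp [pFun, divPt, zPt, tauPair]

open Fermat.Agent.DS.P1.FrickeRows in
/-- **cusp expansion of the Fricke functions** `f_{(a,b)}`, `0 ≤ a < M`, `(a,b) ≢ 0`, in the
parameter `q^{1/M}` -/
theorem hasCuspExp_frickeFun (M : ℕ) [NeZero M] (a : ℕ) (b : ℤ) (ha : a < M)
    (hab : a = 0 → ¬ (M : ℤ) ∣ b) :
    HasCuspExp M (frickeFun M ((a : ℤ), b))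
      (qExpand ℂ M (weberFactorC ℂ) * lsOf 0 (frickePS M a b)) := by
  have hM : (0 : ℝ) < M := by exact_mod_cast Nat.pos_of_ne_zero (NeZero.ne M)
  refine ((hasCuspExp_wtNegTwo_nat M).mul hM (hasCuspExp_pFun M a b ha hab)).congr fun τ => ?_
  rw [frickeFun, pFun_eq_zPt]


/-- every Fricke function `f_v`, `v ∉ Mℤ²`, has a cusp expansion in `q^{1/M}` -/
theorem isCE_frickeFun (M : ℕ) [NeZero M] (v : ℤ × ℤ)
    (hv : ¬ ((M : ℤ) ∣ v.1 ∧ (M : ℤ) ∣ v.2)) : IsCE M (frickeFun M v) := by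
  have hM : (M : ℤ) ≠ 0 := by exact_mod_cast NeZero.ne M
  have hMpos : (0 : ℤ) < M := by exact_mod_cast Nat.pos_of_ne_zero (NeZero.ne M)
  set a : ℕ := (v.1 % (M : ℤ)).toNat with ha_def
  have ha0 : 0 ≤ v.1 % (M : ℤ) := Int.emod_nonneg _ hM
  have hacast : ((a : ℕ) : ℤ) = v.1 % (M : ℤ) := Int.toNat_of_nonneg ha0
  have haM : a < M := by
    have := Int.emod_lt_of_pos v.1 hMpos
    omega
  have hab : a = 0 → ¬ (M : ℤ) ∣ v.2 := by
    intro h0 hdvd
    apply hv
    refine ⟨?_, hdvd⟩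
    have : v.1 % (M : ℤ) = 0 := by rw [← hacast, h0]; rfl
    exact Int.dvd_of_emod_eq_zero this
  have hv_eq : v = ((a : ℤ), v.2) + (M : ℤ) • (v.1 / (M : ℤ), (0 : ℤ)) := by
    ext
    · simp only [Prod.fst_add, Prod.smul_fst, smul_eq_mul, hacast]
      exact (Int.emod_add_mul_ediv v.1 M).symm
    · simp
  have hfun : frickeFun M v = frickeFun M ((a : ℤ), v.2) := by
    funext τ
    have h := frickeFun_add_smul (NeZero.ne M) ((a : ℤ), v.2) (v.1 / (M : ℤ), (0 : ℤ)) τ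
    rw [← hv_eq] at h
    exact h
  rw [hfun]
  exact HasCuspExp.isCE (hasCuspExp_frickeFun M a v.2 haM hab)

end Fermat.Agent.DS.P1.WtNegTwoExp
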