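import Mathlib
import Fermat.Agent.DS.P1.WtNegTwoExp
import Fermat.Agent.DS.P2.FrickeAnBridge
import Fermat.Agent.DS.P2.FrickeWeberBridge
import Fermat.Agent.S28.CuspExpansion


/-!
# Cusp expansion of the Weber functions along a dilation `τ ↦ Mτ`

`hasCuspExp_weber_dil` : for `0 < a < M` and any `d : ℍ → ℍ` with `d τ = Mτ`,
`τ ↦ 12 · f_{(a,0)}(Mτ)` (`f_v` = Fricke function of level `M`) has the `q`-expansion
`weber12C ℂ M a` of `DS/P0/Weber` — the `isCE` / `exp` fields of `RealizeF1.WeberData`.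
(GATE-N, S48-P1.)
-/
set_option autoImplicit false

noncomputable section

namespace Fermat.Agent.DS.P1.WeberDil

open Complex PowerSeries ModularForm EisensteinSeries
open UpperHalfPlane hiding I
open ModularCurve Fermat.Agent.S28 Fermat.Agent.DS.P0 Fermat.Agent.DS.P1
open Fermat.Agent.DS.P1.FrickeRows Fermat.Agent.DS.P1.WtNegTwoExp Fermat.Agent.DS.P2.Fricke
open scoped Real MatrixGroups Manifold

local notation "𝕢" => Function.Periodic.qParam

variable (M : ℕ) [NeZero M]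

/-- the weight `-2` factor along a dilation `τ ↦ Mτ` -/
theorem hasCuspExp_wtNegTwo_dil (d : ℍ → ℍ) (hd : ∀ τ : ℍ, ((d τ : ℍ) : ℂ) = M * τ) :
    HasCuspExp 1 (fun τ => wtNegTwo (d τ)) (qExpand ℂ M (weberFactorC ℂ)) := by
  have h := HasCuspExp.subst hasCuspExp_wtNegTwo (A := M) (D := 1) (e := M) (N := 1) (B := 0)
    one_ne_zero one_ne_zero (by ring) d (fun τ => by rw [hd]; simp) (1 : ℂˣ) (by simp)
  rw [CuspExp.cuspS_one_eq_qExpand] at h
  simpa using h


theorem qParam_one_eq (τ : ℂ) : 𝕢 1 τ = cexp (2 * π * I * τ) := by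
  simp [Function.Periodic.qParam]

/-- `℘`-part along the dilation `τ ↦ Mτ`, `b = 0`: expansion in `q = e(τ)` -/
theorem hasCuspExp_pFun_dil (a : ℕ) (ha0 : 0 < a) (ha : a < M) (d : ℍ → ℍ)
    (hd : ∀ τ : ℍ, ((d τ : ℍ) : ℂ) = M * τ) :
    HasCuspExp 1 (fun τ => pFun M ((a : ℤ), 0) (d τ) / (2 * π * I) ^ 2)
      (lsOf 0 (frickePS M a 0)) :=
  hasCuspExp_of_evalDisc 0 (conv_frickePS M a 0) fun τ => by
    rw [pow_zero, mul_one, pFun_eq_zPt,
      weierstrassP_zPt_eq_evalDisc M a 0 (d τ) ha (fun h => absurd h ha0.ne'),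
      tPar_of_coe_eq M (d τ) (hd τ), qParam_one_eq]

/-- **cusp expansion of the Weber functions**: for `0 < a < M` and any dilation `d τ = Mτ`,
`τ ↦ 12 · f_{(a,0)}(Mτ)` has the `q`-expansion `weber12C ℂ M a` of P0. -/
theorem hasCuspExp_weber_dil (a : ℕ) (ha0 : 0 < a) (ha : a < M) (d : ℍ → ℍ)
    (hd : ∀ τ : ℍ, ((d τ : ℍ) : ℂ) = M * τ) :
    HasCuspExp 1 (fun τ => 12 * frickeFun M ((a : ℤ), 0) (d τ))
      (weber12C ℂ M (((a : ℤ)) : ZMod M)) := by
  have h1 := hasCuspExp_wtNegTwo_dil M d hd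
  have h2 := hasCuspExp_pFun_dil M a ha0 ha d hd
  have h3 := (h1.mul one_pos h2).const_mul one_pos 12
  rw [weber12C_eq_frickeL_of_zero M (zetaU M) (a : ℤ), frickeL_eq_mul_lsOf M _ a 0 ha0]
  have hs : HahnSeries.C (12 : ℂ) * (qExpand ℂ M (weberFactorC ℂ) * lsOf 0 (frickePS M a 0)) =
      qExpand ℂ M (weberFactorC ℂ) * (12 * lsOf 0 (frickePS M a 0)) := by
    rw [show (HahnSeries.C (12 : ℂ) : LaurentSeries ℂ) = 12 from map_ofNat _ 12]
    ring
  rw [hs] at h3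
  exact h3.congr fun τ => by rw [frickeFun]

end Fermat.Agent.DS.P1.WeberDil
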