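import Mathlib
import Fermat.Agent.DS.P1.FrickeInj
import Fermat.Agent.DS.P1.FieldGenG1

/-!
# GATE-N / S48-P1-WEBER-STAB: `Γ₀(M)`-law, `Γ₁(M)`-invariance and stabiliser of the Weber functions

Convention of `WeberDil` (helper26): `d : ℍ → ℍ` is any map with `(d τ : ℂ) = M * τ`, and the
Weber function of the point `a·τ` of `ℂ/(ℤ + Mτℤ)` is `τ ↦ 12 * frickeFun M (a, 0) (d τ)`.

* `dil_smul` : for `g ∈ Γ₀(M)`, `d (g • τ) = lowerMat M g hg • d τ` with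
  `lowerMat = [[g₀₀, M g₀₁], [g₁₀ / M, g₁₁]]`;
* `weberDil_smul` : `f_{(a,0)}(d (g τ)) = f_{(a g₀₀, 0)}(d τ)` for `g ∈ Γ₀(M)` (the diamond law);
* `weberDil_inv` : invariance under `Γ₁(M)`;
* `weberDil_stab` : if `g ∈ Γ₀(M)` fixes `τ ↦ f_{(a,0)}(d τ)` with `a` prime to `M`, then
  `g ∈ ±Γ₁(M)`   (`= WeberData.stab`).
-/

set_option autoImplicit false
set_option linter.unusedSectionVars false

noncomputable section

namespace Fermat.Agent.DS.P1.WeberStab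

open Complex UpperHalfPlane CongruenceSubgroup
open scoped MatrixGroups
open Fermat.Agent.DS.P1 Fermat.Agent.DS.P1.FrickeInj Fermat.Agent.DS.P1.FieldGenG

variable (M : ℕ) [NeZero M]

theorem dvd_of_mem_Gamma0 {g : SL(2, ℤ)} (hg : g ∈ Gamma0 M) : (M : ℤ) ∣ g 1 0 := by
  have h := Gamma0_mem.mp hg
  exact (ZMod.intCast_zmod_eq_zero_iff_dvd _ M).mp h

/-- for `g = [[a, b], [c, d]] ∈ Γ₀(M)` the matrix `[[a, M b], [c / M, d]]` -/
def lowerMat (g : SL(2, ℤ)) (hg : g ∈ Gamma0 M) : SL(2, ℤ) :=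
  ⟨!![g 0 0, (M : ℤ) * g 0 1; g 1 0 / (M : ℤ), g 1 1], by
    have hdvd := dvd_of_mem_Gamma0 M hg
    have h1 : (M : ℤ) * (g 1 0 / (M : ℤ)) = g 1 0 := Int.mul_ediv_cancel' hdvd
    have hdet := det_eq_one' g
    rw [Matrix.det_fin_two_of]
    calc g 0 0 * g 1 1 - (M : ℤ) * g 0 1 * (g 1 0 / (M : ℤ))
        = g 0 0 * g 1 1 - g 0 1 * ((M : ℤ) * (g 1 0 / (M : ℤ))) := by ring
      _ = 1 := by rw [h1]; exact hdet⟩

@[simp] theorem lowerMat_00 (g : SL(2, ℤ)) (hg : g ∈ Gamma0 M) : lowerMat M g hg 0 0 = g 0 0 := rfl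
@[simp] theorem lowerMat_01 (g : SL(2, ℤ)) (hg : g ∈ Gamma0 M) :
    lowerMat M g hg 0 1 = (M : ℤ) * g 0 1 := rfl
@[simp] theorem lowerMat_10 (g : SL(2, ℤ)) (hg : g ∈ Gamma0 M) :
    lowerMat M g hg 1 0 = g 1 0 / (M : ℤ) := rfl
@[simp] theorem lowerMat_11 (g : SL(2, ℤ)) (hg : g ∈ Gamma0 M) : lowerMat M g hg 1 1 = g 1 1 := rfl

variable {M}
variable {d : ℍ → ℍ} (hd : ∀ τ : ℍ, ((d τ : ℍ) : ℂ) = (M : ℂ) * τ)

include hd

theorem dil_surjective : Function.Surjective d := by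
  intro τ'
  have hM : (0 : ℝ) < (M : ℝ) := by exact_mod_cast Nat.pos_of_ne_zero (NeZero.ne M)
  have hMc : (M : ℂ) ≠ 0 := by exact_mod_cast NeZero.ne M
  have him : 0 < ((τ' : ℂ) / (M : ℂ)).im := by
    have : (τ' : ℂ) / (M : ℂ) = ((1 / (M : ℝ) : ℝ) : ℂ) * (τ' : ℂ) := by push_cast; ring
    rw [this, Complex.im_ofReal_mul]
    exact mul_pos (by positivity) τ'.im_pos
  refine ⟨⟨(τ' : ℂ) / (M : ℂ), him⟩, ?_⟩
  apply UpperHalfPlane.ext
  rw [hd]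
  show (M : ℂ) * ((τ' : ℂ) / (M : ℂ)) = τ'
  field_simp

/-- `M · (g τ) = g' (M τ)` for `g ∈ Γ₀(M)` -/
theorem dil_smul {g : SL(2, ℤ)} (hg : g ∈ Gamma0 M) (τ : ℍ) :
    d (g • τ) = lowerMat M g hg • d τ := by
  apply UpperHalfPlane.ext
  have hMc : (M : ℂ) ≠ 0 := by exact_mod_cast NeZero.ne M
  have hdvd := dvd_of_mem_Gamma0 M hg
  obtain ⟨c, hc⟩ := hdvd
  have hc' : g 1 0 / (M : ℤ) = c := by
    rw [hc]
    exact Int.mul_ediv_cancel_left c (by exact_mod_cast NeZero.ne M)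
  have hD := den_ne_zero g τ
  have hD' := den_ne_zero (lowerMat M g hg) (d τ)
  rw [hd, coe_smul_eq, coe_smul_eq]
  have hden : den (lowerMat M g hg) (d τ) = den g τ := by
    unfold den
    rw [lowerMat_10, lowerMat_11, hd, hc', hc]
    push_cast
    ring
  rw [hden, lowerMat_00, lowerMat_01, hd]
  push_cast
  field_simp

/-- the **diamond law**: `f_{(a,0)}(M · g τ) = f_{(a g₀₀, 0)}(M τ)` for `g ∈ Γ₀(M)` -/
theorem weberDil_smul {g : SL(2, ℤ)} (hg : g ∈ Gamma0 M) (a : ℤ) (τ : ℍ) :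
    frickeFun M (a, 0) (d (g • τ)) = frickeFun M (a * g 0 0, 0) (d τ) := by
  rw [dil_smul hd hg, frickeFun_smul]
  have e : vmul (a, 0) (lowerMat M g hg) = (a * g 0 0, 0) + (M : ℤ) • ((0 : ℤ), a * g 0 1) := by
    ext
    · simp [vmul]
    · simp [vmul]
      ring
  rw [e, frickeFun_add_smul (NeZero.ne M)]

/-- invariance under `Γ₁(M)` -/
theorem weberDil_inv {g : SL(2, ℤ)} (hg : g ∈ Gamma1 M) (a : ℤ) (τ : ℍ) :
    frickeFun M (a, 0) (d (g • τ)) = frickeFun M (a, 0) (d τ) := by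
  rw [weberDil_smul hd (Gamma1_in_Gamma0 M hg)]
  apply frickeFun_eq_of_congMod
  refine ⟨?_, rfl⟩
  have h1 : ((g 0 0 : ℤ) : ZMod M) = 1 := (Gamma1_mem M g).mp hg |>.1
  show (((a * g 0 0 : ℤ)) : ZMod M) = ((a : ℤ) : ZMod M)
  push_cast
  rw [h1, mul_one]

/-- **stabiliser**: if `g ∈ Γ₀(M)` fixes `τ ↦ f_{(a,0)}(M τ)` and `a` is a unit mod `M`, then
`g ∈ ±Γ₁(M)`. -/
theorem weberDil_stab (hM : 1 < M) {a : ℤ} (ha : IsUnit ((a : ℤ) : ZMod M)) {g : SL(2, ℤ)}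
    (hg : g ∈ Gamma0 M)
    (h : ∀ τ : ℍ, frickeFun M (a, 0) (d (g • τ)) = frickeFun M (a, 0) (d τ)) :
    g ∈ Gamma1 M ∨ -g ∈ Gamma1 M := by
  have : Fact (1 < M) := ⟨hM⟩
  -- `g₀₀` is a unit mod `M`
  have hc : ((g 1 0 : ℤ) : ZMod M) = 0 := Gamma0_mem.mp hg
  have hdet : ((g 0 0 : ℤ) : ZMod M) * ((g 1 1 : ℤ) : ZMod M) = 1 := by
    have h0 := det_eq_one' g
    have h2 := congrArg (fun x : ℤ => (x : ZMod M)) h0
    simp only [Int.cast_sub, Int.cast_mul, Int.cast_one, hc, mul_zero, sub_zero] at h2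
    exact h2
  have hu00 : IsUnit ((g 0 0 : ℤ) : ZMod M) := IsUnit.of_mul_eq_one _ hdet
  -- non-divisibility
  have hnd : ∀ {x : ℤ}, IsUnit ((x : ℤ) : ZMod M) → NotDvd M (x, 0) := by
    intro x hx hdv
    have h0 : ((x : ℤ) : ZMod M) = 0 := (ZMod.intCast_zmod_eq_zero_iff_dvd x M).mpr hdv.1
    rw [h0] at hx
    exact not_isUnit_zero hx
  have h1 : ∀ τ' : ℍ, frickeFun M (a * g 0 0, 0) τ' = frickeFun M (a, 0) τ' := by
    intro τ'
    obtain ⟨τ, rfl⟩ := dil_surjective hd τ'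
    rw [← weberDil_smul hd hg, h τ]
  have hmul : IsUnit (((a * g 0 0 : ℤ)) : ZMod M) := by
    push_cast
    exact ha.mul hu00
  have hcases := (frickeFun_eq_iff M (hnd hmul) (hnd ha)).mp h1
  have h00 : ((g 0 0 : ℤ) : ZMod M) = 1 ∨ ((g 0 0 : ℤ) : ZMod M) = -1 := by
    rcases hcases with ⟨h2, -⟩ | ⟨h2, -⟩
    · left
      have h3 : ((a : ℤ) : ZMod M) * ((g 0 0 : ℤ) : ZMod M) = ((a : ℤ) : ZMod M) * 1 := by
        rw [mul_one]
        exact_mod_cast h2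
      exact ha.mul_left_cancel h3
    · right
      have h3 : ((a : ℤ) : ZMod M) * ((g 0 0 : ℤ) : ZMod M) = ((a : ℤ) : ZMod M) * (-1) := by
        rw [mul_neg_one]
        have h4 : ((-(a, (0 : ℤ)) : ℤ × ℤ).1 : ℤ) = -a := rfl
        have h5 := h2
        simp only [h4] at h5
        exact_mod_cast h5
      exact ha.mul_left_cancel h3
  have h11 : ((g 1 1 : ℤ) : ZMod M) = 1 ∨ ((g 1 1 : ℤ) : ZMod M) = -1 := by
    rcases h00 with h2 | h2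
    · left
      rw [h2, one_mul] at hdet
      exact hdet
    · right
      rw [h2, neg_one_mul, neg_eq_iff_eq_neg] at hdet
      exact hdet
  exact mem_pm.mp ((mem_pm_Gamma1_iff M hg).mpr h11)

/-! ### `Hol` / `compSL` forms (the `WeberData.inv` and `WeberData.stab` fields) -/

section HolForm

open Fermat.Agent.S24_helper82

/-- `WeberData.inv` for a holomorphic function given by `c · f_{(a,0)}(M τ)` -/
theorem compSL_eq_of_mem_Gamma1 {W : Hol} {c : ℂ} {a : ℤ}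
    (hW : ∀ τ : ℍ, (W : ℍ → ℂ) τ = c * frickeFun M (a, 0) (d τ))
    {g : SL(2, ℤ)} (hg : g ∈ Gamma1 M) : compSL g W = W := by
  apply Subtype.ext
  funext τ
  show (W : ℍ → ℂ) (g • τ) = (W : ℍ → ℂ) τ
  rw [hW, hW, weberDil_inv hd hg]

/-- the diamond law in `Hol` form -/
theorem compSL_eq_of_mem_Gamma0 {W W' : Hol} {c : ℂ} {a : ℤ}
    (hW : ∀ τ : ℍ, (W : ℍ → ℂ) τ = c * frickeFun M (a, 0) (d τ))
    {g : SL(2, ℤ)} (hg : g ∈ Gamma0 M)
    (hW' : ∀ τ : ℍ, (W' : ℍ → ℂ) τ = c * frickeFun M (a * g 0 0, 0) (d τ)) :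
    compSL g W = W' := by
  apply Subtype.ext
  funext τ
  show (W : ℍ → ℂ) (g • τ) = (W' : ℍ → ℂ) τ
  rw [hW, hW', weberDil_smul hd hg]

/-- `WeberData.stab` for a holomorphic function given by `c · f_{(a,0)}(M τ)`, `c ≠ 0`,
`a` a unit mod `M` -/
theorem mem_pm_Gamma1_of_compSL_eq (hM : 1 < M) {W : Hol} {c : ℂ} (hc : c ≠ 0) {a : ℤ}
    (ha : IsUnit ((a : ℤ) : ZMod M))
    (hW : ∀ τ : ℍ, (W : ℍ → ℂ) τ = c * frickeFun M (a, 0) (d τ))
    {g : SL(2, ℤ)} (hg : g ∈ Gamma0 M) (h : compSL g W = W) :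
    g ∈ Gamma1 M ∨ -g ∈ Gamma1 M := by
  refine weberDil_stab hd hM ha hg fun τ => ?_
  have h1 : (W : ℍ → ℂ) (g • τ) = (W : ℍ → ℂ) τ := congrFun (congrArg Subtype.val h) τ
  rw [hW, hW] at h1
  exact mul_left_cancel₀ hc h1

end HolForm

end Fermat.Agent.DS.P1.WeberStab
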